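/-
S52 brick CERT-2 (helper1, backup copy of helper8's `CertInertia8`): **an inertia element at `3` moving `√3`.**

`P` a valuation subring of `ℚ̄` over `3`, `s² = 3`.  If the whole inertia group `I_P` fixed `s`, then
(`ES/P36/UnrFixed1.div_natCast_mem_of_fixed`: an element of `m_P` fixed by `I_P` is divisible by `3` in `P`)
`s / 3 ∈ P`, hence `1 / 3 = (s / 3)² ∈ P`, contradicting `3 ∈ m_P`.  So some `τ ∈ I_P` has `τ s = -s`.
Roots of unity of order prime to `3` (in particular `ζ₅` and `i`) are fixed by `I_P` (`ES/P36/ZetaUnr26`).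
-/
import Fermat.Agent.ES.P36.UnrFixed1
import Fermat.Agent.ES.P36.ZetaUnr26

set_option autoImplicit false

namespace Fermat.Agent.S52.Cert2Inertia1

local notation "Qb" => AlgebraicClosure ℚ
local notation "GQ" => (AlgebraicClosure ℚ ≃ₐ[ℚ] AlgebraicClosure ℚ)

/-- **CERT-2**: an element of the inertia group at `P ∣ 3` negating `√3`. -/
theorem exists_inertia_neg_sqrt3 (P : ValuationSubring Qb) (hP : P.LiesOverPrime 3) (s : Qb)
    (hs : s ^ 2 = 3) : ∃ τ ∈ P.inertiaSubgroupIn ℚ, τ s = -s := by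
  by_contra hcon0
  have hcon : ∀ τ ∈ P.inertiaSubgroupIn ℚ, τ s ≠ -s := fun τ hτ h => hcon0 ⟨τ, hτ, h⟩
  have h3 : ((3 : ℕ) : Qb) ∈ P.nonunits := hP
  have h3' : (3 : Qb) ∈ P.nonunits := by exact_mod_cast h3
  -- every inertia element fixes `s`
  have hfix : ∀ τ ∈ P.inertiaSubgroupIn ℚ, τ s = s := by
    intro τ hτ
    have h1 : (τ s) ^ 2 = s ^ 2 := by rw [← map_pow, hs, map_ofNat]
    rcases sq_eq_sq_iff_eq_or_eq_neg.mp h1 with h | h
    · exact h
    · exact absurd h (hcon τ hτ)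
  -- `s ∈ m_P`
  have hsm : s ∈ P.nonunits := by
    rw [ValuationSubring.mem_nonunits_iff] at h3' ⊢
    by_contra hge
    have hge' : 1 ≤ P.valuation s := not_lt.mp hge
    have : 1 ≤ P.valuation (3 : Qb) := by
      rw [← hs, map_pow]
      exact one_le_pow₀ hge'
    exact absurd h3' (not_lt.mpr this)
  have hdiv := Fermat.Agent.ES.P36.UnrFixed1.div_natCast_mem_of_fixed P (q := 3) (by norm_num) hP s
    hfix hsm
  -- `1 / 3 = (s / 3)² ∈ P`
  have hinv : (3 : Qb)⁻¹ ∈ P := by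
    have h2 : (s / ((3 : ℕ) : Qb)) ^ 2 ∈ P := pow_mem hdiv 2
    have e : (s / ((3 : ℕ) : Qb)) ^ 2 = (3 : Qb)⁻¹ := by
      rw [div_pow, hs]
      push_cast
      field_simp
    rwa [e] at h2
  -- contradiction with `3 ∈ m_P`
  rw [ValuationSubring.mem_nonunits_iff] at h3'
  have hle : P.valuation ((3 : Qb)⁻¹) ≤ 1 := (ValuationSubring.valuation_le_one_iff P _).mpr hinv
  rw [map_inv₀] at hle
  have h30 : P.valuation (3 : Qb) ≠ 0 := by
    rw [ne_eq, map_eq_zero]
    norm_num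
  have : 1 ≤ P.valuation (3 : Qb) := by
    have := (inv_le_one₀ (zero_lt_iff.mpr h30)).mp hle
    exact this
  exact absurd h3' (not_lt.mpr this)

/-- the inertia group at `P ∣ 3` fixes the roots of unity of order prime to `3`. -/
theorem inertia_three_fixes_rootOfUnity (P : ValuationSubring Qb) (hP : P.LiesOverPrime 3) {m : ℕ}
    (hm : ¬ 3 ∣ m) {ζ : Qb} (hζ : ζ ^ m = 1) {τ : GQ} (hτ : τ ∈ P.inertiaSubgroupIn ℚ) :
    τ ζ = ζ :=
  Fermat.Agent.ES.P36.ZetaUnr26.inertia_fixes_rootOfUnity (by norm_num) hP hm hζ hτ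

/-- the inertia group at `P ∣ 3` fixes the roots of the fifth cyclotomic polynomial. -/
theorem inertia_three_fixes_zeta5 (P : ValuationSubring Qb) (hP : P.LiesOverPrime 3) {ζ : Qb}
    (hz : ζ ^ 4 + ζ ^ 3 + ζ ^ 2 + ζ + 1 = 0) {τ : GQ} (hτ : τ ∈ P.inertiaSubgroupIn ℚ) :
    τ ζ = ζ :=
  inertia_three_fixes_rootOfUnity P hP (m := 5) (by norm_num)
    (by linear_combination (ζ - 1) * hz) hτ

/-- the inertia group at `P ∣ 3` fixes the square roots of `-1`. -/
theorem inertia_three_fixes_I (P : ValuationSubring Qb) (hP : P.LiesOverPrime 3) {ι : Qb}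
    (hι : ι ^ 2 = -1) {τ : GQ} (hτ : τ ∈ P.inertiaSubgroupIn ℚ) : τ ι = ι :=
  inertia_three_fixes_rootOfUnity P hP (m := 4) (by norm_num)
    (by linear_combination (ι ^ 2 - 1) * hι) hτ

end Fermat.Agent.S52.Cert2Inertia1
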