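/-
S52 (3–5 switch), glue for the certificate (helper7): **an inertia-fixed nonzero torsion point.**

`W` a semistable integral Weierstrass model with `Δ ≠ 0`, `q` a prime, `lam ≠ q` an odd prime,
`P` a valuation subring of `ℚ̄` over `q`.  Then there is a nonzero point `Q ∈ W(ℚ̄)` killed by
`lam` which is fixed by the whole inertia group of `P` (good reduction: every `lam`-torsion point,
`InertiaGood6.inertia_fix`; multiplicative reduction: `InertiaMult7.exists_fixed_set`).
Used with `q = 3`, `lam = 5` in the mod-3 irreducibility certificate.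
-/
import Mathlib
import Fermat.Agent.ES.Q58.InertiaGood6
import Fermat.Agent.ES.Q58.InertiaMult7
import Fermat.Agent.ES.Q58.CoordField13

set_option autoImplicit false

open WeierstrassCurve WeierstrassCurve.Affine

namespace Fermat.Agent.S52.InertiaFixed7

local notation "Qb" => AlgebraicClosure ℚ
local notation "GQ" => (AlgebraicClosure ℚ ≃ₐ[ℚ] AlgebraicClosure ℚ)

/-- **An inertia-fixed nonzero `lam`-torsion point** on a semistable model. -/
theorem exists_inertia_fixed (W : WeierstrassCurve ℤ) (hΔ0 : W.Δ ≠ 0) (hss : W.IsSemistableModel)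
    {q lam : ℕ} (hq : q.Prime) (hlam : lam.Prime) (hlam2 : lam ≠ 2) (hne : lam ≠ q)
    (P : ValuationSubring Qb) (hP : P.LiesOverPrime q) :
    ∃ Q : ((W.map (Int.castRingHom ℚ))⁄Qb).Point, Q ≠ 0 ∧ lam • Q = 0 ∧
      ∀ τ ∈ P.inertiaSubgroupIn ℚ,
        Point.map (W' := W.map (Int.castRingHom ℚ)) τ.toAlgHom Q = Q := by
  classical
  by_cases hbad : (q : ℤ) ∣ W.Δ
  · -- multiplicative reduction
    obtain ⟨S, hcard, hS⟩ := Fermat.Agent.ES.Q58.InertiaMult7.exists_fixed_set W hΔ0 hq hbad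
      (hss q hq hbad) hlam hlam2 hne 1 P hP
    rw [pow_one] at hcard
    have h2 : 1 < S.card := lt_of_lt_of_le hlam.one_lt hcard
    obtain ⟨Q, hQS, hQ0⟩ := Finset.exists_mem_ne h2 (0 : ((W.map (Int.castRingHom ℚ))⁄Qb).Point)
    obtain ⟨h5, hfix⟩ := hS Q hQS
    rw [pow_one] at h5
    exact ⟨Q, hQ0, h5, hfix⟩
  · -- good reduction
    have hΔ : (W.map (Int.castRingHom ℚ)).Δ ≠ 0 := by
      rw [WeierstrassCurve.map_Δ, eq_intCast]
      exact Int.cast_ne_zero.mpr hΔ0
    have hodd : Odd lam := hlam.odd_of_ne_two hlam2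
    have hcard := Fermat.Agent.ES.Q58.CoordField13.card_torsionBy_odd hΔ hodd
    have hfin := Fermat.Agent.ES.Q58.CoordField13.finite_torsionBy_odd
      (E := W.map (Int.castRingHom ℚ)) hodd
    have h1 : 1 < Nat.card (Submodule.torsionBy ℤ ((W.map (Int.castRingHom ℚ))⁄Qb).Point
        ((lam : ℕ) : ℤ)) := by
      rw [hcard]
      calc 1 < lam := hlam.one_lt
        _ ≤ lam ^ 2 := Nat.le_self_pow (by norm_num) lam
    have := Finite.one_lt_card_iff_nontrivial.mp h1
    obtain ⟨x, hx⟩ := exists_ne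
      (0 : Submodule.torsionBy ℤ ((W.map (Int.castRingHom ℚ))⁄Qb).Point ((lam : ℕ) : ℤ))
    have hx5 : lam • (x : ((W.map (Int.castRingHom ℚ))⁄Qb).Point) = 0 := by
      have := x.2
      rwa [Submodule.mem_torsionBy_iff, natCast_zsmul] at this
    have hqm : ¬ q ∣ lam := fun hd => hne ((Nat.prime_dvd_prime_iff_eq hq hlam).mp hd).symm
    refine ⟨x, fun h0 => hx (Subtype.ext h0), hx5, fun τ hτ => ?_⟩
    exact Fermat.Agent.ES.Q58.InertiaGood6.inertia_fix W hq hbad hodd hqm hP hτ x hx5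

end Fermat.Agent.S52.InertiaFixed7
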