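/-
S52 toolkit (helper4): **congruence of the `a_ℓ` from a Galois-equivariant homomorphism of `p`-torsion.**

`W`, `W'` integral Weierstrass curves, `p` an odd prime, `f : W(ℚ̄)[p] →+ W'(ℚ̄)[p]` a nonzero `G_ℚ`-equivariant
homomorphism.  Then `p ∣ a_ℓ(W') − a_ℓ(W)` at every prime `ℓ ≠ p` of good reduction of both curves
(the Eichler–Shimura relation `CharRel4.relQbar` on both sides, at a Frobenius element over `ℓ`).
-/
import Fermat.Agent.ES.Q58.CharRel4
import Fermat.Agent.Lib.FrobeniusExists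

set_option autoImplicit false

open WeierstrassCurve WeierstrassCurve.Affine WeierstrassCurve.Affine.Point

namespace Fermat.Agent.S52.TorsCong4

local notation "Qb" => AlgebraicClosure ℚ
local notation "GQ" => (AlgebraicClosure ℚ ≃ₐ[ℚ] AlgebraicClosure ℚ)

/-- the Eichler–Shimura relation on the `p`-torsion submodule. -/
theorem rel_torsion (W : WeierstrassCurve ℤ) {r : ℕ} (hr : r.Prime) (hgood : W.IsGoodPrimeFor r)
    {p : ℕ} (hp : Odd p) (hrp : ¬ r ∣ p) (P : ValuationSubring Qb) (σ : GQ)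
    (hP : P.LiesOverPrime r) (hσ : P.IsFrobeniusAt σ r)
    (Q : Submodule.torsionBy ℤ ((W.map (Int.castRingHom ℚ))⁄Qb).Point p) :
    σ • σ • Q - W.apOfModel r • (σ • Q) + r • Q = 0 := by
  apply Subtype.ext
  have hQ : p • (Q : ((W.map (Int.castRingHom ℚ))⁄Qb).Point) = 0 := by
    have := Q.2
    rwa [Submodule.mem_torsionBy_iff, natCast_zsmul] at this
  exact Fermat.Agent.ES.Q58.CharRel4.relQbar W r hr hgood p hp hrp P σ hP hσ Q hQ

/-- **`a_ℓ(W') ≡ a_ℓ(W) (mod p)`** from a nonzero Galois-equivariant homomorphism `W[p] → W'[p]`. -/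
theorem dvd_apOfModel_sub (W W' : WeierstrassCurve ℤ) {p : ℕ} (hp : p.Prime) (hp2 : p ≠ 2)
    (f : Submodule.torsionBy ℤ ((W.map (Int.castRingHom ℚ))⁄Qb).Point p →+
      Submodule.torsionBy ℤ ((W'.map (Int.castRingHom ℚ))⁄Qb).Point p)
    (hf : ∀ (σ : GQ) Q, f (σ • Q) = σ • f Q) (hne : f ≠ 0)
    {ℓ : ℕ} (hℓ : ℓ.Prime) (hgood : W.IsGoodPrimeFor ℓ) (hgood' : W'.IsGoodPrimeFor ℓ)
    (hℓp : ℓ ≠ p) : (p : ℤ) ∣ W'.apOfModel ℓ - W.apOfModel ℓ := by
  have hodd : Odd p := hp.odd_of_ne_two hp2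
  have hℓp' : ¬ ℓ ∣ p := fun h => hℓp ((Nat.prime_dvd_prime_iff_eq hℓ hp).mp h)
  obtain ⟨P, σ, hP, hσ⟩ := Fermat.Agent.Lib.exists_isFrobeniusAt ℓ hℓ
  obtain ⟨Q, hQ⟩ : ∃ Q, f Q ≠ 0 := by
    by_contra hcon
    push Not at hcon
    exact hne (AddMonoidHom.ext hcon)
  have h1 := rel_torsion W hℓ hgood hodd hℓp' P σ hP hσ Q
  have h2 := rel_torsion W' hℓ hgood' hodd hℓp' P σ hP hσ (f Q)
  have h3 := congrArg f h1
  rw [map_add, map_sub, map_zsmul, map_nsmul, hf, hf, _root_.map_zero] at h3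
  -- subtract
  have h4 : (W'.apOfModel ℓ - W.apOfModel ℓ) • (σ • f Q) = 0 := by
    rw [sub_smul]
    have := congrArg₂ (· - ·) h3 h2
    simp only [sub_zero] at this
    rw [← this]
    abel
  -- cancel `σ`
  have h5 : (W'.apOfModel ℓ - W.apOfModel ℓ) • f Q = 0 := by
    have := congrArg (fun x => σ⁻¹ • x) h4
    simp only [smul_zero] at this
    rw [← this]
    have hz : ∀ (n : ℤ) (x : Submodule.torsionBy ℤ ((W'.map (Int.castRingHom ℚ))⁄Qb).Point p),
        σ⁻¹ • (n • x) = n • (σ⁻¹ • x) := fun n x =>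
      (DistribSMul.toAddMonoidHom
        (Submodule.torsionBy ℤ ((W'.map (Int.castRingHom ℚ))⁄Qb).Point p) σ⁻¹).map_zsmul n x
    rw [hz, inv_smul_smul]
  -- `f Q` has exact order `p`
  by_contra hdvd
  have hcop : IsCoprime (W'.apOfModel ℓ - W.apOfModel ℓ) (p : ℤ) := by
    rw [Int.isCoprime_iff_gcd_eq_one]
    have hpp : Prime (p : ℤ) := Nat.prime_iff_prime_int.mp hp
    exact Int.isCoprime_iff_gcd_eq_one.mp
      ((Prime.coprime_iff_not_dvd hpp).mpr hdvd).symm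
  obtain ⟨a, b, hab⟩ := hcop
  have h6 : (p : ℤ) • f Q = 0 := by
    have := (f Q).2
    rw [Submodule.mem_torsionBy_iff] at this
    exact Subtype.ext this
  apply hQ
  have : f Q = (1 : ℤ) • f Q := (one_smul _ _).symm
  rw [this, ← hab, add_smul, mul_smul, mul_smul, h5, h6, smul_zero, smul_zero, add_zero]

end Fermat.Agent.S52.TorsCong4
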