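/-
S52 toolkit (helper2), brick TRANSPORT: **reduction to short Weierstrass forms.**

For an integral Weierstrass curve `W`, `shortOf W : WeierstrassCurve ℚ` is the short form
`y² = x³ − 27 c₄ x − 54 c₆` (the curve `(a, b) = (27 H₀, 54 T₀)` of the Klein-form family).
* `shortVC W : VariableChange ℚ` with `shortOf_eq : shortOf W = shortVC W • W_ℚ`
  (`(x, y) ↦ (36 x + 3 b₂, 108 (2 y + a₁ x + a₃))` from `W` to its short form);
* `shortEquiv W : (shortOf W)(ℚ̄) ≃+ W(ℚ̄)`, `shortEquiv_smul` (`G_ℚ`-equivariance);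
* `shortTors W p : (shortOf W)(ℚ̄)[p] ≃+ W(ℚ̄)[p]`, `shortTors_smul`;
* `dvd_apOfModel_sub_of_short` : a nonzero `G_ℚ`-equivariant homomorphism between the `p`-torsion modules of the
  short forms of `W` and `W'` gives `p ∣ a_ℓ(W') − a_ℓ(W)` at all common good primes `ℓ ≠ p`;
* `dvd_apOfModel_sub_of_fun` : the same for a plain function `Φ` on points that, on `p`-torsion, is additive,
  `G_ℚ`-equivariant and not identically zero.
-/
import Fermat.Agent.S52.TorsCong4
import Fermat.Agent.S05.TransportQ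

set_option autoImplicit false

open WeierstrassCurve WeierstrassCurve.Affine WeierstrassCurve.Affine.Point

namespace Fermat.Agent.S52.ShortTransport2

open Fermat.Agent.S05.TransportQ

local notation "Qb" => AlgebraicClosure ℚ
local notation "GQ" => (AlgebraicClosure ℚ ≃ₐ[ℚ] AlgebraicClosure ℚ)

/-! ### the short form -/

/-- the short Weierstrass curve `y² = x³ + A x + B`. -/
def shortW (A B : ℚ) : WeierstrassCurve ℚ := ⟨0, 0, 0, A, B⟩

/-- **the short form `y² = x³ − 27 c₄ x − 54 c₆`** of an integral Weierstrass curve. -/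
def shortOf (W : WeierstrassCurve ℤ) : WeierstrassCurve ℚ :=
  shortW (-27 * (W.c₄ : ℚ)) (-54 * (W.c₆ : ℚ))

/-- the change of variables from the short form to `W_ℚ`: `u = 1/6`, `r = −b₂/12`, `s = −a₁/2`,
`t = −(a₃ + r a₁)/2`. -/
noncomputable def shortVC (W : WeierstrassCurve ℤ) : VariableChange ℚ where
  u := Units.mk0 (1 / 6) (by norm_num)
  r := -(W.b₂ : ℚ) / 12
  s := -(W.a₁ : ℚ) / 2
  t := -((W.a₃ : ℚ) + (-(W.b₂ : ℚ) / 12) * (W.a₁ : ℚ)) / 2

theorem shortOf_eq (W : WeierstrassCurve ℤ) :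
    shortOf W = shortVC W • W.map (Int.castRingHom ℚ) := by
  ext
  · simp only [shortOf, shortW, variableChange_a₁, Units.val_inv_eq_inv_val, Units.val_mk0, map_a₁,
      shortVC, eq_intCast]
    ring
  · simp only [shortOf, shortW, variableChange_a₂, Units.val_inv_eq_inv_val, Units.val_mk0, map_a₁,
      map_a₂, shortVC, eq_intCast, WeierstrassCurve.b₂]
    push_cast
    ring
  · simp only [shortOf, shortW, variableChange_a₃, Units.val_inv_eq_inv_val, Units.val_mk0, map_a₁,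
      map_a₃, shortVC, eq_intCast]
    ring
  · simp only [shortOf, shortW, variableChange_a₄, Units.val_inv_eq_inv_val, Units.val_mk0, map_a₁,
      map_a₂, map_a₃, map_a₄, shortVC, eq_intCast, WeierstrassCurve.c₄, WeierstrassCurve.b₂,
      WeierstrassCurve.b₄]
    push_cast
    ring
  · simp only [shortOf, shortW, variableChange_a₆, Units.val_inv_eq_inv_val, Units.val_mk0, map_a₁,
      map_a₂, map_a₃, map_a₄, map_a₆, shortVC, eq_intCast, WeierstrassCurve.c₆,
      WeierstrassCurve.b₂, WeierstrassCurve.b₄, WeierstrassCurve.b₆]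
    push_cast
    ring

/-! ### points -/

/-- **the `G_ℚ`-equivariant isomorphism `(shortOf W)(ℚ̄) ≃+ W(ℚ̄)`.** -/
noncomputable def shortEquiv (W : WeierstrassCurve ℤ) :
    ((shortOf W)⁄Qb).Point ≃+ ((W.map (Int.castRingHom ℚ))⁄Qb).Point :=
  pointEquivBC Qb (shortOf_eq W)

theorem shortEquiv_smul (W : WeierstrassCurve ℤ) (σ : GQ) (P : ((shortOf W)⁄Qb).Point) :
    shortEquiv W (σ • P) = σ • shortEquiv W P := by
  rw [algEquiv_smul_def, algEquiv_smul_def]
  exact pointEquivBC_map (shortOf_eq W) σ.toAlgHom P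

theorem shortEquiv_symm_smul (W : WeierstrassCurve ℤ) (σ : GQ)
    (P : ((W.map (Int.castRingHom ℚ))⁄Qb).Point) :
    (shortEquiv W).symm (σ • P) = σ • (shortEquiv W).symm P := by
  apply (shortEquiv W).injective
  rw [shortEquiv_smul, AddEquiv.apply_symm_apply, AddEquiv.apply_symm_apply]

/-! ### torsion -/

section Tors

variable {M N : Type*} [AddCommGroup M] [AddCommGroup N]

/-- an additive isomorphism restricts to the `n`-torsion. -/
def torsEquiv (e : M ≃+ N) (n : ℕ) : Submodule.torsionBy ℤ M n ≃+ Submodule.torsionBy ℤ N n where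
  toFun x := ⟨e (x : M), by
    have := x.2
    rw [Submodule.mem_torsionBy_iff] at this ⊢
    rw [← _root_.map_zsmul, this, _root_.map_zero]⟩
  invFun y := ⟨e.symm (y : N), by
    have := y.2
    rw [Submodule.mem_torsionBy_iff] at this ⊢
    rw [← _root_.map_zsmul, this, _root_.map_zero]⟩
  left_inv x := Subtype.ext (e.symm_apply_apply (x : M))
  right_inv y := Subtype.ext (e.apply_symm_apply (y : N))
  map_add' x y := Subtype.ext (_root_.map_add e (x : M) (y : M))

@[simp] theorem torsEquiv_coe (e : M ≃+ N) (n : ℕ) (x : Submodule.torsionBy ℤ M n) :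
    ((torsEquiv e n x : Submodule.torsionBy ℤ N n) : N) = e (x : M) := rfl

@[simp] theorem torsEquiv_symm_coe (e : M ≃+ N) (n : ℕ) (y : Submodule.torsionBy ℤ N n) :
    (((torsEquiv e n).symm y : Submodule.torsionBy ℤ M n) : M) = e.symm (y : N) := rfl

end Tors

/-- the isomorphism on `p`-torsion. -/
noncomputable def shortTors (W : WeierstrassCurve ℤ) (p : ℕ) :
    Submodule.torsionBy ℤ ((shortOf W)⁄Qb).Point p ≃+
      Submodule.torsionBy ℤ ((W.map (Int.castRingHom ℚ))⁄Qb).Point p :=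
  torsEquiv (shortEquiv W) p

theorem shortTors_smul (W : WeierstrassCurve ℤ) (p : ℕ) (σ : GQ)
    (Q : Submodule.torsionBy ℤ ((shortOf W)⁄Qb).Point p) :
    shortTors W p (σ • Q) = σ • shortTors W p Q :=
  Subtype.ext (shortEquiv_smul W σ Q)

theorem shortTors_symm_smul (W : WeierstrassCurve ℤ) (p : ℕ) (σ : GQ)
    (Q : Submodule.torsionBy ℤ ((W.map (Int.castRingHom ℚ))⁄Qb).Point p) :
    (shortTors W p).symm (σ • Q) = σ • (shortTors W p).symm Q :=
  Subtype.ext (shortEquiv_symm_smul W σ Q)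

/-! ### the congruence -/

/-- **`a_ℓ(W') ≡ a_ℓ(W) (mod p)`** from a nonzero `G_ℚ`-equivariant homomorphism between the `p`-torsion modules
of the SHORT FORMS of `W` and `W'`. -/
theorem dvd_apOfModel_sub_of_short (W W' : WeierstrassCurve ℤ) {p : ℕ} (hp : p.Prime) (hp2 : p ≠ 2)
    (f : Submodule.torsionBy ℤ ((shortOf W)⁄Qb).Point p →+
      Submodule.torsionBy ℤ ((shortOf W')⁄Qb).Point p)
    (hf : ∀ (σ : GQ) Q, f (σ • Q) = σ • f Q) (hne : f ≠ 0)
    {ℓ : ℕ} (hℓ : ℓ.Prime) (hgood : W.IsGoodPrimeFor ℓ) (hgood' : W'.IsGoodPrimeFor ℓ)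
    (hℓp : ℓ ≠ p) : (p : ℤ) ∣ W'.apOfModel ℓ - W.apOfModel ℓ := by
  refine TorsCong4.dvd_apOfModel_sub W W' hp hp2
    (((shortTors W' p).toAddMonoidHom.comp f).comp (shortTors W p).symm.toAddMonoidHom) ?_ ?_
    hℓ hgood hgood' hℓp
  · intro σ Q
    simp only [AddMonoidHom.comp_apply, AddEquiv.coe_toAddMonoidHom]
    rw [shortTors_symm_smul, hf, shortTors_smul]
  · intro h0
    apply hne
    ext Q
    have := DFunLike.congr_fun h0 (shortTors W p Q)
    simp only [AddMonoidHom.comp_apply, AddEquiv.coe_toAddMonoidHom, AddEquiv.symm_apply_apply,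
      AddMonoidHom.zero_apply] at this
    have h2 : f Q = 0 := (shortTors W' p).injective (by rw [this, _root_.map_zero])
    rw [h2]
    rfl

/-- **the same for a plain function on points**: `Φ : (shortOf W)(ℚ̄) → (shortOf W')(ℚ̄)` which, on
`p`-torsion, is additive, `G_ℚ`-equivariant and not identically zero. -/
theorem dvd_apOfModel_sub_of_fun (W W' : WeierstrassCurve ℤ) {p : ℕ} (hp : p.Prime) (hp2 : p ≠ 2)
    (Φ : ((shortOf W)⁄Qb).Point → ((shortOf W')⁄Qb).Point)
    (hadd : ∀ Q R : ((shortOf W)⁄Qb).Point, p • Q = 0 → p • R = 0 → Φ (Q + R) = Φ Q + Φ R)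
    (hσ : ∀ (σ : GQ) (Q : ((shortOf W)⁄Qb).Point), p • Q = 0 → Φ (σ • Q) = σ • Φ Q)
    (hne : ∃ Q : ((shortOf W)⁄Qb).Point, p • Q = 0 ∧ Φ Q ≠ 0)
    {ℓ : ℕ} (hℓ : ℓ.Prime) (hgood : W.IsGoodPrimeFor ℓ) (hgood' : W'.IsGoodPrimeFor ℓ)
    (hℓp : ℓ ≠ p) : (p : ℤ) ∣ W'.apOfModel ℓ - W.apOfModel ℓ := by
  have htors : ∀ Q : Submodule.torsionBy ℤ ((shortOf W)⁄Qb).Point p,
      p • (Q : ((shortOf W)⁄Qb).Point) = 0 := by
    intro Q
    have := Q.2
    rwa [Submodule.mem_torsionBy_iff, natCast_zsmul] at this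
  have hΦ0 : Φ 0 = 0 := by
    have := hadd 0 0 (nsmul_zero _) (nsmul_zero _)
    rw [add_zero] at this
    exact (add_eq_left.mp this.symm)
  -- `Φ` preserves `p`-torsion
  have hΦn : ∀ (n : ℕ) (Q : ((shortOf W)⁄Qb).Point), p • Q = 0 → Φ (n • Q) = n • Φ Q := by
    intro n Q hQ
    induction n with
    | zero => rw [zero_nsmul, zero_nsmul, hΦ0]
    | succ n ih =>
      have hnQ : p • (n • Q) = 0 := by rw [← mul_nsmul, mul_comm, mul_nsmul, hQ, nsmul_zero]
      rw [succ_nsmul, hadd _ _ hnQ hQ, ih, succ_nsmul]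
  have hΦp : ∀ Q : ((shortOf W)⁄Qb).Point, p • Q = 0 → p • Φ Q = 0 := by
    intro Q hQ
    rw [← hΦn p Q hQ, hQ, hΦ0]
  let f : Submodule.torsionBy ℤ ((shortOf W)⁄Qb).Point p →+
      Submodule.torsionBy ℤ ((shortOf W')⁄Qb).Point p :=
    { toFun := fun Q => ⟨Φ Q, by
        rw [Submodule.mem_torsionBy_iff, natCast_zsmul]
        exact hΦp Q (htors Q)⟩
      map_zero' := Subtype.ext hΦ0
      map_add' := fun Q R => Subtype.ext (hadd Q R (htors Q) (htors R)) }
  refine dvd_apOfModel_sub_of_short W W' hp hp2 f ?_ ?_ hℓ hgood hgood' hℓp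
  · intro σ Q
    exact Subtype.ext (hσ σ Q (htors Q))
  · obtain ⟨Q, hQ, hQne⟩ := hne
    intro h0
    apply hQne
    have hmem : Q ∈ Submodule.torsionBy ℤ ((shortOf W)⁄Qb).Point p := by
      rw [Submodule.mem_torsionBy_iff, natCast_zsmul]; exact hQ
    have := DFunLike.congr_fun h0 ⟨Q, hmem⟩
    exact congrArg Subtype.val this

end Fermat.Agent.S52.ShortTransport2
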