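/-
S52 brick CERT-4, final assembly (helper1): **a root `θ` of `C6` fixed by an automorphism negating `√3`.**

`W` a semistable integral Weierstrass model, `Δ ≠ 0`.  Inputs (abstract hypotheses, to be discharged by the bricks
CERT-2 (`hcert2`, `hfixζ`, `hfixι`), 4b (`hrec`), 4c (`h4c`), FAM (`hFAM`)):

* `P₃` a place of `ℚ̄` over `3`, `s = √3`, `τ ∈ I(P₃)` with `τ s = -s` (CERT-2); `τ` fixes `ζ₅` and `i`;
* a nonzero `5`-torsion point of `W` fixed by `I(P₃)` (`InertiaFixed7`), transported to the short model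
  `y² = x³ - 27 c₄ x - 54 c₆` (`ShortTransport2`): coordinates `x, y` fixed by `τ`;
* (4c) `(x, y) = (xi a b, eta a b)` with `kH5 a b = -c₄`, `kT5 a b = -c₆`;
* (4b) + (4a) (`Cert4Core1.exists_theta`): `τ` fixes `a, b`; `θ` fixed by `σ = τ⁵` with `kT5 = 0` at the deformed
  point; `σ s = -s`;
* FAM: `C6(θ) = 0`.

The output `(θ, s, σ)` is exactly the remaining input of `GAssembly4.exists_param_irreducible`.
-/
import Fermat.Agent.S52.Cert4Core1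
import Fermat.Agent.S52.InertiaFixed7
import Fermat.Agent.S52.ShortTransport2
import Fermat.Agent.Lib.FrobeniusExists

set_option autoImplicit false

open WeierstrassCurve WeierstrassCurve.Affine WeierstrassCurve.Affine.Point Polynomial

namespace Fermat.Agent.S52.Cert4Asm1

open Fermat.Agent.S52.Klein7 Fermat.Agent.S52.ShortTransport2

local notation "Qb" => AlgebraicClosure ℚ
local notation "GQ" => (AlgebraicClosure ℚ ≃ₐ[ℚ] AlgebraicClosure ℚ)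

/-- a nonzero `5`-torsion point of the short model whose coordinates are fixed by the inertia group at `P₃`. -/
theorem exists_fixed_short_point (W : WeierstrassCurve ℤ) (hΔ : W.Δ ≠ 0) (hss : W.IsSemistableModel)
    (P₃ : ValuationSubring Qb) (hP₃ : P₃.LiesOverPrime 3) :
    ∃ (x y : Qb) (h : ((shortOf W)⁄Qb).Nonsingular x y),
      5 • (Point.some x y h : ((shortOf W)⁄Qb).Point) = 0 ∧
        ∀ τ ∈ P₃.inertiaSubgroupIn ℚ, τ x = x ∧ τ y = y := by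
  obtain ⟨Q, hQ0, hQ5, hfix⟩ := InertiaFixed7.exists_inertia_fixed W hΔ hss (q := 3) (lam := 5)
    (by norm_num) (by norm_num) (by norm_num) (by norm_num) P₃ hP₃
  have hP0 : (shortEquiv W).symm Q ≠ 0 := by
    intro h
    exact hQ0 ((AddEquiv.map_eq_zero_iff (shortEquiv W).symm).mp h)
  have hP5 : 5 • (shortEquiv W).symm Q = 0 := by
    rw [← _root_.map_nsmul, hQ5, _root_.map_zero]
  have hPfix : ∀ τ ∈ P₃.inertiaSubgroupIn ℚ, τ • (shortEquiv W).symm Q = (shortEquiv W).symm Q := by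
    intro τ hτ
    rw [← shortEquiv_symm_smul, algEquiv_smul_def, hfix τ hτ]
  generalize (shortEquiv W).symm Q = P at hP0 hP5 hPfix
  cases P with
  | zero => exact absurd rfl hP0
  | some x y h =>
    refine ⟨x, y, h, hP5, fun τ hτ => ?_⟩
    have := hPfix τ hτ
    rw [algEquiv_smul_def, Point.map_some] at this
    simp only [Point.some.injEq] at this
    exact ⟨this.1, this.2⟩

/-- the discriminant of the Klein point over `(c₄, c₆)` is nonzero. -/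
theorem disc_ne_zero (W : WeierstrassCurve ℤ) (hΔ : W.Δ ≠ 0) {a b : Qb}
    (hH : kH5 a b = -(W.c₄ : Qb)) (hT : kT5 a b = -(W.c₆ : Qb)) :
    kT5 a b ^ 2 + kH5 a b ^ 3 ≠ 0 := by
  rw [hH, hT]
  have h := W.c_relation
  have h2 : (-(W.c₆ : Qb)) ^ 2 + (-(W.c₄ : Qb)) ^ 3 = ((-(1728 * W.Δ) : ℤ) : Qb) := by
    rw [h]
    push_cast
    ring
  rw [h2]
  exact Int.cast_ne_zero.mpr (neg_ne_zero.mpr (mul_ne_zero (by norm_num) hΔ))

/-- **CERT-4 (assembly)**. -/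
theorem exists_cert4 (W : WeierstrassCurve ℤ) (hΔ : W.Δ ≠ 0) (hss : W.IsSemistableModel)
    (hcert2 : ∀ P : ValuationSubring Qb, P.LiesOverPrime 3 → ∀ s : Qb, s ^ 2 = 3 →
      ∃ τ ∈ P.inertiaSubgroupIn ℚ, τ s = -s)
    {ζ : Qb} (hz : ζ ^ 4 + ζ ^ 3 + ζ ^ 2 + ζ + 1 = 0)
    (hfixζ : ∀ P : ValuationSubring Qb, P.LiesOverPrime 3 → ∀ τ ∈ P.inertiaSubgroupIn ℚ, τ ζ = ζ)
    (hfixι : ∀ P : ValuationSubring Qb, P.LiesOverPrime 3 → ∀ τ ∈ P.inertiaSubgroupIn ℚ,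
      ∀ ι : Qb, ι ^ 2 = -1 → τ ι = ι)
    (xi eta : Qb → Qb → Qb)
    (hxi : ∀ τ : GQ, τ ζ = ζ → ∀ a b, τ (xi a b) = xi (τ a) (τ b))
    (heta : ∀ τ : GQ, τ ζ = ζ → ∀ a b, τ (eta a b) = eta (τ a) (τ b))
    (hrec : ∀ a b a' b' : Qb, kq5 a b ≠ 0 → xi a' b' = xi a b → eta a' b' = eta a b →
      kH5 a' b' = kH5 a b → a' = a ∧ b' = b)
    (h4c : ∀ (x y : Qb) (h : ((shortOf W)⁄Qb).Nonsingular x y),
      5 • (Point.some x y h : ((shortOf W)⁄Qb).Point) = 0 →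
      ∃ a b : Qb, kH5 a b = -(W.c₄ : Qb) ∧ kT5 a b = -(W.c₆ : Qb) ∧ x = xi a b ∧ y = eta a b)
    (C6 : ℤ[X])
    (hFAM : ∀ a b t : Qb, kH5 a b = -(W.c₄ : Qb) → kT5 a b = -(W.c₆ : Qb) →
      kT5 (a * (1 + t * kA5 a b) ^ 5) (b * (1 - t * kB5 a b) ^ 5) = 0 → aeval t C6 = 0) :
    ∃ (θ s : Qb) (g : GQ), s ^ 2 = 3 ∧ g s = -s ∧ g θ = θ ∧ aeval θ C6 = 0 := by
  obtain ⟨P₃, hP₃⟩ := Fermat.Agent.Lib.FrobeniusExists.exists_valuationSubring_liesOverPrime 3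
    (by norm_num)
  obtain ⟨s, hs⟩ := IsAlgClosed.exists_pow_nat_eq (3 : Qb) (n := 2) (by norm_num)
  obtain ⟨ι, hι⟩ := IsAlgClosed.exists_pow_nat_eq (-1 : Qb) (n := 2) (by norm_num)
  obtain ⟨τ, hτ, hτs⟩ := hcert2 P₃ hP₃ s hs
  have hτζ : τ ζ = ζ := hfixζ P₃ hP₃ τ hτ
  have hτι : τ ι = ι := hfixι P₃ hP₃ τ hτ ι hι
  obtain ⟨x, y, h, h5, hxy⟩ := exists_fixed_short_point W hΔ hss P₃ hP₃
  obtain ⟨hτx, hτy⟩ := hxy τ hτ
  obtain ⟨a, b, hH, hT, rfl, rfl⟩ := h4c x y h h5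
  have hd := disc_ne_zero W hΔ hH hT
  have hτH : τ (kH5 a b) = kH5 a b := by
    rw [hH, map_neg, map_intCast]
  obtain ⟨θ, hθfix, hθ⟩ := Cert4Core1.exists_theta (K := Qb) τ.toAlgHom.toRingHom
    (Cert4Core1.isPrimitiveRoot_of_cyclo hz) hτζ hι hτι xi eta (hxi τ hτζ) (heta τ hτζ) hrec hd hτH
    hτx hτy
  refine ⟨θ, s, τ ^ 5, hs, ?_, ?_, hFAM a b θ hH hT hθ⟩
  · have := Cert4Core1.iterate_five_neg (K := Qb) τ.toAlgHom.toRingHom (s := s) hτs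
    exact this
  · exact hθfix

end Fermat.Agent.S52.Cert4Asm1
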