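/-
S52 (3–5 switch), shared leaf (helper7): **Klein's icosahedral forms** and the existence of a point
of the plane with prescribed invariants.

* `kf`, `kH`, `kT : R → R → R` over any commutative ring `R`: the binary forms of degrees
  `12`, `20`, `30`; `syzygy : kT ^ 2 + kH ^ 3 = 1728 * kf ^ 5`; homogeneity (`kf_smul`, `kH_smul`,
  `kT_smul`); compatibility with ring homomorphisms (`map_kf`, `map_kH`, `map_kT`).
* `kw1`, `kw2`: the covariant `grad^⊥ kf = (∂kf/∂v, -∂kf/∂u)` of degree `11`; `det_kw`: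
  `u * kw2 u v - v * kw1 u v = -12 * kf u v`; homogeneity and ring-hom compatibility.
* `kH5`, `kT5`, `kq5`, `kA5`, `kB5`: the forms in the coordinates `a = u⁵`, `b = v⁵`
  (`kH_eq_kH5`, `kT_eq_kT5`, `kf_eq_kq5`, `kw1_eq`, `kw2_eq`, `kA5_add_kB5`, `syzygy5`, `kT5_factor`);
  `deform_fst`, `deform_snd`: `z + t • grad^⊥ kf (z) = (u (1 + t A), v (1 - t B))`.
* `eq_zero_of_kf_eq_zero_of_kH_eq_zero`: `kf`, `kH` have no common zero outside the origin.
* the universal curve `E_w : y² = x³ + 27 kH(w) x + 54 kT(w)` has `c₄ = -kH(w)`, `c₆ = -kT(w)`,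
  `Δ = -kf(w)⁵` (`kleinCurve`, `kleinCurve_c₄`, `kleinCurve_c₆`, `kleinCurve_Δ`).
* `exists_klein_point`: over an algebraically closed field of characteristic zero, for `h₀, t₀ ≠ 0`
  with `t₀² + h₀³ ≠ 0` there are `u, v` with `kH u v = h₀`, `kT u v = t₀`.
-/
import Mathlib

set_option autoImplicit false

open Polynomial

namespace Fermat.Agent.S52.Klein7

/-! ### The forms -/

section Forms

variable {R : Type*} [CommRing R]

/-- Klein's form of degree `12` (the vertices of the icosahedron). -/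
def kf (u v : R) : R := u * v * (u ^ 10 + 11 * u ^ 5 * v ^ 5 - v ^ 10)

/-- Klein's form of degree `20` (the face centres). -/
def kH (u v : R) : R :=
  -(u ^ 20 + v ^ 20) + 228 * (u ^ 15 * v ^ 5 - u ^ 5 * v ^ 15) - 494 * u ^ 10 * v ^ 10

/-- Klein's form of degree `30` (the edge midpoints). -/
def kT (u v : R) : R :=
  u ^ 30 + v ^ 30 + 522 * (u ^ 25 * v ^ 5 - u ^ 5 * v ^ 25)
    - 10005 * (u ^ 20 * v ^ 10 + u ^ 10 * v ^ 20)

/-- first coordinate of `grad^⊥ kf`: `∂kf/∂v`. -/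
def kw1 (u v : R) : R := u ^ 11 + 66 * u ^ 6 * v ^ 5 - 11 * u * v ^ 10

/-- second coordinate of `grad^⊥ kf`: `-∂kf/∂u`. -/
def kw2 (u v : R) : R := -(11 * u ^ 10 * v) - 66 * u ^ 5 * v ^ 6 + v ^ 11

/-- **The icosahedral syzygy.** -/
theorem syzygy (u v : R) : kT u v ^ 2 + kH u v ^ 3 = 1728 * kf u v ^ 5 := by
  unfold kT kH kf
  ring

theorem kf_smul (c u v : R) : kf (c * u) (c * v) = c ^ 12 * kf u v := by
  unfold kf
  ring

theorem kH_smul (c u v : R) : kH (c * u) (c * v) = c ^ 20 * kH u v := by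
  unfold kH
  ring

theorem kT_smul (c u v : R) : kT (c * u) (c * v) = c ^ 30 * kT u v := by
  unfold kT
  ring

theorem kw1_smul (c u v : R) : kw1 (c * u) (c * v) = c ^ 11 * kw1 u v := by
  unfold kw1
  ring

theorem kw2_smul (c u v : R) : kw2 (c * u) (c * v) = c ^ 11 * kw2 u v := by
  unfold kw2
  ring

/-- `det [w, grad^⊥ kf (w)] = -12 kf (w)` (Euler). -/
theorem det_kw (u v : R) : u * kw2 u v - v * kw1 u v = -12 * kf u v := by
  unfold kw1 kw2 kf
  ring

variable {S : Type*} [CommRing S] (φ : R →+* S)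

theorem map_kf (u v : R) : φ (kf u v) = kf (φ u) (φ v) := by
  simp only [kf, map_mul, map_add, map_sub, map_pow, map_ofNat]

theorem map_kH (u v : R) : φ (kH u v) = kH (φ u) (φ v) := by
  simp only [kH, map_mul, map_add, map_sub, map_neg, map_pow, map_ofNat]

theorem map_kT (u v : R) : φ (kT u v) = kT (φ u) (φ v) := by
  simp only [kT, map_mul, map_add, map_sub, map_pow, map_ofNat]

theorem map_kw1 (u v : R) : φ (kw1 u v) = kw1 (φ u) (φ v) := by
  simp only [kw1, map_mul, map_add, map_sub, map_pow, map_ofNat]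

theorem map_kw2 (u v : R) : φ (kw2 u v) = kw2 (φ u) (φ v) := by
  simp only [kw2, map_mul, map_add, map_sub, map_neg, map_pow, map_ofNat]

end Forms


/-! ### The forms in the coordinates `a = u ^ 5`, `b = v ^ 5` (lead's simplification (S1)) -/

section FifthPowers

variable {R : Type*} [CommRing R]

/-- `kH` in the coordinates `a = u⁵`, `b = v⁵`. -/
def kH5 (a b : R) : R := -(a ^ 4 + b ^ 4) + 228 * (a ^ 3 * b - a * b ^ 3) - 494 * a ^ 2 * b ^ 2

/-- `kT` in the coordinates `a = u⁵`, `b = v⁵`. -/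
def kT5 (a b : R) : R :=
  a ^ 6 + b ^ 6 + 522 * (a ^ 5 * b - a * b ^ 5) - 10005 * (a ^ 4 * b ^ 2 + a ^ 2 * b ^ 4)

/-- `kf = u v q`, `q = a² + 11ab - b²`. -/
def kq5 (a b : R) : R := a ^ 2 + 11 * a * b - b ^ 2

/-- `kw1 = u A`. -/
def kA5 (a b : R) : R := a ^ 2 + 66 * a * b - 11 * b ^ 2

/-- `kw2 = -v B`. -/
def kB5 (a b : R) : R := 11 * a ^ 2 + 66 * a * b - b ^ 2

theorem kH_eq_kH5 (u v : R) : kH u v = kH5 (u ^ 5) (v ^ 5) := by
  unfold kH kH5
  ring

theorem kT_eq_kT5 (u v : R) : kT u v = kT5 (u ^ 5) (v ^ 5) := by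
  unfold kT kT5
  ring

theorem kf_eq_kq5 (u v : R) : kf u v = u * v * kq5 (u ^ 5) (v ^ 5) := by
  unfold kf kq5
  ring

theorem kf_pow_five (u v : R) :
    kf u v ^ 5 = u ^ 5 * v ^ 5 * kq5 (u ^ 5) (v ^ 5) ^ 5 := by
  rw [kf_eq_kq5]
  ring

theorem kw1_eq (u v : R) : kw1 u v = u * kA5 (u ^ 5) (v ^ 5) := by
  unfold kw1 kA5
  ring

theorem kw2_eq (u v : R) : kw2 u v = -(v * kB5 (u ^ 5) (v ^ 5)) := by
  unfold kw2 kB5
  ring

theorem kA5_add_kB5 (a b : R) : kA5 a b + kB5 a b = 12 * kq5 a b := by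
  unfold kA5 kB5 kq5
  ring

/-- the syzygy in the coordinates `(a, b)`. -/
theorem syzygy5 (a b : R) : kT5 a b ^ 2 + kH5 a b ^ 3 = 1728 * (a * b * kq5 a b ^ 5) := by
  unfold kT5 kH5 kq5
  ring

/-- `kT` vanishes on `a² + b² = 0` (the points with `j = 1728`). -/
theorem kT5_factor (a b : R) :
    kT5 a b = (a ^ 2 + b ^ 2) * (a ^ 4 + 522 * a ^ 3 * b - 10006 * a ^ 2 * b ^ 2
      - 522 * a * b ^ 3 + b ^ 4) := by
  unfold kT5
  ring

/-- **(S1)** the deformation `z + t • grad^⊥ kf (z)` is a diagonal scaling. -/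
theorem deform_fst (u v t : R) :
    u + t * kw1 u v = u * (1 + t * kA5 (u ^ 5) (v ^ 5)) := by
  rw [kw1_eq]
  ring

theorem deform_snd (u v t : R) :
    v + t * kw2 u v = v * (1 - t * kB5 (u ^ 5) (v ^ 5)) := by
  rw [kw2_eq]
  ring

theorem deform_fst_pow (u v t : R) :
    (u + t * kw1 u v) ^ 5 = u ^ 5 * (1 + t * kA5 (u ^ 5) (v ^ 5)) ^ 5 := by
  rw [deform_fst]
  ring

theorem deform_snd_pow (u v t : R) :
    (v + t * kw2 u v) ^ 5 = v ^ 5 * (1 - t * kB5 (u ^ 5) (v ^ 5)) ^ 5 := by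
  rw [deform_snd]
  ring

end FifthPowers

/-! ### The universal curve -/

section Curve

variable {R : Type*} [CommRing R]

/-- The universal curve `y² = x³ + 27 kH(w) x + 54 kT(w)`. -/
def kleinCurve (u v : R) : WeierstrassCurve R := ⟨0, 0, 0, 27 * kH u v, 54 * kT u v⟩

theorem kleinCurve_c₄ (u v : R) : (kleinCurve u v).c₄ = -(1296 * kH u v) := by
  simp only [kleinCurve, WeierstrassCurve.c₄, WeierstrassCurve.b₂, WeierstrassCurve.b₄]
  ring

theorem kleinCurve_c₆ (u v : R) : (kleinCurve u v).c₆ = -(46656 * kT u v) := by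
  simp only [kleinCurve, WeierstrassCurve.c₆, WeierstrassCurve.b₂, WeierstrassCurve.b₄,
    WeierstrassCurve.b₆]
  ring

theorem kleinCurve_Δ (u v : R) : (kleinCurve u v).Δ = -(2176782336 * kf u v ^ 5) := by
  have h := syzygy u v
  simp only [kleinCurve, WeierstrassCurve.Δ, WeierstrassCurve.b₂, WeierstrassCurve.b₄,
    WeierstrassCurve.b₆, WeierstrassCurve.b₈]
  linear_combination (-1259712 : R) * h

end Curve

/-! ### Existence of a point with prescribed invariants -/

section Exists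

variable {K : Type*} [Field K]

/-- `kH (z, 1)` and `kf (z, 1)` have no common zero (characteristic zero). -/
theorem kH_ne_zero_of_kf_eq_zero [CharZero K] {z : K} (h : kf z 1 = 0) : kH z 1 ≠ 0 := by
  intro hH
  unfold kf at h
  unfold kH at hH
  simp only [one_pow, mul_one] at h hH
  rcases mul_eq_zero.mp h with hz | hg
  · subst hz
    norm_num at hH
  · -- `y = z ^ 5` is a common root of `y² + 11 y - 1` and `-y⁴ + 228 y³ - 494 y² - 228 y - 1`
    set y := z ^ 5 with hy
    have e10 : z ^ 10 = y ^ 2 := by rw [hy]; ring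
    have e15 : z ^ 15 = y ^ 3 := by rw [hy]; ring
    have e20 : z ^ 20 = y ^ 4 := by rw [hy]; ring
    rw [e10] at hg
    rw [e10, e15, e20] at hH
    have h1 : (3125 : K) * (11 * y - 1) = 0 := by
      linear_combination hH + (y ^ 2 - 239 * y + 3124) * hg
    have h2 : 11 * y - 1 = 0 := by
      rcases mul_eq_zero.mp h1 with h3 | h3
      · norm_num at h3
      · exact h3
    have h3 : (y : K) = 1 / 11 := by
      field_simp
      linear_combination h2
    rw [h3] at hg
    norm_num at hg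


/-- **(S4)** `kf` and `kH` have no common zero outside the origin (characteristic zero). -/
theorem eq_zero_of_kf_eq_zero_of_kH_eq_zero [CharZero K] {u v : K} (hf : kf u v = 0)
    (hH : kH u v = 0) : u = 0 ∧ v = 0 := by
  by_cases hv : v = 0
  · subst hv
    refine ⟨?_, rfl⟩
    unfold kH at hH
    have : u ^ 20 = 0 := by
      have h1 : -(u ^ 20) = 0 := by
        simpa using hH
      exact neg_eq_zero.mp h1
    exact pow_eq_zero_iff (by norm_num) |>.mp this
  · exfalso
    have e1 : kf u v = v ^ 12 * kf (u / v) 1 := by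
      rw [← kf_smul]
      congr 1
      · field_simp
      · ring
    have e2 : kH u v = v ^ 20 * kH (u / v) 1 := by
      rw [← kH_smul]
      congr 1
      · field_simp
      · ring
    rw [e1] at hf
    rw [e2] at hH
    have h1 : kf (u / v) 1 = 0 := by
      rcases mul_eq_zero.mp hf with h | h
      · exact absurd (pow_eq_zero_iff (by norm_num) |>.mp h) hv
      · exact h
    have h2 : kH (u / v) 1 = 0 := by
      rcases mul_eq_zero.mp hH with h | h
      · exact absurd (pow_eq_zero_iff (by norm_num) |>.mp h) hv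
      · exact h
    exact kH_ne_zero_of_kf_eq_zero h1 h2

/-- **Existence of a point of the plane with prescribed `kH`, `kT`.** -/
theorem exists_klein_point [IsAlgClosed K] [CharZero K] {h₀ t₀ : K} (hh : h₀ ≠ 0) (ht : t₀ ≠ 0)
    (hd : t₀ ^ 2 + h₀ ^ 3 ≠ 0) : ∃ u v : K, kH u v = h₀ ∧ kT u v = t₀ := by
  -- the polynomial `kH(z,1)³ t₀² - kT(z,1)² h₀³`
  set Hp : K[X] := -(X ^ 20 + 1) + 228 * (X ^ 15 - X ^ 5) - 494 * X ^ 10 with hHp
  set Tp : K[X] := X ^ 30 + 1 + 522 * (X ^ 25 - X ^ 5) - 10005 * (X ^ 20 + X ^ 10) with hTp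
  set p : K[X] := Hp ^ 3 * C (t₀ ^ 2) - Tp ^ 2 * C (h₀ ^ 3) with hp
  have hHe : ∀ z : K, Hp.eval z = kH z 1 := by
    intro z
    simp only [hHp, kH, eval_sub, eval_add, eval_neg, eval_mul, eval_pow, eval_X, eval_one,
      eval_ofNat, one_pow, mul_one]
  have hTe : ∀ z : K, Tp.eval z = kT z 1 := by
    intro z
    simp only [hTp, kT, eval_sub, eval_add, eval_mul, eval_pow, eval_X, eval_one,
      eval_ofNat, one_pow, mul_one]
  have hnat : p.natDegree = 60 := by
    rw [hp, hHp, hTp]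
    compute_degree!
    intro h
    apply hd
    have h1 : coeff (1 : K[X]) 20 = 0 := by rw [coeff_one]; norm_num
    rw [h1] at h
    have h2 : ((Int.negSucc 0 : ℤ) : K) = -1 := by norm_num
    rw [h2] at h
    linear_combination -h
  have hdeg : p.degree ≠ 0 := by
    intro h0
    have h1 : p.natDegree = 0 := natDegree_eq_zero_iff_degree_le_zero.mpr h0.le
    rw [hnat] at h1
    norm_num at h1
  obtain ⟨z, hz⟩ := IsAlgClosed.exists_root p hdeg
  have hroot : kH z 1 ^ 3 * t₀ ^ 2 = kT z 1 ^ 2 * h₀ ^ 3 := by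
    have := hz
    rw [IsRoot.def, hp, eval_sub, eval_mul, eval_mul, eval_pow, eval_pow, eval_C, eval_C, hHe,
      hTe] at this
    exact sub_eq_zero.mp this
  -- `kH (z,1)`, `kT (z,1)` are nonzero
  have hH1 : kH z 1 ≠ 0 := by
    intro h0
    have hT0 : kT z 1 = 0 := by
      rw [h0] at hroot
      have : kT z 1 ^ 2 * h₀ ^ 3 = 0 := by rw [← hroot]; ring
      rcases mul_eq_zero.mp this with h | h
      · exact pow_eq_zero_iff (two_ne_zero) |>.mp h
      · exact absurd (pow_eq_zero_iff (three_ne_zero) |>.mp h) hh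
    have hf0 : kf z 1 = 0 := by
      have := syzygy z (1 : K)
      rw [h0, hT0] at this
      have h5 : kf z 1 ^ 5 = 0 := by
        have h6 : (1728 : K) * kf z 1 ^ 5 = 0 := by rw [← this]; ring
        rcases mul_eq_zero.mp h6 with h | h
        · norm_num at h
        · exact h
      exact pow_eq_zero_iff (by norm_num) |>.mp h5
    exact kH_ne_zero_of_kf_eq_zero hf0 h0
  have hT1 : kT z 1 ≠ 0 := by
    intro h0
    rw [h0] at hroot
    have : kH z 1 ^ 3 * t₀ ^ 2 = 0 := by rw [hroot]; ring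
    rcases mul_eq_zero.mp this with h | h
    · exact hH1 (pow_eq_zero_iff (three_ne_zero) |>.mp h)
    · exact ht (pow_eq_zero_iff (two_ne_zero) |>.mp h)
  -- the scaling
  set μ : K := t₀ * kH z 1 / (kT z 1 * h₀) with hμ
  have hμ2 : μ ^ 2 * kH z 1 = h₀ := by
    rw [hμ]
    field_simp
    linear_combination hroot
  have hμ3 : μ ^ 3 * kT z 1 = t₀ := by
    rw [hμ]
    field_simp
    linear_combination hroot
  obtain ⟨c, hc⟩ := IsAlgClosed.exists_pow_nat_eq μ (by norm_num : 0 < 10)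
  refine ⟨c * z, c * 1, ?_, ?_⟩
  · rw [kH_smul, show c ^ 20 = (c ^ 10) ^ 2 by ring, hc, hμ2]
  · rw [kT_smul, show c ^ 30 = (c ^ 10) ^ 3 by ring, hc, hμ3]

end Exists

end Fermat.Agent.S52.Klein7
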