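/-
S52 (3–5 switch), CERT-4 (4c) (helper7): **slope parametrisation of pairs (E, P), P a point of order 5.**

For a short Weierstrass curve `E : y² = x³ + 27 H x + 54 T` over a field `K` of characteristic `0`
containing a primitive 5th root of unity `ζ`, and a nonzero point `P = (x₀, y₀)` with `5 P = 0`:
let `s` be the slope of the tangent at `P` and `r` the slope of the tangent at `2 P = (x₂, y₂)`.
The group law (`4 P = -P`) gives
`x₂ + 2 x₀ = s²`, `x₀ + 2 x₂ = r²`, `2 y₀ = (s + r)(s² - r²)`, `27 H = 2 s y₀ - 3 x₀²`,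
so `(E, P)` is freely parametrised by `(s, r)`.  In Klein's coordinates `(a, b) = (u⁵, v⁵)` the slopes
are LINEAR: `a = pa ζ s r`, `b = pb ζ s r`, and then `kH5 a b = H`, `kT5 a b = T`,
`x₀ = xi1 ζ a b`, `y₀ = eta1 ζ a b` (and `2 P = (xi2, eta2)`).

Main result: `exists_klein_param`.
-/
import Mathlib
import Fermat.Agent.S52.Klein7

set_option autoImplicit false

open WeierstrassCurve WeierstrassCurve.Affine

namespace Fermat.Agent.S52.SlopeParam7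

open Fermat.Agent.S52.Klein7

section Defs

variable {K : Type*} [Field K]

/-- `√5 = 1 + 2(ζ² + ζ³)`. -/
def sqrt5 (ζ : K) : K := 1 + 2 * (ζ ^ 2 + ζ ^ 3)

/-- the constant `l` of the `y`-coordinate of the section `P_(1,0)`. -/
def cl (ζ : K) : K := 108 * (2 + 4 * ζ + 3 * ζ ^ 2 + ζ ^ 3) / 5

/-- the constant `m` of the `y`-coordinate of the section `P_(1,0)`. -/
def cm (ζ : K) : K := 108 * (1 + 2 * ζ - ζ ^ 2 + 3 * ζ ^ 3) / 5

/-- `x`-coordinate of the 5-torsion section `P_(1,0)` in the coordinates `(a, b) = (u⁵, v⁵)`. -/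
def xi1 (ζ a b : K) : K := -15 * (a ^ 2 + b ^ 2) + 18 / 5 * sqrt5 ζ * kq5 a b

/-- `y`-coordinate of the section `P_(1,0)`. -/
def eta1 (ζ a b : K) : K := (cl ζ * a + cm ζ * b) * kq5 a b

/-- `x`-coordinate of the section `P_(2,0) = 2 P_(1,0)`. -/
def xi2 (ζ a b : K) : K := -15 * (a ^ 2 + b ^ 2) - 18 / 5 * sqrt5 ζ * kq5 a b

/-- `y`-coordinate of the section `P_(2,0)`. -/
def eta2 (ζ a b : K) : K := (-(cm ζ) * a + cl ζ * b) * kq5 a b

/-- Klein coordinate `a` from the two tangent slopes. -/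
def pa (ζ s r : K) : K :=
  ((8 * ζ ^ 3 + 6 * ζ ^ 2 + 14 * ζ + 7) * s + (-6 * ζ ^ 3 + 8 * ζ ^ 2 + 2 * ζ + 1) * r) / 150

/-- Klein coordinate `b` from the two tangent slopes. -/
def pb (ζ s r : K) : K :=
  ((-6 * ζ ^ 3 + 8 * ζ ^ 2 + 2 * ζ + 1) * s - (8 * ζ ^ 3 + 6 * ζ ^ 2 + 14 * ζ + 7) * r) / 150

end Defs

section Identities

variable {K : Type*} [Field K] [CharZero K] {ζ : K}

theorem kH5_param (hζ : ζ ^ 4 + ζ ^ 3 + ζ ^ 2 + ζ + 1 = 0) (s r : K) :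
    kH5 (pa ζ s r) (pb ζ s r) =
      -(s ^ 4 - 3 * s ^ 3 * r - s ^ 2 * r ^ 2 + 3 * s * r ^ 3 + r ^ 4) / 81 := by
  unfold kH5 pa pb
  linear_combination
    ((-29/10125) * ζ^8 * s^4 + (4/3375) * ζ^8 * s^3 * r + (74/10125) * ζ^8 * s^2 * r^2 +
      (-4/3375) * ζ^8 * s * r^3 + (-29/10125) * ζ^8 * r^4 + (17/10125) * ζ^7 * s^4 +
      (-92/3375) * ζ^7 * s^3 * r + (-2/10125) * ζ^7 * s^2 * r^2 + (92/3375) * ζ^7 * s * r^3 +
      (17/10125) * ζ^7 * r^4 + (-14/3375) * ζ^6 * s^4 + (-8/3375) * ζ^6 * s^3 * r +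
      (-116/3375) * ζ^6 * s^2 * r^2 + (8/3375) * ζ^6 * s * r^3 + (-14/3375) * ζ^6 * r^4 +
      (38/3375) * ζ^5 * s^4 + (-164/3375) * ζ^5 * s^3 * r + (-76/1125) * ζ^5 * s^2 * r^2 +
      (164/3375) * ζ^5 * s * r^3 + (38/3375) * ζ^5 * r^4 + (1/675) * ζ^4 * s^4 +
      (4/225) * ζ^4 * s^3 * r + (-22/225) * ζ^4 * s^2 * r^2 + (-4/225) * ζ^4 * s * r^3 +
      (1/675) * ζ^4 * r^4 + (44/10125) * ζ^3 * s^4 + (56/3375) * ζ^3 * s^3 * r +
      (-1064/10125) * ζ^3 * s^2 * r^2 + (-56/3375) * ζ^3 * s * r^3 + (44/10125) * ζ^3 * r^4 +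
      (23/10125) * ζ^2 * s^4 + (2/3375) * ζ^2 * s^3 * r + (-638/10125) * ζ^2 * s^2 * r^2 +
      (-2/3375) * ζ^2 * s * r^3 + (23/10125) * ζ^2 * r^4 + (-118/10125) * ζ * s^4 +
      (118/3375) * ζ * s^3 * r + (-92/10125) * ζ * s^2 * r^2 + (-118/3375) * ζ * s * r^3 +
      (-118/10125) * ζ * r^4 + (14/1125) * s^4 + (-14/375) * s^3 * r + (-52/3375) * s^2 * r^2 +
      (14/375) * s * r^3 + (14/1125) * r^4) * hζ

theorem kT5_param (hζ : ζ ^ 4 + ζ ^ 3 + ζ ^ 2 + ζ + 1 = 0) (s r : K) :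
    kT5 (pa ζ s r) (pb ζ s r) =
      (19 * s ^ 6 - 18 * s ^ 5 * r - 15 * s ^ 4 * r ^ 2 - 15 * s ^ 2 * r ^ 4 + 18 * s * r ^ 5 +
      19 * r ^ 6) / 5832 := by
  unfold kT5 pa pb
  linear_combination
    ((-19/91125) * ζ^14 * s^6 + (-2/10125) * ζ^14 * s^5 * r + (1/6075) * ζ^14 * s^4 * r^2 +
      (1/6075) * ζ^14 * s^2 * r^4 + (2/10125) * ζ^14 * s * r^5 + (-19/91125) * ζ^14 * r^6 +
      (37/91125) * ζ^13 * s^6 + (-14/10125) * ζ^13 * s^5 * r + (-7/6075) * ζ^13 * s^4 * r^2 +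
      (-7/6075) * ζ^13 * s^2 * r^4 + (14/10125) * ζ^13 * s * r^5 + (37/91125) * ζ^13 * r^6 +
      (-11/10125) * ζ^12 * s^6 + (-2/10125) * ζ^12 * s^5 * r + (-1/405) * ζ^12 * s^4 * r^2 +
      (-1/405) * ζ^12 * s^2 * r^4 + (2/10125) * ζ^12 * s * r^5 + (-11/10125) * ζ^12 * r^6 +
      (17/10125) * ζ^11 * s^6 + (-56/10125) * ζ^11 * s^5 * r + (-17/2025) * ζ^11 * s^4 * r^2 +
      (-17/2025) * ζ^11 * s^2 * r^4 + (56/10125) * ζ^11 * s * r^5 + (17/10125) * ζ^11 * r^6 +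
      (-13/10125) * ζ^10 * s^6 + (-2/3375) * ζ^10 * s^5 * r + (-7/405) * ζ^10 * s^4 * r^2 +
      (-7/405) * ζ^10 * s^2 * r^4 + (2/3375) * ζ^10 * s * r^5 + (-13/10125) * ζ^10 * r^6 +
      (218/91125) * ζ^9 * s^6 + (-26/10125) * ζ^9 * s^5 * r + (-206/6075) * ζ^9 * s^4 * r^2 +
      (-206/6075) * ζ^9 * s^2 * r^4 + (26/10125) * ζ^9 * s * r^5 + (218/91125) * ζ^9 * r^6 +
      (91/91125) * ζ^8 * s^6 + (7/1125) * ζ^8 * s^5 * r + (-289/6075) * ζ^8 * s^4 * r^2 +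
      (-289/6075) * ζ^8 * s^2 * r^4 + (-7/1125) * ζ^8 * s * r^5 + (91/91125) * ζ^8 * r^6 +
      (-34/30375) * ζ^7 * s^6 + (179/10125) * ζ^7 * s^5 * r + (-38/675) * ζ^7 * s^4 * r^2 +
      (-38/675) * ζ^7 * s^2 * r^4 + (-179/10125) * ζ^7 * s * r^5 + (-34/30375) * ζ^7 * r^6 +
      (2/3375) * ζ^6 * s^6 + (202/10125) * ζ^6 * s^5 * r + (-118/2025) * ζ^6 * s^4 * r^2 +
      (-118/2025) * ζ^6 * s^2 * r^4 + (-202/10125) * ζ^6 * s * r^5 + (2/3375) * ζ^6 * r^6 +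
      (-113/20250) * ζ^5 * s^6 + (242/10125) * ζ^5 * s^5 * r + (-7/162) * ζ^5 * s^4 * r^2 +
      (-7/162) * ζ^5 * s^2 * r^4 + (-242/10125) * ζ^5 * s * r^5 + (-113/20250) * ζ^5 * r^6 +
      (-109/91125) * ζ^4 * s^6 + (133/10125) * ζ^4 * s^5 * r + (-37/1215) * ζ^4 * s^4 * r^2 +
      (-37/1215) * ζ^4 * s^2 * r^4 + (-133/10125) * ζ^4 * s * r^5 + (-109/91125) * ζ^4 * r^6 +
      (-38/91125) * ζ^3 * s^6 + (56/10125) * ζ^3 * s^5 * r + (-94/6075) * ζ^3 * s^4 * r^2 +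
      (-94/6075) * ζ^3 * s^2 * r^4 + (-56/10125) * ζ^3 * s * r^5 + (-38/91125) * ζ^3 * r^6 +
      (-1/10125) * ζ^2 * s^6 + (31/20250) * ζ^2 * s^5 * r + (-11/2025) * ζ^2 * s^4 * r^2 +
      (-11/2025) * ζ^2 * s^2 * r^4 + (-31/20250) * ζ^2 * s * r^5 + (-1/10125) * ζ^2 * r^6 +
      (197/60750) * ζ * s^6 + (-19/6750) * ζ * s^5 * r + (-1/270) * ζ * s^4 * r^2 +
      (-1/270) * ζ * s^2 * r^4 + (19/6750) * ζ * s * r^5 + (197/60750) * ζ * r^6 +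
      (-11/3375) * s^6 + (7/2250) * s^5 * r + (1/405) * s^4 * r^2 + (1/405) * s^2 * r^4 +
      (-7/2250) * s * r^5 + (-11/3375) * r^6) * hζ

theorem xi1_param (hζ : ζ ^ 4 + ζ ^ 3 + ζ ^ 2 + ζ + 1 = 0) (s r : K) :
    xi1 ζ (pa ζ s r) (pb ζ s r) =
      (2 * s ^ 2 - r ^ 2) / 3 := by
  unfold xi1 sqrt5 kq5 pa pb
  linear_combination
    ((-4/25) * ζ^5 * s^2 + (-4/25) * ζ^5 * s * r + (4/25) * ζ^5 * r^2 + (4/25) * ζ^4 * s^2 +
      (-16/25) * ζ^4 * s * r + (-4/25) * ζ^4 * r^2 + (4/25) * ζ^3 * s^2 + (-16/25) * ζ^3 * s * r +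
      (-4/25) * ζ^3 * r^2 + (7/75) * ζ^2 * s^2 + (-6/25) * ζ^2 * s * r + (-17/75) * ζ^2 * r^2 +
      (47/75) * ζ * s^2 + (-6/25) * ζ * s * r + (-37/75) * ζ * r^2 + (-17/25) * s^2 +
      (-2/25) * s * r + (7/25) * r^2) * hζ

theorem eta1_param (hζ : ζ ^ 4 + ζ ^ 3 + ζ ^ 2 + ζ + 1 = 0) (s r : K) :
    eta1 ζ (pa ζ s r) (pb ζ s r) =
      (s + r) * (s ^ 2 - r ^ 2) / 2 := by
  unfold eta1 cl cm kq5 pa pb
  linear_combination
    ((4/125) * ζ^8 * s^3 + (16/125) * ζ^8 * s^2 * r + (8/125) * ζ^8 * s * r^2 +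
      (-12/125) * ζ^8 * r^3 + (-32/125) * ζ^7 * s^3 + (-28/125) * ζ^7 * s^2 * r +
      (76/125) * ζ^7 * s * r^2 + (16/125) * ζ^7 * r^3 + (32/125) * ζ^6 * s^3 +
      (-72/125) * ζ^6 * s^2 * r + (24/125) * ζ^6 * s * r^2 + (-16/125) * ζ^6 * r^3 +
      (-34/125) * ζ^5 * s^3 + (-186/125) * ζ^5 * s^2 * r + (102/125) * ζ^5 * s * r^2 +
      (62/125) * ζ^5 * r^3 + (16/25) * ζ^4 * s^3 + (-36/25) * ζ^4 * s^2 * r +
      (-12/25) * ζ^4 * s * r^2 + (76/125) * ζ^3 * s^3 + (-196/125) * ζ^3 * s^2 * r +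
      (-68/125) * ζ^3 * s * r^2 + (12/125) * ζ^3 * r^3 + (37/125) * ζ^2 * s^3 +
      (-127/125) * ζ^2 * s^2 * r + (-11/125) * ζ^2 * s * r^2 + (9/125) * ζ^2 * r^3 +
      (73/125) * ζ * s^3 + (17/125) * ζ * s^2 * r + (-59/125) * ζ * s * r^2 +
      (-59/125) * ζ * r^3 + (-61/125) * s^3 + (-69/125) * s^2 * r + (63/125) * s * r^2 +
      (63/125) * r^3) * hζ

theorem xi2_param (hζ : ζ ^ 4 + ζ ^ 3 + ζ ^ 2 + ζ + 1 = 0) (s r : K) :
    xi2 ζ (pa ζ s r) (pb ζ s r) =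
      (2 * r ^ 2 - s ^ 2) / 3 := by
  unfold xi2 sqrt5 kq5 pa pb
  linear_combination
    ((4/25) * ζ^5 * s^2 + (4/25) * ζ^5 * s * r + (-4/25) * ζ^5 * r^2 + (-4/25) * ζ^4 * s^2 +
      (16/25) * ζ^4 * s * r + (4/25) * ζ^4 * r^2 + (-4/25) * ζ^3 * s^2 + (16/25) * ζ^3 * s * r +
      (4/25) * ζ^3 * r^2 + (-17/75) * ζ^2 * s^2 + (6/25) * ζ^2 * s * r + (7/75) * ζ^2 * r^2 +
      (-37/75) * ζ * s^2 + (6/25) * ζ * s * r + (47/75) * ζ * r^2 + (7/25) * s^2 +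
      (2/25) * s * r + (-17/25) * r^2) * hζ

theorem eta2_param (hζ : ζ ^ 4 + ζ ^ 3 + ζ ^ 2 + ζ + 1 = 0) (s r : K) :
    eta2 ζ (pa ζ s r) (pb ζ s r) =
      (s - r) * (s ^ 2 - r ^ 2) / 2 := by
  unfold eta2 cl cm kq5 pa pb
  linear_combination
    ((12/125) * ζ^8 * s^3 + (8/125) * ζ^8 * s^2 * r + (-16/125) * ζ^8 * s * r^2 +
      (4/125) * ζ^8 * r^3 + (-16/125) * ζ^7 * s^3 + (76/125) * ζ^7 * s^2 * r +
      (28/125) * ζ^7 * s * r^2 + (-32/125) * ζ^7 * r^3 + (16/125) * ζ^6 * s^3 +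
      (24/125) * ζ^6 * s^2 * r + (72/125) * ζ^6 * s * r^2 + (32/125) * ζ^6 * r^3 +
      (-62/125) * ζ^5 * s^3 + (102/125) * ζ^5 * s^2 * r + (186/125) * ζ^5 * s * r^2 +
      (-34/125) * ζ^5 * r^3 + (-12/25) * ζ^4 * s^2 * r + (36/25) * ζ^4 * s * r^2 +
      (16/25) * ζ^4 * r^3 + (-12/125) * ζ^3 * s^3 + (-68/125) * ζ^3 * s^2 * r +
      (196/125) * ζ^3 * s * r^2 + (76/125) * ζ^3 * r^3 + (-9/125) * ζ^2 * s^3 +
      (-11/125) * ζ^2 * s^2 * r + (127/125) * ζ^2 * s * r^2 + (37/125) * ζ^2 * r^3 +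
      (59/125) * ζ * s^3 + (-59/125) * ζ * s^2 * r + (-17/125) * ζ * s * r^2 +
      (73/125) * ζ * r^3 + (-63/125) * s^3 + (63/125) * s^2 * r + (69/125) * s * r^2 +
      (-61/125) * r^3) * hζ

end Identities

section GroupLaw

variable {K : Type*} [Field K] [CharZero K] [DecidableEq K]

/-- Doubling a point with `y ≠ 0` on a short Weierstrass curve: tangent slope `ℓ`,
`x' = ℓ² - 2x`, `y' = -(ℓ (x' - x) + y)`. -/
theorem two_nsmul_some {E : WeierstrassCurve K} (h1 : E.a₁ = 0) (h2 : E.a₂ = 0) (h3 : E.a₃ = 0)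
    {x y : K} (h : E.toAffine.Nonsingular x y) (hy : y ≠ 0) :
    ∃ (ℓ x' y' : K) (h' : E.toAffine.Nonsingular x' y'),
      2 • (Point.some x y h) = Point.some x' y' h' ∧ 2 * y * ℓ = 3 * x ^ 2 + E.a₄ ∧
        x' = ℓ ^ 2 - 2 * x ∧ y' = -(ℓ * (x' - x) + y) := by
  have hneg : E.toAffine.negY x y = -y := by
    simp [Affine.negY, h1, h3]
  have hy' : y ≠ E.toAffine.negY x y := by
    rw [hneg]
    intro h0
    apply hy
    have h20 : 2 * y = 0 := by linear_combination h0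
    simpa using h20
  refine ⟨E.toAffine.slope x x y y, _, _, nonsingular_add h h fun hxy => hy' hxy.right,
    ?_, ?_, ?_, ?_⟩
  · rw [two_nsmul, Point.add_self_of_Y_ne hy']
  · rw [Affine.slope_of_Y_ne rfl hy', hneg, h1, h2]
    field_simp
    ring
  · simp only [Affine.addX, h1, h2]
    ring
  · simp only [Affine.addY, Affine.negAddY, Affine.negY, Affine.addX, h1, h2, h3]
    ring

omit [CharZero K] in
/-- A point with `y = 0` on a short Weierstrass curve is killed by `2`. -/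
theorem two_nsmul_some_eq_zero {E : WeierstrassCurve K} (h1 : E.a₁ = 0) (h3 : E.a₃ = 0)
    {x y : K} (h : E.toAffine.Nonsingular x y) (hy : y = 0) :
    2 • (Point.some x y h) = 0 := by
  rw [two_nsmul]
  apply Point.add_self_of_Y_eq
  simp [Affine.negY, h1, h3, hy]

/-- **Slope parametrisation** (full form): every nonzero point `P` of order 5 on
`y² = x³ + 27 H x + 54 T` is `(xi1, eta1)(a, b)` for a solution `(a, b)` of `kH5 a b = H`,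
`kT5 a b = T`; moreover `2 P = (xi2, eta2)(a, b)`, and `(a, b)` is fixed by every ring endomorphism
fixing `ζ`, `H` and the coordinates of `P`. -/
theorem exists_klein_param' {ζ : K} (hζ : ζ ^ 4 + ζ ^ 3 + ζ ^ 2 + ζ + 1 = 0)
    {E : WeierstrassCurve K} (h1 : E.a₁ = 0) (h2 : E.a₂ = 0) (h3 : E.a₃ = 0) {H T : K}
    (h4 : E.a₄ = 27 * H) (h6 : E.a₆ = 54 * T) (P : E.toAffine.Point) (hP : P ≠ 0)
    (h5 : 5 • P = 0) :
    ∃ a b : K, kH5 a b = H ∧ kT5 a b = T ∧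
      (∃ h : E.toAffine.Nonsingular (xi1 ζ a b) (eta1 ζ a b), P = Point.some _ _ h) ∧
      (∃ h : E.toAffine.Nonsingular (xi2 ζ a b) (eta2 ζ a b), 2 • P = Point.some _ _ h) ∧
      ∀ τ : K →+* K, τ ζ = ζ → τ H = H → τ (xi1 ζ a b) = xi1 ζ a b →
        τ (eta1 ζ a b) = eta1 ζ a b → τ a = a ∧ τ b = b := by
  rcases P with _ | ⟨x0, y0, hns⟩
  · exact absurd rfl hP
  have hsplit : ∀ Q : E.toAffine.Point, Q = 5 • Q - 2 • (2 • Q) := by
    intro Q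
    abel
  have hy0 : y0 ≠ 0 := by
    intro hy0
    apply hP
    rw [hsplit (Point.some x0 y0 hns), h5, two_nsmul_some_eq_zero h1 h3 hns hy0]
    simp
  obtain ⟨s, x2, y2, hns2, h2P, es, ex2, ey2⟩ := two_nsmul_some h1 h2 h3 hns hy0
  have hy2 : y2 ≠ 0 := by
    intro hy2
    apply hP
    rw [hsplit (Point.some x0 y0 hns), h5, h2P, two_nsmul_some_eq_zero h1 h3 hns2 hy2]
    simp
  obtain ⟨r, x4, y4, hns4, h4P, er, ex4, ey4⟩ := two_nsmul_some h1 h2 h3 hns2 hy2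
  have hneg : Point.some x4 y4 hns4 = -Point.some x0 y0 hns := by
    rw [← h4P, ← h2P]
    have h' : ∀ Q : E.toAffine.Point, 2 • (2 • Q) = 5 • Q - Q := by
      intro Q
      abel
    rw [h', h5, zero_sub]
  rw [Point.neg_some] at hneg
  injection hneg with hx4 hy4
  have hy4' : y4 = -y0 := by
    rw [hy4]
    simp [Affine.negY, h1, h3]
  rw [h4] at es er
  have heq := (E.toAffine.equation_iff x0 y0).mp hns.1
  rw [h1, h2, h3, h4, h6] at heq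
  have h3x0 : 3 * x0 = 2 * s ^ 2 - r ^ 2 := by linear_combination hx4 - ex4 + 2 * ex2
  have h3x2 : 3 * x2 = 2 * r ^ 2 - s ^ 2 := by linear_combination 3 * ex2 - 2 * h3x0
  have h2y0 : 2 * y0 = (s + r) * (x0 - x2) := by linear_combination ey2 - ey4 + hy4' + r * hx4
  have hx0 : x0 = (2 * s ^ 2 - r ^ 2) / 3 := by
    field_simp
    linear_combination h3x0
  have hx2 : x2 = (2 * r ^ 2 - s ^ 2) / 3 := by
    field_simp
    linear_combination h3x2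
  have hy0' : y0 = (s + r) * (s ^ 2 - r ^ 2) / 2 := by
    field_simp
    rw [hx0, hx2] at h2y0
    linear_combination h2y0
  have hy2' : y2 = (s - r) * (s ^ 2 - r ^ 2) / 2 := by
    rw [ey2, hy0', hx0, hx2]
    ring
  have hH : H = (2 * y0 * s - 3 * x0 ^ 2) / 27 := by
    field_simp
    linear_combination -es
  have hT : T = (y0 ^ 2 - x0 ^ 3 - 27 * H * x0) / 54 := by
    field_simp
    linear_combination -heq
  have e1 : xi1 ζ (pa ζ s r) (pb ζ s r) = x0 := by rw [xi1_param hζ, hx0]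
  have e2 : eta1 ζ (pa ζ s r) (pb ζ s r) = y0 := by rw [eta1_param hζ, hy0']
  have e3 : xi2 ζ (pa ζ s r) (pb ζ s r) = x2 := by rw [xi2_param hζ, hx2]
  have e4 : eta2 ζ (pa ζ s r) (pb ζ s r) = y2 := by rw [eta2_param hζ, hy2']
  refine ⟨pa ζ s r, pb ζ s r, ?_, ?_, ?_, ?_, ?_⟩
  · rw [kH5_param hζ, hH, hy0', hx0]
    ring
  · rw [kT5_param hζ, hT, hH, hy0', hx0]
    ring
  · rw [e1, e2]
    exact ⟨hns, rfl⟩
  · rw [e3, e4]
    exact ⟨hns2, h2P⟩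
  · intro τ hτζ hτH hτx hτy
    rw [e1] at hτx
    rw [e2] at hτy
    have h2y : (2 : K) * y0 ≠ 0 := mul_ne_zero two_ne_zero hy0
    have hs : τ s = s := by
      apply mul_left_cancel₀ h2y
      have h := congrArg τ es
      simp only [map_mul, map_add, map_pow, map_ofNat, hτx, hτy, hτH] at h
      rw [h, es]
    have hτx2 : τ x2 = x2 := by
      rw [ex2]
      simp only [map_sub, map_mul, map_pow, map_ofNat, hs, hτx]
    have hτy2 : τ y2 = y2 := by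
      rw [ey2]
      simp only [map_neg, map_add, map_sub, map_mul, hs, hτx, hτy, hτx2]
    have h2y2 : (2 : K) * y2 ≠ 0 := mul_ne_zero two_ne_zero hy2
    have hr : τ r = r := by
      apply mul_left_cancel₀ h2y2
      have h := congrArg τ er
      simp only [map_mul, map_add, map_pow, map_ofNat, hτx2, hτy2, hτH] at h
      rw [h, er]
    constructor
    · unfold pa
      simp only [map_div₀, map_add, map_mul, map_pow, map_neg, map_ofNat, map_one, hs, hr, hτζ]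
    · unfold pb
      simp only [map_div₀, map_add, map_sub, map_mul, map_pow, map_neg, map_ofNat, map_one, hs, hr,
        hτζ]

/-- **Slope parametrisation** (short form): every nonzero point of order 5 on
`y² = x³ + 27 H x + 54 T` is `(xi1, eta1)(a, b)` for a solution `(a, b)` of `kH5 a b = H`,
`kT5 a b = T`. -/
theorem exists_klein_param {ζ : K} (hζ : ζ ^ 4 + ζ ^ 3 + ζ ^ 2 + ζ + 1 = 0)
    {E : WeierstrassCurve K} (h1 : E.a₁ = 0) (h2 : E.a₂ = 0) (h3 : E.a₃ = 0) {H T : K}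
    (h4 : E.a₄ = 27 * H) (h6 : E.a₆ = 54 * T) (P : E.toAffine.Point) (hP : P ≠ 0)
    (h5 : 5 • P = 0) :
    ∃ a b : K, kH5 a b = H ∧ kT5 a b = T ∧
      ∃ h : E.toAffine.Nonsingular (xi1 ζ a b) (eta1 ζ a b), P = Point.some _ _ h := by
  obtain ⟨a, b, hH, hT, hP', -, -⟩ := exists_klein_param' hζ h1 h2 h3 h4 h6 P hP h5
  exact ⟨a, b, hH, hT, hP'⟩

end GroupLaw

end Fermat.Agent.S52.SlopeParam7
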