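/-
S52 brick CERT-4, instantiated (helper1): **a root `θ` of `C6` fixed by an automorphism negating `√3`**, with the
bricks CERT-2 (`Cert2Inertia1`), 4a (`QuinticRoot4`), 4b (`AxisRecover4`), 4c (`SlopeParam7`) discharged.
The only remaining input is the FAM property of the family polynomial `C6`:
`kT5 = 0` at the deformed Klein point `(a (1 + t A)⁵, b (1 - t B)⁵)` implies `C6(t) = 0`.
-/
import Fermat.Agent.S52.Cert4Asm1
import Fermat.Agent.S52.Cert2Inertia1
import Fermat.Agent.S52.AxisRecover4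
import Fermat.Agent.S52.SlopeParam7

set_option autoImplicit false

open WeierstrassCurve WeierstrassCurve.Affine WeierstrassCurve.Affine.Point Polynomial

namespace Fermat.Agent.S52.Cert4Final1

open Fermat.Agent.S52.Klein7 Fermat.Agent.S52.ShortTransport2

local notation "Qb" => AlgebraicClosure ℚ
local notation "GQ" => (AlgebraicClosure ℚ ≃ₐ[ℚ] AlgebraicClosure ℚ)

/-- a root of the fifth cyclotomic polynomial in `ℚ̄`. -/
theorem exists_zeta5 : ∃ ζ : Qb, ζ ^ 4 + ζ ^ 3 + ζ ^ 2 + ζ + 1 = 0 := by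
  obtain ⟨ζ, hζ⟩ := IsAlgClosed.exists_root (Polynomial.cyclotomic 5 Qb)
    (Polynomial.degree_cyclotomic_pos 5 Qb (by norm_num)).ne'
  refine ⟨ζ, ?_⟩
  have : Fact (Nat.Prime 5) := ⟨by norm_num⟩
  rw [Polynomial.IsRoot.def, Polynomial.cyclotomic_prime, Polynomial.eval_finsetSum] at hζ
  simp only [Finset.sum_range_succ, Finset.sum_range_zero, Polynomial.eval_pow,
    Polynomial.eval_X] at hζ
  linear_combination hζ

/-- **(4c) on the short model**: every nonzero `5`-torsion point of `y² = x³ - 27 c₄ x - 54 c₆` is the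
axis-`∞` section at a Klein point `(a, b)` over `(-c₄, -c₆)`. -/
theorem klein_param_short (W : WeierstrassCurve ℤ) {ζ : Qb} (hz : ζ ^ 4 + ζ ^ 3 + ζ ^ 2 + ζ + 1 = 0)
    (x y : Qb) (h : ((shortOf W)⁄Qb).Nonsingular x y)
    (h5 : 5 • (Point.some x y h : ((shortOf W)⁄Qb).Point) = 0) :
    ∃ a b : Qb, kH5 a b = -(W.c₄ : Qb) ∧ kT5 a b = -(W.c₆ : Qb) ∧
      x = SlopeParam7.xi1 ζ a b ∧ y = SlopeParam7.eta1 ζ a b := by
  have h1 : ((shortOf W).baseChange Qb).a₁ = 0 := by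
    simp [shortOf, shortW, WeierstrassCurve.baseChange]
  have h2 : ((shortOf W).baseChange Qb).a₂ = 0 := by
    simp [shortOf, shortW, WeierstrassCurve.baseChange]
  have h3 : ((shortOf W).baseChange Qb).a₃ = 0 := by
    simp [shortOf, shortW, WeierstrassCurve.baseChange]
  have h4 : ((shortOf W).baseChange Qb).a₄ = 27 * (-(W.c₄ : Qb)) := by
    simp [shortOf, shortW, WeierstrassCurve.baseChange]
  have h6 : ((shortOf W).baseChange Qb).a₆ = 54 * (-(W.c₆ : Qb)) := by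
    simp [shortOf, shortW, WeierstrassCurve.baseChange]
  obtain ⟨a, b, hH, hT, h', hP⟩ := SlopeParam7.exists_klein_param hz
    (E := (shortOf W).baseChange Qb) h1 h2 h3 h4 h6 (Point.some x y h) (Point.some_ne_zero h) h5
  simp only [Point.some.injEq] at hP
  exact ⟨a, b, hH, hT, hP.1, hP.2⟩

/-- **CERT-4**: for a semistable `W` with `Δ ≠ 0` and a polynomial `C6` with the FAM property, there are
`θ, s ∈ ℚ̄` and `g ∈ G_ℚ` with `s² = 3`, `g s = -s`, `g θ = θ`, `C6(θ) = 0`. -/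
theorem exists_cert4 (W : WeierstrassCurve ℤ) (hΔ : W.Δ ≠ 0) (hss : W.IsSemistableModel)
    (C6 : ℤ[X])
    (hFAM : ∀ a b t : Qb, kH5 a b = -(W.c₄ : Qb) → kT5 a b = -(W.c₆ : Qb) →
      kT5 (a * (1 + t * kA5 a b) ^ 5) (b * (1 - t * kB5 a b) ^ 5) = 0 → aeval t C6 = 0) :
    ∃ (θ s : Qb) (g : GQ), s ^ 2 = 3 ∧ g s = -s ∧ g θ = θ ∧ aeval θ C6 = 0 := by
  obtain ⟨ζ, hz⟩ := exists_zeta5
  refine Cert4Asm1.exists_cert4 W hΔ hss Cert2Inertia1.exists_inertia_neg_sqrt3 hz
    (fun P hP τ hτ => Cert2Inertia1.inertia_three_fixes_zeta5 P hP hz hτ)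
    (fun P hP τ hτ ι hι => Cert2Inertia1.inertia_three_fixes_I P hP hι hτ)
    (SlopeParam7.xi1 ζ) (SlopeParam7.eta1 ζ) ?_ ?_ ?_ (klein_param_short W hz) C6 hFAM
  · intro τ hτζ a b
    simp only [SlopeParam7.xi1, SlopeParam7.sqrt5, kq5, map_add, map_sub, map_mul, map_pow, map_neg,
      map_div₀, map_ofNat, map_one, hτζ]
  · intro τ hτζ a b
    simp only [SlopeParam7.eta1, SlopeParam7.cl, SlopeParam7.cm, kq5, map_add, map_sub, map_mul,
      map_pow, map_div₀, map_ofNat, map_one, hτζ]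
  · intro a b a' b' hq hx hy hH
    exact AxisRecover4.recover hz hq hx hy hH

end Fermat.Agent.S52.Cert4Final1
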