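/-
S52, LS glue, abstract part (helper1): **`(ℤ/5)²`-level structures on abstract groups and transfer of additivity.**

`G`, `G'` additive commutative groups.
* `lvl P Q hP hQ : ZMod 5 × ZMod 5 →+ G`, `(i, j) ↦ i • P + j • Q`, for `P Q` killed by `5`;
* `lvl_injective` : injective as soon as `lvl v ≠ 0` for `v ≠ 0`;
* `exists_eq_lvl` : if moreover the `5`-torsion of `G` has at most `25` elements, every `5`-torsion element is a value;
* `additive_of_lvl` / `exists_ne_zero_of_lvl` : a plain function `Θ : G → G'` with `Θ (φ v) = φ' v` is additive on the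
  `5`-torsion and not identically zero there — exactly the hypotheses `hadd`, `hne` of
  `ShortTransport2.dvd_apOfModel_sub_of_fun`.
-/
import Mathlib

set_option autoImplicit false

namespace Fermat.Agent.S52.LevelGlue1

variable {G G' : Type*} [AddCommGroup G] [AddCommGroup G']

/-- the homomorphism `ZMod 5 →+ G`, `i ↦ i • P` for `P` killed by `5`. -/
noncomputable def mulHom (P : G) (hP : 5 • P = 0) : ZMod 5 →+ G :=
  ZMod.lift 5 ⟨zmultiplesHom G P, by
    show (5 : ℤ) • P = 0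
    have : ((5 : ℕ) : ℤ) • P = 0 := by rw [natCast_zsmul]; exact hP
    simpa using this⟩

theorem mulHom_intCast (P : G) (hP : 5 • P = 0) (i : ℤ) : mulHom P hP (i : ZMod 5) = i • P := by
  unfold mulHom
  rw [ZMod.lift_coe]
  rfl

theorem mulHom_natCast (P : G) (hP : 5 • P = 0) (i : ℕ) : mulHom P hP (i : ZMod 5) = i • P := by
  have := mulHom_intCast P hP (i : ℤ)
  rw [natCast_zsmul] at this
  rw [← this]
  norm_cast

theorem mulHom_one (P : G) (hP : 5 • P = 0) : mulHom P hP 1 = P := by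
  have := mulHom_natCast P hP 1
  rwa [Nat.cast_one, one_nsmul] at this

/-- **the level structure** `(i, j) ↦ i • P + j • Q`. -/
noncomputable def lvl (P Q : G) (hP : 5 • P = 0) (hQ : 5 • Q = 0) : ZMod 5 × ZMod 5 →+ G :=
  (mulHom P hP).coprod (mulHom Q hQ)

theorem lvl_apply (P Q : G) (hP : 5 • P = 0) (hQ : 5 • Q = 0) (i j : ZMod 5) :
    lvl P Q hP hQ (i, j) = mulHom P hP i + mulHom Q hQ j := by
  unfold lvl
  rw [AddMonoidHom.coprod_apply]

theorem lvl_natCast (P Q : G) (hP : 5 • P = 0) (hQ : 5 • Q = 0) (i j : ℕ) :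
    lvl P Q hP hQ ((i : ZMod 5), (j : ZMod 5)) = i • P + j • Q := by
  rw [lvl_apply, mulHom_natCast, mulHom_natCast]

theorem lvl_intCast (P Q : G) (hP : 5 • P = 0) (hQ : 5 • Q = 0) (i j : ℤ) :
    lvl P Q hP hQ ((i : ZMod 5), (j : ZMod 5)) = i • P + j • Q := by
  rw [lvl_apply, mulHom_intCast, mulHom_intCast]

theorem lvl_one_zero (P Q : G) (hP : 5 • P = 0) (hQ : 5 • Q = 0) : lvl P Q hP hQ (1, 0) = P := by
  rw [lvl_apply, mulHom_one, map_zero, add_zero]

theorem lvl_zero_one (P Q : G) (hP : 5 • P = 0) (hQ : 5 • Q = 0) : lvl P Q hP hQ (0, 1) = Q := by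
  rw [lvl_apply, mulHom_one, map_zero, zero_add]

/-- every value of a homomorphism from `(ℤ/5)²` is killed by `5`. -/
theorem five_nsmul_apply (φ : ZMod 5 × ZMod 5 →+ G) (v : ZMod 5 × ZMod 5) : 5 • φ v = 0 := by
  rw [← map_nsmul]
  have h5 : ∀ w : ZMod 5 × ZMod 5, (5 : ℕ) • w = 0 := by decide
  have := h5 v
  rw [this, map_zero]

/-- injectivity from nonvanishing off zero. -/
theorem injective_of_ne_zero (φ : ZMod 5 × ZMod 5 →+ G) (h : ∀ v, v ≠ 0 → φ v ≠ 0) :
    Function.Injective φ := by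
  rw [injective_iff_map_eq_zero]
  intro v hv
  by_contra hne
  exact h v hne hv

/-- **surjectivity onto the `5`-torsion by counting.** -/
theorem exists_eq_apply (φ : ZMod 5 × ZMod 5 →+ G) (hinj : Function.Injective φ)
    (hfin : {R : G | 5 • R = 0}.Finite) (hcard : {R : G | 5 • R = 0}.ncard ≤ 25) {R : G}
    (hR : 5 • R = 0) : ∃ v, φ v = R := by
  have hsub : Set.range φ ⊆ {R : G | 5 • R = 0} := by
    rintro _ ⟨v, rfl⟩
    exact five_nsmul_apply φ v
  have hrange : (Set.range φ).ncard = 25 := by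
    rw [← Set.image_univ, Set.ncard_image_of_injective _ hinj, Set.ncard_univ]
    simp [Nat.card_eq_fintype_card]
  have heq : Set.range φ = {R : G | 5 • R = 0} :=
    Set.eq_of_subset_of_ncard_le hsub (by rw [hrange]; exact hcard) hfin
  have : R ∈ Set.range φ := by rw [heq]; exact hR
  exact this

/-- **transfer of additivity**: a function `Θ` intertwining two level structures, the first one exhausting the
`5`-torsion, is additive on the `5`-torsion. -/
theorem additive_of_lvl (φ : ZMod 5 × ZMod 5 →+ G) (φ' : ZMod 5 × ZMod 5 →+ G') (Θ : G → G')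
    (hsurj : ∀ R : G, 5 • R = 0 → ∃ v, φ v = R) (hΘ : ∀ v, Θ (φ v) = φ' v) (R S : G)
    (hR : 5 • R = 0) (hS : 5 • S = 0) : Θ (R + S) = Θ R + Θ S := by
  obtain ⟨v, rfl⟩ := hsurj R hR
  obtain ⟨w, rfl⟩ := hsurj S hS
  rw [← map_add, hΘ, hΘ, hΘ, map_add]

/-- `Θ` is not identically zero on the `5`-torsion. -/
theorem exists_ne_zero_of_lvl (φ : ZMod 5 × ZMod 5 →+ G) (φ' : ZMod 5 × ZMod 5 →+ G') (Θ : G → G')
    (hΘ : ∀ v, Θ (φ v) = φ' v) {v : ZMod 5 × ZMod 5} (hv : φ' v ≠ 0) :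
    ∃ R : G, 5 • R = 0 ∧ Θ R ≠ 0 :=
  ⟨φ v, five_nsmul_apply φ v, by rw [hΘ]; exact hv⟩

/-- the classification of the vectors of `(ℤ/5)²` used to enumerate the `24` nonzero torsion points:
`0`, `±(k, 1)`, `±(2k, 2)`, `±(1, 0)`, `±(2, 0)`. -/
theorem vec_cases (v : ZMod 5 × ZMod 5) :
    v = 0 ∨ (∃ k : ZMod 5, v = (k, 1)) ∨ (∃ k : ZMod 5, v = -(k, 1)) ∨
      (∃ k : ZMod 5, v = (2 * k, 2)) ∨ (∃ k : ZMod 5, v = -(2 * k, 2)) ∨
      v = (1, 0) ∨ v = -(1, 0) ∨ v = (2, 0) ∨ v = -(2, 0) := by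
  revert v
  decide

end Fermat.Agent.S52.LevelGlue1
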