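/-
S52, LS glue, abstract bookkeeping (helper1): **from four families of points to a `(ℤ/5)²`-level structure.**

In an additive commutative group `G` let `A₁ A₂ : G`, `B C : ℕ → G` (in the application
`A₁ = P_(1,0)`, `A₂ = P_(2,0)`, `B k = P_(0,1)(u, ζᵏ v)`, `C k = P_(0,2)(u, ζᵏ v)`) satisfy
`2 B k = C k`, `2 C k = -B k`, `2 A₁ = A₂`, `2 A₂ = -A₁`, `B k + A₁ = B (k+1)`.
Then `φ := lvl A₁ (B 0)` has `φ (k, 1) = B k`, `φ (2k, 2) = C k`, `φ (1, 0) = A₁`, `φ (2, 0) = A₂`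
(`exists_lvl`).  A function `Θ : G → G'` which is odd, kills `0`, and maps the four families to the corresponding
primed families intertwines the two level structures (`intertwines`).  If all the listed points are nonzero, `φ` does
not vanish off `0` (`ne_zero_of_data`).
-/
import Fermat.Agent.S52.LevelGlue1

set_option autoImplicit false

namespace Fermat.Agent.S52.LevelGlueB1

open Fermat.Agent.S52.LevelGlue1

variable {G G' : Type*} [AddCommGroup G] [AddCommGroup G']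

/-- the properties of a level structure `φ` with respect to the four families. -/
structure IsLvlOf (φ : ZMod 5 × ZMod 5 →+ G) (A₁ A₂ : G) (B C : ℕ → G) : Prop where
  b : ∀ k : ℕ, φ ((k : ZMod 5), 1) = B k
  c : ∀ k : ℕ, φ (2 * (k : ZMod 5), 2) = C k
  a1 : φ (1, 0) = A₁
  a2 : φ (2, 0) = A₂

theorem five_nsmul_of_double {P Q : G} (h1 : 2 • P = Q) (h2 : 2 • Q = -P) : 5 • P = 0 := by
  have h4 : 4 • P = -P := by
    rw [show (4 : ℕ) = 2 * 2 from rfl, mul_nsmul, h1, h2]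
  have : 5 • P = 4 • P + P := by rw [succ_nsmul]
  rw [this, h4, neg_add_cancel]

/-- **existence of the level structure attached to the four families.** -/
theorem exists_lvl (A₁ A₂ : G) (B C : ℕ → G) (r1 : ∀ k, 2 • B k = C k) (r2 : ∀ k, 2 • C k = -B k)
    (r3 : 2 • A₁ = A₂) (r4 : 2 • A₂ = -A₁) (r5 : ∀ k, B k + A₁ = B (k + 1)) :
    ∃ φ : ZMod 5 × ZMod 5 →+ G, IsLvlOf φ A₁ A₂ B C := by
  have hA : 5 • A₁ = 0 := five_nsmul_of_double r3 r4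
  have hB : 5 • B 0 = 0 := five_nsmul_of_double (r1 0) (r2 0)
  have hBk : ∀ k : ℕ, B k = k • A₁ + B 0 := by
    intro k
    induction k with
    | zero => rw [zero_nsmul, zero_add]
    | succ n ih => rw [← r5 n, ih, succ_nsmul]; abel
  refine ⟨lvl A₁ (B 0) hA hB, ⟨?_, ?_, ?_, ?_⟩⟩
  · intro k
    have := lvl_natCast A₁ (B 0) hA hB k 1
    rw [Nat.cast_one, one_nsmul] at this
    rw [this, hBk k]
  · intro k
    have := lvl_natCast A₁ (B 0) hA hB (2 * k) 2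
    have h2 : ((2 : ℕ) : ZMod 5) = 2 := by norm_num
    rw [Nat.cast_mul, h2] at this
    rw [this, ← r1 k, hBk k, nsmul_add, mul_nsmul']
  · exact lvl_one_zero A₁ (B 0) hA hB
  · have := lvl_natCast A₁ (B 0) hA hB 2 0
    have h2 : ((2 : ℕ) : ZMod 5) = 2 := by norm_num
    rw [h2, Nat.cast_zero, zero_nsmul, add_zero, r3] at this
    exact this

/-- every `k : ZMod 5` is the cast of a natural number. -/
theorem zmod_eq_natCast (k : ZMod 5) : ∃ n : ℕ, k = (n : ZMod 5) :=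
  ⟨k.val, (ZMod.natCast_zmod_val k).symm⟩

/-- **`Θ` intertwines the level structures.** -/
theorem intertwines {φ : ZMod 5 × ZMod 5 →+ G} {φ' : ZMod 5 × ZMod 5 →+ G'} {A₁ A₂ : G}
    {B C : ℕ → G} {A₁' A₂' : G'} {B' C' : ℕ → G'} (hφ : IsLvlOf φ A₁ A₂ B C)
    (hφ' : IsLvlOf φ' A₁' A₂' B' C') (Θ : G → G') (h0 : Θ 0 = 0) (hneg : ∀ R, Θ (-R) = -Θ R)
    (hB : ∀ k, Θ (B k) = B' k) (hC : ∀ k, Θ (C k) = C' k) (hA1 : Θ A₁ = A₁') (hA2 : Θ A₂ = A₂')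
    (v : ZMod 5 × ZMod 5) : Θ (φ v) = φ' v := by
  rcases vec_cases v with rfl | ⟨k, rfl⟩ | ⟨k, rfl⟩ | ⟨k, rfl⟩ | ⟨k, rfl⟩ | rfl | rfl | rfl | rfl
  · rw [map_zero, map_zero, h0]
  · obtain ⟨n, rfl⟩ := zmod_eq_natCast k
    rw [hφ.b, hφ'.b, hB]
  · obtain ⟨n, rfl⟩ := zmod_eq_natCast k
    rw [map_neg, map_neg, hneg, hφ.b, hφ'.b, hB]
  · obtain ⟨n, rfl⟩ := zmod_eq_natCast k
    rw [hφ.c, hφ'.c, hC]
  · obtain ⟨n, rfl⟩ := zmod_eq_natCast k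
    rw [map_neg, map_neg, hneg, hφ.c, hφ'.c, hC]
  · rw [hφ.a1, hφ'.a1, hA1]
  · rw [map_neg, map_neg, hneg, hφ.a1, hφ'.a1, hA1]
  · rw [hφ.a2, hφ'.a2, hA2]
  · rw [map_neg, map_neg, hneg, hφ.a2, hφ'.a2, hA2]

/-- **nonvanishing off zero.** -/
theorem ne_zero_of_data {φ : ZMod 5 × ZMod 5 →+ G} {A₁ A₂ : G} {B C : ℕ → G}
    (hφ : IsLvlOf φ A₁ A₂ B C) (hB : ∀ k, B k ≠ 0) (hC : ∀ k, C k ≠ 0) (hA1 : A₁ ≠ 0)
    (hA2 : A₂ ≠ 0) (v : ZMod 5 × ZMod 5) (hv : v ≠ 0) : φ v ≠ 0 := by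
  rcases vec_cases v with rfl | ⟨k, rfl⟩ | ⟨k, rfl⟩ | ⟨k, rfl⟩ | ⟨k, rfl⟩ | rfl | rfl | rfl | rfl
  · exact absurd rfl hv
  · obtain ⟨n, rfl⟩ := zmod_eq_natCast k
    rw [hφ.b]; exact hB n
  · obtain ⟨n, rfl⟩ := zmod_eq_natCast k
    rw [map_neg, hφ.b, neg_ne_zero]; exact hB n
  · obtain ⟨n, rfl⟩ := zmod_eq_natCast k
    rw [hφ.c]; exact hC n
  · obtain ⟨n, rfl⟩ := zmod_eq_natCast k
    rw [map_neg, hφ.c, neg_ne_zero]; exact hC n
  · rw [hφ.a1]; exact hA1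
  · rw [map_neg, hφ.a1, neg_ne_zero]; exact hA1
  · rw [hφ.a2]; exact hA2
  · rw [map_neg, hφ.a2, neg_ne_zero]; exact hA2

end Fermat.Agent.S52.LevelGlueB1
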