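/-
S52, LS glue, elliptic-curve part (helper1): **a `(ℤ/5)²`-level structure without zeros exhausts `E[5]`; transfer of
additivity for plain functions between point groups.**

`F` a field with `5 ≠ 0`, `W W' : WeierstrassCurve.Affine F`.  `E[5]` has at most `25` points
(`DivPoly.A1Final.torsion_finite_ncard_le`), so a homomorphism `φ : (ℤ/5)² → W(F)` with `φ v ≠ 0` for `v ≠ 0` is a
bijection onto `W(F)[5]`.  Hence a function `Θ : W(F) → W'(F)` with `Θ (φ v) = φ' v` for all `v` is additive on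
`W(F)[5]` and nonzero there — the hypotheses `hadd`, `hne` of `ShortTransport2.dvd_apOfModel_sub_of_fun`.
-/
import Fermat.Agent.DivPoly.A1Final
import Fermat.Agent.S52.LevelGlue1

set_option autoImplicit false

open WeierstrassCurve WeierstrassCurve.Affine

namespace Fermat.Agent.S52.LevelGlueEC1

open Fermat.Agent.S52.LevelGlue1

variable {F : Type*} [Field F] [DecidableEq F] {W W' : Affine F}

/-- the `5`-torsion of `W(F)` is finite with at most `25` elements. -/
theorem five_torsion_finite (h5 : (5 : F) ≠ 0) :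
    {R : W.Point | 5 • R = 0}.Finite ∧ {R : W.Point | 5 • R = 0}.ncard ≤ 25 := by
  have h := Fermat.Agent.DivPoly.A1Final.torsion_finite_ncard_le (W := W) (n := 5) (by decide)
    (by exact_mod_cast h5)
  exact ⟨h.1, by simpa using h.2⟩

/-- **a level structure without zeros exhausts the `5`-torsion.** -/
theorem exists_eq_apply (h5 : (5 : F) ≠ 0) (φ : ZMod 5 × ZMod 5 →+ W.Point)
    (hφ : ∀ v, v ≠ 0 → φ v ≠ 0) (R : W.Point) (hR : 5 • R = 0) : ∃ v, φ v = R :=
  LevelGlue1.exists_eq_apply φ (injective_of_ne_zero φ hφ) (five_torsion_finite h5).1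
    (five_torsion_finite h5).2 hR

/-- **transfer of additivity** (`hadd`). -/
theorem additive (h5 : (5 : F) ≠ 0) (φ : ZMod 5 × ZMod 5 →+ W.Point)
    (φ' : ZMod 5 × ZMod 5 →+ W'.Point) (hφ : ∀ v, v ≠ 0 → φ v ≠ 0) (Θ : W.Point → W'.Point)
    (hΘ : ∀ v, Θ (φ v) = φ' v) (R S : W.Point) (hR : 5 • R = 0) (hS : 5 • S = 0) :
    Θ (R + S) = Θ R + Θ S :=
  additive_of_lvl φ φ' Θ (exists_eq_apply h5 φ hφ) hΘ R S hR hS

/-- **nonvanishing** (`hne`). -/
theorem exists_ne_zero (φ : ZMod 5 × ZMod 5 →+ W.Point) (φ' : ZMod 5 × ZMod 5 →+ W'.Point)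
    (hφ' : ∀ v, v ≠ 0 → φ' v ≠ 0) (Θ : W.Point → W'.Point) (hΘ : ∀ v, Θ (φ v) = φ' v) :
    ∃ R : W.Point, 5 • R = 0 ∧ Θ R ≠ 0 :=
  exists_ne_zero_of_lvl φ φ' Θ hΘ (v := (1, 0)) (hφ' (1, 0) (by decide))

end Fermat.Agent.S52.LevelGlueEC1
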