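/-
S52 toolkit (helper2), brick SLOPE-THETA: **the mod-5 family acts on tangent slopes by one rational polynomial.**

For a point `P = (x, y)` of order `5` on `y² = x³ + 27 H x + 54 T` with `2P = (x2, y2)`, let `s`, `s2` be the tangent
slopes at `P`, `2P`.  Then `x = (2 s² − s2²)/3 = sx s s2`, `y = (s + s2)(s² − s2²)/2 = sy s s2`,
`x2 = sx s2 (−s)`, `y2 = sy s2 (−s)`, `s² = x2 + 2x`, `s2² = x + 2 x2`, `s (x − x2) = y + y2`,
`s2 (x − x2) = y − y2`, `s s2 (x − x2) = 27 H + x² + x x2 + x2²`.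
In Klein coordinates the slopes of the sections `P_(0,1)`, `P_(0,2)`, `P_(1,0)`, `P_(2,0)` are the quintic forms
`sl01 u v`, `sl02 u v`, `sl10 ζ a b = α a + β b`, `sl20 ζ a b = β a − α b` (`a = u⁵`, `b = v⁵`), and the deformation
`z ↦ z' = z + t • grad^⊥ kf (z) = (u (1 + t A), v (1 − t B))` acts on the slopes by the RATIONAL polynomial
`slS s s2 t` (`39` terms): `s_v (z') = slS (s_v z) (s_2v z) t` (`slS_sl01`, `slS_sl02`, `slS_sl10`, `slS_sl20`).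

`Xi U1 U2 : K → K → K → K → K → K` (arguments `H T t x x2`) are the coordinate functions of the resulting map on
points, of the shape required by `ThetaFun2.thetaFun`; they commute with ring homomorphisms (`map_Xi`, `map_U1`,
`map_U2`) and satisfy `Xi_slopes`, `U_slopes`: at a point given by slopes `(s, s2)` the image is the point given by the
slopes `(slS s s2 t, slS s2 (−s) t)`.  `TH01`, `TH02`, `TH10`, `TH20` are the resulting identities for the sections.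
-/
import Fermat.Agent.S52.Klein7

set_option autoImplicit false

namespace Fermat.Agent.S52.SlopeTheta2

open Fermat.Agent.S52.Klein7

section Defs

variable {K : Type*} [Field K]

/-- `slS s s2 t = s * Sa (s²) (s2²) t + s2 * Sb (s²) (s2²) t`. -/
def Sa (P Q t : K) : K :=
  1
  + t * ((-1 / 18) * P + (11 / 18) * Q)
  + t ^ 2 * ((109 / 81) * P ^ 2 + (-220 / 81) * P * Q + (121 / 81) * Q ^ 2)
  + t ^ 3 * ((98 / 729) * P ^ 3 + (11 / 243) * P ^ 2 * Q + (-121 / 243) * P * Q ^ 2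
      + (242 / 729) * Q ^ 3)
  + t ^ 4 * ((1297 / 13122) * P ^ 4 + (-2398 / 6561) * P ^ 3 * Q + (1210 / 2187) * P ^ 2 * Q ^ 2
      + (-2662 / 6561) * P * Q ^ 3 + (1573 / 13122) * Q ^ 4)
  + t ^ 5 * ((475 / 118098) * P ^ 5 + (-539 / 59049) * P ^ 4 * Q + (-121 / 59049) * P ^ 3 * Q ^ 2
      + (1331 / 59049) * P ^ 2 * Q ^ 3 + (-1331 / 59049) * P * Q ^ 4 + (847 / 118098) * Q ^ 5)

/-- second coefficient function of `slS`. -/
def Sb (P Q t : K) : K :=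
  t * ((-11 / 6) * P + (11 / 6) * Q)
  + t ^ 2 * ((-11 / 27) * P ^ 2 + (11 / 27) * Q ^ 2)
  + t ^ 3 * ((-44 / 81) * P ^ 3 + (121 / 81) * P ^ 2 * Q + (-121 / 81) * P * Q ^ 2
      + (44 / 81) * Q ^ 3)
  + t ^ 4 * ((-253 / 4374) * P ^ 4 + (242 / 2187) * P ^ 3 * Q + (-242 / 2187) * P * Q ^ 3
      + (253 / 4374) * Q ^ 4)
  + t ^ 5 * ((-341 / 39366) * P ^ 5 + (242 / 6561) * P ^ 4 * Q + (-1331 / 19683) * P ^ 3 * Q ^ 2
      + (1331 / 19683) * P ^ 2 * Q ^ 3 + (-242 / 6561) * P * Q ^ 4 + (341 / 39366) * Q ^ 5)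

/-- **the action of the family parameter `t` on the pair of tangent slopes `(s, s2)` at `(P, 2P)`**: the new
slope at `P`; the new slope at `2P` is `slS s2 (-s) t`. -/
def slS (s s2 t : K) : K := s * Sa (s ^ 2) (s2 ^ 2) t + s2 * Sb (s ^ 2) (s2 ^ 2) t

/-- `x(P)` from the slopes at `P`, `2P`. -/
def sx (s s2 : K) : K := (2 * s ^ 2 - s2 ^ 2) / 3

/-- `y(P)` from the slopes at `P`, `2P`. -/
def sy (s s2 : K) : K := (s + s2) * (s ^ 2 - s2 ^ 2) / 2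

/-- the product `s * s2` of the slopes in terms of `H`, `x(P)`, `x(2P)`. -/
def thM (H x x2 : K) : K := (27 * H + x ^ 2 + x * x2 + x2 ^ 2) / (x - x2)

/-- `(slS s s2 t)²` in terms of `P = s²`, `Q = s2²`, `M = s s2`. -/
def sqS (P Q M t : K) : K :=
  P * Sa P Q t ^ 2 + 2 * M * Sa P Q t * Sb P Q t + Q * Sb P Q t ^ 2

/-- **`x`-coordinate of the `Θ`-map** (arguments `H T t x x2`; `T` is not used). -/
def Xi (H _T t x x2 : K) : K :=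
  (2 * sqS (x2 + 2 * x) (x + 2 * x2) (thM H x x2) t
    - sqS (x + 2 * x2) (x2 + 2 * x) (-thM H x x2) t) / 3

/-- **first `y`-coefficient of the `Θ`-map**: `y' = y * U1 + y2 * U2`. -/
def U1 (H _T t x x2 : K) : K :=
  (Sa (x2 + 2 * x) (x + 2 * x2) t - Sb (x + 2 * x2) (x2 + 2 * x) t
      + Sb (x2 + 2 * x) (x + 2 * x2) t + Sa (x + 2 * x2) (x2 + 2 * x) t)
    * (sqS (x2 + 2 * x) (x + 2 * x2) (thM H x x2) t
      - sqS (x + 2 * x2) (x2 + 2 * x) (-thM H x x2) t) / (2 * (x - x2))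

/-- **second `y`-coefficient of the `Θ`-map**. -/
def U2 (H _T t x x2 : K) : K :=
  (Sa (x2 + 2 * x) (x + 2 * x2) t - Sb (x + 2 * x2) (x2 + 2 * x) t
      - Sb (x2 + 2 * x) (x + 2 * x2) t - Sa (x + 2 * x2) (x2 + 2 * x) t)
    * (sqS (x2 + 2 * x) (x + 2 * x2) (thM H x x2) t
      - sqS (x + 2 * x2) (x2 + 2 * x) (-thM H x x2) t) / (2 * (x - x2))

/-! ### compatibility with ring homomorphisms -/

variable {L : Type*} [Field L] (φ : K →+* L)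

theorem map_Sa (P Q t : K) : φ (Sa P Q t) = Sa (φ P) (φ Q) (φ t) := by
  simp only [Sa, map_add, map_mul, map_pow, map_div₀, map_neg, map_one, map_ofNat]

theorem map_Sb (P Q t : K) : φ (Sb P Q t) = Sb (φ P) (φ Q) (φ t) := by
  simp only [Sb, map_add, map_mul, map_pow, map_div₀, map_neg, map_ofNat]

theorem map_slS (s s2 t : K) : φ (slS s s2 t) = slS (φ s) (φ s2) (φ t) := by
  simp only [slS, map_add, map_mul, map_pow, map_Sa, map_Sb]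

theorem map_thM (H x x2 : K) : φ (thM H x x2) = thM (φ H) (φ x) (φ x2) := by
  simp only [thM, map_add, map_sub, map_mul, map_pow, map_div₀, map_ofNat]

theorem map_sqS (P Q M t : K) : φ (sqS P Q M t) = sqS (φ P) (φ Q) (φ M) (φ t) := by
  simp only [sqS, map_add, map_mul, map_pow, map_ofNat, map_Sa, map_Sb]

theorem map_Xi (H T t x x2 : K) : φ (Xi H T t x x2) = Xi (φ H) (φ T) (φ t) (φ x) (φ x2) := by
  simp only [Xi, map_add, map_sub, map_mul, map_neg, map_div₀, map_ofNat, map_sqS, map_thM]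

theorem map_U1 (H T t x x2 : K) : φ (U1 H T t x x2) = U1 (φ H) (φ T) (φ t) (φ x) (φ x2) := by
  simp only [U1, map_add, map_sub, map_mul, map_neg, map_div₀, map_ofNat, map_sqS, map_thM, map_Sa,
    map_Sb]

theorem map_U2 (H T t x x2 : K) : φ (U2 H T t x x2) = U2 (φ H) (φ T) (φ t) (φ x) (φ x2) := by
  simp only [U2, map_add, map_sub, map_mul, map_neg, map_div₀, map_ofNat, map_sqS, map_thM, map_Sa,
    map_Sb]

end Defs

/-! ### the `Θ`-map in slope coordinates -/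

section Generic

variable {K : Type*} [Field K]

theorem slS_sq (s s2 t : K) : slS s s2 t ^ 2 = sqS (s ^ 2) (s2 ^ 2) (s * s2) t := by
  unfold slS sqS
  ring

theorem slS_swap (s s2 t : K) :
    slS s2 (-s) t = s2 * Sa (s2 ^ 2) (s ^ 2) t - s * Sb (s2 ^ 2) (s ^ 2) t := by
  unfold slS
  rw [neg_sq]
  ring

theorem slS_swap_sq (s s2 t : K) :
    slS s2 (-s) t ^ 2 = sqS (s2 ^ 2) (s ^ 2) (-(s * s2)) t := by
  rw [slS_swap]
  unfold sqS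
  ring

theorem slS_neg (s s2 t : K) : slS (-s) (-s2) t = -slS s s2 t := by
  unfold slS
  rw [neg_sq, neg_sq]
  ring

theorem sx_neg (s s2 : K) : sx (-s) (-s2) = sx s s2 := by
  unfold sx
  rw [neg_sq, neg_sq]

theorem sy_neg (s s2 : K) : sy (-s) (-s2) = -sy s s2 := by
  unfold sy
  ring

variable [CharZero K]

theorem sx_add_two (s s2 : K) : sx s2 (-s) + 2 * sx s s2 = s ^ 2 := by
  unfold sx
  ring

theorem sx_add_two' (s s2 : K) : sx s s2 + 2 * sx s2 (-s) = s2 ^ 2 := by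
  unfold sx
  ring

theorem sx_sub (s s2 : K) : sx s s2 - sx s2 (-s) = s ^ 2 - s2 ^ 2 := by
  unfold sx
  ring

/-- the relation between `H` and the slopes. -/
def HRel (H s s2 : K) : Prop :=
  27 * H = s * s2 * (s ^ 2 - s2 ^ 2) - (sx s s2 ^ 2 + sx s s2 * sx s2 (-s) + sx s2 (-s) ^ 2)

theorem thM_slopes {H s s2 : K} (hne : s ^ 2 - s2 ^ 2 ≠ 0) (hH : HRel H s s2) :
    thM H (sx s s2) (sx s2 (-s)) = s * s2 := by
  unfold thM
  rw [sx_sub, div_eq_iff hne]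
  unfold HRel at hH
  linear_combination hH

/-- **`x`-coordinate**: at the point with slopes `(s, s2)` the function `Xi` returns the `x`-coordinate of the point
with slopes `(slS s s2 t, slS s2 (-s) t)`. -/
theorem Xi_slopes {H s s2 : K} (T t : K) (hne : s ^ 2 - s2 ^ 2 ≠ 0) (hH : HRel H s s2) :
    Xi H T t (sx s s2) (sx s2 (-s)) = sx (slS s s2 t) (slS s2 (-s) t) := by
  unfold Xi
  rw [sx_add_two, sx_add_two', thM_slopes hne hH, ← slS_sq, ← slS_swap_sq]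
  rfl

/-- **`y`-coordinate.** -/
theorem U_slopes {H s s2 : K} (T t : K) (hne : s ^ 2 - s2 ^ 2 ≠ 0) (hH : HRel H s s2) :
    sy s s2 * U1 H T t (sx s s2) (sx s2 (-s)) + sy s2 (-s) * U2 H T t (sx s s2) (sx s2 (-s)) =
      sy (slS s s2 t) (slS s2 (-s) t) := by
  unfold U1 U2
  rw [sx_add_two, sx_add_two', thM_slopes hne hH, ← slS_sq, ← slS_swap_sq, sx_sub]
  have e1 : slS s s2 t = s * Sa (s ^ 2) (s2 ^ 2) t + s2 * Sb (s ^ 2) (s2 ^ 2) t := rfl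
  have e2 := slS_swap s s2 t
  generalize slS s s2 t = S1 at e1 ⊢
  generalize slS s2 (-s) t = S2 at e2 ⊢
  unfold sy
  rw [neg_sq]
  have h2 : (2 : K) * (s ^ 2 - s2 ^ 2) ≠ 0 := mul_ne_zero two_ne_zero hne
  field_simp
  rw [e1, e2]
  ring

omit [CharZero K] in
/-- the same with the roles of `P` and `2P` exchanged (`2 • (2P) = -P`). -/
theorem HRel_swap {H s s2 : K} (hH : HRel H s s2) : HRel H s2 (-s) := by
  unfold HRel at hH ⊢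
  rw [sx_neg]
  linear_combination hH

end Generic

/-! ### the slopes of the Klein sections -/

section Sections

variable {K : Type*} [Field K]

/-- tangent slope at `P_(0,1)`. -/
def sl01 (u v : K) : K :=
  -3 * u ^ 5 + 12 * u ^ 4 * v - 6 * u ^ 3 * v ^ 2 + 18 * u ^ 2 * v ^ 3 + 6 * u * v ^ 4 + 3 * v ^ 5

/-- tangent slope at `P_(0,2)`. -/
def sl02 (u v : K) : K :=
  -3 * u ^ 5 + 6 * u ^ 4 * v - 18 * u ^ 3 * v ^ 2 - 6 * u ^ 2 * v ^ 3 - 12 * u * v ^ 4 - 3 * v ^ 5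

/-- `α`. -/
def al (ζ : K) : K := -(21 + 42 * ζ + 18 * ζ ^ 2 + 24 * ζ ^ 3) / 5

/-- `β`. -/
def be (ζ : K) : K := (-3 - 6 * ζ - 24 * ζ ^ 2 + 18 * ζ ^ 3) / 5

/-- `√5 = ζ + ζ⁴ − ζ² − ζ³`. -/
def rr (ζ : K) : K := -1 - 2 * ζ ^ 2 - 2 * ζ ^ 3

/-- tangent slope at `P_(1,0)` in the coordinates `a = u⁵`, `b = v⁵`. -/
def sl10 (ζ a b : K) : K := al ζ * a + be ζ * b

/-- tangent slope at `P_(2,0)`. -/
def sl20 (ζ a b : K) : K := be ζ * a - al ζ * b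

variable {L : Type*} [Field L] (φ : K →+* L)

theorem map_sl01 (u v : K) : φ (sl01 u v) = sl01 (φ u) (φ v) := by
  simp only [sl01, map_add, map_sub, map_mul, map_neg, map_pow, map_ofNat]

theorem map_sl02 (u v : K) : φ (sl02 u v) = sl02 (φ u) (φ v) := by
  simp only [sl02, map_add, map_sub, map_mul, map_neg, map_pow, map_ofNat]

variable [CharZero K]

omit [CharZero K] in
theorem rr_sq {ζ : K} (hζ : ζ ^ 4 + ζ ^ 3 + ζ ^ 2 + ζ + 1 = 0) : rr ζ ^ 2 = 5 := by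
  unfold rr
  linear_combination (4 * ζ ^ 2 + 4 * ζ - 4) * hζ

theorem al_sq {ζ : K} (hζ : ζ ^ 4 + ζ ^ 3 + ζ ^ 2 + ζ + 1 = 0) :
    al ζ ^ 2 = -45 - 18 / 5 * rr ζ := by
  unfold al rr
  linear_combination (576 / 25 * ζ ^ 2 + 288 / 25 * ζ + 1476 / 25) * hζ

theorem be_sq {ζ : K} (hζ : ζ ^ 4 + ζ ^ 3 + ζ ^ 2 + ζ + 1 = 0) :
    be ζ ^ 2 = -45 + 18 / 5 * rr ζ := by
  unfold be rr
  linear_combination (324 / 25 * ζ ^ 2 - 1188 / 25 * ζ + 1224 / 25) * hζ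

theorem al_mul_be {ζ : K} (hζ : ζ ^ 4 + ζ ^ 3 + ζ ^ 2 + ζ + 1 = 0) :
    al ζ * be ζ = -(99 / 5) * rr ζ := by
  unfold al be rr
  linear_combination (-432 / 25 * ζ ^ 2 + 684 / 25 * ζ - 432 / 25) * hζ

/-! ### the slope identities -/

set_option maxHeartbeats 4000000 in
/-- **`s_(0,1)(z') = S(s_(0,1)(z), s_(0,2)(z), t)`.** -/
theorem slS_sl01 (u v t : K) :
    slS (sl01 u v) (sl02 u v) t =
      sl01 (u * (1 + t * kA5 (u ^ 5) (v ^ 5))) (v * (1 - t * kB5 (u ^ 5) (v ^ 5))) := by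
  unfold slS Sa Sb sl01 sl02 kA5 kB5
  ring

set_option maxHeartbeats 4000000 in
/-- **`s_(0,2)(z') = S(s_(0,2)(z), -s_(0,1)(z), t)`.** -/
theorem slS_sl02 (u v t : K) :
    slS (sl02 u v) (-sl01 u v) t =
      sl02 (u * (1 + t * kA5 (u ^ 5) (v ^ 5))) (v * (1 - t * kB5 (u ^ 5) (v ^ 5))) := by
  unfold slS Sa Sb sl01 sl02 kA5 kB5
  ring

set_option maxHeartbeats 4000000 in
/-- the structure of `slS` over `ℚ(√5)`: a trace form. -/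
theorem slS_eq_trace {r : K} (hr : r ^ 2 = 5) (s s2 t : K) :
    slS s s2 t =
      (s / 2 + r * (2 * s + 11 * s2) / 50)
          * (1 + t * ((s ^ 2 + s2 ^ 2) / 18 - r * (s ^ 2 - s2 ^ 2) / 6)) ^ 5
        + (s / 2 - r * (2 * s + 11 * s2) / 50)
          * (1 + t * ((s ^ 2 + s2 ^ 2) / 18 + r * (s ^ 2 - s2 ^ 2) / 6)) ^ 5 := by
  unfold slS Sa Sb
  linear_combination
    ((1 / 97200) * r ^ 4 * s ^ 11 * t ^ 5 + (11 / 194400) * r ^ 4 * s ^ 10 * s2 * t ^ 5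
      + (-1 / 19440) * r ^ 4 * s ^ 9 * s2 ^ 2 * t ^ 5 + (-11 / 38880) * r ^ 4 * s ^ 8 * s2 ^ 3 * t ^ 5
      + (1 / 9720) * r ^ 4 * s ^ 7 * s2 ^ 4 * t ^ 5 + (11 / 19440) * r ^ 4 * s ^ 6 * s2 ^ 5 * t ^ 5
      + (-1 / 9720) * r ^ 4 * s ^ 5 * s2 ^ 6 * t ^ 5 + (-11 / 19440) * r ^ 4 * s ^ 4 * s2 ^ 7 * t ^ 5
      + (1 / 19440) * r ^ 4 * s ^ 3 * s2 ^ 8 * t ^ 5 + (11 / 38880) * r ^ 4 * s ^ 2 * s2 ^ 9 * t ^ 5
      + (-1 / 97200) * r ^ 4 * s * s2 ^ 10 * t ^ 5 + (-11 / 194400) * r ^ 4 * s2 ^ 11 * t ^ 5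
      + (-53 / 349920) * r ^ 2 * s ^ 11 * t ^ 5 + (121 / 349920) * r ^ 2 * s ^ 10 * s2 * t ^ 5
      + (131 / 349920) * r ^ 2 * s ^ 9 * s2 ^ 2 * t ^ 5 + (-67 / 19440) * r ^ 2 * s ^ 9 * t ^ 4
      + (-517 / 349920) * r ^ 2 * s ^ 8 * s2 ^ 3 * t ^ 5 + (11 / 4860) * r ^ 2 * s ^ 8 * s2 * t ^ 4
      + (11 / 174960) * r ^ 2 * s ^ 7 * s2 ^ 4 * t ^ 5 + (71 / 4860) * r ^ 2 * s ^ 7 * s2 ^ 2 * t ^ 4
      + (1 / 270) * r ^ 2 * s ^ 7 * t ^ 3 + (473 / 174960) * r ^ 2 * s ^ 6 * s2 ^ 5 * t ^ 5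
      + (-11 / 2430) * r ^ 2 * s ^ 6 * s2 ^ 3 * t ^ 4 + (11 / 540) * r ^ 2 * s ^ 6 * s2 * t ^ 3
      + (-161 / 174960) * r ^ 2 * s ^ 5 * s2 ^ 6 * t ^ 5 + (-5 / 216) * r ^ 2 * s ^ 5 * s2 ^ 4 * t ^ 4
      + (-1 / 90) * r ^ 2 * s ^ 5 * s2 ^ 2 * t ^ 3 + (-473 / 174960) * r ^ 2 * s ^ 4 * s2 ^ 7 * t ^ 5
      + (-11 / 180) * r ^ 2 * s ^ 4 * s2 ^ 3 * t ^ 3 + (319 / 349920) * r ^ 2 * s ^ 3 * s2 ^ 8 * t ^ 5
      + (79 / 4860) * r ^ 2 * s ^ 3 * s2 ^ 6 * t ^ 4 + (1 / 90) * r ^ 2 * s ^ 3 * s2 ^ 4 * t ^ 3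
      + (517 / 349920) * r ^ 2 * s ^ 2 * s2 ^ 9 * t ^ 5 + (11 / 2430) * r ^ 2 * s ^ 2 * s2 ^ 7 * t ^ 4
      + (11 / 180) * r ^ 2 * s ^ 2 * s2 ^ 5 * t ^ 3 + (-97 / 349920) * r ^ 2 * s * s2 ^ 10 * t ^ 5
      + (-83 / 19440) * r ^ 2 * s * s2 ^ 8 * t ^ 4 + (-1 / 270) * r ^ 2 * s * s2 ^ 6 * t ^ 3
      + (-121 / 349920) * r ^ 2 * s2 ^ 11 * t ^ 5 + (-11 / 4860) * r ^ 2 * s2 ^ 9 * t ^ 4
      + (-11 / 540) * r ^ 2 * s2 ^ 7 * t ^ 3 + (-2533 / 3149280) * s ^ 11 * t ^ 5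
      + (341 / 196830) * s ^ 10 * s2 * t ^ 5 + (71 / 38880) * s ^ 9 * s2 ^ 2 * t ^ 5
      + (-3457 / 174960) * s ^ 9 * t ^ 4 + (-242 / 32805) * s ^ 8 * s2 ^ 3 * t ^ 5
      + (253 / 21870) * s ^ 8 * s2 * t ^ 4 + (647 / 1574640) * s ^ 7 * s2 ^ 4 * t ^ 5
      + (3199 / 43740) * s ^ 7 * s2 ^ 2 * t ^ 4 + (-43 / 1620) * s ^ 7 * t ^ 3
      + (1331 / 98415) * s ^ 6 * s2 ^ 5 * t ^ 5 + (-242 / 10935) * s ^ 6 * s2 ^ 3 * t ^ 4
      + (44 / 405) * s ^ 6 * s2 * t ^ 3 + (-7097 / 1574640) * s ^ 5 * s2 ^ 6 * t ^ 5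
      + (-215 / 1944) * s ^ 5 * s2 ^ 4 * t ^ 4 + (-13 / 1620) * s ^ 5 * s2 ^ 2 * t ^ 3
      + (-71 / 270) * s ^ 5 * t ^ 2 + (-1331 / 98415) * s ^ 4 * s2 ^ 7 * t ^ 5
      + (-121 / 405) * s ^ 4 * s2 ^ 3 * t ^ 3 + (11 / 135) * s ^ 4 * s2 * t ^ 2
      + (4733 / 1049760) * s ^ 3 * s2 ^ 8 * t ^ 5 + (3551 / 43740) * s ^ 3 * s2 ^ 6 * t ^ 4
      + (163 / 1620) * s ^ 3 * s2 ^ 4 * t ^ 3 + (5 / 9) * s ^ 3 * s2 ^ 2 * t ^ 2
      + (1 / 15) * s ^ 3 * t + (242 / 32805) * s ^ 2 * s2 ^ 9 * t ^ 5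
      + (242 / 10935) * s ^ 2 * s2 ^ 7 * t ^ 4 + (121 / 405) * s ^ 2 * s2 ^ 5 * t ^ 3
      + (11 / 30) * s ^ 2 * s2 * t + (-4517 / 3149280) * s * s2 ^ 10 * t ^ 5
      + (-4193 / 174960) * s * s2 ^ 8 * t ^ 4 + (-107 / 1620) * s * s2 ^ 6 * t ^ 3
      + (-79 / 270) * s * s2 ^ 4 * t ^ 2 + (-1 / 15) * s * s2 ^ 2 * t
      + (-341 / 196830) * s2 ^ 11 * t ^ 5 + (-253 / 21870) * s2 ^ 9 * t ^ 4
      + (-44 / 405) * s2 ^ 7 * t ^ 3 + (-11 / 135) * s2 ^ 5 * t ^ 2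
      + (-11 / 30) * s2 ^ 3 * t) * hr

/-- the linear-substitution lemma: if `α² = −45 − 18/5 r`, `β² = −45 + 18/5 r`, `α β = −99/5 r`, `r² = 5`, then the
slopes `(α a + β b, β a − α b)` are deformed to `(α a' + β b', ·)` with `a' = a (1 + t A)⁵`, `b' = b (1 − t B)⁵`. -/
theorem slS_lin {r α β : K} (hr : r ^ 2 = 5) (hα : α ^ 2 = -45 - 18 / 5 * r)
    (hβ : β ^ 2 = -45 + 18 / 5 * r) (hαβ : α * β = -(99 / 5) * r) (a b t : K) :
    slS (α * a + β * b) (β * a - α * b) t =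
      α * (a * (1 + t * kA5 a b) ^ 5) + β * (b * (1 - t * kB5 a b) ^ 5) := by
  have e1 : r * α - (2 * α + 11 * β) / 5 = 0 := by
    linear_combination (-1 / 90) * (α * ((r - 2 / 5) * hα - (11 / 5) * hαβ - (18 / 5) * hr)
      + β * ((r - 2 / 5) * hαβ - (11 / 5) * hβ - (99 / 5) * hr)
      - (r * α - (2 * α + 11 * β) / 5) * (hα + hβ))
  have e2 : r * β - (11 * α - 2 * β) / 5 = 0 := by
    linear_combination (-1 / 90) * (α * ((r + 2 / 5) * hαβ - (11 / 5) * hα - (99 / 5) * hr)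
      + β * ((r + 2 / 5) * hβ - (11 / 5) * hαβ + (18 / 5) * hr)
      - (r * β - (11 * α - 2 * β) / 5) * (hα + hβ))
  have h1 : (α * a + β * b) / 2 + r * (2 * (α * a + β * b) + 11 * (β * a - α * b)) / 50 = α * a := by
    linear_combination (a / 25 - 11 * b / 50) * e1 + (b / 25 + 11 * a / 50) * e2
  have h2 : (α * a + β * b) / 2 - r * (2 * (α * a + β * b) + 11 * (β * a - α * b)) / 50 = β * b := by
    linear_combination (-1 : K) * h1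
  have h3 : ((α * a + β * b) ^ 2 + (β * a - α * b) ^ 2) / 18
      - r * ((α * a + β * b) ^ 2 - (β * a - α * b) ^ 2) / 6 = kA5 a b := by
    unfold kA5
    linear_combination ((a ^ 2 + b ^ 2) / 18 - r / 6 * (a ^ 2 - b ^ 2)) * hα
      + ((a ^ 2 + b ^ 2) / 18 + r / 6 * (a ^ 2 - b ^ 2)) * hβ - (2 * r / 3 * a * b) * hαβ
      + ((6 / 5) * (a ^ 2 - b ^ 2) + (66 / 5) * a * b) * hr
  have h4 : ((α * a + β * b) ^ 2 + (β * a - α * b) ^ 2) / 18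
      + r * ((α * a + β * b) ^ 2 - (β * a - α * b) ^ 2) / 6 = -kB5 a b := by
    unfold kB5
    linear_combination ((a ^ 2 + b ^ 2) / 18 + r / 6 * (a ^ 2 - b ^ 2)) * hα
      + ((a ^ 2 + b ^ 2) / 18 - r / 6 * (a ^ 2 - b ^ 2)) * hβ + (2 * r / 3 * a * b) * hαβ
      - ((6 / 5) * (a ^ 2 - b ^ 2) + (66 / 5) * a * b) * hr
  rw [slS_eq_trace hr, h1, h2, h3, h4]
  ring

/-- **`s_(1,0)(z') = S(s_(1,0)(z), s_(2,0)(z), t)`** in the coordinates `a = u⁵`, `b = v⁵`. -/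
theorem slS_sl10 {ζ : K} (hζ : ζ ^ 4 + ζ ^ 3 + ζ ^ 2 + ζ + 1 = 0) (a b t : K) :
    slS (sl10 ζ a b) (sl20 ζ a b) t =
      sl10 ζ (a * (1 + t * kA5 a b) ^ 5) (b * (1 - t * kB5 a b) ^ 5) :=
  slS_lin (rr_sq hζ) (al_sq hζ) (be_sq hζ) (al_mul_be hζ) a b t

/-- **`s_(2,0)(z') = S(s_(2,0)(z), -s_(1,0)(z), t)`.** -/
theorem slS_sl20 {ζ : K} (hζ : ζ ^ 4 + ζ ^ 3 + ζ ^ 2 + ζ + 1 = 0) (a b t : K) :
    slS (sl20 ζ a b) (-sl10 ζ a b) t =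
      sl20 ζ (a * (1 + t * kA5 a b) ^ 5) (b * (1 - t * kB5 a b) ^ 5) := by
  have hr : (-rr ζ) ^ 2 = 5 := by rw [neg_sq]; exact rr_sq hζ
  have h := slS_lin (r := -rr ζ) (α := be ζ) (β := -al ζ) hr
    (by rw [be_sq hζ]; ring) (by rw [neg_sq, al_sq hζ]; ring)
    (by rw [mul_neg, mul_comm, al_mul_be hζ]; ring) a b t
  have e1 : sl20 ζ a b = be ζ * a + -al ζ * b := by unfold sl20; ring
  have e2 : -sl10 ζ a b = -al ζ * a - be ζ * b := by unfold sl10; ring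
  rw [e1, e2, h]
  unfold sl20
  ring

/-! ### the relation between `kH` and the slopes of the sections -/

theorem HRel_01 (u v : K) : HRel (kH u v) (sl01 u v) (sl02 u v) := by
  unfold HRel sx sl01 sl02 kH
  ring

theorem HRel_02 (u v : K) : HRel (kH u v) (sl02 u v) (-sl01 u v) :=
  HRel_swap (HRel_01 u v)

theorem HRel_lin {r α β : K} (hr : r ^ 2 = 5) (hα : α ^ 2 = -45 - 18 / 5 * r)
    (hβ : β ^ 2 = -45 + 18 / 5 * r) (hαβ : α * β = -(99 / 5) * r) (a b : K) :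
    HRel (kH5 a b) (α * a + β * b) (β * a - α * b) := by
  have eP : (α * a + β * b) ^ 2 =
      (-45 - 18 / 5 * r) * a ^ 2 + 2 * (-(99 / 5) * r) * a * b + (-45 + 18 / 5 * r) * b ^ 2 := by
    linear_combination a ^ 2 * hα + 2 * a * b * hαβ + b ^ 2 * hβ
  have eQ : (β * a - α * b) ^ 2 =
      (-45 + 18 / 5 * r) * a ^ 2 - 2 * (-(99 / 5) * r) * a * b + (-45 - 18 / 5 * r) * b ^ 2 := by
    linear_combination a ^ 2 * hβ - 2 * a * b * hαβ + b ^ 2 * hα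
  have eM : (α * a + β * b) * (β * a - α * b) =
      (-(99 / 5) * r) * (a ^ 2 - b ^ 2) + (36 / 5 * r) * a * b := by
    linear_combination (a ^ 2 - b ^ 2) * hαβ + a * b * (hβ - hα)
  unfold HRel sx
  rw [neg_sq, eP, eQ, eM]
  unfold kH5
  linear_combination (-648 / 5 * a ^ 4 - 6156 / 5 * a ^ 3 * b + 11988 / 5 * a ^ 2 * b ^ 2
    + 6156 / 5 * a * b ^ 3 - 648 / 5 * b ^ 4) * hr

theorem HRel_10 {ζ : K} (hζ : ζ ^ 4 + ζ ^ 3 + ζ ^ 2 + ζ + 1 = 0) (a b : K) :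
    HRel (kH5 a b) (sl10 ζ a b) (sl20 ζ a b) :=
  HRel_lin (rr_sq hζ) (al_sq hζ) (be_sq hζ) (al_mul_be hζ) a b

theorem HRel_20 {ζ : K} (hζ : ζ ^ 4 + ζ ^ 3 + ζ ^ 2 + ζ + 1 = 0) (a b : K) :
    HRel (kH5 a b) (sl20 ζ a b) (-sl10 ζ a b) :=
  HRel_swap (HRel_10 hζ a b)

/-- the curve equation in slope coordinates: `54 T = y² − x³ − 27 H x`. -/
theorem kT_01 (u v : K) :
    54 * kT u v = sy (sl01 u v) (sl02 u v) ^ 2 - sx (sl01 u v) (sl02 u v) ^ 3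
      - 27 * kH u v * sx (sl01 u v) (sl02 u v) := by
  unfold sx sy sl01 sl02 kH kT
  ring

/-! ### the `Θ`-identities for the sections

`z' = (u + t * kw1 u v, v + t * kw2 u v)`.  The sections are written through their slopes:
`P_(0,1) = (sx s01 s02, sy s01 s02)`, `P_(0,2) = (sx s02 (-s01), sy s02 (-s01))`, `P_(0,4) = -P_(0,1)`;
`P_(1,0) = (sx s10 s20, sy s10 s20)`, `P_(2,0) = (sx s20 (-s10), sy s20 (-s10))`. -/

theorem sl01_deform (u v t : K) :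
    slS (sl01 u v) (sl02 u v) t = sl01 (u + t * kw1 u v) (v + t * kw2 u v) := by
  rw [slS_sl01, deform_fst, deform_snd]

theorem sl02_deform (u v t : K) :
    slS (sl02 u v) (-sl01 u v) t = sl02 (u + t * kw1 u v) (v + t * kw2 u v) := by
  rw [slS_sl02, deform_fst, deform_snd]

/-- **(TH01)**: `Θ_t (P_(0,1) (z)) = P_(0,1) (z')`. -/
theorem TH01 (u v t : K) (hne : sl01 u v ^ 2 - sl02 u v ^ 2 ≠ 0) :
    Xi (kH u v) (kT u v) t (sx (sl01 u v) (sl02 u v)) (sx (sl02 u v) (-sl01 u v)) =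
        sx (sl01 (u + t * kw1 u v) (v + t * kw2 u v)) (sl02 (u + t * kw1 u v) (v + t * kw2 u v)) ∧
      sy (sl01 u v) (sl02 u v)
            * U1 (kH u v) (kT u v) t (sx (sl01 u v) (sl02 u v)) (sx (sl02 u v) (-sl01 u v))
          + sy (sl02 u v) (-sl01 u v)
            * U2 (kH u v) (kT u v) t (sx (sl01 u v) (sl02 u v)) (sx (sl02 u v) (-sl01 u v)) =
        sy (sl01 (u + t * kw1 u v) (v + t * kw2 u v))
          (sl02 (u + t * kw1 u v) (v + t * kw2 u v)) := by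
  rw [Xi_slopes (kT u v) t hne (HRel_01 u v), U_slopes (kT u v) t hne (HRel_01 u v), sl01_deform,
    sl02_deform]
  exact ⟨rfl, rfl⟩

/-- **(TH02)**: `Θ_t (P_(0,2) (z)) = P_(0,2) (z')` (`2 • P_(0,2) = -P_(0,1)`). -/
theorem TH02 (u v t : K) (hne : sl01 u v ^ 2 - sl02 u v ^ 2 ≠ 0) :
    Xi (kH u v) (kT u v) t (sx (sl02 u v) (-sl01 u v)) (sx (sl01 u v) (sl02 u v)) =
        sx (sl02 (u + t * kw1 u v) (v + t * kw2 u v))
          (-sl01 (u + t * kw1 u v) (v + t * kw2 u v)) ∧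
      sy (sl02 u v) (-sl01 u v)
            * U1 (kH u v) (kT u v) t (sx (sl02 u v) (-sl01 u v)) (sx (sl01 u v) (sl02 u v))
          + -sy (sl01 u v) (sl02 u v)
            * U2 (kH u v) (kT u v) t (sx (sl02 u v) (-sl01 u v)) (sx (sl01 u v) (sl02 u v)) =
        sy (sl02 (u + t * kw1 u v) (v + t * kw2 u v))
          (-sl01 (u + t * kw1 u v) (v + t * kw2 u v)) := by
  have hne' : sl02 u v ^ 2 - (-sl01 u v) ^ 2 ≠ 0 := by
    rw [neg_sq]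
    intro h
    apply hne
    linear_combination -h
  have hX := Xi_slopes (kT u v) t hne' (HRel_02 u v)
  have hY := U_slopes (kT u v) t hne' (HRel_02 u v)
  have e3 : slS (-sl01 u v) (-sl02 u v) t = -sl01 (u + t * kw1 u v) (v + t * kw2 u v) := by
    rw [slS_neg, sl01_deform]
  rw [sx_neg, sl02_deform, e3] at hX
  rw [sx_neg, sy_neg, sl02_deform, e3] at hY
  exact ⟨hX, hY⟩

/-- **(TH10)**: `Θ_t (P_(1,0) (z)) = P_(1,0) (z')`, in the coordinates `a = u⁵`, `b = v⁵`,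
`a' = a (1 + t A)⁵`, `b' = b (1 − t B)⁵`. -/
theorem TH10 {ζ : K} (hζ : ζ ^ 4 + ζ ^ 3 + ζ ^ 2 + ζ + 1 = 0) (a b T t : K)
    (hne : sl10 ζ a b ^ 2 - sl20 ζ a b ^ 2 ≠ 0) :
    Xi (kH5 a b) T t (sx (sl10 ζ a b) (sl20 ζ a b)) (sx (sl20 ζ a b) (-sl10 ζ a b)) =
        sx (sl10 ζ (a * (1 + t * kA5 a b) ^ 5) (b * (1 - t * kB5 a b) ^ 5))
          (sl20 ζ (a * (1 + t * kA5 a b) ^ 5) (b * (1 - t * kB5 a b) ^ 5)) ∧
      sy (sl10 ζ a b) (sl20 ζ a b)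
            * U1 (kH5 a b) T t (sx (sl10 ζ a b) (sl20 ζ a b)) (sx (sl20 ζ a b) (-sl10 ζ a b))
          + sy (sl20 ζ a b) (-sl10 ζ a b)
            * U2 (kH5 a b) T t (sx (sl10 ζ a b) (sl20 ζ a b)) (sx (sl20 ζ a b) (-sl10 ζ a b)) =
        sy (sl10 ζ (a * (1 + t * kA5 a b) ^ 5) (b * (1 - t * kB5 a b) ^ 5))
          (sl20 ζ (a * (1 + t * kA5 a b) ^ 5) (b * (1 - t * kB5 a b) ^ 5)) := by
  rw [Xi_slopes T t hne (HRel_10 hζ a b), U_slopes T t hne (HRel_10 hζ a b), slS_sl10 hζ,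
    slS_sl20 hζ]
  exact ⟨rfl, rfl⟩

/-- **(TH20)**: `Θ_t (P_(2,0) (z)) = P_(2,0) (z')` (`2 • P_(2,0) = -P_(1,0)`). -/
theorem TH20 {ζ : K} (hζ : ζ ^ 4 + ζ ^ 3 + ζ ^ 2 + ζ + 1 = 0) (a b T t : K)
    (hne : sl10 ζ a b ^ 2 - sl20 ζ a b ^ 2 ≠ 0) :
    Xi (kH5 a b) T t (sx (sl20 ζ a b) (-sl10 ζ a b)) (sx (sl10 ζ a b) (sl20 ζ a b)) =
        sx (sl20 ζ (a * (1 + t * kA5 a b) ^ 5) (b * (1 - t * kB5 a b) ^ 5))
          (-sl10 ζ (a * (1 + t * kA5 a b) ^ 5) (b * (1 - t * kB5 a b) ^ 5)) ∧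
      sy (sl20 ζ a b) (-sl10 ζ a b)
            * U1 (kH5 a b) T t (sx (sl20 ζ a b) (-sl10 ζ a b)) (sx (sl10 ζ a b) (sl20 ζ a b))
          + -sy (sl10 ζ a b) (sl20 ζ a b)
            * U2 (kH5 a b) T t (sx (sl20 ζ a b) (-sl10 ζ a b)) (sx (sl10 ζ a b) (sl20 ζ a b)) =
        sy (sl20 ζ (a * (1 + t * kA5 a b) ^ 5) (b * (1 - t * kB5 a b) ^ 5))
          (-sl10 ζ (a * (1 + t * kA5 a b) ^ 5) (b * (1 - t * kB5 a b) ^ 5)) := by
  have hne' : sl20 ζ a b ^ 2 - (-sl10 ζ a b) ^ 2 ≠ 0 := by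
    rw [neg_sq]
    intro h
    apply hne
    linear_combination -h
  have hX := Xi_slopes T t hne' (HRel_20 hζ a b)
  have hY := U_slopes T t hne' (HRel_20 hζ a b)
  have e3 : slS (-sl10 ζ a b) (-sl20 ζ a b) t =
      -sl10 ζ (a * (1 + t * kA5 a b) ^ 5) (b * (1 - t * kB5 a b) ^ 5) := by
    rw [slS_neg, slS_sl10 hζ]
  rw [sx_neg, slS_sl20 hζ, e3] at hX
  rw [sx_neg, sy_neg, slS_sl20 hζ, e3] at hY
  exact ⟨hX, hY⟩

end Sections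

end Fermat.Agent.S52.SlopeTheta2
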