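/-
S52 toolkit (helper2), brick THETA-FUN: **the plain map `Φ : E(K) → E'(K)` attached to coordinate functions.**

Given functions `Xi U1 U2 : K → K → K → K → K → K` (arguments `H T t x x2`) and parameters `H T t : K`,
`thetaFun E E' Xi U1 U2 H T t : E(K) → E'(K)` sends an affine point `P = (x, y)` whose double `2 • P = (x2, y2)`
is affine to the point `(Xi H T t x x2, y * U1 H T t x x2 + y2 * U2 H T t x x2)` of `E'` when this pair is a
nonsingular point of `E'`, and to `0` in all other cases.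

* `thetaFun_zero`, `thetaFun_of_two_nsmul_eq_zero`, `thetaFun_some` (value lemma),
  `thetaFun_some_of_not_nonsingular`;
* `thetaFun_neg` : `Φ (−P) = −Φ P` for curves with `a₁ = a₃ = 0`;
* `thetaFun_smul` : `Φ (σ • P) = σ • Φ P` for `σ : K ≃ₐ[R] K` fixing `H T t`, when `Xi U1 U2` commute with ring
  endomorphisms of `K`.
-/
import Mathlib.AlgebraicGeometry.EllipticCurve.Affine.Point
import Fermat.Prelude.Def_FLTPrelim_GaloisRep

set_option autoImplicit false

open WeierstrassCurve WeierstrassCurve.Affine WeierstrassCurve.Affine.Point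

namespace Fermat.Agent.S52.ThetaFun2

variable {R : Type*} [CommRing R] {K : Type*} [Field K] [DecidableEq K] [Algebra R K]

open Classical in
/-- the point `(X, Y)` of `E'` if it is one, `0` otherwise. -/
noncomputable def ptOrZero (E' : WeierstrassCurve R) (X Y : K) : (E'⁄K).Point :=
  if h : (E'⁄K).Nonsingular X Y then Point.some X Y h else 0

omit [DecidableEq K] in
theorem ptOrZero_of_nonsingular (E' : WeierstrassCurve R) {X Y : K} (h : (E'⁄K).Nonsingular X Y) :
    ptOrZero E' X Y = Point.some X Y h := by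
  unfold ptOrZero
  rw [dif_pos h]

omit [DecidableEq K] in
theorem ptOrZero_of_not_nonsingular (E' : WeierstrassCurve R) {X Y : K}
    (h : ¬ (E'⁄K).Nonsingular X Y) : ptOrZero E' X Y = 0 := by
  unfold ptOrZero
  rw [dif_neg h]

/-- **the plain map `Φ : E(K) → E'(K)`** attached to `Xi U1 U2` and the parameters `H T t`. -/
noncomputable def thetaFun (E E' : WeierstrassCurve R) (Xi U1 U2 : K → K → K → K → K → K) (H T t : K)
    (P : (E⁄K).Point) : (E'⁄K).Point :=
  match P, 2 • P with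
  | Point.some x y _, Point.some x2 y2 _ =>
      ptOrZero E' (Xi H T t x x2) (y * U1 H T t x x2 + y2 * U2 H T t x x2)
  | _, _ => 0

variable (E E' : WeierstrassCurve R) (Xi U1 U2 : K → K → K → K → K → K) (H T t : K)

@[simp] theorem thetaFun_zero : thetaFun E E' Xi U1 U2 H T t 0 = 0 := by
  unfold thetaFun
  rfl

theorem thetaFun_of_two_nsmul_eq_zero {P : (E⁄K).Point} (h2 : 2 • P = 0) :
    thetaFun E E' Xi U1 U2 H T t P = 0 := by
  unfold thetaFun
  rw [h2]
  cases P <;> rfl

theorem thetaFun_eq_ptOrZero {P : (E⁄K).Point} {x y x2 y2 : K} {h : (E⁄K).Nonsingular x y}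
    {h2 : (E⁄K).Nonsingular x2 y2} (hP : P = Point.some x y h) (h2P : 2 • P = Point.some x2 y2 h2) :
    thetaFun E E' Xi U1 U2 H T t P =
      ptOrZero E' (Xi H T t x x2) (y * U1 H T t x x2 + y2 * U2 H T t x x2) := by
  unfold thetaFun
  rw [h2P, hP]

/-- **value lemma.** -/
theorem thetaFun_some {P : (E⁄K).Point} {x y x2 y2 : K} {h : (E⁄K).Nonsingular x y}
    {h2 : (E⁄K).Nonsingular x2 y2} (hP : P = Point.some x y h) (h2P : 2 • P = Point.some x2 y2 h2)
    (hns : (E'⁄K).Nonsingular (Xi H T t x x2) (y * U1 H T t x x2 + y2 * U2 H T t x x2)) :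
    thetaFun E E' Xi U1 U2 H T t P = Point.some _ _ hns := by
  rw [thetaFun_eq_ptOrZero E E' Xi U1 U2 H T t hP h2P, ptOrZero_of_nonsingular]

theorem thetaFun_some_of_not_nonsingular {P : (E⁄K).Point} {x y x2 y2 : K}
    {h : (E⁄K).Nonsingular x y} {h2 : (E⁄K).Nonsingular x2 y2} (hP : P = Point.some x y h)
    (h2P : 2 • P = Point.some x2 y2 h2)
    (hns : ¬ (E'⁄K).Nonsingular (Xi H T t x x2) (y * U1 H T t x x2 + y2 * U2 H T t x x2)) :
    thetaFun E E' Xi U1 U2 H T t P = 0 := by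
  rw [thetaFun_eq_ptOrZero E E' Xi U1 U2 H T t hP h2P, ptOrZero_of_not_nonsingular _ hns]

/-! ### negation -/

omit [DecidableEq K] in
theorem negY_eq_neg {W : WeierstrassCurve R} (h1 : W.a₁ = 0) (h3 : W.a₃ = 0) (x y : K) :
    (W⁄K).negY x y = -y := by
  simp only [Affine.negY, Affine.baseChange, WeierstrassCurve.baseChange, map_a₁, map_a₃, h1, h3,
    _root_.map_zero, zero_mul, sub_zero]

theorem ptOrZero_neg {W : WeierstrassCurve R} (h1 : W.a₁ = 0) (h3 : W.a₃ = 0) (X Y : K) :
    ptOrZero W X (-Y) = -ptOrZero W X Y := by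
  by_cases h : (W⁄K).Nonsingular X Y
  · have h' : (W⁄K).Nonsingular X (-Y) := by
      rw [← negY_eq_neg h1 h3 X Y]
      exact (nonsingular_neg ..).mpr h
    rw [ptOrZero_of_nonsingular W h, ptOrZero_of_nonsingular W h', neg_some]
    congr 1
    exact (negY_eq_neg h1 h3 X Y).symm
  · have h' : ¬ (W⁄K).Nonsingular X (-Y) := by
      rw [← negY_eq_neg h1 h3 X Y, nonsingular_neg]
      exact h
    rw [ptOrZero_of_not_nonsingular W h, ptOrZero_of_not_nonsingular W h', Point.neg_zero]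

/-- **`Φ (−P) = −Φ P`** for curves in short (or at least `a₁ = a₃ = 0`) form. -/
theorem thetaFun_neg (hE1 : E.a₁ = 0) (hE3 : E.a₃ = 0) (hE'1 : E'.a₁ = 0) (hE'3 : E'.a₃ = 0)
    (P : (E⁄K).Point) :
    thetaFun E E' Xi U1 U2 H T t (-P) = -thetaFun E E' Xi U1 U2 H T t P := by
  rcases P with _ | ⟨x, y, h⟩
  · change thetaFun E E' Xi U1 U2 H T t (-0) = -thetaFun E E' Xi U1 U2 H T t 0
    rw [Point.neg_zero, thetaFun_zero, Point.neg_zero]
  · rcases h2P : (2 • (Point.some x y h : (E⁄K).Point)) with _ | ⟨x2, y2, h2⟩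
    · have h2P' : (2 • (Point.some x y h : (E⁄K).Point)) = 0 := h2P
      have h2N : 2 • (-(Point.some x y h : (E⁄K).Point)) = 0 := by rw [smul_neg, h2P', Point.neg_zero]
      rw [thetaFun_of_two_nsmul_eq_zero E E' Xi U1 U2 H T t h2P',
        thetaFun_of_two_nsmul_eq_zero E E' Xi U1 U2 H T t h2N, Point.neg_zero]
    · have h2N : 2 • (-(Point.some x y h : (E⁄K).Point)) =
          Point.some x2 ((E⁄K).negY x2 y2) ((nonsingular_neg ..).mpr h2) := by
        rw [smul_neg, h2P, neg_some]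
      rw [thetaFun_eq_ptOrZero E E' Xi U1 U2 H T t rfl h2P,
        thetaFun_eq_ptOrZero E E' Xi U1 U2 H T t (neg_some h) h2N, negY_eq_neg hE1 hE3,
        negY_eq_neg hE1 hE3, ← ptOrZero_neg hE'1 hE'3]
      congr 1
      ring

/-! ### Galois equivariance -/

theorem ptOrZero_map {W : WeierstrassCurve R} (σ : K ≃ₐ[R] K) (X Y : K) :
    ptOrZero W (σ X) (σ Y) = Point.map σ.toAlgHom (ptOrZero W X Y) := by
  have hiff : (W⁄K).Nonsingular (σ X) (σ Y) ↔ (W⁄K).Nonsingular X Y :=
    WeierstrassCurve.Affine.baseChange_nonsingular W (f := σ.toAlgHom) σ.injective X Y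
  by_cases h : (W⁄K).Nonsingular X Y
  · rw [ptOrZero_of_nonsingular W h, ptOrZero_of_nonsingular W (hiff.mpr h), Point.map_some]
    rfl
  · rw [ptOrZero_of_not_nonsingular W h, ptOrZero_of_not_nonsingular W (fun h' => h (hiff.mp h')),
      _root_.map_zero]

/-- **`Φ (σ • P) = σ • Φ P`** for `σ : K ≃ₐ[R] K` fixing the parameters `H T t`, when the coordinate functions
commute with ring endomorphisms of `K`. -/
theorem thetaFun_smul
    (hXi : ∀ (φ : K →+* K) (a b c d e : K), φ (Xi a b c d e) = Xi (φ a) (φ b) (φ c) (φ d) (φ e))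
    (hU1 : ∀ (φ : K →+* K) (a b c d e : K), φ (U1 a b c d e) = U1 (φ a) (φ b) (φ c) (φ d) (φ e))
    (hU2 : ∀ (φ : K →+* K) (a b c d e : K), φ (U2 a b c d e) = U2 (φ a) (φ b) (φ c) (φ d) (φ e))
    (σ : K ≃ₐ[R] K) (hH : σ H = H) (hT : σ T = T) (ht : σ t = t) (P : (E⁄K).Point) :
    thetaFun E E' Xi U1 U2 H T t (σ • P) = σ • thetaFun E E' Xi U1 U2 H T t P := by
  rw [algEquiv_smul_def, algEquiv_smul_def]
  rcases P with _ | ⟨x, y, h⟩
  · change thetaFun E E' Xi U1 U2 H T t (Point.map σ.toAlgHom 0) =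
      Point.map σ.toAlgHom (thetaFun E E' Xi U1 U2 H T t 0)
    rw [_root_.map_zero, thetaFun_zero, _root_.map_zero]
  · rcases h2P : (2 • (Point.some x y h : (E⁄K).Point)) with _ | ⟨x2, y2, h2⟩
    · have h2P' : (2 • (Point.some x y h : (E⁄K).Point)) = 0 := h2P
      have h2N : 2 • (Point.map σ.toAlgHom (Point.some x y h : (E⁄K).Point)) = 0 := by
        rw [← map_nsmul, h2P', _root_.map_zero]
      rw [thetaFun_of_two_nsmul_eq_zero E E' Xi U1 U2 H T t h2P',
        thetaFun_of_two_nsmul_eq_zero E E' Xi U1 U2 H T t h2N, _root_.map_zero]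
    · have h2N : 2 • (Point.map σ.toAlgHom (Point.some x y h : (E⁄K).Point)) =
          Point.map σ.toAlgHom (Point.some x2 y2 h2) := by
        rw [← map_nsmul, h2P]
      rw [Point.map_some] at h2N
      rw [thetaFun_eq_ptOrZero E E' Xi U1 U2 H T t rfl h2P,
        thetaFun_eq_ptOrZero E E' Xi U1 U2 H T t (Point.map_some _ h) h2N, ← ptOrZero_map]
      have e1 := hXi (σ : K →+* K) H T t x x2
      have e2 := hU1 (σ : K →+* K) H T t x x2
      have e3 := hU2 (σ : K →+* K) H T t x x2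
      simp only [RingHom.coe_coe, hH, hT, ht] at e1 e2 e3
      simp only [map_add, map_mul, e1, e2, e3]
      rfl

end Fermat.Agent.S52.ThetaFun2
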