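/-
S52 toolkit (helper2), brick SLOPE-POINTS: **points of order `5` on short Weierstrass curves from their slope pairs.**

`W : WeierstrassCurve R`, `K` a field of characteristic zero over `R`, `IsShort W H T` : `W` is
`y² = x³ + 27 H x + 54 T` over `K`.  A slope pair `(s, s2)` with `SlopeRel H T s s2` (`H = Hs s s2`, `T = Ts s s2`,
`s² ≠ s2²`) gives the point `slopePt W s s2 = (sx s s2, sy s s2)` of `W(K)`, and
* `two_nsmul_slopePt` : `2 • slopePt W s s2 = slopePt W s2 (-s)`;
* `neg_slopePt` : `-slopePt W s s2 = slopePt W (-s) (-s2)`;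
* `add_slopePt` : the chord rule in slope form;
* `theta_slopePt` : `ThetaFun2.thetaFun` with `SlopeTheta2.Xi U1 U2` sends `slopePt W s s2` to
  `slopePt W' (slS s s2 t) (slS s2 (-s) t)`.
-/
import Fermat.Agent.S52.SlopeTheta2
import Fermat.Agent.S52.ThetaFun2
import Fermat.Agent.S52.SlopeParam7

set_option autoImplicit false

open WeierstrassCurve WeierstrassCurve.Affine WeierstrassCurve.Affine.Point

namespace Fermat.Agent.S52.SlopePts2

open Fermat.Agent.S52.Klein7 Fermat.Agent.S52.SlopeTheta2 Fermat.Agent.S52.ThetaFun2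

section Generic

variable {R : Type*} [CommRing R] {K : Type*} [Field K]

/-- `H` of the curve with a point of order `5` with slope pair `(s, r)`. -/
def Hs (s r : K) : K := -(s ^ 4 - 3 * s ^ 3 * r - s ^ 2 * r ^ 2 + 3 * s * r ^ 3 + r ^ 4) / 81

/-- `T` of the curve with a point of order `5` with slope pair `(s, r)`. -/
def Ts (s r : K) : K :=
  (19 * s ^ 6 - 18 * s ^ 5 * r - 15 * s ^ 4 * r ^ 2 - 15 * s ^ 2 * r ^ 4 + 18 * s * r ^ 5
    + 19 * r ^ 6) / 5832

theorem Hs_swap (s r : K) : Hs r (-s) = Hs s r := by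
  unfold Hs
  ring

theorem Ts_swap (s r : K) : Ts r (-s) = Ts s r := by
  unfold Ts
  ring

theorem Hs_neg (s r : K) : Hs (-s) (-r) = Hs s r := by
  unfold Hs
  ring

theorem Ts_neg (s r : K) : Ts (-s) (-r) = Ts s r := by
  unfold Ts
  ring

/-- `(s, s2)` is the slope pair of a point of order `5` on `y² = x³ + 27 H x + 54 T`. -/
structure SlopeRel (H T s s2 : K) : Prop where
  ne : s ^ 2 - s2 ^ 2 ≠ 0
  hH : H = Hs s s2
  hT : T = Ts s s2

theorem SlopeRel.swap {H T s s2 : K} (h : SlopeRel H T s s2) : SlopeRel H T s2 (-s) where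
  ne := by
    rw [neg_sq]
    intro h0
    apply h.ne
    linear_combination -h0
  hH := by rw [Hs_swap]; exact h.hH
  hT := by rw [Ts_swap]; exact h.hT

theorem SlopeRel.neg {H T s s2 : K} (h : SlopeRel H T s s2) : SlopeRel H T (-s) (-s2) where
  ne := by
    rw [neg_sq, neg_sq]
    exact h.ne
  hH := by rw [Hs_neg]; exact h.hH
  hT := by rw [Ts_neg]; exact h.hT

theorem SlopeRel.hrel [CharZero K] {H T s s2 : K} (h : SlopeRel H T s s2) : HRel H s s2 := by
  unfold HRel sx
  rw [h.hH]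
  unfold Hs
  ring

theorem SlopeRel.sy_ne_zero [CharZero K] {H T s s2 : K} (h : SlopeRel H T s s2) :
    sy s s2 ≠ 0 := by
  unfold sy
  have h1 := h.ne
  have h2 : s + s2 ≠ 0 := by
    intro h0
    apply h1
    linear_combination (s - s2) * h0
  exact div_ne_zero (mul_ne_zero h2 h1) two_ne_zero

variable [Algebra R K]

/-- `W` is the curve `y² = x³ + 27 H x + 54 T` over `K`. -/
structure IsShort (W : WeierstrassCurve R) (H T : K) : Prop where
  a1 : W.a₁ = 0
  a2 : W.a₂ = 0
  a3 : W.a₃ = 0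
  a4 : algebraMap R K W.a₄ = 27 * H
  a6 : algebraMap R K W.a₆ = 54 * T

variable {W W' : WeierstrassCurve R}

theorem IsShort.bc_a1 {H T : K} (hW : IsShort W H T) : (W.baseChange K).a₁ = 0 := by
  simp only [WeierstrassCurve.baseChange, map_a₁, hW.a1, _root_.map_zero]

theorem IsShort.bc_a2 {H T : K} (hW : IsShort W H T) : (W.baseChange K).a₂ = 0 := by
  simp only [WeierstrassCurve.baseChange, map_a₂, hW.a2, _root_.map_zero]

theorem IsShort.bc_a3 {H T : K} (hW : IsShort W H T) : (W.baseChange K).a₃ = 0 := by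
  simp only [WeierstrassCurve.baseChange, map_a₃, hW.a3, _root_.map_zero]

theorem IsShort.bc_a4 {H T : K} (hW : IsShort W H T) : (W.baseChange K).a₄ = 27 * H := by
  simp only [WeierstrassCurve.baseChange, map_a₄]
  exact hW.a4

theorem IsShort.bc_a6 {H T : K} (hW : IsShort W H T) : (W.baseChange K).a₆ = 54 * T := by
  simp only [WeierstrassCurve.baseChange, map_a₆]
  exact hW.a6

theorem IsShort.equation_iff {H T : K} (hW : IsShort W H T) (x y : K) :
    (W⁄K).Equation x y ↔ y ^ 2 = x ^ 3 + 27 * H * x + 54 * T := by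
  rw [Affine.equation_iff]
  change y ^ 2 + (W.baseChange K).a₁ * x * y + (W.baseChange K).a₃ * y =
    x ^ 3 + (W.baseChange K).a₂ * x ^ 2 + (W.baseChange K).a₄ * x + (W.baseChange K).a₆ ↔ _
  rw [hW.bc_a1, hW.bc_a2, hW.bc_a3, hW.bc_a4, hW.bc_a6]
  constructor
  · intro h
    linear_combination h
  · intro h
    linear_combination h

theorem IsShort.nonsingular_of_ne [CharZero K] {H T : K} (hW : IsShort W H T) {x y : K}
    (heq : y ^ 2 = x ^ 3 + 27 * H * x + 54 * T) (hy : y ≠ 0) : (W⁄K).Nonsingular x y := by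
  rw [Affine.nonsingular_iff]
  refine ⟨(hW.equation_iff x y).mpr heq, Or.inr ?_⟩
  change y ≠ -y - (W.baseChange K).a₁ * x - (W.baseChange K).a₃
  rw [hW.bc_a1, hW.bc_a3]
  intro h0
  apply hy
  have h2 : 2 * y = 0 := by linear_combination h0
  simpa using h2

variable [CharZero K]

theorem curve_slope (s s2 : K) :
    sy s s2 ^ 2 = sx s s2 ^ 3 + 27 * Hs s s2 * sx s s2 + 54 * Ts s s2 := by
  unfold sy sx Hs Ts
  ring

theorem nonsingular_slope {H T s s2 : K} (hW : IsShort W H T) (h : SlopeRel H T s s2) :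
    (W⁄K).Nonsingular (sx s s2) (sy s s2) := by
  apply hW.nonsingular_of_ne _ h.sy_ne_zero
  rw [h.hH, h.hT]
  exact curve_slope s s2

variable [DecidableEq K]

/-- **the point with slope pair `(s, s2)`** (`0` if the pair is not admissible). -/
noncomputable def slopePt (W : WeierstrassCurve R) (s s2 : K) : (W⁄K).Point :=
  ptOrZero W (sx s s2) (sy s s2)

omit [DecidableEq K] in
theorem slopePt_eq_some {H T s s2 : K} (hW : IsShort W H T) (h : SlopeRel H T s s2) :
    slopePt W s s2 = Point.some _ _ (nonsingular_slope hW h) :=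
  ptOrZero_of_nonsingular W _

theorem slopePt_ne_zero {H T s s2 : K} (hW : IsShort W H T) (h : SlopeRel H T s s2) :
    slopePt W s s2 ≠ 0 := by
  rw [slopePt_eq_some hW h]
  exact Point.some_ne_zero _

/-- **negation in slope coordinates.** -/
theorem neg_slopePt {H T s s2 : K} (hW : IsShort W H T) (h : SlopeRel H T s s2) :
    -slopePt W s s2 = slopePt W (-s) (-s2) := by
  rw [slopePt_eq_some hW h, slopePt_eq_some hW h.neg, Point.neg_some]
  simp only [Point.some.injEq]
  refine ⟨(sx_neg s s2).symm, ?_⟩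
  rw [negY_eq_neg hW.a1 hW.a3, sy_neg]

/-- **doubling in slope coordinates.** -/
theorem two_nsmul_slopePt {H T s s2 : K} (hW : IsShort W H T) (h : SlopeRel H T s s2) :
    2 • slopePt W s s2 = slopePt W s2 (-s) := by
  rw [slopePt_eq_some hW h, slopePt_eq_some hW h.swap]
  obtain ⟨ℓ, x', y', h', e, e1, e2, e3⟩ :=
    SlopeParam7.two_nsmul_some (E := W.baseChange K) hW.bc_a1 hW.bc_a2 hW.bc_a3
      (nonsingular_slope hW h) h.sy_ne_zero
  rw [hW.bc_a4, h.hH] at e1
  have hℓ : ℓ = s := by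
    have h2 : 2 * sy s s2 * (ℓ - s) = 0 := by
      have : 2 * sy s s2 * s = 3 * sx s s2 ^ 2 + 27 * Hs s s2 := by
        unfold sy sx Hs
        ring
      linear_combination e1 - this
    rcases mul_eq_zero.mp h2 with h3 | h3
    · exact absurd h3 (mul_ne_zero two_ne_zero h.sy_ne_zero)
    · linear_combination h3
  subst hℓ
  refine e.trans ?_
  simp only [Point.some.injEq]
  have hx' : x' = sx s2 (-ℓ) := by
    rw [e2]
    unfold sx
    ring
  refine ⟨hx', ?_⟩
  rw [e3, hx']
  unfold sx sy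
  ring

/-- **the chord rule in slope form.** -/
theorem add_slopePt {H T s s2 r r2 q q2 L : K} (hW : IsShort W H T) (h : SlopeRel H T s s2)
    (hr : SlopeRel H T r r2) (hq : SlopeRel H T q q2) (hx : sx s s2 ≠ sx r r2)
    (c1 : sy s s2 - sy r r2 = L * (sx s s2 - sx r r2))
    (c2 : sx q q2 = L ^ 2 - sx s s2 - sx r r2)
    (c3 : sy q q2 = -(sy s s2 + L * (sx q q2 - sx s s2))) :
    slopePt W s s2 + slopePt W r r2 = slopePt W q q2 := by
  rw [slopePt_eq_some hW h, slopePt_eq_some hW hr, slopePt_eq_some hW hq, Point.add_of_X_ne hx]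
  simp only [Point.some.injEq]
  have hsl : (W⁄K).slope (sx s s2) (sx r r2) (sy s s2) (sy r r2) = L := by
    rw [Affine.slope_of_X_ne hx, div_eq_iff (sub_ne_zero.mpr hx)]
    exact c1
  have hX : (W⁄K).addX (sx s s2) (sx r r2) L = sx q q2 := by
    change L ^ 2 + (W.baseChange K).a₁ * L - (W.baseChange K).a₂ - sx s s2 - sx r r2 = _
    rw [hW.bc_a1, hW.bc_a2, c2]
    ring
  rw [hsl]
  refine ⟨hX, ?_⟩
  unfold Affine.addY Affine.negAddY
  rw [hX, negY_eq_neg hW.a1 hW.a3, c3]
  ring

/-- **the `Θ`-map in slope coordinates.** -/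
theorem theta_slopePt {H T s s2 : K} (t : K) (hW : IsShort W H T) (h : SlopeRel H T s s2) :
    thetaFun W W' Xi U1 U2 H T t (slopePt W s s2) = slopePt W' (slS s s2 t) (slS s2 (-s) t) := by
  have h2 : 2 • slopePt W s s2 = Point.some _ _ (nonsingular_slope hW h.swap) := by
    rw [two_nsmul_slopePt hW h, slopePt_eq_some hW h.swap]
  rw [thetaFun_eq_ptOrZero W W' Xi U1 U2 H T t (slopePt_eq_some hW h) h2,
    Xi_slopes T t h.ne h.hrel, U_slopes T t h.ne h.hrel]
  rfl

end Generic

end Fermat.Agent.S52.SlopePts2
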