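/-
S52 toolkit (helper2), brick KLEIN-POINTS: **the `24` points of order `5` of the Klein curve `E_z` in slope coordinates,
their level structure, and the additivity of the `Θ`-map.**

`z = (u, v)`, `kf u v ≠ 0`, `ζ` a primitive fifth root of unity, `W` the curve `y² = x³ + 27 kH(z) x + 54 kT(z)`.
* identities: `kH_eq_Hs_01`, `kT_eq_Ts_01`, `nv01` (`P_(0,1)`), `kH5_eq_Hs_10`, `kT5_eq_Ts_10`, `nv10` (`P_(1,0)`),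
  the chord identities `chord_c1`, `chord_c2`, `chord_c3`, `chord_nv` for `P_(0,1)(u, w) + P_(1,0) = P_(0,1)(u, ζ w)`;
* the four families `ptB k = P_(0,1)(u, ζᵏ v)`, `ptC k = P_(0,2)(u, ζᵏ v)`, `ptA1 = P_(1,0)`, `ptA2 = P_(2,0)` with the
  relations required by `LevelGlueB1.exists_lvl`, and the values of `Θ_t` on them;
* `theta_additive`, `theta_exists_ne_zero` : the hypotheses `hadd`, `hne` of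
  `ThetaCong2.dvd_apOfModel_sub_of_thetaFun` / `ShortTransport2.dvd_apOfModel_sub_of_fun`.
-/
import Fermat.Agent.S52.SlopePts2
import Fermat.Agent.S52.LevelGlueB1
import Fermat.Agent.S52.LevelGlueEC1

set_option autoImplicit false

open WeierstrassCurve WeierstrassCurve.Affine WeierstrassCurve.Affine.Point

namespace Fermat.Agent.S52.KleinPts2

open Fermat.Agent.S52.Klein7 Fermat.Agent.S52.SlopeTheta2 Fermat.Agent.S52.ThetaFun2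
  Fermat.Agent.S52.SlopePts2

section Identities

variable {K : Type*} [Field K] [CharZero K]

omit [CharZero K] in
theorem zeta_pow_five {ζ : K} (hζ : ζ ^ 4 + ζ ^ 3 + ζ ^ 2 + ζ + 1 = 0) : ζ ^ 5 = 1 := by
  linear_combination (ζ - 1) * hζ

omit [CharZero K] in
theorem zeta_ne_zero {ζ : K} (hζ : ζ ^ 4 + ζ ^ 3 + ζ ^ 2 + ζ + 1 = 0) : ζ ≠ 0 := by
  intro h
  rw [h] at hζ
  norm_num at hζ

omit [CharZero K] in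
theorem zeta_pow_mul_pow_five {ζ : K} (hζ : ζ ^ 4 + ζ ^ 3 + ζ ^ 2 + ζ + 1 = 0) (k : ℕ) (v : K) :
    (ζ ^ k * v) ^ 5 = v ^ 5 := by
  rw [mul_pow, ← pow_mul, mul_comm k 5, pow_mul, zeta_pow_five hζ, one_pow, one_mul]

/-! ### `P_(0,1)` -/

theorem kH_eq_Hs_01 (u v : K) : kH u v = Hs (sl01 u v) (sl02 u v) := by
  unfold kH Hs sl01 sl02
  ring

theorem kT_eq_Ts_01 (u v : K) : kT u v = Ts (sl01 u v) (sl02 u v) := by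
  unfold kT Ts sl01 sl02
  ring

omit [CharZero K] in
theorem nv01 (u v : K) :
    (sl01 u v ^ 2 - sl02 u v ^ 2) * (u ^ 2 + u * v - v ^ 2) = -36 * kf u v := by
  unfold sl01 sl02 kf
  ring

theorem slopeRel_01 {u v : K} (hf : kf u v ≠ 0) :
    SlopeRel (kH u v) (kT u v) (sl01 u v) (sl02 u v) where
  ne := by
    intro h0
    apply hf
    have := nv01 u v
    rw [h0, zero_mul] at this
    have h36 : (36 : K) * kf u v = 0 := by linear_combination this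
    rcases mul_eq_zero.mp h36 with h | h
    · norm_num at h
    · exact h
  hH := kH_eq_Hs_01 u v
  hT := kT_eq_Ts_01 u v

/-! ### `P_(1,0)` -/

theorem kH5_eq_Hs_10 {ζ : K} (hζ : ζ ^ 4 + ζ ^ 3 + ζ ^ 2 + ζ + 1 = 0) (a b : K) :
    kH5 a b = Hs (sl10 ζ a b) (sl20 ζ a b) := by
  unfold kH5 Hs sl10 sl20 al be
  linear_combination
    ((1424 / 125) * ζ ^ 8 * a ^ 4 + (-6672 / 125) * ζ ^ 8 * a ^ 3 * b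
      + (1456 / 125) * ζ ^ 8 * a ^ 2 * b ^ 2 + (6672 / 125) * ζ ^ 8 * a * b ^ 3
      + (1424 / 125) * ζ ^ 8 * b ^ 4 + (5248 / 125) * ζ ^ 7 * a ^ 4
      + (9456 / 125) * ζ ^ 7 * a ^ 3 * b + (-41488 / 125) * ζ ^ 7 * a ^ 2 * b ^ 2
      + (-9456 / 125) * ζ ^ 7 * a * b ^ 3 + (5248 / 125) * ζ ^ 7 * b ^ 4
      + (7152 / 125) * ζ ^ 6 * a ^ 4 + (13344 / 125) * ζ ^ 6 * a ^ 3 * b
      + (17088 / 125) * ζ ^ 6 * a ^ 2 * b ^ 2 + (-13344 / 125) * ζ ^ 6 * a * b ^ 3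
      + (7152 / 125) * ζ ^ 6 * b ^ 4 + (8616 / 125) * ζ ^ 5 * a ^ 4
      + (57552 / 125) * ζ ^ 5 * a ^ 3 * b + (-51696 / 125) * ζ ^ 5 * a ^ 2 * b ^ 2
      + (-57552 / 125) * ζ ^ 5 * a * b ^ 3 + (8616 / 125) * ζ ^ 5 * b ^ 4
      + (672 / 25) * ζ ^ 4 * a ^ 4 + (8784 / 25) * ζ ^ 4 * a ^ 3 * b
      + (13968 / 25) * ζ ^ 4 * a ^ 2 * b ^ 2 + (-8784 / 25) * ζ ^ 4 * a * b ^ 3
      + (672 / 25) * ζ ^ 4 * b ^ 4 + (1936 / 125) * ζ ^ 3 * a ^ 4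
      + (50592 / 125) * ζ ^ 3 * a ^ 3 * b + (68384 / 125) * ζ ^ 3 * a ^ 2 * b ^ 2
      + (-50592 / 125) * ζ ^ 3 * a * b ^ 3 + (1936 / 125) * ζ ^ 3 * b ^ 4
      + (3712 / 125) * ζ ^ 2 * a ^ 4 + (32664 / 125) * ζ ^ 2 * a ^ 3 * b
      + (27728 / 125) * ζ ^ 2 * a ^ 2 * b ^ 2 + (-32664 / 125) * ζ ^ 2 * a * b ^ 3
      + (3712 / 125) * ζ ^ 2 * b ^ 4 + (2008 / 125) * ζ * a ^ 4
      + (-16824 / 125) * ζ * a ^ 3 * b + (67952 / 125) * ζ * a ^ 2 * b ^ 2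
      + (16824 / 125) * ζ * a * b ^ 3 + (2008 / 125) * ζ * b ^ 4
      + (144 / 125) * a ^ 4 + (30168 / 125) * a ^ 3 * b
      + (-60864 / 125) * a ^ 2 * b ^ 2 + (-30168 / 125) * a * b ^ 3
      + (144 / 125) * b ^ 4) * hζ

theorem kT5_eq_Ts_10 {ζ : K} (hζ : ζ ^ 4 + ζ ^ 3 + ζ ^ 2 + ζ + 1 = 0) (a b : K) :
    kT5 a b = Ts (sl10 ζ a b) (sl20 ζ a b) := by
  unfold kT5 Ts sl10 sl20 al be
  linear_combination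
    ((-24152 / 625) * ζ ^ 14 * a ^ 6 + (172656 / 625) * ζ ^ 14 * a ^ 5 * b
      + (-55848 / 125) * ζ ^ 14 * a ^ 4 * b ^ 2 + (-55848 / 125) * ζ ^ 14 * a ^ 2 * b ^ 4
      + (-172656 / 625) * ζ ^ 14 * a * b ^ 5 + (-24152 / 625) * ζ ^ 14 * b ^ 6
      + (-148504 / 625) * ζ ^ 13 * a ^ 6 + (240912 / 625) * ζ ^ 13 * a ^ 5 * b
      + (228504 / 125) * ζ ^ 13 * a ^ 4 * b ^ 2 + (228504 / 125) * ζ ^ 13 * a ^ 2 * b ^ 4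
      + (-240912 / 625) * ζ ^ 13 * a * b ^ 5 + (-148504 / 625) * ζ ^ 13 * b ^ 6
      + (-424152 / 625) * ζ ^ 12 * a ^ 6 + (172656 / 625) * ζ ^ 12 * a ^ 5 * b
      + (-295848 / 125) * ζ ^ 12 * a ^ 4 * b ^ 2 + (-295848 / 125) * ζ ^ 12 * a ^ 2 * b ^ 4
      + (-172656 / 625) * ζ ^ 12 * a * b ^ 5 + (-424152 / 625) * ζ ^ 12 * b ^ 6
      + (-983736 / 625) * ζ ^ 11 * a ^ 6 + (479808 / 625) * ζ ^ 11 * a ^ 5 * b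
      + (983736 / 125) * ζ ^ 11 * a ^ 4 * b ^ 2 + (983736 / 125) * ζ ^ 11 * a ^ 2 * b ^ 4
      + (-479808 / 625) * ζ ^ 11 * a * b ^ 5 + (-983736 / 625) * ζ ^ 11 * b ^ 6
      + (-2031336 / 625) * ζ ^ 10 * a ^ 6 + (-1417392 / 625) * ζ ^ 10 * a ^ 5 * b
      + (-128664 / 125) * ζ ^ 10 * a ^ 4 * b ^ 2 + (-128664 / 125) * ζ ^ 10 * a ^ 2 * b ^ 4
      + (1417392 / 625) * ζ ^ 10 * a * b ^ 5 + (-2031336 / 625) * ζ ^ 10 * b ^ 6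
      + (-3380336 / 625) * ζ ^ 9 * a ^ 6 + (-4045392 / 625) * ζ ^ 9 * a ^ 5 * b
      + (1380336 / 125) * ζ ^ 9 * a ^ 4 * b ^ 2 + (1380336 / 125) * ζ ^ 9 * a ^ 2 * b ^ 4
      + (4045392 / 625) * ζ ^ 9 * a * b ^ 5 + (-3380336 / 625) * ζ ^ 9 * b ^ 6
      + (-4472392 / 625) * ζ ^ 8 * a ^ 6 + (-8583624 / 625) * ζ ^ 8 * a ^ 5 * b
      + (592392 / 125) * ζ ^ 8 * a ^ 4 * b ^ 2 + (592392 / 125) * ζ ^ 8 * a ^ 2 * b ^ 4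
      + (8583624 / 625) * ζ ^ 8 * a * b ^ 5 + (-4472392 / 625) * ζ ^ 8 * b ^ 6
      + (-4984656 / 625) * ζ ^ 7 * a ^ 6 + (-13275432 / 625) * ζ ^ 7 * a ^ 5 * b
      + (-655344 / 125) * ζ ^ 7 * a ^ 4 * b ^ 2 + (-655344 / 125) * ζ ^ 7 * a ^ 2 * b ^ 4
      + (13275432 / 625) * ζ ^ 7 * a * b ^ 5 + (-4984656 / 625) * ζ ^ 7 * b ^ 6
      + (-4812048 / 625) * ζ ^ 6 * a ^ 6 + (-15019056 / 625) * ζ ^ 6 * a ^ 5 * b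
      + (-227952 / 125) * ζ ^ 6 * a ^ 4 * b ^ 2 + (-227952 / 125) * ζ ^ 6 * a ^ 2 * b ^ 4
      + (15019056 / 625) * ζ ^ 6 * a * b ^ 5 + (-4812048 / 625) * ζ ^ 6 * b ^ 6
      + (-3857508 / 625) * ζ ^ 5 * a ^ 6 + (-12424176 / 625) * ζ ^ 5 * a ^ 5 * b
      + (-2622492 / 125) * ζ ^ 5 * a ^ 4 * b ^ 2 + (-2622492 / 125) * ζ ^ 5 * a ^ 2 * b ^ 4
      + (12424176 / 625) * ζ ^ 5 * a * b ^ 5 + (-3857508 / 625) * ζ ^ 5 * b ^ 6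
      + (-2560712 / 625) * ζ ^ 4 * a ^ 6 + (-8336664 / 625) * ζ ^ 4 * a ^ 5 * b
      + (-759288 / 125) * ζ ^ 4 * a ^ 4 * b ^ 2 + (-759288 / 125) * ζ ^ 4 * a ^ 2 * b ^ 4
      + (8336664 / 625) * ζ ^ 4 * a * b ^ 5 + (-2560712 / 625) * ζ ^ 4 * b ^ 6
      + (-1344304 / 625) * ζ ^ 3 * a ^ 6 + (-3866688 / 625) * ζ ^ 3 * a ^ 5 * b
      + (-255696 / 125) * ζ ^ 3 * a ^ 4 * b ^ 2 + (-255696 / 125) * ζ ^ 3 * a ^ 2 * b ^ 4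
      + (3866688 / 625) * ζ ^ 3 * a * b ^ 5 + (-1344304 / 625) * ζ ^ 3 * b ^ 6
      + (-490392 / 625) * ζ ^ 2 * a ^ 6 + (-1217124 / 625) * ζ ^ 2 * a ^ 5 * b
      + (-49608 / 125) * ζ ^ 2 * a ^ 4 * b ^ 2 + (-49608 / 125) * ζ ^ 2 * a ^ 2 * b ^ 4
      + (1217124 / 625) * ζ ^ 2 * a * b ^ 5 + (-490392 / 625) * ζ ^ 2 * b ^ 6
      + (-104916 / 625) * ζ * a ^ 6 + (-563652 / 625) * ζ * a ^ 5 * b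
      + (1244916 / 125) * ζ * a ^ 4 * b ^ 2 + (1244916 / 125) * ζ * a ^ 2 * b ^ 4
      + (563652 / 625) * ζ * a * b ^ 5 + (-104916 / 625) * ζ * b ^ 6
      + (-8856 / 625) * a ^ 6 + (304668 / 625) * a ^ 5 * b
      + (-1251144 / 125) * a ^ 4 * b ^ 2 + (-1251144 / 125) * a ^ 2 * b ^ 4
      + (-304668 / 625) * a * b ^ 5 + (-8856 / 625) * b ^ 6) * hζ

theorem nv10 {ζ : K} (hζ : ζ ^ 4 + ζ ^ 3 + ζ ^ 2 + ζ + 1 = 0) (a b : K) :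
    sl10 ζ a b ^ 2 - sl20 ζ a b ^ 2 = -(36 / 5) * rr ζ * kq5 a b := by
  unfold sl10 sl20 al be rr kq5
  linear_combination
    ((252 / 25) * ζ ^ 2 * a ^ 2 + (-1728 / 25) * ζ ^ 2 * a * b
      + (-252 / 25) * ζ ^ 2 * b ^ 2 + (1476 / 25) * ζ * a ^ 2
      + (2736 / 25) * ζ * a * b + (-1476 / 25) * ζ * b ^ 2
      + (252 / 25) * a ^ 2 + (-1728 / 25) * a * b
      + (-252 / 25) * b ^ 2) * hζ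

theorem slopeRel_10 {ζ : K} (hζ : ζ ^ 4 + ζ ^ 3 + ζ ^ 2 + ζ + 1 = 0) {a b : K}
    (hq : kq5 a b ≠ 0) : SlopeRel (kH5 a b) (kT5 a b) (sl10 ζ a b) (sl20 ζ a b) where
  ne := by
    rw [nv10 hζ]
    have hr : rr ζ ≠ 0 := by
      intro h0
      have := rr_sq hζ
      rw [h0] at this
      norm_num at this
    exact mul_ne_zero (mul_ne_zero (by norm_num) hr) hq
  hH := kH5_eq_Hs_10 hζ a b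
  hT := kT5_eq_Ts_10 hζ a b

/-! ### the chord `P_(0,1)(u, w) + P_(1,0)(u⁵, w⁵) = P_(0,1)(u, ζ w)` -/

/-- the slope of the chord. -/
def chL (ζ u w : K) : K :=
  (-9 - 18 * ζ - 12 * ζ ^ 2 - 6 * ζ ^ 3) / 5 * u ^ 5 + 6 * (1 - ζ) * u ^ 4 * w
    - 6 * (1 - ζ ^ 2) * u ^ 3 * w ^ 2 + 6 * (1 - ζ ^ 3) * u ^ 2 * w ^ 3
    + (3 + 6 * ζ - 6 * ζ ^ 2 + 12 * ζ ^ 3) / 5 * w ^ 5

/-- the cofactor of `x(P_(0,1)) - x(P_(1,0))` in `kf²`. -/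
def chC (ζ u w : K) : K :=
  (1 / 36) * ζ ^ 3 * u ^ 12 * w ^ 2 + (5 / 36) * ζ ^ 3 * u ^ 11 * w ^ 3
    + (5 / 18) * ζ ^ 3 * u ^ 10 * w ^ 4 + (5 / 18) * ζ ^ 3 * u ^ 9 * w ^ 5
    + (-7 / 18) * ζ ^ 3 * u ^ 7 * w ^ 7 + (-5 / 18) * ζ ^ 3 * u ^ 6 * w ^ 8
    + (5 / 36) * ζ ^ 3 * u ^ 5 * w ^ 9 + (5 / 36) * ζ ^ 3 * u ^ 4 * w ^ 10
    + (-1 / 36) * ζ ^ 3 * u ^ 2 * w ^ 12 + (1 / 36) * ζ ^ 2 * u ^ 12 * w ^ 2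
    + (5 / 36) * ζ ^ 2 * u ^ 11 * w ^ 3 + (5 / 18) * ζ ^ 2 * u ^ 10 * w ^ 4
    + (5 / 18) * ζ ^ 2 * u ^ 9 * w ^ 5 + (-7 / 18) * ζ ^ 2 * u ^ 7 * w ^ 7
    + (-5 / 18) * ζ ^ 2 * u ^ 6 * w ^ 8 + (5 / 36) * ζ ^ 2 * u ^ 5 * w ^ 9
    + (5 / 36) * ζ ^ 2 * u ^ 4 * w ^ 10 + (-1 / 36) * ζ ^ 2 * u ^ 2 * w ^ 12
    + (1 / 12) * u ^ 12 * w ^ 2 + (5 / 18) * u ^ 11 * w ^ 3
    + (5 / 12) * u ^ 10 * w ^ 4 + (5 / 12) * u ^ 9 * w ^ 5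
    + (-7 / 36) * u ^ 7 * w ^ 7 + (5 / 36) * u ^ 6 * w ^ 8
    + (-5 / 36) * u ^ 5 * w ^ 9 + (-5 / 36) * u ^ 4 * w ^ 10
    + (1 / 18) * u ^ 2 * w ^ 12

theorem chord_c1 {ζ : K} (hζ : ζ ^ 4 + ζ ^ 3 + ζ ^ 2 + ζ + 1 = 0) (u w : K) :
    sy (sl01 u w) (sl02 u w) - sy (sl10 ζ (u ^ 5) (w ^ 5)) (sl20 ζ (u ^ 5) (w ^ 5)) =
      chL ζ u w * (sx (sl01 u w) (sl02 u w) - sx (sl10 ζ (u ^ 5) (w ^ 5)) (sl20 ζ (u ^ 5) (w ^ 5))) := by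
  unfold sy sx sl01 sl02 sl10 sl20 al be chL
  linear_combination
    ((-36 / 5) * ζ ^ 5 * u ^ 15 + (-1656 / 25) * ζ ^ 5 * u ^ 12 * w ^ 3
      + (-396 / 25) * ζ ^ 5 * u ^ 10 * w ^ 5 + (5184 / 25) * ζ ^ 5 * u ^ 7 * w ^ 8
      + (5004 / 25) * ζ ^ 5 * u ^ 5 * w ^ 10 + (-144 / 25) * ζ ^ 5 * u ^ 2 * w ^ 13
      + (1116 / 25) * ζ ^ 5 * w ^ 15 + (576 / 25) * ζ ^ 4 * u ^ 15
      + (1656 / 25) * ζ ^ 4 * u ^ 13 * w ^ 2 + (-3528 / 25) * ζ ^ 4 * u ^ 12 * w ^ 3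
      + (-10152 / 25) * ζ ^ 4 * u ^ 10 * w ^ 5 + (-5184 / 25) * ζ ^ 4 * u ^ 8 * w ^ 7
      + (-8208 / 25) * ζ ^ 4 * u ^ 7 * w ^ 8 + (-9144 / 25) * ζ ^ 4 * u ^ 5 * w ^ 10
      + (144 / 25) * ζ ^ 4 * u ^ 3 * w ^ 12 + (5328 / 25) * ζ ^ 4 * u ^ 2 * w ^ 13
      + (3888 / 25) * ζ ^ 4 * w ^ 15 + (4464 / 25) * ζ ^ 3 * u ^ 15
      + (-1656 / 25) * ζ ^ 3 * u ^ 14 * w + (3528 / 25) * ζ ^ 3 * u ^ 13 * w ^ 2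
      + (-3456 / 25) * ζ ^ 3 * u ^ 12 * w ^ 3 + (2952 / 25) * ζ ^ 3 * u ^ 10 * w ^ 5
      + (5184 / 25) * ζ ^ 3 * u ^ 9 * w ^ 6 + (8208 / 25) * ζ ^ 3 * u ^ 8 * w ^ 7
      + (5184 / 25) * ζ ^ 3 * u ^ 7 * w ^ 8 + (4464 / 25) * ζ ^ 3 * u ^ 5 * w ^ 10
      + (-144 / 25) * ζ ^ 3 * u ^ 4 * w ^ 11 + (-5328 / 25) * ζ ^ 3 * u ^ 3 * w ^ 12
      + (-1944 / 25) * ζ ^ 3 * u ^ 2 * w ^ 13 + (2952 / 25) * ζ ^ 3 * w ^ 15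
      + (4752 / 25) * ζ ^ 2 * u ^ 15 + (-1872 / 25) * ζ ^ 2 * u ^ 14 * w
      + (72) * ζ ^ 2 * u ^ 13 * w ^ 2 + (576 / 25) * ζ ^ 2 * u ^ 12 * w ^ 3
      + (-6084 / 25) * ζ ^ 2 * u ^ 10 * w ^ 5 + (-13392 / 25) * ζ ^ 2 * u ^ 9 * w ^ 6
      + (-17064 / 25) * ζ ^ 2 * u ^ 7 * w ^ 8 + (-23868 / 25) * ζ ^ 2 * u ^ 5 * w ^ 10
      + (5472 / 25) * ζ ^ 2 * u ^ 4 * w ^ 11 + (72) * ζ ^ 2 * u ^ 3 * w ^ 12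
      + (1224 / 25) * ζ ^ 2 * u ^ 2 * w ^ 13 + (5256 / 25) * ζ ^ 2 * w ^ 15
      + (108) * ζ * u ^ 15 + (72 / 25) * ζ * u ^ 14 * w
      + (-2448 / 25) * ζ * u ^ 13 * w ^ 2 + (3528 / 25) * ζ * u ^ 12 * w ^ 3
      + (1656 / 5) * ζ * u ^ 10 * w ^ 5 + (13392 / 25) * ζ * u ^ 9 * w ^ 6
      + (3672 / 25) * ζ * u ^ 8 * w ^ 7 + (8208 / 25) * ζ * u ^ 7 * w ^ 8
      + (-864 / 5) * ζ * u ^ 5 * w ^ 10 + (-7272 / 25) * ζ * u ^ 4 * w ^ 11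
      + (4248 / 25) * ζ * u ^ 3 * w ^ 12 + (-5328 / 25) * ζ * u ^ 2 * w ^ 13
      + (684 / 5) * ζ * w ^ 15 + (648 / 25) * u ^ 15
      + (2376 / 25) * u ^ 14 * w + (-3456 / 25) * u ^ 13 * w ^ 2
      + (4536 / 25) * u ^ 12 * w ^ 3 + (1836 / 5) * u ^ 10 * w ^ 5
      + (-17064 / 25) * u ^ 9 * w ^ 6 + (5184 / 25) * u ^ 8 * w ^ 7
      + (6696 / 25) * u ^ 7 * w ^ 8 + (324 / 25) * u ^ 5 * w ^ 10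
      + (3024 / 25) * u ^ 4 * w ^ 11 + (-1944 / 25) * u ^ 3 * w ^ 12
      + (864 / 25) * u ^ 2 * w ^ 13 + (648 / 25) * w ^ 15) * hζ

theorem chord_c2 {ζ : K} (hζ : ζ ^ 4 + ζ ^ 3 + ζ ^ 2 + ζ + 1 = 0) (u w : K) :
    sx (sl01 u (ζ * w)) (sl02 u (ζ * w)) =
      chL ζ u w ^ 2 - sx (sl01 u w) (sl02 u w) - sx (sl10 ζ (u ^ 5) (w ^ 5)) (sl20 ζ (u ^ 5) (w ^ 5)) := by
  unfold sx sl01 sl02 sl10 sl20 al be chL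
  linear_combination
    ((3) * ζ ^ 6 * w ^ 10 + (-3) * ζ ^ 5 * w ^ 10
      + (36) * ζ ^ 4 * u ^ 2 * w ^ 8 + (36) * ζ ^ 3 * u ^ 3 * w ^ 7
      + (-36) * ζ ^ 3 * u ^ 2 * w ^ 8 + (48 / 5) * ζ ^ 2 * u ^ 10
      + (-72 / 5) * ζ ^ 2 * u ^ 7 * w ^ 3 + (-144 / 5) * ζ ^ 2 * u ^ 5 * w ^ 5
      + (36) * ζ ^ 2 * u ^ 4 * w ^ 6 + (-36) * ζ ^ 2 * u ^ 3 * w ^ 7
      + (144 / 5) * ζ ^ 2 * u ^ 2 * w ^ 8 + (-24 / 5) * ζ ^ 2 * w ^ 10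
      + (96 / 5) * ζ * u ^ 10 + (72 / 5) * ζ * u ^ 8 * w ^ 2
      + (-72 / 5) * ζ * u ^ 7 * w ^ 3 + (198 / 5) * ζ * u ^ 5 * w ^ 5
      + (-36) * ζ * u ^ 4 * w ^ 6 + (-144 / 5) * ζ * u ^ 3 * w ^ 7
      + (-216 / 5) * ζ * u ^ 2 * w ^ 8 + (-21) * ζ * w ^ 10
      + (72 / 5) * u ^ 10 + (-72 / 5) * u ^ 9 * w
      + (72 / 5) * u ^ 8 * w ^ 2 + (-72 / 5) * u ^ 7 * w ^ 3
      + (72) * u ^ 6 * w ^ 4 + (-54 / 5) * u ^ 5 * w ^ 5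
      + (144 / 5) * u ^ 4 * w ^ 6 + (216 / 5) * u ^ 3 * w ^ 7
      + (144 / 5) * u ^ 2 * w ^ 8 + (-3) * w ^ 10) * hζ

theorem chord_c3 {ζ : K} (hζ : ζ ^ 4 + ζ ^ 3 + ζ ^ 2 + ζ + 1 = 0) (u w : K) :
    sy (sl01 u (ζ * w)) (sl02 u (ζ * w)) =
      -(sy (sl01 u w) (sl02 u w)
        + chL ζ u w * (sx (sl01 u (ζ * w)) (sl02 u (ζ * w)) - sx (sl01 u w) (sl02 u w))) := by
  unfold sy sx sl01 sl02 chL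
  linear_combination
    ((-18 / 5) * ζ ^ 9 * u ^ 5 * w ^ 10 + (90) * ζ ^ 9 * u ^ 2 * w ^ 13
      + (36 / 5) * ζ ^ 9 * w ^ 15 + (-18 / 5) * ζ ^ 8 * u ^ 5 * w ^ 10
      + (-90) * ζ ^ 8 * u ^ 3 * w ^ 12 + (-90) * ζ ^ 8 * u ^ 2 * w ^ 13
      + (-54 / 5) * ζ ^ 8 * w ^ 15 + (-216 / 5) * ζ ^ 7 * u ^ 7 * w ^ 8
      + (-18 / 5) * ζ ^ 7 * u ^ 5 * w ^ 10 + (198) * ζ ^ 7 * u ^ 4 * w ^ 11
      + (90) * ζ ^ 7 * u ^ 3 * w ^ 12 + (432 / 5) * ζ ^ 7 * u ^ 2 * w ^ 13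
      + (36 / 5) * ζ ^ 7 * w ^ 15 + (-216 / 5) * ζ ^ 6 * u ^ 8 * w ^ 7
      + (-216 / 5) * ζ ^ 6 * u ^ 7 * w ^ 8 + (27 / 5) * ζ ^ 6 * u ^ 5 * w ^ 10
      + (-180) * ζ ^ 6 * u ^ 4 * w ^ 11 + (342 / 5) * ζ ^ 6 * u ^ 3 * w ^ 12
      + (-558 / 5) * ζ ^ 6 * u ^ 2 * w ^ 13 + (-9 / 5) * ζ ^ 6 * w ^ 15
      + (-432 / 5) * ζ ^ 5 * u ^ 9 * w ^ 6 + (-216 / 5) * ζ ^ 5 * u ^ 8 * w ^ 7
      + (-216 / 5) * ζ ^ 5 * u ^ 7 * w ^ 8 + (108) * ζ ^ 5 * u ^ 6 * w ^ 9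
      + (27 / 5) * ζ ^ 5 * u ^ 5 * w ^ 10 + (774 / 5) * ζ ^ 5 * u ^ 4 * w ^ 11
      + (-558 / 5) * ζ ^ 5 * u ^ 3 * w ^ 12 + (342 / 5) * ζ ^ 5 * u ^ 2 * w ^ 13
      + (-9 / 5) * ζ ^ 5 * w ^ 15 + (108) * ζ ^ 4 * u ^ 10 * w ^ 5
      + (-432 / 5) * ζ ^ 4 * u ^ 9 * w ^ 6 + (-216 / 5) * ζ ^ 4 * u ^ 8 * w ^ 7
      + (864 / 5) * ζ ^ 4 * u ^ 7 * w ^ 8 + (108) * ζ ^ 4 * u ^ 6 * w ^ 9
      + (-2178 / 5) * ζ ^ 4 * u ^ 5 * w ^ 10 + (-216 / 5) * ζ ^ 4 * u ^ 4 * w ^ 11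
      + (432 / 5) * ζ ^ 4 * u ^ 3 * w ^ 12 + (342 / 5) * ζ ^ 4 * u ^ 2 * w ^ 13
      + (36 / 5) * ζ ^ 4 * w ^ 15 + (-216) * ζ ^ 3 * u ^ 11 * w ^ 4
      + (108) * ζ ^ 3 * u ^ 10 * w ^ 5 + (-432 / 5) * ζ ^ 3 * u ^ 9 * w ^ 6
      + (1404 / 5) * ζ ^ 3 * u ^ 8 * w ^ 7 + (864 / 5) * ζ ^ 3 * u ^ 7 * w ^ 8
      + (3762 / 5) * ζ ^ 3 * u ^ 5 * w ^ 10 + (-216 / 5) * ζ ^ 3 * u ^ 4 * w ^ 11
      + (-558 / 5) * ζ ^ 3 * u ^ 3 * w ^ 12 + (-558 / 5) * ζ ^ 3 * u ^ 2 * w ^ 13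
      + (-54 / 5) * ζ ^ 3 * w ^ 15 + (648 / 5) * ζ ^ 2 * u ^ 12 * w ^ 3
      + (-216) * ζ ^ 2 * u ^ 11 * w ^ 4 + (108) * ζ ^ 2 * u ^ 10 * w ^ 5
      + (-3672 / 5) * ζ ^ 2 * u ^ 9 * w ^ 6 + (1404 / 5) * ζ ^ 2 * u ^ 8 * w ^ 7
      + (-4752 / 5) * ζ ^ 2 * u ^ 7 * w ^ 8 + (-2178 / 5) * ζ ^ 2 * u ^ 5 * w ^ 10
      + (774 / 5) * ζ ^ 2 * u ^ 4 * w ^ 11 + (342 / 5) * ζ ^ 2 * u ^ 3 * w ^ 12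
      + (432 / 5) * ζ ^ 2 * u ^ 2 * w ^ 13 + (36 / 5) * ζ ^ 2 * w ^ 15
      + (-432 / 5) * ζ * u ^ 13 * w ^ 2 + (648 / 5) * ζ * u ^ 12 * w ^ 3
      + (-216) * ζ * u ^ 11 * w ^ 4 + (378) * ζ * u ^ 10 * w ^ 5
      + (2268 / 5) * ζ * u ^ 9 * w ^ 6 + (1188 / 5) * ζ * u ^ 8 * w ^ 7
      + (1188 / 5) * ζ * u ^ 7 * w ^ 8 + (297 / 5) * ζ * u ^ 5 * w ^ 10
      + (-1116 / 5) * ζ * u ^ 4 * w ^ 11 + (342 / 5) * ζ * u ^ 3 * w ^ 12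
      + (-558 / 5) * ζ * u ^ 2 * w ^ 13 + (-9 / 5) * ζ * w ^ 15
      + (216 / 5) * u ^ 14 * w + (-432 / 5) * u ^ 13 * w ^ 2
      + (648 / 5) * u ^ 12 * w ^ 3 + (378) * u ^ 10 * w ^ 5
      + (-3564 / 5) * u ^ 9 * w ^ 6 + (1188 / 5) * u ^ 8 * w ^ 7
      + (1188 / 5) * u ^ 7 * w ^ 8 + (297 / 5) * u ^ 5 * w ^ 10
      + (774 / 5) * u ^ 4 * w ^ 11 + (-558 / 5) * u ^ 3 * w ^ 12
      + (342 / 5) * u ^ 2 * w ^ 13 + (-9 / 5) * w ^ 15) * hζ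

theorem chord_nv {ζ : K} (hζ : ζ ^ 4 + ζ ^ 3 + ζ ^ 2 + ζ + 1 = 0) (u w : K) :
    (sx (sl01 u w) (sl02 u w) - sx (sl10 ζ (u ^ 5) (w ^ 5)) (sl20 ζ (u ^ 5) (w ^ 5))) * chC ζ u w =
      kf u w ^ 2 := by
  unfold sx sl01 sl02 sl10 sl20 al be chC kf
  linear_combination
    ((-23 / 75) * ζ ^ 5 * u ^ 22 * w ^ 2 + (-23 / 15) * ζ ^ 5 * u ^ 21 * w ^ 3
      + (-46 / 15) * ζ ^ 5 * u ^ 20 * w ^ 4 + (-46 / 15) * ζ ^ 5 * u ^ 19 * w ^ 5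
      + (394 / 75) * ζ ^ 5 * u ^ 17 * w ^ 7 + (118 / 15) * ζ ^ 5 * u ^ 16 * w ^ 8
      + (121 / 15) * ζ ^ 5 * u ^ 15 * w ^ 9 + (121 / 15) * ζ ^ 5 * u ^ 14 * w ^ 10
      + (-329 / 25) * ζ ^ 5 * u ^ 12 * w ^ 12 + (-146 / 15) * ζ ^ 5 * u ^ 11 * w ^ 13
      + (68 / 15) * ζ ^ 5 * u ^ 10 * w ^ 14 + (68 / 15) * ζ ^ 5 * u ^ 9 * w ^ 15
      + (-44 / 75) * ζ ^ 5 * u ^ 7 * w ^ 17 + (4 / 15) * ζ ^ 5 * u ^ 6 * w ^ 18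
      + (-2 / 15) * ζ ^ 5 * u ^ 5 * w ^ 19 + (-2 / 15) * ζ ^ 5 * u ^ 4 * w ^ 20
      + (2 / 75) * ζ ^ 5 * u ^ 2 * w ^ 22 + (-24 / 25) * ζ ^ 4 * u ^ 22 * w ^ 2
      + (-24 / 5) * ζ ^ 4 * u ^ 21 * w ^ 3 + (-48 / 5) * ζ ^ 4 * u ^ 20 * w ^ 4
      + (-48 / 5) * ζ ^ 4 * u ^ 19 * w ^ 5 + (322 / 25) * ζ ^ 4 * u ^ 17 * w ^ 7
      + (34 / 5) * ζ ^ 4 * u ^ 16 * w ^ 8 + (-52 / 5) * ζ ^ 4 * u ^ 15 * w ^ 9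
      + (-52 / 5) * ζ ^ 4 * u ^ 14 * w ^ 10 + (244 / 25) * ζ ^ 4 * u ^ 12 * w ^ 12
      + (52 / 5) * ζ ^ 4 * u ^ 11 * w ^ 13 + (34 / 5) * ζ ^ 4 * u ^ 10 * w ^ 14
      + (34 / 5) * ζ ^ 4 * u ^ 9 * w ^ 15 + (-322 / 25) * ζ ^ 4 * u ^ 7 * w ^ 17
      + (-48 / 5) * ζ ^ 4 * u ^ 6 * w ^ 18 + (24 / 5) * ζ ^ 4 * u ^ 5 * w ^ 19
      + (24 / 5) * ζ ^ 4 * u ^ 4 * w ^ 20 + (-24 / 25) * ζ ^ 4 * u ^ 2 * w ^ 22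
      + (-97 / 75) * ζ ^ 3 * u ^ 22 * w ^ 2 + (-97 / 15) * ζ ^ 3 * u ^ 21 * w ^ 3
      + (-194 / 15) * ζ ^ 3 * u ^ 20 * w ^ 4 + (-194 / 15) * ζ ^ 3 * u ^ 19 * w ^ 5
      + (1316 / 75) * ζ ^ 3 * u ^ 17 * w ^ 7 + (152 / 15) * ζ ^ 3 * u ^ 16 * w ^ 8
      + (-181 / 15) * ζ ^ 3 * u ^ 15 * w ^ 9 + (-181 / 15) * ζ ^ 3 * u ^ 14 * w ^ 10
      + (244 / 25) * ζ ^ 3 * u ^ 12 * w ^ 12 + (131 / 15) * ζ ^ 3 * u ^ 11 * w ^ 13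
      + (52 / 15) * ζ ^ 3 * u ^ 10 * w ^ 14 + (52 / 15) * ζ ^ 3 * u ^ 9 * w ^ 15
      + (-616 / 75) * ζ ^ 3 * u ^ 7 * w ^ 17 + (-94 / 15) * ζ ^ 3 * u ^ 6 * w ^ 18
      + (47 / 15) * ζ ^ 3 * u ^ 5 * w ^ 19 + (47 / 15) * ζ ^ 3 * u ^ 4 * w ^ 20
      + (-47 / 75) * ζ ^ 3 * u ^ 2 * w ^ 22 + (-44 / 25) * ζ ^ 2 * u ^ 22 * w ^ 2
      + (-109 / 15) * ζ ^ 2 * u ^ 21 * w ^ 3 + (-13) * ζ ^ 2 * u ^ 20 * w ^ 4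
      + (-13) * ζ ^ 2 * u ^ 19 * w ^ 5 + (1166 / 75) * ζ ^ 2 * u ^ 17 * w ^ 7
      + (154 / 15) * ζ ^ 2 * u ^ 16 * w ^ 8 + (-2 / 3) * ζ ^ 2 * u ^ 15 * w ^ 9
      + (-2 / 3) * ζ ^ 2 * u ^ 14 * w ^ 10 + (797 / 75) * ζ ^ 2 * u ^ 12 * w ^ 12
      + (242 / 15) * ζ ^ 2 * u ^ 11 * w ^ 13 + (-13) * ζ ^ 2 * u ^ 10 * w ^ 14
      + (-13) * ζ ^ 2 * u ^ 9 * w ^ 15 + (419 / 75) * ζ ^ 2 * u ^ 7 * w ^ 17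
      + (22 / 15) * ζ ^ 2 * u ^ 6 * w ^ 18 + (-2 / 3) * ζ ^ 2 * u ^ 5 * w ^ 19
      + (-2 / 3) * ζ ^ 2 * u ^ 4 * w ^ 20 + (8 / 75) * ζ ^ 2 * u ^ 2 * w ^ 22
      + (-54 / 25) * ζ * u ^ 22 * w ^ 2 + (-113 / 15) * ζ * u ^ 21 * w ^ 3
      + (-59 / 5) * ζ * u ^ 20 * w ^ 4 + (-59 / 5) * ζ * u ^ 19 * w ^ 5
      + (46 / 75) * ζ * u ^ 17 * w ^ 7 + (-412 / 15) * ζ * u ^ 16 * w ^ 8
      + (-638 / 15) * ζ * u ^ 15 * w ^ 9 + (-638 / 15) * ζ * u ^ 14 * w ^ 10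
      + (3262 / 75) * ζ * u ^ 12 * w ^ 12 + (379 / 15) * ζ * u ^ 11 * w ^ 13
      + (67 / 5) * ζ * u ^ 10 * w ^ 14 + (67 / 5) * ζ * u ^ 9 * w ^ 15
      + (-791 / 75) * ζ * u ^ 7 * w ^ 17 + (44 / 15) * ζ * u ^ 6 * w ^ 18
      + (-59 / 15) * ζ * u ^ 5 * w ^ 19 + (-59 / 15) * ζ * u ^ 4 * w ^ 20
      + (133 / 75) * ζ * u ^ 2 * w ^ 22 + (-43 / 25) * u ^ 22 * w ^ 2
      + (-27 / 5) * u ^ 21 * w ^ 3 + (-38 / 5) * u ^ 20 * w ^ 4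
      + (-38 / 5) * u ^ 19 * w ^ 5 + (169 / 25) * u ^ 17 * w ^ 7
      + (77 / 5) * u ^ 16 * w ^ 8 + (203 / 5) * u ^ 15 * w ^ 9
      + (203 / 5) * u ^ 14 * w ^ 10 + (-1007 / 25) * u ^ 12 * w ^ 12
      + (-109 / 5) * u ^ 11 * w ^ 13 + (-6 / 5) * u ^ 10 * w ^ 14
      + (-6 / 5) * u ^ 9 * w ^ 15 + (126 / 25) * u ^ 7 * w ^ 17
      + (1 / 5) * u ^ 6 * w ^ 18 + (4 / 5) * u ^ 5 * w ^ 19
      + (4 / 5) * u ^ 4 * w ^ 20 + (-13 / 25) * u ^ 2 * w ^ 22) * hζ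

end Identities

/-! ### the four families of points -/

section Points

variable {R : Type*} [CommRing R] {K : Type*} [Field K] [CharZero K] [DecidableEq K] [Algebra R K]

/-- `P_(0,1)(u, ζᵏ v)`. -/
noncomputable def ptB (W : WeierstrassCurve R) (ζ u v : K) (k : ℕ) : (W⁄K).Point :=
  slopePt W (sl01 u (ζ ^ k * v)) (sl02 u (ζ ^ k * v))

/-- `P_(0,2)(u, ζᵏ v)`. -/
noncomputable def ptC (W : WeierstrassCurve R) (ζ u v : K) (k : ℕ) : (W⁄K).Point :=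
  slopePt W (sl02 u (ζ ^ k * v)) (-sl01 u (ζ ^ k * v))

/-- `P_(1,0)`. -/
noncomputable def ptA1 (W : WeierstrassCurve R) (ζ u v : K) : (W⁄K).Point :=
  slopePt W (sl10 ζ (u ^ 5) (v ^ 5)) (sl20 ζ (u ^ 5) (v ^ 5))

/-- `P_(2,0)`. -/
noncomputable def ptA2 (W : WeierstrassCurve R) (ζ u v : K) : (W⁄K).Point :=
  slopePt W (sl20 ζ (u ^ 5) (v ^ 5)) (-sl10 ζ (u ^ 5) (v ^ 5))

variable {W W' : WeierstrassCurve R} {ζ u v : K}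

omit [CharZero K] [DecidableEq K] in
theorem kf_twist (hζ : ζ ^ 4 + ζ ^ 3 + ζ ^ 2 + ζ + 1 = 0) (k : ℕ) (u v : K) :
    kf u (ζ ^ k * v) = ζ ^ k * kf u v := by
  have h5 := zeta_pow_mul_pow_five hζ k v
  have h10 : (ζ ^ k * v) ^ 10 = v ^ 10 := by
    rw [show (10 : ℕ) = 5 * 2 from rfl, pow_mul, h5, ← pow_mul]
  unfold kf
  rw [h5, h10]
  ring

omit [CharZero K] [DecidableEq K] in
theorem kH_twist (hζ : ζ ^ 4 + ζ ^ 3 + ζ ^ 2 + ζ + 1 = 0) (k : ℕ) (u v : K) :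
    kH u (ζ ^ k * v) = kH u v := by
  rw [kH_eq_kH5, kH_eq_kH5 u v, zeta_pow_mul_pow_five hζ]

omit [CharZero K] [DecidableEq K] in
theorem kT_twist (hζ : ζ ^ 4 + ζ ^ 3 + ζ ^ 2 + ζ + 1 = 0) (k : ℕ) (u v : K) :
    kT u (ζ ^ k * v) = kT u v := by
  rw [kT_eq_kT5, kT_eq_kT5 u v, zeta_pow_mul_pow_five hζ]

omit [CharZero K] [DecidableEq K] in
theorem kf_twist_ne_zero (hζ : ζ ^ 4 + ζ ^ 3 + ζ ^ 2 + ζ + 1 = 0) (k : ℕ) (hf : kf u v ≠ 0) :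
    kf u (ζ ^ k * v) ≠ 0 := by
  rw [kf_twist hζ]
  exact mul_ne_zero (pow_ne_zero _ (zeta_ne_zero hζ)) hf

omit [DecidableEq K] in
theorem slopeRel_B (hζ : ζ ^ 4 + ζ ^ 3 + ζ ^ 2 + ζ + 1 = 0) (hf : kf u v ≠ 0) (k : ℕ) :
    SlopeRel (kH u v) (kT u v) (sl01 u (ζ ^ k * v)) (sl02 u (ζ ^ k * v)) := by
  have := slopeRel_01 (kf_twist_ne_zero hζ k hf)
  rwa [kH_twist hζ, kT_twist hζ] at this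

omit [CharZero K] [DecidableEq K] in
theorem kq5_ne_zero (hf : kf u v ≠ 0) : kq5 (u ^ 5) (v ^ 5) ≠ 0 := by
  intro h0
  apply hf
  rw [kf_eq_kq5, h0, mul_zero]

omit [DecidableEq K] in
theorem slopeRel_A (hζ : ζ ^ 4 + ζ ^ 3 + ζ ^ 2 + ζ + 1 = 0) (hf : kf u v ≠ 0) :
    SlopeRel (kH u v) (kT u v) (sl10 ζ (u ^ 5) (v ^ 5)) (sl20 ζ (u ^ 5) (v ^ 5)) := by
  have := slopeRel_10 hζ (kq5_ne_zero hf)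
  rwa [← kH_eq_kH5, ← kT_eq_kT5] at this

theorem ptB_ne_zero (hζ : ζ ^ 4 + ζ ^ 3 + ζ ^ 2 + ζ + 1 = 0)
    (hW : IsShort W (kH u v) (kT u v)) (hf : kf u v ≠ 0) (k : ℕ) : ptB W ζ u v k ≠ 0 :=
  slopePt_ne_zero hW (slopeRel_B hζ hf k)

theorem ptC_ne_zero (hζ : ζ ^ 4 + ζ ^ 3 + ζ ^ 2 + ζ + 1 = 0)
    (hW : IsShort W (kH u v) (kT u v)) (hf : kf u v ≠ 0) (k : ℕ) : ptC W ζ u v k ≠ 0 :=
  slopePt_ne_zero hW (slopeRel_B hζ hf k).swap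

theorem ptA1_ne_zero (hζ : ζ ^ 4 + ζ ^ 3 + ζ ^ 2 + ζ + 1 = 0)
    (hW : IsShort W (kH u v) (kT u v)) (hf : kf u v ≠ 0) : ptA1 W ζ u v ≠ 0 :=
  slopePt_ne_zero hW (slopeRel_A hζ hf)

theorem ptA2_ne_zero (hζ : ζ ^ 4 + ζ ^ 3 + ζ ^ 2 + ζ + 1 = 0)
    (hW : IsShort W (kH u v) (kT u v)) (hf : kf u v ≠ 0) : ptA2 W ζ u v ≠ 0 :=
  slopePt_ne_zero hW (slopeRel_A hζ hf).swap

/-- `2 • P_(0,1) = P_(0,2)`. -/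
theorem r1 (hζ : ζ ^ 4 + ζ ^ 3 + ζ ^ 2 + ζ + 1 = 0) (hW : IsShort W (kH u v) (kT u v))
    (hf : kf u v ≠ 0) (k : ℕ) : 2 • ptB W ζ u v k = ptC W ζ u v k :=
  two_nsmul_slopePt hW (slopeRel_B hζ hf k)

/-- `2 • P_(0,2) = -P_(0,1)`. -/
theorem r2 (hζ : ζ ^ 4 + ζ ^ 3 + ζ ^ 2 + ζ + 1 = 0) (hW : IsShort W (kH u v) (kT u v))
    (hf : kf u v ≠ 0) (k : ℕ) : 2 • ptC W ζ u v k = -ptB W ζ u v k := by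
  unfold ptC ptB
  rw [two_nsmul_slopePt hW (slopeRel_B hζ hf k).swap, neg_slopePt hW (slopeRel_B hζ hf k)]

/-- `2 • P_(1,0) = P_(2,0)`. -/
theorem r3 (hζ : ζ ^ 4 + ζ ^ 3 + ζ ^ 2 + ζ + 1 = 0) (hW : IsShort W (kH u v) (kT u v))
    (hf : kf u v ≠ 0) : 2 • ptA1 W ζ u v = ptA2 W ζ u v :=
  two_nsmul_slopePt hW (slopeRel_A hζ hf)

/-- `2 • P_(2,0) = -P_(1,0)`. -/
theorem r4 (hζ : ζ ^ 4 + ζ ^ 3 + ζ ^ 2 + ζ + 1 = 0) (hW : IsShort W (kH u v) (kT u v))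
    (hf : kf u v ≠ 0) : 2 • ptA2 W ζ u v = -ptA1 W ζ u v := by
  unfold ptA2 ptA1
  rw [two_nsmul_slopePt hW (slopeRel_A hζ hf).swap, neg_slopePt hW (slopeRel_A hζ hf)]

/-- `P_(0,1)(u, ζᵏ v) + P_(1,0) = P_(0,1)(u, ζᵏ⁺¹ v)`. -/
theorem r5 (hζ : ζ ^ 4 + ζ ^ 3 + ζ ^ 2 + ζ + 1 = 0) (hW : IsShort W (kH u v) (kT u v))
    (hf : kf u v ≠ 0) (k : ℕ) : ptB W ζ u v k + ptA1 W ζ u v = ptB W ζ u v (k + 1) := by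
  unfold ptB ptA1
  have hw5 := zeta_pow_mul_pow_five hζ k v
  have hw : ζ ^ (k + 1) * v = ζ * (ζ ^ k * v) := by rw [pow_succ]; ring
  rw [hw, ← hw5]
  have hA : SlopeRel (kH u v) (kT u v) (sl10 ζ (u ^ 5) ((ζ ^ k * v) ^ 5))
      (sl20 ζ (u ^ 5) ((ζ ^ k * v) ^ 5)) := by
    rw [hw5]; exact slopeRel_A hζ hf
  have hB1 : SlopeRel (kH u v) (kT u v) (sl01 u (ζ * (ζ ^ k * v))) (sl02 u (ζ * (ζ ^ k * v))) := by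
    rw [← hw]; exact slopeRel_B hζ hf (k + 1)
  refine add_slopePt (L := chL ζ u (ζ ^ k * v)) hW (slopeRel_B hζ hf k) hA hB1 ?_
    (chord_c1 hζ u _) (chord_c2 hζ u _) (chord_c3 hζ u _)
  intro h0
  have := chord_nv hζ u (ζ ^ k * v)
  rw [h0, sub_self, zero_mul] at this
  exact kf_twist_ne_zero hζ k hf (pow_eq_zero_iff (two_ne_zero) |>.mp this.symm)

/-- **the level structure of `E_z`**. -/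
theorem exists_lvl (hζ : ζ ^ 4 + ζ ^ 3 + ζ ^ 2 + ζ + 1 = 0) (hW : IsShort W (kH u v) (kT u v))
    (hf : kf u v ≠ 0) :
    ∃ φ : ZMod 5 × ZMod 5 →+ (W⁄K).Point,
      LevelGlueB1.IsLvlOf φ (ptA1 W ζ u v) (ptA2 W ζ u v) (ptB W ζ u v) (ptC W ζ u v) ∧
        ∀ w, w ≠ 0 → φ w ≠ 0 := by
  obtain ⟨φ, hφ⟩ := LevelGlueB1.exists_lvl (ptA1 W ζ u v) (ptA2 W ζ u v) (ptB W ζ u v) (ptC W ζ u v)
    (r1 hζ hW hf) (r2 hζ hW hf) (r3 hζ hW hf) (r4 hζ hW hf) (r5 hζ hW hf)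
  exact ⟨φ, hφ, LevelGlueB1.ne_zero_of_data hφ (ptB_ne_zero hζ hW hf) (ptC_ne_zero hζ hW hf)
    (ptA1_ne_zero hζ hW hf) (ptA2_ne_zero hζ hW hf)⟩

/-! ### the values of `Θ_t` -/

omit [CharZero K] [DecidableEq K] in
theorem deform_twist_fst (hζ : ζ ^ 4 + ζ ^ 3 + ζ ^ 2 + ζ + 1 = 0) (k : ℕ) (u v t : K) :
    u + t * kw1 u (ζ ^ k * v) = u + t * kw1 u v := by
  rw [kw1_eq, kw1_eq u v, zeta_pow_mul_pow_five hζ]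

omit [CharZero K] [DecidableEq K] in
theorem deform_twist_snd (hζ : ζ ^ 4 + ζ ^ 3 + ζ ^ 2 + ζ + 1 = 0) (k : ℕ) (u v t : K) :
    ζ ^ k * v + t * kw2 u (ζ ^ k * v) = ζ ^ k * (v + t * kw2 u v) := by
  rw [kw2_eq, kw2_eq u v, zeta_pow_mul_pow_five hζ]
  ring

theorem theta_ptB (hζ : ζ ^ 4 + ζ ^ 3 + ζ ^ 2 + ζ + 1 = 0) (hW : IsShort W (kH u v) (kT u v))
    (hf : kf u v ≠ 0) (t : K) (k : ℕ) :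
    thetaFun W W' Xi U1 U2 (kH u v) (kT u v) t (ptB W ζ u v k) =
      ptB W' ζ (u + t * kw1 u v) (v + t * kw2 u v) k := by
  unfold ptB
  rw [theta_slopePt t hW (slopeRel_B hζ hf k), sl01_deform, sl02_deform, deform_twist_fst hζ,
    deform_twist_snd hζ]

theorem theta_ptC (hζ : ζ ^ 4 + ζ ^ 3 + ζ ^ 2 + ζ + 1 = 0) (hW : IsShort W (kH u v) (kT u v))
    (hf : kf u v ≠ 0) (t : K) (k : ℕ) :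
    thetaFun W W' Xi U1 U2 (kH u v) (kT u v) t (ptC W ζ u v k) =
      ptC W' ζ (u + t * kw1 u v) (v + t * kw2 u v) k := by
  unfold ptC
  rw [theta_slopePt t hW (slopeRel_B hζ hf k).swap, sl02_deform, slS_neg, sl01_deform,
    deform_twist_fst hζ, deform_twist_snd hζ]

theorem theta_ptA1 (hζ : ζ ^ 4 + ζ ^ 3 + ζ ^ 2 + ζ + 1 = 0) (hW : IsShort W (kH u v) (kT u v))
    (hf : kf u v ≠ 0) (t : K) :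
    thetaFun W W' Xi U1 U2 (kH u v) (kT u v) t (ptA1 W ζ u v) =
      ptA1 W' ζ (u + t * kw1 u v) (v + t * kw2 u v) := by
  unfold ptA1
  rw [theta_slopePt t hW (slopeRel_A hζ hf), slS_sl10 hζ, slS_sl20 hζ, deform_fst_pow,
    deform_snd_pow]

theorem theta_ptA2 (hζ : ζ ^ 4 + ζ ^ 3 + ζ ^ 2 + ζ + 1 = 0) (hW : IsShort W (kH u v) (kT u v))
    (hf : kf u v ≠ 0) (t : K) :
    thetaFun W W' Xi U1 U2 (kH u v) (kT u v) t (ptA2 W ζ u v) =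
      ptA2 W' ζ (u + t * kw1 u v) (v + t * kw2 u v) := by
  unfold ptA2
  rw [theta_slopePt t hW (slopeRel_A hζ hf).swap, slS_sl20 hζ, slS_neg, slS_sl10 hζ, deform_fst_pow,
    deform_snd_pow]

/-- **`Θ_t` is additive on `E_z[5]`** (`hadd`) **and does not vanish identically there** (`hne`). -/
theorem theta_additive_ne_zero (hζ : ζ ^ 4 + ζ ^ 3 + ζ ^ 2 + ζ + 1 = 0) (t : K)
    (hW : IsShort W (kH u v) (kT u v))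
    (hW' : IsShort W' (kH (u + t * kw1 u v) (v + t * kw2 u v))
      (kT (u + t * kw1 u v) (v + t * kw2 u v)))
    (hf : kf u v ≠ 0) (hf' : kf (u + t * kw1 u v) (v + t * kw2 u v) ≠ 0) :
    (∀ Q S : (W⁄K).Point, 5 • Q = 0 → 5 • S = 0 →
        thetaFun W W' Xi U1 U2 (kH u v) (kT u v) t (Q + S) =
          thetaFun W W' Xi U1 U2 (kH u v) (kT u v) t Q
            + thetaFun W W' Xi U1 U2 (kH u v) (kT u v) t S) ∧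
      ∃ Q : (W⁄K).Point, 5 • Q = 0 ∧ thetaFun W W' Xi U1 U2 (kH u v) (kT u v) t Q ≠ 0 := by
  obtain ⟨φ, hφ, hφne⟩ := exists_lvl hζ hW hf
  obtain ⟨φ', hφ', hφ'ne⟩ := exists_lvl hζ hW' hf'
  have h5 : (5 : K) ≠ 0 := by norm_num
  have hΘ : ∀ w, thetaFun W W' Xi U1 U2 (kH u v) (kT u v) t (φ w) = φ' w :=
    LevelGlueB1.intertwines hφ hφ' _ (thetaFun_zero W W' Xi U1 U2 _ _ t)
      (thetaFun_neg W W' Xi U1 U2 _ _ t hW.a1 hW.a3 hW'.a1 hW'.a3)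
      (theta_ptB hζ hW hf t) (theta_ptC hζ hW hf t) (theta_ptA1 hζ hW hf t)
      (theta_ptA2 hζ hW hf t)
  exact ⟨fun Q S hQ hS => LevelGlueEC1.additive h5 φ φ' hφne _ hΘ Q S hQ hS,
    LevelGlueEC1.exists_ne_zero φ φ' hφ'ne _ hΘ⟩

end Points

end Fermat.Agent.S52.KleinPts2
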