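/-
S52 toolkit (helper2): **the `a_ℓ` congruence from a `Θ`-map** (`ThetaFun2.thetaFun` plugged into
`ShortTransport2.dvd_apOfModel_sub_of_fun`): Galois equivariance is automatic when the parameters `H T t` are
rational and the coordinate functions commute with ring endomorphisms of `ℚ̄`; what remains to be supplied is
additivity on `p`-torsion and non-vanishing somewhere on `p`-torsion.
-/
import Fermat.Agent.S52.ThetaFun2
import Fermat.Agent.S52.ShortTransport2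

set_option autoImplicit false

open WeierstrassCurve WeierstrassCurve.Affine WeierstrassCurve.Affine.Point

namespace Fermat.Agent.S52.ThetaCong2

open Fermat.Agent.S52.ThetaFun2 Fermat.Agent.S52.ShortTransport2

local notation "Qb" => AlgebraicClosure ℚ
local notation "GQ" => (AlgebraicClosure ℚ ≃ₐ[ℚ] AlgebraicClosure ℚ)

/-- `Θ`-maps with rational parameters are `G_ℚ`-equivariant. -/
theorem thetaFun_smul_rat (E E' : WeierstrassCurve ℚ) (Xi U1 U2 : Qb → Qb → Qb → Qb → Qb → Qb)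
    (H T t : ℚ)
    (hXi : ∀ (φ : Qb →+* Qb) (a b c d e : Qb), φ (Xi a b c d e) = Xi (φ a) (φ b) (φ c) (φ d) (φ e))
    (hU1 : ∀ (φ : Qb →+* Qb) (a b c d e : Qb), φ (U1 a b c d e) = U1 (φ a) (φ b) (φ c) (φ d) (φ e))
    (hU2 : ∀ (φ : Qb →+* Qb) (a b c d e : Qb), φ (U2 a b c d e) = U2 (φ a) (φ b) (φ c) (φ d) (φ e))
    (σ : GQ) (P : (E⁄Qb).Point) :
    thetaFun E E' Xi U1 U2 (H : Qb) T t (σ • P) = σ • thetaFun E E' Xi U1 U2 (H : Qb) T t P :=
  thetaFun_smul E E' Xi U1 U2 _ _ _ hXi hU1 hU2 σ (by simp) (by simp) (by simp) P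

/-- **`a_ℓ(W') ≡ a_ℓ(W) (mod p)` from a `Θ`-map** between the short forms of `W` and `W'` that is additive and
not identically zero on `p`-torsion. -/
theorem dvd_apOfModel_sub_of_thetaFun (W W' : WeierstrassCurve ℤ) {p : ℕ} (hp : p.Prime) (hp2 : p ≠ 2)
    (Xi U1 U2 : Qb → Qb → Qb → Qb → Qb → Qb) (H T t : ℚ)
    (hXi : ∀ (φ : Qb →+* Qb) (a b c d e : Qb), φ (Xi a b c d e) = Xi (φ a) (φ b) (φ c) (φ d) (φ e))
    (hU1 : ∀ (φ : Qb →+* Qb) (a b c d e : Qb), φ (U1 a b c d e) = U1 (φ a) (φ b) (φ c) (φ d) (φ e))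
    (hU2 : ∀ (φ : Qb →+* Qb) (a b c d e : Qb), φ (U2 a b c d e) = U2 (φ a) (φ b) (φ c) (φ d) (φ e))
    (hadd : ∀ Q R : ((shortOf W)⁄Qb).Point, p • Q = 0 → p • R = 0 →
      thetaFun (shortOf W) (shortOf W') Xi U1 U2 (H : Qb) T t (Q + R) =
        thetaFun (shortOf W) (shortOf W') Xi U1 U2 (H : Qb) T t Q +
        thetaFun (shortOf W) (shortOf W') Xi U1 U2 (H : Qb) T t R)
    (hne : ∃ Q : ((shortOf W)⁄Qb).Point, p • Q = 0 ∧
      thetaFun (shortOf W) (shortOf W') Xi U1 U2 (H : Qb) T t Q ≠ 0)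
    {ℓ : ℕ} (hℓ : ℓ.Prime) (hgood : W.IsGoodPrimeFor ℓ) (hgood' : W'.IsGoodPrimeFor ℓ)
    (hℓp : ℓ ≠ p) : (p : ℤ) ∣ W'.apOfModel ℓ - W.apOfModel ℓ :=
  dvd_apOfModel_sub_of_fun W W' hp hp2 (thetaFun (shortOf W) (shortOf W') Xi U1 U2 (H : Qb) T t) hadd
    (fun σ Q _ => thetaFun_smul_rat _ _ Xi U1 U2 H T t hXi hU1 hU2 σ Q)
    hne hℓ hgood hgood' hℓp

end Fermat.Agent.S52.ThetaCong2
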