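/-
S52 toolkit (helper2), brick CONG-KLEIN: **`a_ℓ(W') ≡ a_ℓ(W) (mod 5)` for two integral models lying over Klein points
`z` and `z' = z + t • grad^⊥ kf (z)`.**

`W W' : WeierstrassCurve ℤ`, `z = (u, v) ∈ ℚ̄²` with `kH z = -c₄(W)`, `kT z = -c₆(W)`, `kf z ≠ 0`, and `t ∈ ℚ` with
`kH z' = -c₄(W')`, `kT z' = -c₆(W')`, `kf z' ≠ 0`.  Then `5 ∣ a_ℓ(W') - a_ℓ(W)` at all common good primes `ℓ ≠ 5`.
(`KleinPts2.theta_additive_ne_zero` plugged into `ThetaCong2.dvd_apOfModel_sub_of_thetaFun`.)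
-/
import Fermat.Agent.S52.KleinPts2
import Fermat.Agent.S52.ThetaCong2

set_option autoImplicit false

open WeierstrassCurve WeierstrassCurve.Affine WeierstrassCurve.Affine.Point

namespace Fermat.Agent.S52.CongKlein2

open Fermat.Agent.S52.Klein7 Fermat.Agent.S52.SlopeTheta2 Fermat.Agent.S52.ThetaFun2
  Fermat.Agent.S52.SlopePts2 Fermat.Agent.S52.ShortTransport2

local notation "Qb" => AlgebraicClosure ℚ

/-- the short form of `W` is the curve `y² = x³ + 27 H x + 54 T` with `H = -c₄`, `T = -c₆`. -/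
theorem isShort_shortOf (W : WeierstrassCurve ℤ) {H T : Qb} (hH : H = -(W.c₄ : Qb))
    (hT : T = -(W.c₆ : Qb)) : IsShort (K := Qb) (shortOf W) H T where
  a1 := rfl
  a2 := rfl
  a3 := rfl
  a4 := by
    rw [hH]
    simp only [shortOf, shortW, map_mul, map_neg, map_ofNat, eq_ratCast, Rat.cast_intCast]
    ring
  a6 := by
    rw [hT]
    simp only [shortOf, shortW, map_mul, map_neg, map_ofNat, eq_ratCast, Rat.cast_intCast]
    ring

/-- there is a primitive fifth root of unity in `ℚ̄`. -/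
theorem exists_zeta : ∃ ζ : Qb, ζ ^ 4 + ζ ^ 3 + ζ ^ 2 + ζ + 1 = 0 := by
  have hp : (Polynomial.X ^ 4 + Polynomial.X ^ 3 + Polynomial.X ^ 2 + Polynomial.X + 1 :
      Polynomial Qb).degree ≠ 0 := by
    have : (Polynomial.X ^ 4 + Polynomial.X ^ 3 + Polynomial.X ^ 2 + Polynomial.X + 1 :
        Polynomial Qb).degree = 4 := by
      compute_degree!
    rw [this]
    norm_num
  obtain ⟨ζ, hζ⟩ := IsAlgClosed.exists_root _ hp
  refine ⟨ζ, ?_⟩
  simpa using hζ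

/-- **the congruence over a pair of Klein points `z`, `z' = z + t • grad^⊥ kf (z)`.** -/
theorem dvd_apOfModel_sub_of_klein (W W' : WeierstrassCurve ℤ) {u v : Qb} (t : ℚ)
    (hH : kH u v = -(W.c₄ : Qb)) (hT : kT u v = -(W.c₆ : Qb))
    (hH' : kH (u + (t : Qb) * kw1 u v) (v + (t : Qb) * kw2 u v) = -(W'.c₄ : Qb))
    (hT' : kT (u + (t : Qb) * kw1 u v) (v + (t : Qb) * kw2 u v) = -(W'.c₆ : Qb))
    (hf : kf u v ≠ 0) (hf' : kf (u + (t : Qb) * kw1 u v) (v + (t : Qb) * kw2 u v) ≠ 0)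
    {ℓ : ℕ} (hℓ : ℓ.Prime) (hgood : W.IsGoodPrimeFor ℓ) (hgood' : W'.IsGoodPrimeFor ℓ)
    (hℓ5 : ℓ ≠ 5) : (5 : ℤ) ∣ W'.apOfModel ℓ - W.apOfModel ℓ := by
  obtain ⟨ζ, hζ⟩ := exists_zeta
  have hcH : ((-(W.c₄ : ℚ) : ℚ) : Qb) = kH u v := by rw [hH]; push_cast; ring
  have hcT : ((-(W.c₆ : ℚ) : ℚ) : Qb) = kT u v := by rw [hT]; push_cast; ring
  obtain ⟨hadd, hne⟩ := KleinPts2.theta_additive_ne_zero (W := shortOf W) (W' := shortOf W') hζ
    (t : Qb) (isShort_shortOf W hH hT) (isShort_shortOf W' hH' hT') hf hf'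
  have h5 : ((5 : ℕ) : ℤ) ∣ W'.apOfModel ℓ - W.apOfModel ℓ := by
    refine ThetaCong2.dvd_apOfModel_sub_of_thetaFun W W' Nat.prime_five (by norm_num) Xi U1 U2
      (-(W.c₄ : ℚ)) (-(W.c₆ : ℚ)) t (fun φ a b c d e => map_Xi φ a b c d e)
      (fun φ a b c d e => map_U1 φ a b c d e) (fun φ a b c d e => map_U2 φ a b c d e) ?_ ?_ hℓ
      hgood hgood' hℓ5
    · rw [hcH, hcT]
      exact hadd
    · rw [hcH, hcT]
      exact hne
  exact_mod_cast h5

end Fermat.Agent.S52.CongKlein2
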