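-- S52 (3-5 switch), data brick by helper9: the Rubin-Silverberg mod-5 family on Klein's forms.
-- DEFINITIONS ONLY (split off from `Family9` by helper5 so that the heavy identities can be proved in
-- separate files, one `ring` call per file: the original single file needs > 16 GB of memory).
-- For z = (u,v), kw(z) = (d kf/dv, -d kf/du), z' = z + t * kw(z):
--   kf z' = kf z * Gfam (kH z) (kT z) t,  kH z' = Hfam (kH z) (kT z) t,  kT z' = Tfam (kH z) (kT z) t.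
import Mathlib

set_option autoImplicit false

namespace Fermat.Agent.S52.Family9

variable {R : Type*} [CommRing R]

/-- Klein's icosahedral invariant of degree 12. -/
def kf (u v : R) : R := u * v * (u ^ 10 + 11 * u ^ 5 * v ^ 5 - v ^ 10)

/-- Klein's invariant of degree 20 (Hessian). -/
def kH (u v : R) : R :=
  -(u ^ 20 + v ^ 20) + 228 * (u ^ 15 * v ^ 5 - u ^ 5 * v ^ 15) - 494 * u ^ 10 * v ^ 10

/-- Klein's invariant of degree 30 (Jacobian). -/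
def kT (u v : R) : R :=
  u ^ 30 + v ^ 30 + 522 * (u ^ 25 * v ^ 5 - u ^ 5 * v ^ 25)
    - 10005 * (u ^ 20 * v ^ 10 + u ^ 10 * v ^ 20)

/-- first component of grad-perp of `kf`: `d kf / dv`. -/
def kw1 (u v : R) : R := u ^ 11 + 66 * u ^ 6 * v ^ 5 - 11 * u * v ^ 10

/-- second component of grad-perp of `kf`: `- d kf / du`. -/
def kw2 (u v : R) : R := -(11 * u ^ 10 * v + 66 * u ^ 5 * v ^ 6 - v ^ 11)

theorem syzygy (u v : R) : kT u v ^ 2 + kH u v ^ 3 = 1728 * kf u v ^ 5 := by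
  unfold kT kH kf; ring

theorem det_kw (u v : R) : u * kw2 u v - v * kw1 u v = -12 * kf u v := by
  unfold kw1 kw2 kf; ring

/-- coefficient of `t ^ 0` in `Gfam`. -/
def Gfamc0 (H T : R) : R := 1

/-- coefficient of `t ^ 1` in `Gfam`. -/
def Gfamc1 (H T : R) : R := 0

/-- coefficient of `t ^ 2` in `Gfam`. -/
def Gfamc2 (H T : R) : R := 66 * H

/-- coefficient of `t ^ 3` in `Gfam`. -/
def Gfamc3 (H T : R) : R := -440 * T

/-- coefficient of `t ^ 4` in `Gfam`. -/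
def Gfamc4 (H T : R) : R := -1485 * H ^ 2

/-- coefficient of `t ^ 5` in `Gfam`. -/
def Gfamc5 (H T : R) : R := 3168 * H * T

/-- coefficient of `t ^ 6` in `Gfam`. -/
def Gfamc6 (H T : R) : R := -5940 * H ^ 3 - 10560 * T ^ 2

/-- coefficient of `t ^ 7` in `Gfam`. -/
def Gfamc7 (H T : R) : R := -4752 * H ^ 2 * T

/-- coefficient of `t ^ 8` in `Gfam`. -/
def Gfamc8 (H T : R) : R := -66825 * H ^ 4 - 63360 * H * T ^ 2

/-- coefficient of `t ^ 9` in `Gfam`. -/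
def Gfamc9 (H T : R) : R := 142560 * H ^ 3 * T + 140800 * T ^ 3

/-- coefficient of `t ^ 10` in `Gfam`. -/
def Gfamc10 (H T : R) : R := 133650 * H ^ 5 + 133056 * H ^ 2 * T ^ 2

/-- coefficient of `t ^ 11` in `Gfam`. -/
def Gfamc11 (H T : R) : R := -61560 * H ^ 4 * T - 61440 * H * T ^ 3

/-- coefficient of `t ^ 12` in `Gfam`. -/
def Gfamc12 (H T : R) : R := 91125 * H ^ 6 + 193536 * H ^ 3 * T ^ 2 + 102400 * T ^ 4

/-- `kf (z + t w) / kf z` as a polynomial in `H = kH z`, `T = kT z`, `t`. -/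
def Gfam (H T t : R) : R :=
  Gfamc0 H T + Gfamc1 H T * t + Gfamc2 H T * t ^ 2 + Gfamc3 H T * t ^ 3 + Gfamc4 H T * t ^ 4 +
    Gfamc5 H T * t ^ 5 + Gfamc6 H T * t ^ 6 + Gfamc7 H T * t ^ 7 + Gfamc8 H T * t ^ 8 +
    Gfamc9 H T * t ^ 9 + Gfamc10 H T * t ^ 10 + Gfamc11 H T * t ^ 11 + Gfamc12 H T * t ^ 12

/-- coefficient of `t ^ 0` in `Hfam`. -/
def Hfamc0 (H T : R) : R := 1 * H

/-- coefficient of `t ^ 1` in `Hfam`. -/
def Hfamc1 (H T : R) : R := -20 * T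

/-- coefficient of `t ^ 2` in `Hfam`. -/
def Hfamc2 (H T : R) : R := -190 * H ^ 2

/-- coefficient of `t ^ 3` in `Hfam`. -/
def Hfamc3 (H T : R) : R := 1140 * H * T

/-- coefficient of `t ^ 4` in `Hfam`. -/
def Hfamc4 (H T : R) : R := -855 * H ^ 3 - 5700 * T ^ 2

/-- coefficient of `t ^ 5` in `Hfam`. -/
def Hfamc5 (H T : R) : R := -15504 * H ^ 2 * T

/-- coefficient of `t ^ 6` in `Hfam`. -/
def Hfamc6 (H T : R) : R := -102600 * H ^ 4 - 63840 * H * T ^ 2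

/-- coefficient of `t ^ 7` in `Hfam`. -/
def Hfamc7 (H T : R) : R := 259920 * H ^ 3 * T + 182400 * T ^ 3

/-- coefficient of `t ^ 8` in `Hfam`. -/
def Hfamc8 (H T : R) : R := -1000350 * H ^ 5 - 1126320 * H ^ 2 * T ^ 2

/-- coefficient of `t ^ 9` in `Hfam`. -/
def Hfamc9 (H T : R) : R := 7736040 * H ^ 4 * T + 7904000 * H * T ^ 3

/-- coefficient of `t ^ 10` in `Hfam`. -/
def Hfamc10 (H T : R) : R := 10003500 * H ^ 6 - 5619744 * H ^ 3 * T ^ 2 - 15808000 * T ^ 4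

/-- coefficient of `t ^ 11` in `Hfam`. -/
def Hfamc11 (H T : R) : R := -54685800 * H ^ 5 * T - 54853760 * H ^ 2 * T ^ 3

/-- coefficient of `t ^ 12` in `Hfam`. -/
def Hfamc12 (H T : R) : R := -45015750 * H ^ 7 - 7202520 * H ^ 4 * T ^ 2 + 37939200 * H * T ^ 4

/-- coefficient of `t ^ 13` in `Hfam`. -/
def Hfamc13 (H T : R) : R := 35089200 * H ^ 6 * T - 23201280 * H ^ 3 * T ^ 3 - 58368000 * T ^ 5

/-- coefficient of `t ^ 14` in `Hfam`. -/
def Hfamc14 (H T : R) : R := -207765000 * H ^ 8 - 495188640 * H ^ 5 * T ^ 2 - 287462400 * H ^ 2 * T ^ 4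

/-- coefficient of `t ^ 15` in `Hfam`. -/
def Hfamc15 (H T : R) : R := 415530000 * H ^ 7 * T + 882458496 * H ^ 4 * T ^ 3 + 466944000 * H * T ^ 5

/-- coefficient of `t ^ 16` in `Hfam`. -/
def Hfamc16 (H T : R) : R := -77911875 * H ^ 9 - 714711600 * H ^ 6 * T ^ 2 - 1220474880 * H ^ 3 * T ^ 4 - 583680000 * T ^ 6

/-- coefficient of `t ^ 17` in `Hfam`. -/
def Hfamc17 (H T : R) : R := -353200500 * H ^ 8 * T - 715080960 * H ^ 5 * T ^ 3 - 361881600 * H ^ 2 * T ^ 5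

/-- coefficient of `t ^ 18` in `Hfam`. -/
def Hfamc18 (H T : R) : R := -779118750 * H ^ 10 - 2182917600 * H ^ 7 * T ^ 2 - 2026391040 * H ^ 4 * T ^ 4 - 622592000 * H * T ^ 6

/-- coefficient of `t ^ 19` in `Hfam`. -/
def Hfamc19 (H T : R) : R := 694372500 * H ^ 9 * T + 2044414080 * H ^ 6 * T ^ 3 + 2005401600 * H ^ 3 * T ^ 5 + 655360000 * T ^ 7

/-- coefficient of `t ^ 20` in `Hfam`. -/
def Hfamc20 (H T : R) : R := 184528125 * H ^ 11 + 549301500 * H ^ 8 * T ^ 2 + 544997376 * H ^ 5 * T ^ 4 + 180224000 * H ^ 2 * T ^ 6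

/-- `kH (z + t w)` as a polynomial in `H = kH z`, `T = kT z`, `t`. -/
def Hfam (H T t : R) : R :=
  Hfamc0 H T + Hfamc1 H T * t + Hfamc2 H T * t ^ 2 + Hfamc3 H T * t ^ 3 + Hfamc4 H T * t ^ 4 +
    Hfamc5 H T * t ^ 5 + Hfamc6 H T * t ^ 6 + Hfamc7 H T * t ^ 7 + Hfamc8 H T * t ^ 8 +
    Hfamc9 H T * t ^ 9 + Hfamc10 H T * t ^ 10 + Hfamc11 H T * t ^ 11 + Hfamc12 H T * t ^ 12 +
    Hfamc13 H T * t ^ 13 + Hfamc14 H T * t ^ 14 + Hfamc15 H T * t ^ 15 + Hfamc16 H T * t ^ 16 +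
    Hfamc17 H T * t ^ 17 + Hfamc18 H T * t ^ 18 + Hfamc19 H T * t ^ 19 + Hfamc20 H T * t ^ 20

/-- coefficient of `t ^ 0` in `Tfam`. -/
def Tfamc0 (H T : R) : R := 1 * T

/-- coefficient of `t ^ 1` in `Tfam`. -/
def Tfamc1 (H T : R) : R := 30 * H ^ 2

/-- coefficient of `t ^ 2` in `Tfam`. -/
def Tfamc2 (H T : R) : R := -435 * H * T

/-- coefficient of `t ^ 3` in `Tfam`. -/
def Tfamc3 (H T : R) : R := -1160 * H ^ 3 + 2900 * T ^ 2

/-- coefficient of `t ^ 4` in `Tfam`. -/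
def Tfamc4 (H T : R) : R := 27405 * H ^ 2 * T

/-- coefficient of `t ^ 5` in `Tfam`. -/
def Tfamc5 (H T : R) : R := 95526 * H ^ 4 - 46980 * H * T ^ 2

/-- coefficient of `t ^ 6` in `Tfam`. -/
def Tfamc6 (H T : R) : R := -437175 * H ^ 3 * T + 156600 * T ^ 3

/-- coefficient of `t ^ 7` in `Tfam`. -/
def Tfamc7 (H T : R) : R := 1879200 * H ^ 5 + 3915000 * H ^ 2 * T ^ 2

/-- coefficient of `t ^ 8` in `Tfam`. -/
def Tfamc8 (H T : R) : R := -8554275 * H ^ 4 * T - 14407200 * H * T ^ 3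

/-- coefficient of `t ^ 9` in `Tfam`. -/
def Tfamc9 (H T : R) : R := 24312150 * H ^ 6 + 42021000 * H ^ 3 * T ^ 2 + 32016000 * T ^ 4

/-- coefficient of `t ^ 10` in `Tfam`. -/
def Tfamc10 (H T : R) : R := -246633255 * H ^ 5 * T - 216588240 * H ^ 2 * T ^ 3

/-- coefficient of `t ^ 11` in `Tfam`. -/
def Tfamc11 (H T : R) : R := -162081000 * H ^ 7 + 1352475900 * H ^ 4 * T ^ 2 + 1459929600 * H * T ^ 4

/-- coefficient of `t ^ 12` in `Tfam`. -/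
def Tfamc12 (H T : R) : R := 4131714825 * H ^ 6 * T + 1612005600 * H ^ 3 * T ^ 3 - 2433216000 * T ^ 5

/-- coefficient of `t ^ 13` in `Tfam`. -/
def Tfamc13 (H T : R) : R := 6928962750 * H ^ 8 - 5235216300 * H ^ 5 * T ^ 2 - 12044419200 * H ^ 2 * T ^ 4

/-- coefficient of `t ^ 14` in `Tfam`. -/
def Tfamc14 (H T : R) : R := -43190534475 * H ^ 7 * T - 43045111800 * H ^ 4 * T ^ 3

/-- coefficient of `t ^ 15` in `Tfam`. -/
def Tfamc15 (H T : R) : R := 79575287760 * H ^ 6 * T ^ 2 + 79420170240 * H ^ 3 * T ^ 4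

/-- coefficient of `t ^ 16` in `Tfam`. -/
def Tfamc16 (H T : R) : R := -176688550125 * H ^ 8 * T - 474659611200 * H ^ 5 * T ^ 3 - 297825638400 * H ^ 2 * T ^ 5

/-- coefficient of `t ^ 17` in `Tfam`. -/
def Tfamc17 (H T : R) : R := -311803323750 * H ^ 10 - 77604382800 * H ^ 7 * T ^ 2 + 935084908800 * H ^ 4 * T ^ 4 + 700766208000 * H * T ^ 6

/-- coefficient of `t ^ 18` in `Tfam`. -/
def Tfamc18 (H T : R) : R := 1694131392375 * H ^ 9 * T + 2776512362400 * H ^ 6 * T ^ 3 + 303665356800 * H ^ 3 * T ^ 5 - 778629120000 * T ^ 7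

/-- coefficient of `t ^ 19` in `Tfam`. -/
def Tfamc19 (H T : R) : R := 328214025000 * H ^ 11 - 3481840250100 * H ^ 8 * T ^ 2 - 8100765158400 * H ^ 5 * T ^ 4 - 4290656256000 * H ^ 2 * T ^ 6

/-- coefficient of `t ^ 20` in `Tfam`. -/
def Tfamc20 (H T : R) : R := -2874607835625 * H ^ 10 * T - 2424887357760 * H ^ 7 * T ^ 3 + 3892110842880 * H ^ 4 * T ^ 5 + 3442360320000 * H * T ^ 7

/-- coefficient of `t ^ 21` in `Tfam`. -/
def Tfamc21 (H T : R) : R := -2215444668750 * H ^ 12 - 3077188825500 * H ^ 9 * T ^ 2 - 2709129888000 * H ^ 6 * T ^ 4 - 5125838438400 * H ^ 3 * T ^ 6 - 3278438400000 * T ^ 8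

/-- coefficient of `t ^ 22` in `Tfam`. -/
def Tfamc22 (H T : R) : R := 1403114956875 * H ^ 11 * T - 1724509423800 * H ^ 8 * T ^ 3 - 7701051801600 * H ^ 5 * T ^ 5 - 4573421568000 * H ^ 2 * T ^ 7

/-- coefficient of `t ^ 23` in `Tfam`. -/
def Tfamc23 (H T : R) : R := -7705894500000 * H ^ 13 - 33414470973000 * H ^ 10 * T ^ 2 - 49888700928000 * H ^ 7 * T ^ 4 - 30337884979200 * H ^ 4 * T ^ 6 - 6157762560000 * H * T ^ 8

/-- coefficient of `t ^ 24` in `Tfam`. -/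
def Tfamc24 (H T : R) : R := 5089101159375 * H ^ 12 * T + 22687218914400 * H ^ 9 * T ^ 3 + 35246094796800 * H ^ 6 * T ^ 5 + 22779445248000 * H ^ 3 * T ^ 7 + 5131468800000 * T ^ 9

/-- coefficient of `t ^ 25` in `Tfam`. -/
def Tfamc25 (H T : R) : R := -17627233668750 * H ^ 14 - 70097953635000 * H ^ 11 * T ^ 2 - 105528606261120 * H ^ 8 * T ^ 4 - 71274600677376 * H ^ 5 * T ^ 6 - 18216714240000 * H ^ 2 * T ^ 8

/-- coefficient of `t ^ 26` in `Tfam`. -/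
def Tfamc26 (H T : R) : R := 40985726371875 * H ^ 13 * T + 163672057566000 * H ^ 10 * T ^ 3 + 245438120632320 * H ^ 7 * T ^ 5 + 163803539865600 * H ^ 4 * T ^ 7 + 41051750400000 * H * T ^ 9

/-- coefficient of `t ^ 27` in `Tfam`. -/
def Tfamc27 (H T : R) : R := 9632368125000 * H ^ 15 + 8104032382500 * H ^ 12 * T ^ 2 - 63806176396800 * H ^ 9 * T ^ 4 - 143803576074240 * H ^ 6 * T ^ 6 - 111934439424000 * H ^ 3 * T ^ 8 - 30408704000000 * T ^ 10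

/-- coefficient of `t ^ 28` in `Tfam`. -/
def Tfamc28 (H T : R) : R := -21432019078125 * H ^ 14 * T - 85719228804000 * H ^ 11 * T ^ 3 - 128580522647040 * H ^ 8 * T ^ 5 - 85731449241600 * H ^ 5 * T ^ 7 - 21438136320000 * H ^ 2 * T ^ 9

/-- coefficient of `t ^ 29` in `Tfam`. -/
def Tfamc29 (H T : R) : R := -11210083593750 * H ^ 16 - 49873523512500 * H ^ 13 * T ^ 2 - 87394892457600 * H ^ 10 * T ^ 4 - 75042714746880 * H ^ 7 * T ^ 6 - 31344427008000 * H ^ 4 * T ^ 8 - 5033164800000 * H * T ^ 10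

/-- coefficient of `t ^ 30` in `Tfam`. -/
def Tfamc30 (H T : R) : R := 4110363984375 * H ^ 15 * T + 19796866155000 * H ^ 12 * T ^ 3 + 38083944628224 * H ^ 9 * T ^ 5 + 36574189977600 * H ^ 6 * T ^ 7 + 17532190720000 * H ^ 3 * T ^ 9 + 3355443200000 * T ^ 11

/-- `kT (z + t w)` as a polynomial in `H = kH z`, `T = kT z`, `t`. -/
def Tfam (H T t : R) : R :=
  Tfamc0 H T + Tfamc1 H T * t + Tfamc2 H T * t ^ 2 + Tfamc3 H T * t ^ 3 + Tfamc4 H T * t ^ 4 +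
    Tfamc5 H T * t ^ 5 + Tfamc6 H T * t ^ 6 + Tfamc7 H T * t ^ 7 + Tfamc8 H T * t ^ 8 +
    Tfamc9 H T * t ^ 9 + Tfamc10 H T * t ^ 10 + Tfamc11 H T * t ^ 11 + Tfamc12 H T * t ^ 12 +
    Tfamc13 H T * t ^ 13 + Tfamc14 H T * t ^ 14 + Tfamc15 H T * t ^ 15 + Tfamc16 H T * t ^ 16 +
    Tfamc17 H T * t ^ 17 + Tfamc18 H T * t ^ 18 + Tfamc19 H T * t ^ 19 + Tfamc20 H T * t ^ 20 +
    Tfamc21 H T * t ^ 21 + Tfamc22 H T * t ^ 22 + Tfamc23 H T * t ^ 23 + Tfamc24 H T * t ^ 24 +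
    Tfamc25 H T * t ^ 25 + Tfamc26 H T * t ^ 26 + Tfamc27 H T * t ^ 27 + Tfamc28 H T * t ^ 28 +
    Tfamc29 H T * t ^ 29 + Tfamc30 H T * t ^ 30


@[simp] theorem Gfam_zero (H T : R) : Gfam H T 0 = 1 := by
  unfold Gfam Gfamc0; ring

@[simp] theorem Hfam_zero (H T : R) : Hfam H T 0 = H := by
  unfold Hfam Hfamc0; ring

@[simp] theorem Tfam_zero (H T : R) : Tfam H T 0 = T := by
  unfold Tfam Tfamc0; ring

end Fermat.Agent.S52.Family9
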