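-- S52 family identities, light version (helper5): `kH` along the deformation, in the coordinates
-- `(a, b) = (u ^ 5, v ^ 5)`, where `z + t w(z) = (u (1 + t A), v (1 - t B))`.
import Fermat.Agent.S52.Family9Defs
import Fermat.Agent.S52.Klein7

set_option autoImplicit false

namespace Fermat.Agent.S52.Family9

open Fermat.Agent.S52.Klein7

variable {R : Type*} [CommRing R]

set_option maxHeartbeats 4000000 in
/-- `kH5` at the deformed point `(a (1 + tA)⁵, b (1 - tB)⁵)`. -/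
theorem kH5_fam (a b t : R) :
    kH5 (a * (1 + t * kA5 a b) ^ 5) (b * (1 - t * kB5 a b) ^ 5) = Hfam (kH5 a b) (kT5 a b) t := by
  unfold Hfam Hfamc0 Hfamc1 Hfamc2 Hfamc3 Hfamc4 Hfamc5 Hfamc6 Hfamc7 Hfamc8 Hfamc9 Hfamc10 Hfamc11
    Hfamc12 Hfamc13 Hfamc14 Hfamc15 Hfamc16 Hfamc17 Hfamc18 Hfamc19 Hfamc20 kH5 kT5 kA5 kB5
  ring

end Fermat.Agent.S52.Family9
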