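-- S52 family identities, light version (helper5): `kf` along the deformation, in the coordinates
-- `(a, b) = (u ^ 5, v ^ 5)`, where `z + t w(z) = (u (1 + t A), v (1 - t B))` and `kf = u v kq5`.
-- (imports `Family9H` only to force a sequential build: the big `ring` files need several GB each)
import Fermat.Agent.S52.Family9H

set_option autoImplicit false

namespace Fermat.Agent.S52.Family9

open Fermat.Agent.S52.Klein7

variable {R : Type*} [CommRing R]

set_option maxHeartbeats 4000000 in
/-- `kq5` at the deformed point `(a (1 + tA)⁵, b (1 - tB)⁵)`. -/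
theorem kq5_fam (a b t : R) :
    (1 + t * kA5 a b) * (1 - t * kB5 a b) *
        kq5 (a * (1 + t * kA5 a b) ^ 5) (b * (1 - t * kB5 a b) ^ 5) =
      kq5 a b * Gfam (kH5 a b) (kT5 a b) t := by
  unfold Gfam Gfamc0 Gfamc1 Gfamc2 Gfamc3 Gfamc4 Gfamc5 Gfamc6 Gfamc7 Gfamc8 Gfamc9 Gfamc10 Gfamc11
    Gfamc12 kq5 kH5 kT5 kA5 kB5
  ring

end Fermat.Agent.S52.Family9
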