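-- S52 family identities (helper5 split of helper9's `Family9`): the generic syzygy of the family.
-- (imports `Family9G` only to force a sequential build: the big `ring` files need several GB each)
import Fermat.Agent.S52.Family9G

set_option autoImplicit false

namespace Fermat.Agent.S52.Family9

variable {R : Type*} [CommRing R]

set_option maxHeartbeats 40000000 in
/-- the syzygy for the family, as a polynomial identity in `H, T, t`. -/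
theorem fam_syzygy (H T t : R) :
    Tfam H T t ^ 2 + Hfam H T t ^ 3 = (T ^ 2 + H ^ 3) * Gfam H T t ^ 5 := by
  unfold Tfam Tfamc0 Tfamc1 Tfamc2 Tfamc3 Tfamc4 Tfamc5 Tfamc6 Tfamc7 Tfamc8 Tfamc9 Tfamc10 Tfamc11
    Tfamc12 Tfamc13 Tfamc14 Tfamc15 Tfamc16 Tfamc17 Tfamc18 Tfamc19 Tfamc20 Tfamc21 Tfamc22
    Tfamc23 Tfamc24 Tfamc25 Tfamc26 Tfamc27 Tfamc28 Tfamc29 Tfamc30
    Hfam Hfamc0 Hfamc1 Hfamc2 Hfamc3 Hfamc4 Hfamc5 Hfamc6 Hfamc7 Hfamc8 Hfamc9 Hfamc10 Hfamc11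
    Hfamc12 Hfamc13 Hfamc14 Hfamc15 Hfamc16 Hfamc17 Hfamc18 Hfamc19 Hfamc20
    Gfam Gfamc0 Gfamc1 Gfamc2 Gfamc3 Gfamc4 Gfamc5 Gfamc6 Gfamc7 Gfamc8 Gfamc9 Gfamc10 Gfamc11
    Gfamc12
  ring

end Fermat.Agent.S52.Family9
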