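-- S52 family identities, light version (helper5): `kT` along the deformation, in the coordinates
-- `(a, b) = (u ^ 5, v ^ 5)`.  NO heavy `ring`: in the universal case `ℤ[a, b, t]` (a domain) the identity
-- follows from its square, which is a consequence of the two syzygies, of the `kH`-identity and of the
-- `kf`-identity; the sign is fixed by the value at `(a, b, t) = (1, 0, 0)`.
import Fermat.Agent.S52.Family9S

set_option autoImplicit false

namespace Fermat.Agent.S52.Family9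

open Fermat.Agent.S52.Klein7

variable {R : Type*} [CommRing R]

/-- the square of the `kT`-identity, in any commutative ring: it follows from the two syzygies, the
`kH`-identity and the `kf`-identity. -/
theorem kT5_fam_sq (a b t : R) :
    kT5 (a * (1 + t * kA5 a b) ^ 5) (b * (1 - t * kB5 a b) ^ 5) ^ 2 =
      Tfam (kH5 a b) (kT5 a b) t ^ 2 := by
  have h1 := syzygy5 (a * (1 + t * kA5 a b) ^ 5) (b * (1 - t * kB5 a b) ^ 5)
  have h2 := kH5_fam a b t
  have h3 := kq5_fam a b t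
  have h4 := syzygy5 a b
  have h5 := fam_syzygy (kH5 a b) (kT5 a b) t
  have e1 : kT5 (a * (1 + t * kA5 a b) ^ 5) (b * (1 - t * kB5 a b) ^ 5) ^ 2 =
      1728 * (a * b * ((1 + t * kA5 a b) * (1 - t * kB5 a b) *
        kq5 (a * (1 + t * kA5 a b) ^ 5) (b * (1 - t * kB5 a b) ^ 5)) ^ 5) -
      kH5 (a * (1 + t * kA5 a b) ^ 5) (b * (1 - t * kB5 a b) ^ 5) ^ 3 := by
    linear_combination h1
  rw [e1, h2, h3]
  linear_combination (-(Gfam (kH5 a b) (kT5 a b) t ^ 5)) * h4 - h5

section Hom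

variable {S : Type*} [CommRing S] (φ : R →+* S)

theorem hom_kH5 (x y : R) : φ (kH5 x y) = kH5 (φ x) (φ y) := by
  simp only [kH5, map_add, map_sub, map_mul, map_pow, map_neg, map_ofNat]

theorem hom_kT5 (x y : R) : φ (kT5 x y) = kT5 (φ x) (φ y) := by
  simp only [kT5, map_add, map_sub, map_mul, map_pow, map_ofNat]

theorem hom_kA5 (x y : R) : φ (kA5 x y) = kA5 (φ x) (φ y) := by
  simp only [kA5, map_add, map_sub, map_mul, map_pow, map_ofNat]

theorem hom_kB5 (x y : R) : φ (kB5 x y) = kB5 (φ x) (φ y) := by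
  simp only [kB5, map_add, map_sub, map_mul, map_pow, map_ofNat]

theorem hom_Tfam (H T t : R) : φ (Tfam H T t) = Tfam (φ H) (φ T) (φ t) := by
  simp only [Tfam, Tfamc0, Tfamc1, Tfamc2, Tfamc3, Tfamc4, Tfamc5, Tfamc6, Tfamc7, Tfamc8, Tfamc9,
    Tfamc10, Tfamc11, Tfamc12, Tfamc13, Tfamc14, Tfamc15, Tfamc16, Tfamc17, Tfamc18, Tfamc19,
    Tfamc20, Tfamc21, Tfamc22, Tfamc23, Tfamc24, Tfamc25, Tfamc26, Tfamc27, Tfamc28, Tfamc29,
    Tfamc30,
    map_add, map_sub, map_mul, map_pow, map_neg, map_one, map_ofNat]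

end Hom

open MvPolynomial in
/-- the `kT`-identity in the universal case `ℤ[a, b, t]` (a domain: the square of the identity and the
value at `(1, 0, 0)` suffice). -/
theorem kT5_fam_mv :
    kT5 ((X 0 : MvPolynomial (Fin 3) ℤ) * (1 + X 2 * kA5 (X 0) (X 1)) ^ 5)
        (X 1 * (1 - X 2 * kB5 (X 0) (X 1)) ^ 5) =
      Tfam (kH5 (X 0) (X 1)) (kT5 (X 0) (X 1)) (X 2) := by
  have hsq := kT5_fam_sq (X 0 : MvPolynomial (Fin 3) ℤ) (X 1) (X 2)
  rcases sq_eq_sq_iff_eq_or_eq_neg.mp hsq with h | h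
  · exact h
  · exfalso
    have h' := congrArg (MvPolynomial.eval (![1, 0, 0] : Fin 3 → ℤ)) h
    simp only [hom_kT5, hom_Tfam, hom_kH5, hom_kA5, hom_kB5, map_neg, map_mul, map_add, map_sub,
      map_pow, map_one, MvPolynomial.eval_X] at h'
    simp [kT5] at h'

open MvPolynomial in
/-- `kT5` at the deformed point `(a (1 + tA)⁵, b (1 - tB)⁵)`. -/
theorem kT5_fam (a b t : R) :
    kT5 (a * (1 + t * kA5 a b) ^ 5) (b * (1 - t * kB5 a b) ^ 5) = Tfam (kH5 a b) (kT5 a b) t := by
  have h := congrArg (MvPolynomial.eval₂Hom (Int.castRingHom R) (![a, b, t] : Fin 3 → R)) kT5_fam_mv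
  simp only [hom_kT5, hom_Tfam, hom_kH5, hom_kA5, hom_kB5, map_mul, map_add, map_sub,
    map_pow, map_one, MvPolynomial.eval₂Hom_X'] at h
  simpa using h

end Fermat.Agent.S52.Family9
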