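-- S52 (3-5 switch), data brick by helper9: the Rubin-Silverberg mod-5 family on Klein's forms.
-- For z = (u,v), kw(z) = (d kf/dv, -d kf/du), z' = z + t * kw(z):
--   kf z' = kf z * Gfam (kH z) (kT z) t,  kH z' = Hfam (kH z) (kT z) t,  kT z' = Tfam (kH z) (kT z) t.
-- Restructured by helper5 (same names, same statements): the definitions are in `Family9Defs`, the heavy
-- `ring` identities are proved in the coordinates (a,b) = (u^5,v^5) in `Family9H`, `Family9T`, `Family9G`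
-- (one `ring` call per file) and the generic syzygy in `Family9S`; the original single-file version with
-- `ring` in (u,v,t) needed more than 16 GB of memory.
import Fermat.Agent.S52.Family9Defs
import Fermat.Agent.S52.Family9H
import Fermat.Agent.S52.Family9T
import Fermat.Agent.S52.Family9G
import Fermat.Agent.S52.Family9S

set_option autoImplicit false

namespace Fermat.Agent.S52.Family9

open Fermat.Agent.S52.Klein7

variable {R : Type*} [CommRing R]

theorem kH_eq5 (u v : R) : kH u v = kH5 (u ^ 5) (v ^ 5) := by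
  unfold kH kH5
  ring

theorem kT_eq5 (u v : R) : kT u v = kT5 (u ^ 5) (v ^ 5) := by
  unfold kT kT5
  ring

theorem kf_eq5 (u v : R) : kf u v = u * v * kq5 (u ^ 5) (v ^ 5) := by
  unfold kf kq5
  ring

theorem deform1 (u v t : R) : u + t * kw1 u v = u * (1 + t * kA5 (u ^ 5) (v ^ 5)) := by
  unfold kw1 kA5
  ring

theorem deform2 (u v t : R) : v + t * kw2 u v = v * (1 - t * kB5 (u ^ 5) (v ^ 5)) := by
  unfold kw2 kB5
  ring

theorem kf_fam (u v t : R) :
    kf (u + t * kw1 u v) (v + t * kw2 u v) = kf u v * Gfam (kH u v) (kT u v) t := by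
  have h1 : kf (u + t * kw1 u v) (v + t * kw2 u v) =
      u * v * ((1 + t * kA5 (u ^ 5) (v ^ 5)) * (1 - t * kB5 (u ^ 5) (v ^ 5)) *
        kq5 (u ^ 5 * (1 + t * kA5 (u ^ 5) (v ^ 5)) ^ 5)
          (v ^ 5 * (1 - t * kB5 (u ^ 5) (v ^ 5)) ^ 5)) := by
    rw [kf_eq5, deform1, deform2, mul_pow, mul_pow]
    ring
  rw [h1, kq5_fam, ← kH_eq5, ← kT_eq5, kf_eq5 u v]
  ring

theorem kH_fam (u v t : R) :
    kH (u + t * kw1 u v) (v + t * kw2 u v) = Hfam (kH u v) (kT u v) t := by
  have h1 : kH (u + t * kw1 u v) (v + t * kw2 u v) =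
      kH5 (u ^ 5 * (1 + t * kA5 (u ^ 5) (v ^ 5)) ^ 5)
        (v ^ 5 * (1 - t * kB5 (u ^ 5) (v ^ 5)) ^ 5) := by
    rw [kH_eq5, deform1, deform2, mul_pow, mul_pow]
  rw [h1, kH5_fam, ← kH_eq5, ← kT_eq5]

theorem kT_fam (u v t : R) :
    kT (u + t * kw1 u v) (v + t * kw2 u v) = Tfam (kH u v) (kT u v) t := by
  have h1 : kT (u + t * kw1 u v) (v + t * kw2 u v) =
      kT5 (u ^ 5 * (1 + t * kA5 (u ^ 5) (v ^ 5)) ^ 5)
        (v ^ 5 * (1 - t * kB5 (u ^ 5) (v ^ 5)) ^ 5) := by
    rw [kT_eq5, deform1, deform2, mul_pow, mul_pow]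
  rw [h1, kT5_fam, ← kH_eq5, ← kT_eq5]

end Fermat.Agent.S52.Family9
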