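/-
S52 brick FAM (helper5): **the family polynomials `C4, C6, Gp ∈ ℤ[X]` attached to `(c₄, c₆)`.**

Built on helper9's `Family9` (`Gfam`, `Hfam`, `Tfam` and the identities `kf_fam`, `kH_fam`, `kT_fam`,
`fam_syzygy`) and helper7's `Klein7`.

* `map_Gfam`, `map_Hfam`, `map_Tfam`: compatibility of the family polynomials with ring homomorphisms.
* `C4 c4 c6 = -Hfam (-c4) (-c6) X`, `C6 c4 c6 = -Tfam (-c4) (-c6) X`, `Gp c4 c6 = Gfam (-c4) (-c6) X`
  in `ℤ[X]`; `eval`/`aeval`/`map` lemmas; values at `0`; the syzygy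
  `C4 ^ 3 - C6 ^ 2 = C (c4 ^ 3 - c6 ^ 2) * Gp ^ 5` (and the form with `1728 * Δ` for a Weierstrass curve).
* for a Klein point `z = (u, v)` over any commutative ring `K` with
  `kH z = -c4`, `kT z = -c6`: `kH (z + θ w(z)) = -aeval θ C4`, `kT (z + θ w(z)) = -aeval θ C6`,
  `kf (z + θ w(z)) = kf z * aeval θ Gp`.
-/
import Fermat.Agent.S52.Family9
import Fermat.Agent.S52.Klein7

set_option autoImplicit false

open Polynomial

namespace Fermat.Agent.S52.Fam5Poly

open Fermat.Agent.S52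

/-! ### Ring homomorphisms -/

section Hom

variable {R S : Type*} [CommRing R] [CommRing S] (φ : R →+* S)

theorem map_Gfam (H T t : R) : φ (Family9.Gfam H T t) = Family9.Gfam (φ H) (φ T) (φ t) := by
  simp only [Family9.Gfam, Family9.Gfamc0, Family9.Gfamc1, Family9.Gfamc2, Family9.Gfamc3, Family9.Gfamc4,
    Family9.Gfamc5, Family9.Gfamc6, Family9.Gfamc7, Family9.Gfamc8, Family9.Gfamc9,
    Family9.Gfamc10, Family9.Gfamc11, Family9.Gfamc12,
    map_add, map_sub, map_mul, map_pow, map_neg, map_one, map_zero, map_ofNat]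

theorem map_Hfam (H T t : R) : φ (Family9.Hfam H T t) = Family9.Hfam (φ H) (φ T) (φ t) := by
  simp only [Family9.Hfam, Family9.Hfamc0, Family9.Hfamc1, Family9.Hfamc2, Family9.Hfamc3, Family9.Hfamc4,
    Family9.Hfamc5, Family9.Hfamc6, Family9.Hfamc7, Family9.Hfamc8, Family9.Hfamc9,
    Family9.Hfamc10, Family9.Hfamc11, Family9.Hfamc12, Family9.Hfamc13, Family9.Hfamc14,
    Family9.Hfamc15, Family9.Hfamc16, Family9.Hfamc17, Family9.Hfamc18, Family9.Hfamc19,
    Family9.Hfamc20,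
    map_add, map_sub, map_mul, map_pow, map_neg, map_one, map_ofNat]

theorem map_Tfam (H T t : R) : φ (Family9.Tfam H T t) = Family9.Tfam (φ H) (φ T) (φ t) := by
  simp only [Family9.Tfam, Family9.Tfamc0, Family9.Tfamc1, Family9.Tfamc2, Family9.Tfamc3, Family9.Tfamc4,
    Family9.Tfamc5, Family9.Tfamc6, Family9.Tfamc7, Family9.Tfamc8, Family9.Tfamc9,
    Family9.Tfamc10, Family9.Tfamc11, Family9.Tfamc12, Family9.Tfamc13, Family9.Tfamc14,
    Family9.Tfamc15, Family9.Tfamc16, Family9.Tfamc17, Family9.Tfamc18, Family9.Tfamc19,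
    Family9.Tfamc20, Family9.Tfamc21, Family9.Tfamc22, Family9.Tfamc23, Family9.Tfamc24,
    Family9.Tfamc25, Family9.Tfamc26, Family9.Tfamc27, Family9.Tfamc28, Family9.Tfamc29,
    Family9.Tfamc30,
    map_add, map_sub, map_mul, map_pow, map_neg, map_one, map_ofNat]

end Hom

/-! ### `Family9` versus `Klein7` -/

section Bridge

variable {R : Type*} [CommRing R]

theorem kf_eq (u v : R) : Family9.kf u v = Klein7.kf u v := rfl

theorem kH_eq (u v : R) : Family9.kH u v = Klein7.kH u v := rfl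

theorem kT_eq (u v : R) : Family9.kT u v = Klein7.kT u v := rfl

theorem kw1_eq (u v : R) : Family9.kw1 u v = Klein7.kw1 u v := rfl

theorem kw2_eq (u v : R) : Family9.kw2 u v = Klein7.kw2 u v := by
  unfold Family9.kw2 Klein7.kw2
  ring

/-- `kf (z + t w(z)) = kf z * Gfam (kH z) (kT z) t` for the `Klein7` forms. -/
theorem kf_fam (u v t : R) :
    Klein7.kf (u + t * Klein7.kw1 u v) (v + t * Klein7.kw2 u v) =
      Klein7.kf u v * Family9.Gfam (Klein7.kH u v) (Klein7.kT u v) t := by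
  rw [← kw1_eq, ← kw2_eq, ← kf_eq, ← kf_eq, ← kH_eq, ← kT_eq]
  exact Family9.kf_fam u v t

/-- `kH (z + t w(z)) = Hfam (kH z) (kT z) t` for the `Klein7` forms. -/
theorem kH_fam (u v t : R) :
    Klein7.kH (u + t * Klein7.kw1 u v) (v + t * Klein7.kw2 u v) =
      Family9.Hfam (Klein7.kH u v) (Klein7.kT u v) t := by
  rw [← kw1_eq, ← kw2_eq, ← kH_eq, ← kH_eq, ← kT_eq]
  exact Family9.kH_fam u v t

/-- `kT (z + t w(z)) = Tfam (kH z) (kT z) t` for the `Klein7` forms. -/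
theorem kT_fam (u v t : R) :
    Klein7.kT (u + t * Klein7.kw1 u v) (v + t * Klein7.kw2 u v) =
      Family9.Tfam (Klein7.kH u v) (Klein7.kT u v) t := by
  rw [← kw1_eq, ← kw2_eq, ← kT_eq, ← kT_eq, ← kH_eq]
  exact Family9.kT_fam u v t

end Bridge

/-! ### The polynomials -/

/-- `c₄` of the member of the family with parameter `X`, for the base invariants `(c4, c6)`. -/
noncomputable def C4 (c4 c6 : ℤ) : ℤ[X] := -Family9.Hfam (C (-c4)) (C (-c6)) X

/-- `c₆` of the member of the family with parameter `X`, for the base invariants `(c4, c6)`. -/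
noncomputable def C6 (c4 c6 : ℤ) : ℤ[X] := -Family9.Tfam (C (-c4)) (C (-c6)) X

/-- the factor of the discriminant: `Δ' = Δ * Gp ^ 5`. -/
noncomputable def Gp (c4 c6 : ℤ) : ℤ[X] := Family9.Gfam (C (-c4)) (C (-c6)) X

section Eval

variable (c4 c6 : ℤ)

/-- image of `C4` under any ring homomorphism out of `ℤ[X]`. -/
theorem hom_C4 {S : Type*} [CommRing S] (ψ : ℤ[X] →+* S) :
    ψ (C4 c4 c6) = -Family9.Hfam (-(c4 : S)) (-(c6 : S)) (ψ X) := by
  rw [C4, map_neg, map_Hfam]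
  simp

/-- image of `C6` under any ring homomorphism out of `ℤ[X]`. -/
theorem hom_C6 {S : Type*} [CommRing S] (ψ : ℤ[X] →+* S) :
    ψ (C6 c4 c6) = -Family9.Tfam (-(c4 : S)) (-(c6 : S)) (ψ X) := by
  rw [C6, map_neg, map_Tfam]
  simp

/-- image of `Gp` under any ring homomorphism out of `ℤ[X]`. -/
theorem hom_Gp {S : Type*} [CommRing S] (ψ : ℤ[X] →+* S) :
    ψ (Gp c4 c6) = Family9.Gfam (-(c4 : S)) (-(c6 : S)) (ψ X) := by
  rw [Gp, map_Gfam]
  simp

theorem eval_C4 (t : ℤ) : (C4 c4 c6).eval t = -Family9.Hfam (-c4) (-c6) t := by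
  have h := hom_C4 c4 c6 (Polynomial.evalRingHom t)
  simpa using h

theorem eval_C6 (t : ℤ) : (C6 c4 c6).eval t = -Family9.Tfam (-c4) (-c6) t := by
  have h := hom_C6 c4 c6 (Polynomial.evalRingHom t)
  simpa using h

theorem eval_Gp (t : ℤ) : (Gp c4 c6).eval t = Family9.Gfam (-c4) (-c6) t := by
  have h := hom_Gp c4 c6 (Polynomial.evalRingHom t)
  simpa using h

theorem aeval_C4 {K : Type*} [CommRing K] (θ : K) :
    aeval θ (C4 c4 c6) = -Family9.Hfam (-(c4 : K)) (-(c6 : K)) θ := by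
  have h := hom_C4 c4 c6 ((aeval θ : ℤ[X] →ₐ[ℤ] K) : ℤ[X] →+* K)
  simpa using h

theorem aeval_C6 {K : Type*} [CommRing K] (θ : K) :
    aeval θ (C6 c4 c6) = -Family9.Tfam (-(c4 : K)) (-(c6 : K)) θ := by
  have h := hom_C6 c4 c6 ((aeval θ : ℤ[X] →ₐ[ℤ] K) : ℤ[X] →+* K)
  simpa using h

theorem aeval_Gp {K : Type*} [CommRing K] (θ : K) :
    aeval θ (Gp c4 c6) = Family9.Gfam (-(c4 : K)) (-(c6 : K)) θ := by
  have h := hom_Gp c4 c6 ((aeval θ : ℤ[X] →ₐ[ℤ] K) : ℤ[X] →+* K)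
  simpa using h

@[simp] theorem eval_zero_C4 : (C4 c4 c6).eval 0 = c4 := by
  rw [eval_C4, Family9.Hfam_zero, neg_neg]

@[simp] theorem eval_zero_C6 : (C6 c4 c6).eval 0 = c6 := by
  rw [eval_C6, Family9.Tfam_zero, neg_neg]

@[simp] theorem eval_zero_Gp : (Gp c4 c6).eval 0 = 1 := by
  rw [eval_Gp, Family9.Gfam_zero]

/-- **the syzygy of the family**: `C4³ - C6² = (c4³ - c6²) Gp⁵`. -/
theorem syzygy : C4 c4 c6 ^ 3 - C6 c4 c6 ^ 2 = C (c4 ^ 3 - c6 ^ 2) * Gp c4 c6 ^ 5 := by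
  have h := Family9.fam_syzygy (C (-c4) : ℤ[X]) (C (-c6)) X
  have e : (C (c4 ^ 3 - c6 ^ 2) : ℤ[X]) = -((C (-c6)) ^ 2 + (C (-c4)) ^ 3) := by
    simp only [map_sub, map_pow, map_neg]
    ring
  rw [C4, C6, Gp, e]
  linear_combination (-1 : ℤ[X]) * h

/-- the syzygy for the invariants of an integral Weierstrass curve. -/
theorem syzygy_curve (W : WeierstrassCurve ℤ) :
    C4 W.c₄ W.c₆ ^ 3 - C6 W.c₄ W.c₆ ^ 2 = C (1728 * W.Δ) * Gp W.c₄ W.c₆ ^ 5 := by
  rw [syzygy, W.c_relation]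

end Eval

/-! ### Klein points -/

section Klein

variable {K : Type*} [CommRing K] (c4 c6 : ℤ) {u v : K}

/-- `kH` at the deformed point is `-C4(θ)`. -/
theorem kH_deform (hH : Klein7.kH u v = -(c4 : K)) (hT : Klein7.kT u v = -(c6 : K)) (θ : K) :
    Klein7.kH (u + θ * Klein7.kw1 u v) (v + θ * Klein7.kw2 u v) = -aeval θ (C4 c4 c6) := by
  rw [kH_fam, hH, hT, aeval_C4, neg_neg]

/-- `kT` at the deformed point is `-C6(θ)`. -/
theorem kT_deform (hH : Klein7.kH u v = -(c4 : K)) (hT : Klein7.kT u v = -(c6 : K)) (θ : K) :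
    Klein7.kT (u + θ * Klein7.kw1 u v) (v + θ * Klein7.kw2 u v) = -aeval θ (C6 c4 c6) := by
  rw [kT_fam, hH, hT, aeval_C6, neg_neg]

/-- `kf` at the deformed point is `kf z * Gp(θ)`. -/
theorem kf_deform (hH : Klein7.kH u v = -(c4 : K)) (hT : Klein7.kT u v = -(c6 : K)) (θ : K) :
    Klein7.kf (u + θ * Klein7.kw1 u v) (v + θ * Klein7.kw2 u v) =
      Klein7.kf u v * aeval θ (Gp c4 c6) := by
  rw [kf_fam, hH, hT, aeval_Gp]

/-- evaluation of an integer polynomial at an integer, inside any commutative ring. -/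
theorem aeval_intCast_eq (p : ℤ[X]) (t : ℤ) : aeval (t : K) p = ((p.eval t : ℤ) : K) := by
  have h := Polynomial.aeval_algebraMap_apply K t p
  simpa [eq_intCast] using h

/-- integer parameters: `kH (z + t w(z)) = -C4(t)`. -/
theorem kH_deform_int (hH : Klein7.kH u v = -(c4 : K)) (hT : Klein7.kT u v = -(c6 : K)) (t : ℤ) :
    Klein7.kH (u + (t : K) * Klein7.kw1 u v) (v + (t : K) * Klein7.kw2 u v) =
      -(((C4 c4 c6).eval t : ℤ) : K) := by
  rw [kH_deform c4 c6 hH hT, aeval_intCast_eq]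

/-- integer parameters: `kT (z + t w(z)) = -C6(t)`. -/
theorem kT_deform_int (hH : Klein7.kH u v = -(c4 : K)) (hT : Klein7.kT u v = -(c6 : K)) (t : ℤ) :
    Klein7.kT (u + (t : K) * Klein7.kw1 u v) (v + (t : K) * Klein7.kw2 u v) =
      -(((C6 c4 c6).eval t : ℤ) : K) := by
  rw [kT_deform c4 c6 hH hT, aeval_intCast_eq]

/-- integer parameters: `kf (z + t w(z)) = kf z * Gp(t)`. -/
theorem kf_deform_int (hH : Klein7.kH u v = -(c4 : K)) (hT : Klein7.kT u v = -(c6 : K)) (t : ℤ) :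
    Klein7.kf (u + (t : K) * Klein7.kw1 u v) (v + (t : K) * Klein7.kw2 u v) =
      Klein7.kf u v * (((Gp c4 c6).eval t : ℤ) : K) := by
  rw [kf_deform c4 c6 hH hT, aeval_intCast_eq]

end Klein

end Fermat.Agent.S52.Fam5Poly
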