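/-
S52 (helper8): **a semistable integral Weierstrass model has `c₄ ≠ 0` and `c₆ ≠ 0`** (`j ≠ 0, 1728`).

* `c₄ = 0`: every prime dividing `Δ` divides `c₄`, so `Δ = ±1` and `c₆² = ∓1728`, impossible.
* `c₆ = 0`: `1728 Δ = c₄³`, so again `Δ = ±1`, `c₄ = ±12`; but `c₄ = b₂² - 24 b₄` with
  `b₂ = a₁² + 4a₂` is never `≡ 4 mod 8`.
-/
import Mathlib
import Fermat.Prelude.Def_FLTPrelim_Modularity

set_option autoImplicit false

namespace Fermat.Agent.S52.SemistableJ8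

open WeierstrassCurve

/-- an integer all of whose prime divisors are excluded is `±1`. -/
theorem natAbs_eq_one_of_no_prime {d : ℤ} (h : ∀ p : ℕ, p.Prime → ¬ (p : ℤ) ∣ d) :
    d.natAbs = 1 := by
  by_contra hne
  obtain ⟨p, hp, hpd⟩ := Nat.exists_prime_and_dvd hne
  exact h p hp (Int.natCast_dvd.mpr hpd)

theorem delta_natAbs_eq_one_of_c4 (W : WeierstrassCurve ℤ) (hW : W.IsSemistableModel)
    (h : ∀ p : ℕ, p.Prime → (p : ℤ) ∣ W.Δ → (p : ℤ) ∣ W.c₄) : W.Δ.natAbs = 1 :=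
  natAbs_eq_one_of_no_prime fun p hp hd => hW p hp hd (h p hp hd)

theorem c4_ne_zero (W : WeierstrassCurve ℤ) (hW : W.IsSemistableModel) : W.c₄ ≠ 0 := by
  intro h0
  have hΔ1 : W.Δ.natAbs = 1 :=
    delta_natAbs_eq_one_of_c4 W hW fun p _ _ => by rw [h0]; exact dvd_zero _
  have hrel := W.c_relation
  rw [h0] at hrel
  have hsq : W.c₆.natAbs * W.c₆.natAbs = 1728 ∨ W.c₆ ^ 2 = -1728 := by
    rcases Int.natAbs_eq W.Δ with h | h
    · right
      rw [hΔ1] at h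
      rw [h] at hrel
      have h5 : (1728 : ℤ) * 1 = 0 - W.c₆ ^ 2 := by simpa using hrel
      linarith
    · left
      rw [hΔ1] at h
      rw [h] at hrel
      have h5 : (1728 : ℤ) * (-1) = 0 - W.c₆ ^ 2 := by simpa using hrel
      have : W.c₆ * W.c₆ = 1728 := by nlinarith
      have h2 := congrArg Int.natAbs this
      rw [Int.natAbs_mul] at h2
      simpa using h2
  rcases hsq with h | h
  · exact Nat.not_exists_sq (m := 41) (by norm_num) (by norm_num) ⟨_, h⟩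
  · nlinarith [sq_nonneg W.c₆]

/-- `c₄ = b₂² - 24 b₄` with `b₂ = a₁² + 4 a₂` is never `±12`. -/
theorem c4_ne_twelve (W : WeierstrassCurve ℤ) : W.c₄ ≠ 12 ∧ W.c₄ ≠ -12 := by
  have key : ∀ x y z : ZMod 8, (x ^ 2 + 4 * y) ^ 2 - 24 * z ≠ 12 ∧
      (x ^ 2 + 4 * y) ^ 2 - 24 * z ≠ -12 := by decide
  have hc4 : ((W.c₄ : ℤ) : ZMod 8) =
      ((W.a₁ : ZMod 8) ^ 2 + 4 * (W.a₂ : ZMod 8)) ^ 2 - 24 * ((W.b₄ : ℤ) : ZMod 8) := by
    simp only [WeierstrassCurve.c₄, WeierstrassCurve.b₂]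
    push_cast
    ring
  obtain ⟨k1, k2⟩ := key (W.a₁ : ZMod 8) (W.a₂ : ZMod 8) ((W.b₄ : ℤ) : ZMod 8)
  constructor
  · intro h
    apply k1
    rw [← hc4, h]
    norm_num
  · intro h
    apply k2
    rw [← hc4, h]
    norm_num

theorem c6_ne_zero (W : WeierstrassCurve ℤ) (hW : W.IsSemistableModel) : W.c₆ ≠ 0 := by
  intro h0
  have hrel := W.c_relation
  rw [h0] at hrel
  have hΔ1 : W.Δ.natAbs = 1 := by
    apply delta_natAbs_eq_one_of_c4 W hW
    intro p hp hd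
    have h1 : (p : ℤ) ∣ W.c₄ ^ 3 := by
      have : W.c₄ ^ 3 = 1728 * W.Δ := by linarith
      rw [this]
      exact dvd_mul_of_dvd_right hd _
    exact (Nat.prime_iff_prime_int.mp hp).dvd_of_dvd_pow h1
  obtain ⟨h12, h12'⟩ := c4_ne_twelve W
  rcases Int.natAbs_eq W.Δ with h | h
  · rw [hΔ1] at h
    rw [h] at hrel
    apply h12
    have h3 : (W.c₄ - 12) * (W.c₄ ^ 2 + 12 * W.c₄ + 144) = 0 := by
      have : W.c₄ ^ 3 = 1728 := by push_cast at hrel; linarith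
      ring_nf
      ring_nf at this
      linarith
    rcases mul_eq_zero.mp h3 with h4 | h4
    · linarith
    · nlinarith [sq_nonneg (W.c₄ + 6)]
  · rw [hΔ1] at h
    rw [h] at hrel
    apply h12'
    have h3 : (W.c₄ + 12) * (W.c₄ ^ 2 - 12 * W.c₄ + 144) = 0 := by
      have : W.c₄ ^ 3 = -1728 := by push_cast at hrel; linarith
      ring_nf
      ring_nf at this
      linarith
    rcases mul_eq_zero.mp h3 with h4 | h4
    · linarith
    · nlinarith [sq_nonneg (W.c₄ - 6)]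

end Fermat.Agent.S52.SemistableJ8
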