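/-
S52, final wiring, part 1 (helper1): **a Klein point over a semistable model and the coefficients of its short form.**

For a semistable integral model `W` with `Δ ≠ 0` there are `u v : ℚ̄` with `kH u v = -c₄`, `kT u v = -c₆`, and then
`kf u v ≠ 0`.  The base change to `ℚ̄` of the short form `shortOf W : y² = x³ - 27 c₄ x - 54 c₆` has
`a₁ = a₂ = a₃ = 0`, `a₄ = 27 kH u v`, `a₆ = 54 kT u v` (the hypotheses of `SlopeParam7`/`SlopePts2`).
-/
import Fermat.Agent.S52.Klein7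
import Fermat.Agent.S52.SemistableJ8
import Fermat.Agent.S52.ShortTransport2

set_option autoImplicit false

open WeierstrassCurve WeierstrassCurve.Affine

namespace Fermat.Agent.S52.KleinOfModel1

open Fermat.Agent.S52.Klein7 Fermat.Agent.S52.ShortTransport2

local notation "Qb" => AlgebraicClosure ℚ

/-- `c₆² - c₄³ = -1728 Δ` in `ℚ̄`. -/
theorem disc_cast (W : WeierstrassCurve ℤ) :
    (-(W.c₆ : Qb)) ^ 2 + (-(W.c₄ : Qb)) ^ 3 = ((-(1728 * W.Δ) : ℤ) : Qb) := by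
  rw [W.c_relation]
  push_cast
  ring

/-- **a Klein point over `(-c₄, -c₆)`.** -/
theorem exists_klein_point_of_model (W : WeierstrassCurve ℤ) (hΔ : W.Δ ≠ 0)
    (hss : W.IsSemistableModel) :
    ∃ u v : Qb, kH u v = -(W.c₄ : Qb) ∧ kT u v = -(W.c₆ : Qb) := by
  have h4 : -(W.c₄ : Qb) ≠ 0 :=
    neg_ne_zero.mpr (Int.cast_ne_zero.mpr (SemistableJ8.c4_ne_zero W hss))
  have h6 : -(W.c₆ : Qb) ≠ 0 :=
    neg_ne_zero.mpr (Int.cast_ne_zero.mpr (SemistableJ8.c6_ne_zero W hss))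
  have hd : (-(W.c₆ : Qb)) ^ 2 + (-(W.c₄ : Qb)) ^ 3 ≠ 0 := by
    rw [disc_cast]
    exact Int.cast_ne_zero.mpr (neg_ne_zero.mpr (mul_ne_zero (by norm_num) hΔ))
  exact exists_klein_point h4 h6 hd

/-- `kf ≠ 0` at a Klein point over a model with `Δ ≠ 0`. -/
theorem kf_ne_zero (W : WeierstrassCurve ℤ) (hΔ : W.Δ ≠ 0) {u v : Qb}
    (hH : kH u v = -(W.c₄ : Qb)) (hT : kT u v = -(W.c₆ : Qb)) : kf u v ≠ 0 := by
  intro h0
  have h := syzygy u v
  rw [hH, hT, h0, disc_cast] at h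
  have : ((-(1728 * W.Δ) : ℤ) : Qb) ≠ 0 :=
    Int.cast_ne_zero.mpr (neg_ne_zero.mpr (mul_ne_zero (by norm_num) hΔ))
  apply this
  rw [h]
  ring

/-- the short form over `ℚ̄`: `a₁ = 0`. -/
theorem short_a₁ (W : WeierstrassCurve ℤ) : ((shortOf W).baseChange Qb).a₁ = 0 := by
  simp [shortOf, shortW, WeierstrassCurve.baseChange]

theorem short_a₂ (W : WeierstrassCurve ℤ) : ((shortOf W).baseChange Qb).a₂ = 0 := by
  simp [shortOf, shortW, WeierstrassCurve.baseChange]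

theorem short_a₃ (W : WeierstrassCurve ℤ) : ((shortOf W).baseChange Qb).a₃ = 0 := by
  simp [shortOf, shortW, WeierstrassCurve.baseChange]

theorem short_a₄ (W : WeierstrassCurve ℤ) {u v : Qb} (hH : kH u v = -(W.c₄ : Qb)) :
    ((shortOf W).baseChange Qb).a₄ = 27 * kH u v := by
  rw [hH]
  simp [shortOf, shortW, WeierstrassCurve.baseChange]

theorem short_a₆ (W : WeierstrassCurve ℤ) {u v : Qb} (hT : kT u v = -(W.c₆ : Qb)) :
    ((shortOf W).baseChange Qb).a₆ = 54 * kT u v := by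
  rw [hT]
  simp [shortOf, shortW, WeierstrassCurve.baseChange]

/-- the rational parameter `H = -c₄` cast to `ℚ̄`. -/
theorem cast_neg_c₄ (W : WeierstrassCurve ℤ) : (((-(W.c₄ : ℚ)) : ℚ) : Qb) = -(W.c₄ : Qb) := by
  push_cast
  rfl

theorem cast_neg_c₆ (W : WeierstrassCurve ℤ) : (((-(W.c₆ : ℚ)) : ℚ) : Qb) = -(W.c₆ : Qb) := by
  push_cast
  rfl

end Fermat.Agent.S52.KleinOfModel1
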