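/-
S52, final wiring (helper1): **`cong_family`** — for a semistable `W` (`Δ ≠ 0`) and any integral model `W'` with
`Δ(W') ≠ 0` whose invariants are the values `C4(t)`, `C6(t)` of the family polynomials of `(c₄(W), c₆(W))` at an
integer `t`:  `5 ∣ a_ℓ(W') - a_ℓ(W)` at all common good primes `ℓ ≠ 5`.

`KleinOfModel1` (Klein point `z` over `(-c₄, -c₆)`, `kf z ≠ 0`) + `Fam5Poly.kH/kT_deform_int` (`z' = z + t w(z)` lies
over `(-c₄', -c₆')`) + `CongKlein2.dvd_apOfModel_sub_of_klein` (helper2).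
-/
import Fermat.Agent.S52.KleinOfModel1
import Fermat.Agent.S52.Fam5Poly
import Fermat.Agent.S52.CongKlein2

set_option autoImplicit false

open WeierstrassCurve

namespace Fermat.Agent.S52.CongFinal1

open Fermat.Agent.S52.Klein7

local notation "Qb" => AlgebraicClosure ℚ

/-- **`cong_family`**. -/
theorem cong_family (W : WeierstrassCurve ℤ) (hΔ : W.Δ ≠ 0) (hss : W.IsSemistableModel) (t : ℤ)
    (W' : WeierstrassCurve ℤ) (hΔ' : W'.Δ ≠ 0)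
    (h4 : W'.c₄ = (Fam5Poly.C4 W.c₄ W.c₆).eval t) (h6 : W'.c₆ = (Fam5Poly.C6 W.c₄ W.c₆).eval t) :
    ∀ ℓ : ℕ, ℓ.Prime → W.IsGoodPrimeFor ℓ → W'.IsGoodPrimeFor ℓ → ℓ ≠ 5 →
      (5 : ℤ) ∣ W'.apOfModel ℓ - W.apOfModel ℓ := by
  intro ℓ hℓ hgood hgood' hℓ5
  obtain ⟨u, v, hH, hT⟩ := KleinOfModel1.exists_klein_point_of_model W hΔ hss
  have hf : kf u v ≠ 0 := KleinOfModel1.kf_ne_zero W hΔ hH hT
  have et : (((t : ℚ)) : Qb) = (t : Qb) := by push_cast; rfl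
  have hH' : kH (u + (((t : ℚ)) : Qb) * kw1 u v) (v + (((t : ℚ)) : Qb) * kw2 u v) =
      -(W'.c₄ : Qb) := by
    rw [et, Fam5Poly.kH_deform_int W.c₄ W.c₆ hH hT t, h4]
  have hT' : kT (u + (((t : ℚ)) : Qb) * kw1 u v) (v + (((t : ℚ)) : Qb) * kw2 u v) =
      -(W'.c₆ : Qb) := by
    rw [et, Fam5Poly.kT_deform_int W.c₄ W.c₆ hH hT t, h6]
  have hf' : kf (u + (((t : ℚ)) : Qb) * kw1 u v) (v + (((t : ℚ)) : Qb) * kw2 u v) ≠ 0 :=
    KleinOfModel1.kf_ne_zero W' hΔ' hH' hT'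
  exact CongKlein2.dvd_apOfModel_sub_of_klein W W' (t : ℚ) hH hT hH' hT' hf hf' hℓ hgood hgood' hℓ5

end Fermat.Agent.S52.CongFinal1
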