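/-
S52 toolkit (helper4): **a prime certificate for the irreducibility of the mod `3` representation.**

`W` an integral Weierstrass curve with `Δ ≠ 0`, `ℓ ∉ {2, 3}` a prime with `ℓ ∣ c₆(W)`, `ℓ ∤ c₄(W)` and `3` a
non-square modulo `ℓ`.  Then `W.ModRepIsIrreducible 3`.

Proof: otherwise the `3`-division polynomial `ψ₃ = 3x⁴ + b₂x³ + 3b₄x² + 3b₆x + b₈` has a rational root
(`S51.Galois.rational_root_of_not_irreducible_three`), which is `ℓ`-integral (leading coefficient `3`), so `ψ₃` has a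
root modulo `ℓ`.  But `36⁴ ψ₃(x) = 3X⁴ − 162 c₄ X² − 648 c₆ X − 729 c₄²` with `X = 36x + 3b₂`, and for `c₆ = 0`,
`c₄ ≠ 0` a root gives `3 = ((X² − 27c₄) / (18c₄))²`.
-/
import Fermat.Agent.S51.GaloisDescent

set_option autoImplicit false

open WeierstrassCurve

namespace Fermat.Agent.S52.Psi3Cert4

open Fermat.Agent.S51

/-- the `3`-division polynomial in terms of the short Weierstrass coordinate `X = 36x + 3b₂`. -/
theorem psi3_short {F : Type*} [CommRing F] (W : WeierstrassCurve F) (x : F) :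
    1679616 * psi3 W x =
      3 * (36 * x + 3 * W.b₂) ^ 4 - 162 * W.c₄ * (36 * x + 3 * W.b₂) ^ 2
        - 648 * W.c₆ * (36 * x + 3 * W.b₂) - 729 * W.c₄ ^ 2 := by
  simp only [psi3, WeierstrassCurve.c₄, WeierstrassCurve.c₆, WeierstrassCurve.b₂,
    WeierstrassCurve.b₄, WeierstrassCurve.b₆, WeierstrassCurve.b₈]
  ring

/-- over a field of characteristic `≠ 2, 3`, with `c₆ = 0` and `c₄ ≠ 0`, a root of `ψ₃` makes `3` a
square. -/
theorem isSquare_three_of_psi3_eq_zero {F : Type*} [Field F] (h2 : (2 : F) ≠ 0) (h3 : (3 : F) ≠ 0)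
    (W : WeierstrassCurve F) (hc6 : W.c₆ = 0) (hc4 : W.c₄ ≠ 0) {x : F} (hx : psi3 W x = 0) :
    IsSquare (3 : F) := by
  have h := psi3_short W x
  rw [hx, hc6] at h
  set X := 36 * x + 3 * W.b₂ with hX
  have h18 : (18 : F) * W.c₄ ≠ 0 := by
    have : (18 : F) = 2 * 3 * 3 := by norm_num
    rw [this]
    exact mul_ne_zero (mul_ne_zero (mul_ne_zero h2 h3) h3) hc4
  refine ⟨(X ^ 2 - 27 * W.c₄) / (18 * W.c₄), ?_⟩
  rw [div_mul_div_comm, eq_div_iff (mul_ne_zero h18 h18)]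
  have h3' : (3 : F) * ((X ^ 2 - 27 * W.c₄) * (X ^ 2 - 27 * W.c₄)) =
      3 * (3 * (18 * W.c₄ * (18 * W.c₄))) := by
    linear_combination -h
  exact (mul_left_cancel₀ h3 h3').symm


/-- `ψ₃` commutes with base change. -/
theorem psi3_map' {A B : Type*} [CommRing A] [CommRing B] (f : A →+* B) (W : WeierstrassCurve A)
    (x : A) : psi3 (W.map f) (f x) = f (psi3 W x) := by
  simp only [psi3, WeierstrassCurve.map_b₂, WeierstrassCurve.map_b₄, WeierstrassCurve.map_b₆,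
    WeierstrassCurve.map_b₈, map_add, map_mul, map_pow, map_ofNat]

/-- a rational root of `ψ₃` of an integral Weierstrass curve gives a root modulo every prime `ℓ ≠ 3`. -/
theorem exists_root_mod (W : WeierstrassCurve ℤ) {ℓ : ℕ} [Fact ℓ.Prime] (hℓ3 : ℓ ≠ 3) {x : ℚ}
    (hx : psi3 (W.map (Int.castRingHom ℚ)) x = 0) :
    ∃ z : ZMod ℓ, psi3 (W.map (Int.castRingHom (ZMod ℓ))) z = 0 := by
  have hℓ : ℓ.Prime := Fact.out
  set m : ℤ := x.num with hm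
  set n : ℕ := x.den with hn
  have hn0 : (n : ℚ) ≠ 0 := Nat.cast_ne_zero.mpr x.den_ne_zero
  have hxmn : x = (m : ℚ) / (n : ℚ) := (Rat.num_div_den x).symm
  -- the homogeneous integer equation
  have hZ : 3 * m ^ 4 + W.b₂ * m ^ 3 * n + 3 * W.b₄ * m ^ 2 * (n : ℤ) ^ 2 + 3 * W.b₆ * m * (n : ℤ) ^ 3
      + W.b₈ * (n : ℤ) ^ 4 = 0 := by
    have hQ : ((3 * m ^ 4 + W.b₂ * m ^ 3 * n + 3 * W.b₄ * m ^ 2 * (n : ℤ) ^ 2
        + 3 * W.b₆ * m * (n : ℤ) ^ 3 + W.b₈ * (n : ℤ) ^ 4 : ℤ) : ℚ) = 0 := by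
      simp only [psi3, WeierstrassCurve.map_b₂, WeierstrassCurve.map_b₄, WeierstrassCurve.map_b₆,
        WeierstrassCurve.map_b₈, eq_intCast] at hx
      rw [hxmn] at hx
      push_cast
      field_simp at hx
      linear_combination hx
    exact_mod_cast hQ
  -- `ℓ ∤ n`
  have hℓn : ¬ (ℓ : ℤ) ∣ (n : ℤ) := by
    intro hdvd
    have h3m : (ℓ : ℤ) ∣ 3 * m ^ 4 := by
      have : 3 * m ^ 4 = -(n : ℤ) * (W.b₂ * m ^ 3 + 3 * W.b₄ * m ^ 2 * (n : ℤ)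
          + 3 * W.b₆ * m * (n : ℤ) ^ 2 + W.b₈ * (n : ℤ) ^ 3) := by linear_combination hZ
      rw [this]
      exact Dvd.dvd.mul_right (Dvd.dvd.neg_right hdvd) _
    have hpℓ : Prime (ℓ : ℤ) := Nat.prime_iff_prime_int.mp hℓ
    rcases hpℓ.dvd_or_dvd h3m with h3 | hm4
    · have : ℓ ∣ 3 := by exact_mod_cast h3
      exact hℓ3 ((Nat.prime_dvd_prime_iff_eq hℓ Nat.prime_three).mp this)
    · have hmℓ : (ℓ : ℤ) ∣ m := hpℓ.dvd_of_dvd_pow hm4
      have hcop : Nat.Coprime m.natAbs n := x.reduced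
      have h1 : ℓ ∣ m.natAbs := Int.natCast_dvd.mp hmℓ
      have h2 : ℓ ∣ n := by exact_mod_cast hdvd
      exact hℓ.one_lt.ne' (Nat.eq_one_of_dvd_coprimes hcop h1 h2)
  have hnℓ : ((n : ℤ) : ZMod ℓ) ≠ 0 := by
    rwa [Ne, ZMod.intCast_zmod_eq_zero_iff_dvd]
  refine ⟨(m : ZMod ℓ) / ((n : ℤ) : ZMod ℓ), ?_⟩
  have hmod := congrArg (Int.cast : ℤ → ZMod ℓ) hZ
  push_cast at hmod
  simp only [psi3, WeierstrassCurve.map_b₂, WeierstrassCurve.map_b₄, WeierstrassCurve.map_b₆,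
    WeierstrassCurve.map_b₈, eq_intCast]
  have hnℓ' : ((n : ℕ) : ZMod ℓ) ≠ 0 := by exact_mod_cast hnℓ
  push_cast
  field_simp
  linear_combination hmod


/-- **the prime certificate**: `ℓ ∉ {2, 3}`, `ℓ ∣ c₆`, `ℓ ∤ c₄`, `3` a non-square mod `ℓ` ⇒ the mod `3`
representation is irreducible. -/
theorem modRepIsIrreducible_three (W : WeierstrassCurve ℤ) (hΔ : W.Δ ≠ 0) {ℓ : ℕ} (hℓ : ℓ.Prime)
    (hℓ2 : ℓ ≠ 2) (hℓ3 : ℓ ≠ 3) (hc6 : (ℓ : ℤ) ∣ W.c₆) (hc4 : ¬ (ℓ : ℤ) ∣ W.c₄)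
    (h3 : ¬ IsSquare (3 : ZMod ℓ)) : W.ModRepIsIrreducible 3 := by
  have : Fact ℓ.Prime := ⟨hℓ⟩
  by_contra hirr
  have hΔQ : (W.map (Int.castRingHom ℚ)).Δ ≠ 0 := by
    rw [WeierstrassCurve.map_Δ, eq_intCast]
    exact_mod_cast hΔ
  obtain ⟨x, -, hx⟩ := Fermat.Agent.S51.Galois.rational_root_of_not_irreducible_three
    (W.map (Int.castRingHom ℚ)) hΔQ hirr
  have hpsi : psi3 (W.map (Int.castRingHom ℚ)) x = 0 := by
    rw [psi3_eq, hx, sub_self]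
  obtain ⟨z, hz⟩ := exists_root_mod W hℓ3 hpsi
  apply h3
  have h2F : (2 : ZMod ℓ) ≠ 0 := by
    intro h
    have : ((2 : ℕ) : ZMod ℓ) = 0 := by exact_mod_cast h
    rw [ZMod.natCast_eq_zero_iff] at this
    exact hℓ2 ((Nat.prime_dvd_prime_iff_eq hℓ Nat.prime_two).mp this)
  have h3F : (3 : ZMod ℓ) ≠ 0 := by
    intro h
    have : ((3 : ℕ) : ZMod ℓ) = 0 := by exact_mod_cast h
    rw [ZMod.natCast_eq_zero_iff] at this
    exact hℓ3 ((Nat.prime_dvd_prime_iff_eq hℓ Nat.prime_three).mp this)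
  refine isSquare_three_of_psi3_eq_zero h2F h3F (W.map (Int.castRingHom (ZMod ℓ))) ?_ ?_ hz
  · rw [WeierstrassCurve.map_c₆, eq_intCast, ZMod.intCast_zmod_eq_zero_iff_dvd]
    exact hc6
  · rw [WeierstrassCurve.map_c₄, eq_intCast, Ne, ZMod.intCast_zmod_eq_zero_iff_dvd]
    exact hc4

/-- **general form of the certificate**: if `ψ₃` of `W` has no root modulo one prime `ℓ ≠ 3`, then the
mod `3` representation of `W` is irreducible. -/
theorem modRepIsIrreducible_three_of_no_root (W : WeierstrassCurve ℤ) (hΔ : W.Δ ≠ 0) {ℓ : ℕ}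
    (hℓ : ℓ.Prime) (hℓ3 : ℓ ≠ 3)
    (hroot : ∀ z : ZMod ℓ, psi3 (W.map (Int.castRingHom (ZMod ℓ))) z ≠ 0) :
    W.ModRepIsIrreducible 3 := by
  have : Fact ℓ.Prime := ⟨hℓ⟩
  by_contra hirr
  have hΔQ : (W.map (Int.castRingHom ℚ)).Δ ≠ 0 := by
    rw [WeierstrassCurve.map_Δ, eq_intCast]
    exact_mod_cast hΔ
  obtain ⟨x, -, hx⟩ := Fermat.Agent.S51.Galois.rational_root_of_not_irreducible_three
    (W.map (Int.castRingHom ℚ)) hΔQ hirr
  have hpsi : psi3 (W.map (Int.castRingHom ℚ)) x = 0 := by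
    rw [psi3_eq, hx, sub_self]
  obtain ⟨z, hz⟩ := exists_root_mod W hℓ3 hpsi
  exact hroot z hz

end Fermat.Agent.S52.Psi3Cert4
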