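/-
S52 brick G (helper4): **choice of the parameter `t`** making the mod `3` representation irreducible.

Abstract over the family data: `C4 C6 : ℤ[X]` coprime over `ℚ`, a root `θ` of `C6` in `ℚ̄` fixed by some
`g ∈ G_ℚ` with `g(√3) = -√3`.  Given the Chebotarev certificate (`ChebCert`, brick CERT-3) there is a prime
`ℓ₁ ∉ {2, 3}`, with `3` a non-square mod `ℓ₁`, and an integer `t ≡ 0 (mod M)` with `ℓ₁ ∣ C6(t)`, `ℓ₁ ∤ C4(t)`.
Any integral Weierstrass curve with `c₄ = C4(t)`, `c₆ = C6(t)` then has irreducible mod `3` representation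
(`Psi3Cert4.modRepIsIrreducible_three`).
-/
import Fermat.Agent.S52.Psi3Cert4

set_option autoImplicit false

open Polynomial

namespace Fermat.Agent.S52.GAssembly4

local notation "Qb" => AlgebraicClosure ℚ
local notation "GQ" => (AlgebraicClosure ℚ ≃ₐ[ℚ] AlgebraicClosure ℚ)

/-- the statement of brick CERT-3 (Chebotarev step). -/
def ChebCert : Prop :=
  ∀ (θ : Qb) (g : GQ), g θ = θ → ∀ s : Qb, s ^ 2 = 3 → g s = -s → ∀ T : Finset ℕ,
    ∃ (l1 : ℕ) (t1 : ℤ), l1.Prime ∧ l1 ∉ T ∧ l1 ≠ 2 ∧ l1 ≠ 3 ∧ ¬ IsSquare (3 : ZMod l1) ∧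
      ∀ B : ℤ[X], aeval θ B = 0 → (l1 : ℤ) ∣ B.eval t1

/-- clearing denominators in a Bézout relation over `ℚ`. -/
theorem exists_int_bezout (C4 C6 : ℤ[X])
    (hcop : IsCoprime (C4.map (Int.castRingHom ℚ)) (C6.map (Int.castRingHom ℚ))) :
    ∃ (R : ℤ) (U V : ℤ[X]), R ≠ 0 ∧ U * C4 + V * C6 = C R := by
  obtain ⟨u, v, huv⟩ := hcop
  obtain ⟨b, hb, hU⟩ := IsLocalization.integerNormalization_spec (nonZeroDivisors ℤ) u
  obtain ⟨d, hd, hV⟩ := IsLocalization.integerNormalization_spec (nonZeroDivisors ℤ) v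
  set U := IsLocalization.integerNormalization (nonZeroDivisors ℤ) u
  set V := IsLocalization.integerNormalization (nonZeroDivisors ℤ) v
  have hb0 : b ≠ 0 := nonZeroDivisors.ne_zero hb
  have hd0 : d ≠ 0 := nonZeroDivisors.ne_zero hd
  refine ⟨b * d, C d * U, C b * V, mul_ne_zero hb0 hd0, ?_⟩
  apply Polynomial.map_injective (Int.castRingHom ℚ) Int.cast_injective
  have hU' : U.map (Int.castRingHom ℚ) = (b : ℚ[X]) * u := by
    have := hU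
    rwa [zsmul_eq_mul, algebraMap_int_eq] at this
  have hV' : V.map (Int.castRingHom ℚ) = (d : ℚ[X]) * v := by
    have := hV
    rwa [zsmul_eq_mul, algebraMap_int_eq] at this
  rw [Polynomial.map_add, Polynomial.map_mul, Polynomial.map_mul, Polynomial.map_mul,
    Polynomial.map_mul, hU', hV', Polynomial.map_C, Polynomial.map_C, Polynomial.map_C, eq_intCast,
    eq_intCast, eq_intCast, Int.cast_mul, C_mul, ← Polynomial.C_eq_intCast, ← Polynomial.C_eq_intCast]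
  linear_combination (C (b : ℚ) * C (d : ℚ)) * huv

/-- **choice of the parameter**. -/
theorem exists_param (hcheb : ChebCert) (C4 C6 : ℤ[X])
    (hcop : IsCoprime (C4.map (Int.castRingHom ℚ)) (C6.map (Int.castRingHom ℚ)))
    (θ : Qb) (hθ : aeval θ C6 = 0) (g : GQ) (hgθ : g θ = θ) (s : Qb) (hs : s ^ 2 = 3)
    (hgs : g s = -s) (M : ℕ) (hM : M ≠ 0) :
    ∃ (l1 : ℕ) (t : ℤ), l1.Prime ∧ l1 ≠ 2 ∧ l1 ≠ 3 ∧ ¬ IsSquare (3 : ZMod l1) ∧ (M : ℤ) ∣ t ∧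
      (l1 : ℤ) ∣ C6.eval t ∧ ¬ (l1 : ℤ) ∣ C4.eval t := by
  obtain ⟨R, U, V, hR, hUV⟩ := exists_int_bezout C4 C6 hcop
  obtain ⟨l1, t1, hl1, hT, h2, h3, hsq, hB⟩ :=
    hcheb θ g hgθ s hs hgs (M * R.natAbs).primeFactors
  have hMR : M * R.natAbs ≠ 0 := mul_ne_zero hM (Int.natAbs_ne_zero.mpr hR)
  have hndvd : ¬ l1 ∣ M * R.natAbs := fun h => hT (Nat.mem_primeFactors.mpr ⟨hl1, h, hMR⟩)
  have hlM : ¬ l1 ∣ M := fun h => hndvd (Dvd.dvd.mul_right h _)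
  have hlR : ¬ (l1 : ℤ) ∣ R := by
    intro h
    exact hndvd (Dvd.dvd.mul_left (Int.natCast_dvd.mp h) _)
  -- CRT
  have hcopr : Nat.Coprime M l1 := (Nat.Coprime.symm ((Nat.Prime.coprime_iff_not_dvd hl1).mpr hlM))
  have hcopZ : IsCoprime (M : ℤ) (l1 : ℤ) := Nat.isCoprime_iff_coprime.mpr hcopr
  obtain ⟨x, y, hxy⟩ := hcopZ
  -- `x * M + y * l1 = 1`; take `t = t1 * x * M`
  refine ⟨l1, t1 * x * M, hl1, h2, h3, hsq, Dvd.intro_left _ rfl, ?_, ?_⟩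
  · have h1 : (l1 : ℤ) ∣ C6.eval t1 := hB C6 hθ
    have h2 : (l1 : ℤ) ∣ t1 * x * M - t1 := by
      refine ⟨-(t1 * y), ?_⟩
      linear_combination t1 * hxy
    have h3 : (l1 : ℤ) ∣ C6.eval (t1 * x * M) - C6.eval t1 :=
      dvd_trans h2 (Polynomial.sub_dvd_eval_sub _ _ _)
    have := dvd_add h3 h1
    rwa [sub_add_cancel] at this
  · intro h4
    have h1 : (l1 : ℤ) ∣ C6.eval t1 := hB C6 hθ
    have h2 : (l1 : ℤ) ∣ t1 * x * M - t1 := by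
      refine ⟨-(t1 * y), ?_⟩
      linear_combination t1 * hxy
    have h3 : (l1 : ℤ) ∣ C6.eval (t1 * x * M) - C6.eval t1 :=
      dvd_trans h2 (Polynomial.sub_dvd_eval_sub _ _ _)
    have h6 : (l1 : ℤ) ∣ C6.eval (t1 * x * M) := by
      have := dvd_add h3 h1
      rwa [sub_add_cancel] at this
    have hev := congrArg (Polynomial.eval (t1 * x * M)) hUV
    simp only [eval_add, eval_mul, eval_C] at hev
    apply hlR
    rw [← hev]
    exact dvd_add (Dvd.dvd.mul_left h4 _) (Dvd.dvd.mul_left h6 _)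

/-- **brick G**: irreducibility of the mod `3` representation of the member of the family at the chosen
parameter. -/
theorem exists_param_irreducible (hcheb : ChebCert) (C4 C6 : ℤ[X])
    (hcop : IsCoprime (C4.map (Int.castRingHom ℚ)) (C6.map (Int.castRingHom ℚ)))
    (θ : Qb) (hθ : aeval θ C6 = 0) (g : GQ) (hgθ : g θ = θ) (s : Qb) (hs : s ^ 2 = 3)
    (hgs : g s = -s) (M : ℕ) (hM : M ≠ 0) :
    ∃ t : ℤ, (M : ℤ) ∣ t ∧ ∀ W' : WeierstrassCurve ℤ, W'.Δ ≠ 0 → W'.c₄ = C4.eval t →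
      W'.c₆ = C6.eval t → W'.ModRepIsIrreducible 3 := by
  obtain ⟨l1, t, hl1, h2, h3, hsq, hMt, h6, h4⟩ :=
    exists_param hcheb C4 C6 hcop θ hθ g hgθ s hs hgs M hM
  refine ⟨t, hMt, fun W' hΔ hc4 hc6 => ?_⟩
  exact Psi3Cert4.modRepIsIrreducible_three W' hΔ hl1 h2 h3 (hc6 ▸ h6) (hc4 ▸ h4) hsq

/-- coprimality of `C4`, `C6` over `ℚ` from coprimality of `C4`, `G` and the syzygy
`C4³ − C6² = k · G⁵`, `k ≠ 0`. -/
theorem isCoprime_C4_C6 (C4 C6 G : ℤ[X]) (k : ℤ) (hk : k ≠ 0)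
    (hsyz : C4 ^ 3 - C6 ^ 2 = C k * G ^ 5)
    (hcop : IsCoprime (C4.map (Int.castRingHom ℚ)) (G.map (Int.castRingHom ℚ))) :
    IsCoprime (C4.map (Int.castRingHom ℚ)) (C6.map (Int.castRingHom ℚ)) := by
  set c4 := C4.map (Int.castRingHom ℚ)
  set c6 := C6.map (Int.castRingHom ℚ)
  set gg := G.map (Int.castRingHom ℚ)
  have hsyz' : c4 ^ 3 - c6 ^ 2 = C (k : ℚ) * gg ^ 5 := by
    have := congrArg (Polynomial.map (Int.castRingHom ℚ)) hsyz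
    simpa [Polynomial.map_sub, Polynomial.map_pow, Polynomial.map_mul] using this
  have hkQ : (k : ℚ) ≠ 0 := by exact_mod_cast hk
  have hunit : IsUnit (C (k : ℚ)) := Polynomial.isUnit_C.mpr (isUnit_iff_ne_zero.mpr hkQ)
  have h1 : IsCoprime c4 (C (k : ℚ) * gg ^ 5) :=
    (isCoprime_mul_unit_left_right hunit _ _).mpr (hcop.pow_right)
  rw [← hsyz'] at h1
  -- `c4` coprime to `c4^3 - c6^2` hence to `c6^2`
  have h2 : IsCoprime c4 (c6 ^ 2) := by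
    have h3 : IsCoprime c4 (c4 ^ 3 - c6 ^ 2 + c4 * (-(c4 ^ 2))) :=
      (IsCoprime.add_mul_left_right_iff).mpr h1
    have h4 : c4 ^ 3 - c6 ^ 2 + c4 * (-(c4 ^ 2)) = -(c6 ^ 2) := by ring
    rw [h4] at h3
    exact (IsCoprime.neg_right_iff _ _).mp h3
  exact (IsCoprime.pow_right_iff (by norm_num)).mp h2

/-- `exists_param` with `t ≠ 0` in addition (needed by `SemistableModel6`). -/
theorem exists_param_ne_zero (hcheb : ChebCert) (C4 C6 : ℤ[X])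
    (hcop : IsCoprime (C4.map (Int.castRingHom ℚ)) (C6.map (Int.castRingHom ℚ)))
    (θ : Qb) (hθ : aeval θ C6 = 0) (g : GQ) (hgθ : g θ = θ) (s : Qb) (hs : s ^ 2 = 3)
    (hgs : g s = -s) (M : ℕ) (hM : M ≠ 0) :
    ∃ (l1 : ℕ) (t : ℤ), l1.Prime ∧ l1 ≠ 2 ∧ l1 ≠ 3 ∧ ¬ IsSquare (3 : ZMod l1) ∧ (M : ℤ) ∣ t ∧
      t ≠ 0 ∧ (l1 : ℤ) ∣ C6.eval t ∧ ¬ (l1 : ℤ) ∣ C4.eval t := by
  obtain ⟨l1, t, hl1, h2, h3, hsq, hMt, h6, h4⟩ :=
    exists_param hcheb C4 C6 hcop θ hθ g hgθ s hs hgs M hM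
  by_cases ht : t = 0
  · subst ht
    refine ⟨l1, (M : ℤ) * l1, hl1, h2, h3, hsq, Dvd.intro _ rfl, ?_, ?_, ?_⟩
    · exact mul_ne_zero (by exact_mod_cast hM) (by exact_mod_cast hl1.ne_zero)
    · have h5 : (l1 : ℤ) ∣ C6.eval ((M : ℤ) * l1) - C6.eval 0 :=
        dvd_trans ⟨M, by ring⟩ (Polynomial.sub_dvd_eval_sub _ _ _)
      have := dvd_add h5 h6
      rwa [sub_add_cancel] at this
    · intro h7
      have h5 : (l1 : ℤ) ∣ C4.eval ((M : ℤ) * l1) - C4.eval 0 :=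
        dvd_trans ⟨M, by ring⟩ (Polynomial.sub_dvd_eval_sub _ _ _)
      apply h4
      have := dvd_sub h7 h5
      rwa [sub_sub_cancel] at this
  · exact ⟨l1, t, hl1, h2, h3, hsq, hMt, ht, h6, h4⟩

/-- **brick G** with `t ≠ 0`. -/
theorem exists_param_irreducible_ne_zero (hcheb : ChebCert) (C4 C6 : ℤ[X])
    (hcop : IsCoprime (C4.map (Int.castRingHom ℚ)) (C6.map (Int.castRingHom ℚ)))
    (θ : Qb) (hθ : aeval θ C6 = 0) (g : GQ) (hgθ : g θ = θ) (s : Qb) (hs : s ^ 2 = 3)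
    (hgs : g s = -s) (M : ℕ) (hM : M ≠ 0) :
    ∃ t : ℤ, (M : ℤ) ∣ t ∧ t ≠ 0 ∧ ∀ W' : WeierstrassCurve ℤ, W'.Δ ≠ 0 → W'.c₄ = C4.eval t →
      W'.c₆ = C6.eval t → W'.ModRepIsIrreducible 3 := by
  obtain ⟨l1, t, hl1, h2, h3, hsq, hMt, ht, h6, h4⟩ :=
    exists_param_ne_zero hcheb C4 C6 hcop θ hθ g hgθ s hs hgs M hM
  refine ⟨t, hMt, ht, fun W' hΔ hc4 hc6 => ?_⟩
  exact Psi3Cert4.modRepIsIrreducible_three W' hΔ hl1 h2 h3 (hc6 ▸ h6) (hc4 ▸ h4) hsq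

end Fermat.Agent.S52.GAssembly4
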