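/-
S52 brick FAM (helper5): **coprimality of the family polynomials and the roots of `C6`.**

* `isCoprime_C4_Gp`: for `c4, c6 ≠ 0`, `c4³ ≠ c6²`, the polynomials `C4` and `Gp` are coprime over `ℚ`
  (a common root `θ` in `ℚ̄` would give a Klein point `z` with `kf (z + θ w(z)) = 0 = kH (z + θ w(z))`,
  hence `z + θ w(z) = 0` by `Klein7.eq_zero_of_kf_eq_zero_of_kH_eq_zero`, hence
  `-12 kf z = det (z, w(z)) = det (z + θ w(z), w(z)) = 0`).
* `isCoprime_C4_C6`: hence `C4`, `C6` are coprime over `ℚ` (`GAssembly4.isCoprime_C4_C6`).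
* `aeval_C6_eq_zero`: the root `θ` of the quintic `a (1 + θ A)⁵ = ι b (1 - θ B)⁵` (`ι² = -1`;
  `QuinticRoot4`) is a root of `C6`.
* `hFAM`: the same in the shape `kT5 (a') (b') = 0 → aeval t C6 = 0` over an algebraically closed field.
* `fam_package`: everything `SemistableModel6.exists_semistable_model'` and `GAssembly4` need, for a
  semistable integral Weierstrass curve with `Δ ≠ 0`.
-/
import Fermat.Agent.S52.Fam5Poly
import Fermat.Agent.S52.QuinticRoot4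
import Fermat.Agent.S52.SemistableJ8
import Fermat.Agent.S52.GAssembly4

set_option autoImplicit false

open Polynomial

namespace Fermat.Agent.S52.Fam5Coprime

open Fermat.Agent.S52 Fermat.Agent.S52.Fam5Poly

/-- no common root of `C4` and `Gp` in an algebraically closed field of characteristic zero. -/
theorem not_common_root {K : Type*} [Field K] [IsAlgClosed K] [CharZero K] (c4 c6 : ℤ)
    (h4 : c4 ≠ 0) (h6 : c6 ≠ 0) (hd : c4 ^ 3 ≠ c6 ^ 2) (θ : K) :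
    aeval θ (C4 c4 c6) ≠ 0 ∨ aeval θ (Gp c4 c6) ≠ 0 := by
  by_contra hcon
  push Not at hcon
  obtain ⟨hC4, hGp⟩ := hcon
  have hh : (-(c4 : K)) ≠ 0 := neg_ne_zero.mpr (by exact_mod_cast h4)
  have ht : (-(c6 : K)) ≠ 0 := neg_ne_zero.mpr (by exact_mod_cast h6)
  have hdK : (-(c6 : K)) ^ 2 + (-(c4 : K)) ^ 3 ≠ 0 := by
    intro h
    apply hd
    have h' : ((c4 ^ 3 : ℤ) : K) = ((c6 ^ 2 : ℤ) : K) := by
      push_cast
      linear_combination -h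
    exact_mod_cast h'
  obtain ⟨u, v, hH, hT⟩ := Klein7.exists_klein_point hh ht hdK
  -- `kf z ≠ 0`
  have hf : Klein7.kf u v ≠ 0 := by
    intro h0
    apply hdK
    have := Klein7.syzygy u v
    rw [hH, hT, h0] at this
    rw [this]
    ring
  -- the deformed point is the origin
  have h1 := kH_deform c4 c6 hH hT θ
  have h2 := kf_deform c4 c6 hH hT θ
  rw [hC4, neg_zero] at h1
  rw [hGp, mul_zero] at h2
  obtain ⟨hu, hv⟩ := Klein7.eq_zero_of_kf_eq_zero_of_kH_eq_zero h2 h1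
  apply hf
  have hdet := Klein7.det_kw u v
  have : (-12 : K) * Klein7.kf u v = 0 := by
    rw [← hdet]
    linear_combination Klein7.kw2 u v * hu - Klein7.kw1 u v * hv
  rcases mul_eq_zero.mp this with h | h
  · norm_num at h
  · exact h

/-- **`C4` and `Gp` are coprime over `ℚ`.** -/
theorem isCoprime_C4_Gp (c4 c6 : ℤ) (h4 : c4 ≠ 0) (h6 : c6 ≠ 0) (hd : c4 ^ 3 ≠ c6 ^ 2) :
    IsCoprime ((C4 c4 c6).map (Int.castRingHom ℚ)) ((Gp c4 c6).map (Int.castRingHom ℚ)) := by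
  refine (Polynomial.isCoprime_iff_aeval_ne_zero_of_isAlgClosed (k := ℚ) (AlgebraicClosure ℚ)
    _ _).mpr ?_
  intro θ
  have h := not_common_root (K := AlgebraicClosure ℚ) c4 c6 h4 h6 hd θ
  have e : ∀ p : ℤ[X], aeval θ (p.map (Int.castRingHom ℚ)) = aeval θ p := by
    intro p
    exact Polynomial.aeval_map_algebraMap (A := ℚ) θ p
  rwa [e, e]

/-- **`C4` and `C6` are coprime over `ℚ`.** -/
theorem isCoprime_C4_C6 (c4 c6 : ℤ) (h4 : c4 ≠ 0) (h6 : c6 ≠ 0) (hd : c4 ^ 3 ≠ c6 ^ 2) :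
    IsCoprime ((C4 c4 c6).map (Int.castRingHom ℚ)) ((C6 c4 c6).map (Int.castRingHom ℚ)) :=
  GAssembly4.isCoprime_C4_C6 (C4 c4 c6) (C6 c4 c6) (Gp c4 c6) (c4 ^ 3 - c6 ^ 2)
    (sub_ne_zero.mpr hd) (Fam5Poly.syzygy c4 c6) (isCoprime_C4_Gp c4 c6 h4 h6 hd)

/-- **roots of `C6`**: the root of the quintic of `QuinticRoot4` is a root of `C6`
(coordinates `(u, v)`). -/
theorem aeval_C6_eq_zero {K : Type*} [Field K] (c4 c6 : ℤ) {u v θ ι : K}
    (hH : Klein7.kH u v = -(c4 : K)) (hT : Klein7.kT u v = -(c6 : K)) (hι : ι ^ 2 = -1)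
    (h : u ^ 5 * (1 + θ * Klein7.kA5 (u ^ 5) (v ^ 5)) ^ 5 =
      ι * (v ^ 5 * (1 - θ * Klein7.kB5 (u ^ 5) (v ^ 5)) ^ 5)) :
    aeval θ (C6 c4 c6) = 0 := by
  have h1 := kT_deform c4 c6 hH hT θ
  rw [QuinticRoot4.kT_deform_eq_zero hι h] at h1
  exact neg_eq_zero.mp h1.symm

/-- **roots of `C6`**, coordinates `(a, b) = (u⁵, v⁵)` in an algebraically closed field. -/
theorem aeval_C6_eq_zero5 {K : Type*} [Field K] [IsAlgClosed K] (c4 c6 : ℤ) {a b θ ι : K}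
    (hH : Klein7.kH5 a b = -(c4 : K)) (hT : Klein7.kT5 a b = -(c6 : K)) (hι : ι ^ 2 = -1)
    (h : a * (1 + θ * Klein7.kA5 a b) ^ 5 = ι * (b * (1 - θ * Klein7.kB5 a b) ^ 5)) :
    aeval θ (C6 c4 c6) = 0 := by
  obtain ⟨u, rfl⟩ := IsAlgClosed.exists_pow_nat_eq a (by norm_num : 0 < 5)
  obtain ⟨v, rfl⟩ := IsAlgClosed.exists_pow_nat_eq b (by norm_num : 0 < 5)
  rw [← Klein7.kH_eq_kH5] at hH
  rw [← Klein7.kT_eq_kT5] at hT
  exact aeval_C6_eq_zero c4 c6 hH hT hι h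

/-- **hFAM** (the shape used by `Cert4Asm1`/`GFinal4`): a parameter at which the deformed point lies on
`kT5 = 0` is a root of `C6`. -/
theorem hFAM (c4 c6 : ℤ) {K : Type*} [Field K] [IsAlgClosed K] :
    ∀ a b t : K, Klein7.kH5 a b = -(c4 : K) → Klein7.kT5 a b = -(c6 : K) →
      Klein7.kT5 (a * (1 + t * Klein7.kA5 a b) ^ 5) (b * (1 - t * Klein7.kB5 a b) ^ 5) = 0 →
      aeval t (C6 c4 c6) = 0 := by
  intro a b t hH hT h0
  obtain ⟨u, rfl⟩ := IsAlgClosed.exists_pow_nat_eq a (by norm_num : 0 < 5)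
  obtain ⟨v, rfl⟩ := IsAlgClosed.exists_pow_nat_eq b (by norm_num : 0 < 5)
  rw [← Klein7.kH_eq_kH5] at hH
  rw [← Klein7.kT_eq_kT5] at hT
  have h1 := kT_deform c4 c6 hH hT t
  rw [Klein7.kT_eq_kT5, Klein7.deform_fst_pow, Klein7.deform_snd_pow, h0] at h1
  exact neg_eq_zero.mp h1.symm

/-- **the FAM package** for a semistable integral Weierstrass curve with `Δ ≠ 0`. -/
theorem fam_package (W : WeierstrassCurve ℤ) (hΔ : W.Δ ≠ 0) (hss : W.IsSemistableModel) :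
    (C4 W.c₄ W.c₆).eval 0 = W.c₄ ∧ (C6 W.c₄ W.c₆).eval 0 = W.c₆ ∧ (Gp W.c₄ W.c₆).eval 0 = 1 ∧
    C4 W.c₄ W.c₆ ^ 3 - C6 W.c₄ W.c₆ ^ 2 = C (W.c₄ ^ 3 - W.c₆ ^ 2) * Gp W.c₄ W.c₆ ^ 5 ∧
    IsCoprime ((C4 W.c₄ W.c₆).map (Int.castRingHom ℚ)) ((Gp W.c₄ W.c₆).map (Int.castRingHom ℚ)) ∧
    IsCoprime ((C4 W.c₄ W.c₆).map (Int.castRingHom ℚ)) ((C6 W.c₄ W.c₆).map (Int.castRingHom ℚ)) := by
  have h4 := SemistableJ8.c4_ne_zero W hss
  have h6 := SemistableJ8.c6_ne_zero W hss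
  have hd : W.c₄ ^ 3 ≠ W.c₆ ^ 2 := by
    intro h
    apply hΔ
    have := W.c_relation
    rw [h, sub_self] at this
    rcases mul_eq_zero.mp this with h' | h'
    · norm_num at h'
    · exact h'
  exact ⟨eval_zero_C4 _ _, eval_zero_C6 _ _, eval_zero_Gp _ _, Fam5Poly.syzygy _ _,
    isCoprime_C4_Gp _ _ h4 h6 hd, isCoprime_C4_C6 _ _ h4 h6 hd⟩

end Fermat.Agent.S52.Fam5Coprime
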