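/-
S52, brick CERT-3 (helper1), local part: **what a Frobenius element at a place over `p` says about
elements it fixes or negates.**

`L/K` fields, `A : ValuationSubring L` over the prime `p`, `φ` with `A.IsFrobeniusAt φ p`.
* `residue_frob` : `res (φ x) = (res x) ^ p` for `x ∈ A`;
* `exists_int_of_frob_fixed` : `θ ∈ A`, `φ θ = θ` ⟹ `θ ≡ t mod 𝔪_A` for some `t : ℤ`;
* `dvd_eval_of_aeval_eq_zero` / `dvd_mvEval_of_aeval_eq_zero` : then `p ∣ B(t)` for every integer
  polynomial `B` with `B(θ) = 0` (also in several variables);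
* `not_isSquare_three_of_frob_neg` : `s² = 3`, `φ s = −s`, `p ≠ 2, 3` ⟹ `3` is not a square mod `p`.
-/
import Mathlib
import Fermat.Prelude.Def_EllipticCurve_FrobeniusTrace
import Fermat.Agent.S05.Inertia

set_option autoImplicit false

namespace Fermat.Agent.S52.FrobResidue1

open ValuationSubring Polynomial Fermat.Agent.S05.Inertia

variable {K L : Type*} [Field K] [Field L] [Algebra K L] (A : ValuationSubring L)

/-- if `A` lies over the prime `p`, its residue field has characteristic `p`. -/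
theorem charP_residueField {p : ℕ} (hp : p.Prime) (hA : A.LiesOverPrime p) :
    CharP (IsLocalRing.ResidueField A) p := by
  rw [CharP.charP_iff_prime_eq_zero hp]
  obtain ⟨hmem, hmax⟩ := ValuationSubring.mem_nonunits_iff_exists_mem_maximalIdeal.mp hA
  have h1 : (⟨(p : L), hmem⟩ : A) = ((p : ℕ) : A) := Subtype.ext (by simp)
  rw [h1, ← IsLocalRing.residue_eq_zero_iff, map_natCast] at hmax
  exact hmax

/-- a Frobenius element induces the `p`-power map on residues. -/
theorem residue_frob {φ : L ≃ₐ[K] L} {p : ℕ} (hφ : A.IsFrobeniusAt φ p) {x : L} (hx : x ∈ A) :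
    ∃ hφx : φ x ∈ A,
      IsLocalRing.residue A ⟨φ x, hφx⟩ = (IsLocalRing.residue A ⟨x, hx⟩) ^ p := by
  have hφx : φ x ∈ A :=
    (apply_mem_iff_of_mem_decomposition hφ.mem_decompositionSubgroup x).mpr hx
  refine ⟨hφx, ?_⟩
  have h1 := hφ.smul_residue_eq (IsLocalRing.residue A ⟨x, hx⟩)
  rw [← IsLocalRing.ResidueField.residue_smul] at h1
  rw [← h1]
  rfl

/-- an element of a field of characteristic `p` with `x ^ p = x` is the image of an integer. -/
theorem exists_intCast_of_pow_eq_self {κ : Type*} [Field κ] {p : ℕ} [Fact p.Prime] [CharP κ p]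
    {x : κ} (hx : x ^ p = x) : ∃ t : ℤ, x = (t : κ) := by
  have h1 : x ∈ (⊥ : Subfield κ) := (Subfield.mem_bot_iff_pow_eq_self κ p).mpr hx
  have h2 : (⊥ : Subfield κ) ≤ (ZMod.castHom (dvd_refl p) κ).fieldRange := bot_le
  obtain ⟨c, hc⟩ := h2 h1
  refine ⟨(c.val : ℤ), ?_⟩
  rw [← hc]
  have : c = ((c.val : ℤ) : ZMod p) := by
    rw [Int.cast_natCast, ZMod.natCast_zmod_val]
  conv_lhs => rw [this]
  rw [map_intCast]

variable {A}

/-- **an element fixed by a Frobenius element is congruent to an integer.** -/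
theorem exists_int_of_frob_fixed {φ : L ≃ₐ[K] L} {p : ℕ} (hp : p.Prime)
    (hA : A.LiesOverPrime p) (hφ : A.IsFrobeniusAt φ p) {θ : L} (hθA : θ ∈ A) (hθ : φ θ = θ) :
    ∃ t : ℤ, IsLocalRing.residue A ⟨θ, hθA⟩ = (t : IsLocalRing.ResidueField A) := by
  have : Fact p.Prime := ⟨hp⟩
  have := charP_residueField A hp hA
  obtain ⟨hφx, h⟩ := residue_frob A hφ hθA
  have h' : (IsLocalRing.residue A ⟨θ, hθA⟩) ^ p = IsLocalRing.residue A ⟨θ, hθA⟩ := by
    rw [← h]
    congr 1
    exact Subtype.ext hθ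
  exact exists_intCast_of_pow_eq_self h'

/-- the reduction of an integer polynomial relation (one variable). -/
theorem dvd_eval_of_aeval_eq_zero {p : ℕ} (hp : p.Prime) (hA : A.LiesOverPrime p) {θ : L}
    (hθA : θ ∈ A) {t : ℤ}
    (ht : IsLocalRing.residue A ⟨θ, hθA⟩ = (t : IsLocalRing.ResidueField A))
    (B : ℤ[X]) (hB : aeval θ B = 0) : (p : ℤ) ∣ B.eval t := by
  have := charP_residueField A hp hA
  have h0 : aeval (⟨θ, hθA⟩ : A) B = 0 := by
    apply Subtype.ext
    have := aeval_algebraMap_apply L (⟨θ, hθA⟩ : A) B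
    rw [show algebraMap A L ⟨θ, hθA⟩ = θ from rfl, hB] at this
    exact this.symm
  have h1 : aeval (IsLocalRing.residue A ⟨θ, hθA⟩) B = 0 := by
    have := aeval_algHom_apply (IsLocalRing.residue A).toIntAlgHom (⟨θ, hθA⟩ : A) B
    rw [h0, map_zero] at this
    exact this
  rw [ht] at h1
  have h2 : aeval ((t : ℤ) : IsLocalRing.ResidueField A) B =
      ((B.eval t : ℤ) : IsLocalRing.ResidueField A) := by
    have := aeval_algebraMap_apply_eq_algebraMap_eval (R := ℤ) (A := IsLocalRing.ResidueField A)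
      t B
    simpa only [eq_intCast] using this
  rw [h2] at h1
  exact (CharP.intCast_eq_zero_iff (IsLocalRing.ResidueField A) p _).mp h1

/-- the reduction of an integer polynomial relation (several variables). -/
theorem dvd_mvEval_of_aeval_eq_zero {ι : Type*} {p : ℕ} (hp : p.Prime) (hA : A.LiesOverPrime p)
    {θ : ι → L} (hθA : ∀ k, θ k ∈ A) {t : ι → ℤ}
    (ht : ∀ k, IsLocalRing.residue A ⟨θ k, hθA k⟩ = (t k : IsLocalRing.ResidueField A))
    (B : MvPolynomial ι ℤ) (hB : MvPolynomial.aeval θ B = 0) :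
    (p : ℤ) ∣ MvPolynomial.eval t B := by
  have := charP_residueField A hp hA
  have h0 : MvPolynomial.aeval (fun k => (⟨θ k, hθA k⟩ : A)) B = 0 := by
    apply Subtype.ext
    have h := MvPolynomial.comp_aeval_apply (fun k => (⟨θ k, hθA k⟩ : A))
      (algebraMap A L).toIntAlgHom B
    have e : (fun k => (algebraMap A L).toIntAlgHom ((fun k => (⟨θ k, hθA k⟩ : A)) k)) = θ := rfl
    rw [e, hB] at h
    exact h
  have h1 : MvPolynomial.aeval (fun k => IsLocalRing.residue A ⟨θ k, hθA k⟩) B = 0 := by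
    have h := MvPolynomial.comp_aeval_apply (fun k => (⟨θ k, hθA k⟩ : A))
      (IsLocalRing.residue A).toIntAlgHom B
    rw [h0, map_zero] at h
    exact h.symm
  have h2 : (fun k => IsLocalRing.residue A ⟨θ k, hθA k⟩) =
      fun k => (Int.castRingHom (IsLocalRing.ResidueField A)).toIntAlgHom (t k) := by
    funext k
    rw [ht k]
    rfl
  rw [h2] at h1
  have h4 := MvPolynomial.comp_aeval_apply t
    (Int.castRingHom (IsLocalRing.ResidueField A)).toIntAlgHom B
  have h5 : (Int.castRingHom (IsLocalRing.ResidueField A)).toIntAlgHom (MvPolynomial.aeval t B) =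
      0 := h4.trans h1
  have h3 : MvPolynomial.aeval t B = MvPolynomial.eval t B := by
    rw [MvPolynomial.aeval_def, MvPolynomial.eval, MvPolynomial.coe_eval₂Hom]
    rfl
  rw [h3] at h5
  exact (CharP.intCast_eq_zero_iff (IsLocalRing.ResidueField A) p _).mp h5

/-- **a Frobenius element negating `√3` forces `3` to be a non-square mod `p`.** -/
theorem not_isSquare_three_of_frob_neg {φ : L ≃ₐ[K] L} {p : ℕ} (hp : p.Prime) (hp2 : p ≠ 2)
    (hp3 : p ≠ 3) (hA : A.LiesOverPrime p) (hφ : A.IsFrobeniusAt φ p) {s : L} (hs : s ^ 2 = 3)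
    (hφs : φ s = -s) : ¬ IsSquare (3 : ZMod p) := by
  have : Fact p.Prime := ⟨hp⟩
  have := charP_residueField A hp hA
  -- `s ∈ A`
  have hsA : s ∈ A := by
    rw [← ValuationSubring.valuation_le_one_iff]
    by_contra hcon
    push Not at hcon
    have h3 : A.valuation (3 : L) ≤ 1 := by
      have := valuation_natCast_le_one (A := A) 3
      exact_mod_cast this
    have : A.valuation (s ^ 2) ≤ 1 := by rw [hs]; exact h3
    rw [map_pow] at this
    have h1 : (1 : ValuationSubring.ValueGroup A) < A.valuation s ^ 2 := one_lt_pow₀ hcon two_ne_zero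
    exact absurd this (not_le.mpr h1)
  set σ := IsLocalRing.residue A ⟨s, hsA⟩ with hσ
  have hσ2 : σ ^ 2 = 3 := by
    rw [hσ, ← map_pow]
    have : (⟨s, hsA⟩ : A) ^ 2 = ((3 : ℕ) : A) := Subtype.ext (by push_cast; exact hs)
    rw [this, map_natCast]
    norm_num
  obtain ⟨hφx, hfrob⟩ := residue_frob A hφ hsA
  have hσp : σ ^ p = -σ := by
    rw [← hfrob, hσ, ← map_neg]
    congr 1
    exact Subtype.ext hφs
  rintro ⟨c, hc⟩
  -- `σ = ± c`
  set c' : IsLocalRing.ResidueField A := ZMod.castHom (dvd_refl p) _ c with hc'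
  have hc2 : c' * c' = 3 := by
    rw [hc', ← map_mul, ← hc, map_ofNat]
  have hc'p : c' ^ p = c' := by
    rw [hc', ← map_pow, ZMod.pow_card]
  have hσc : σ = c' ∨ σ = -c' := by
    have : (σ - c') * (σ + c') = 0 := by
      linear_combination hσ2 - hc2
    rcases mul_eq_zero.mp this with h | h
    · left; exact sub_eq_zero.mp h
    · right; exact eq_neg_of_add_eq_zero_left h
  have hσfix : σ ^ p = σ := by
    rcases hσc with h | h
    · rw [h, hc'p]
    · rw [h, Odd.neg_pow (hp.eq_two_or_odd'.resolve_left hp2), hc'p]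
  have h2σ : (2 : IsLocalRing.ResidueField A) * σ = 0 := by
    linear_combination hσp - hσfix
  have h2 : (2 : IsLocalRing.ResidueField A) ≠ 0 := by
    intro h
    have : ((2 : ℕ) : IsLocalRing.ResidueField A) = 0 := by exact_mod_cast h
    rw [CharP.cast_eq_zero_iff (IsLocalRing.ResidueField A) p] at this
    exact hp2 ((Nat.prime_dvd_prime_iff_eq hp Nat.prime_two).mp this)
  have hσ0 : σ = 0 := (mul_eq_zero.mp h2σ).resolve_left h2
  rw [hσ0] at hσ2
  have h3 : ((3 : ℕ) : IsLocalRing.ResidueField A) = 0 := by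
    have : (3 : IsLocalRing.ResidueField A) = 0 := by rw [← hσ2]; ring
    exact_mod_cast this
  rw [CharP.cast_eq_zero_iff (IsLocalRing.ResidueField A) p] at h3
  exact hp3 ((Nat.prime_dvd_prime_iff_eq hp Nat.prime_three).mp h3)

end Fermat.Agent.S52.FrobResidue1
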