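/-
S52, brick CERT-3 (helper1): **the Chebotarev step of the mod-3 irreducibility certificate.**

`θ_k ∈ ℚ̄` (finitely many), `g ∈ G_ℚ` fixing all `θ_k` and with `g √3 = −√3`, `T` a finite set of primes.
Then there is a prime `l₁ ∉ T ∪ {2, 3}` such that `3` is not a square mod `l₁` and the `θ_k` reduce to integers
`t_k` mod a place over `l₁`: every integer polynomial relation `B(θ) = 0` gives `l₁ ∣ B(t)`.

* `exists_frobenius_core` : the place `A`, the Frobenius element `φ` and the local facts;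
* `exists_prime_cert_mv` : the statement for `MvPolynomial ι ℤ`;
* `exists_prime_cert` : the one-variable statement.
Uses the generator form of Chebotarev (`Cheb2Sided12.exists_frobenius_pow_eq_on_both`).
-/
import Mathlib
import Fermat.Agent.ES.Q58.Cheb2Sided12
import Fermat.Agent.S52.FrobResidue1

set_option autoImplicit false

namespace Fermat.Agent.S52.Cert3Cheb1

open Fermat.Agent.Lib.FrobeniusExists Fermat.Agent.S52.FrobResidue1 Fermat.Agent.S05.Inertia
open Polynomial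

/-- a power of an automorphism fixes what the automorphism fixes. -/
theorem pow_apply_of_fixed (g : GQ) {x : Qbar} (hx : g x = x) (i : ℕ) : (g ^ i) x = x := by
  induction i with
  | zero => rfl
  | succ i ih => rw [pow_succ, AlgEquiv.mul_apply, hx, ih]

/-- an element of `ℚ̄` lies in a valuation subring over `p` as soon as `p` does not divide a
denominator. -/
theorem mem_of_integral_multiple (A : ValuationSubring Qbar) {p : ℕ} (hp : p.Prime)
    (hA : A.LiesOverPrime p) {θ : Qbar} {c : ℤ} (hc : ¬ (p : ℤ) ∣ c)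
    (hint : IsIntegral ℤ (c • θ)) : θ ∈ A := by
  have h1 : c • θ ∈ A := mem_valuationSubring_of_isIntegral A hint
  rw [← ValuationSubring.valuation_le_one_iff] at h1 ⊢
  rw [zsmul_eq_mul, map_mul, valuation_intCast_eq_one hp hA hc, one_mul] at h1
  exact h1

/-- **the Chebotarev step**: a place `A` over a prime `p ∉ T ∪ {2, 3}` and a Frobenius element `φ` at `A`
fixing the `θ_k` (which lie in `A`) and negating `s = √3`. -/
theorem exists_frobenius_core {ι : Type*} [Finite ι] (θ : ι → Qbar) (g : GQ)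
    (hθ : ∀ k, g (θ k) = θ k) (s : Qbar) (hs : s ^ 2 = 3) (hg : g s = -s) (T : Finset ℕ) :
    ∃ (p : ℕ) (A : ValuationSubring Qbar) (φ : GQ), p.Prime ∧ p ∉ T ∧ p ≠ 2 ∧ p ≠ 3 ∧
      A.LiesOverPrime p ∧ A.IsFrobeniusAt φ p ∧ (∀ k, φ (θ k) = θ k) ∧ (∀ k, θ k ∈ A) ∧
      φ s = -s := by
  classical
  have := Fintype.ofFinite ι
  -- denominators
  have hden : ∀ k, ∃ c : ℤ, c ≠ 0 ∧ IsIntegral ℤ (c • θ k) := fun k =>
    (isAlgebraic_int_Qbar (θ k)).exists_integral_multiple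
  choose c hc0 hcint using hden
  set T' : Finset ℕ := T ∪ {2, 3} ∪ Finset.univ.biUnion (fun k => (c k).natAbs.primeFactors)
    with hT'
  -- the finite level
  set X : Set Qbar := Set.range θ ∪ {s} with hX
  have hXfin : X.Finite := (Set.finite_range θ).union (Set.finite_singleton s)
  have : Finite X := hXfin.to_subtype
  have hfd : FiniteDimensional ℚ (IntermediateField.adjoin ℚ X) :=
    IntermediateField.finiteDimensional_adjoin (fun x _ => (isIntegral_Qbar).isIntegral x)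
  obtain ⟨p, A, φ, i, j, hp, hpT', hAp, hφ, hj, hi⟩ :=
    Fermat.Agent.ES.Q58.Cheb2Sided12.exists_frobenius_pow_eq_on_both
      (IntermediateField.adjoin ℚ X) g T'
  have hθX : ∀ k, θ k ∈ IntermediateField.adjoin ℚ X := fun k =>
    IntermediateField.subset_adjoin ℚ X (Or.inl ⟨k, rfl⟩)
  have hsX : s ∈ IntermediateField.adjoin ℚ X :=
    IntermediateField.subset_adjoin ℚ X (Or.inr rfl)
  have hpT : p ∉ T := fun h => hpT' (by rw [hT']; simp [h])
  have hp2 : p ≠ 2 := fun h => hpT' (by rw [hT', h]; simp)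
  have hp3 : p ≠ 3 := fun h => hpT' (by rw [hT', h]; simp)
  have hpc : ∀ k, ¬ (p : ℤ) ∣ c k := by
    intro k hdvd
    apply hpT'
    rw [hT']
    apply Finset.mem_union_right
    rw [Finset.mem_biUnion]
    refine ⟨k, Finset.mem_univ k, ?_⟩
    rw [Nat.mem_primeFactors]
    refine ⟨hp, ?_, Int.natAbs_ne_zero.mpr (hc0 k)⟩
    exact Int.natCast_dvd.mp hdvd
  refine ⟨p, A, φ, hp, hpT, hp2, hp3, hAp, hφ, ?_, ?_, ?_⟩
  · intro k
    rw [← hi _ (hθX k)]
    exact pow_apply_of_fixed g (hθ k) i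
  · intro k
    exact mem_of_integral_multiple A hp hAp (hpc k) (hcint k)
  · -- `φ s = ± s`, and `φ s = s` is impossible
    have h3 : (φ s) ^ 2 = s ^ 2 := by
      rw [← map_pow, hs, map_ofNat]
    have hs0 : s ≠ 0 := by
      rintro rfl
      norm_num at hs
    rcases sq_eq_sq_iff_eq_or_eq_neg.mp h3 with h | h
    · exfalso
      have h4 : (φ ^ j) s = s := pow_apply_of_fixed φ h j
      rw [hj _ hsX, hg] at h4
      have : (2 : Qbar) * s = 0 := by linear_combination -h4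
      rcases mul_eq_zero.mp this with h5 | h5
      · norm_num at h5
      · exact hs0 h5
    · exact h

/-- **CERT-3, several variables.** -/
theorem exists_prime_cert_mv {ι : Type*} [Finite ι] (θ : ι → Qbar) (g : GQ)
    (hθ : ∀ k, g (θ k) = θ k) (s : Qbar) (hs : s ^ 2 = 3) (hg : g s = -s) (T : Finset ℕ) :
    ∃ (l₁ : ℕ) (t : ι → ℤ), l₁.Prime ∧ l₁ ∉ T ∧ l₁ ≠ 2 ∧ l₁ ≠ 3 ∧ ¬ IsSquare (3 : ZMod l₁) ∧
      ∀ B : MvPolynomial ι ℤ, MvPolynomial.aeval θ B = 0 → (l₁ : ℤ) ∣ MvPolynomial.eval t B := by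
  obtain ⟨p, A, φ, hp, hpT, hp2, hp3, hAp, hφ, hfix, hmem, hneg⟩ :=
    exists_frobenius_core θ g hθ s hs hg T
  have hex : ∀ k, ∃ t : ℤ,
      IsLocalRing.residue A ⟨θ k, hmem k⟩ = (t : IsLocalRing.ResidueField A) := fun k =>
    exists_int_of_frob_fixed hp hAp hφ (hmem k) (hfix k)
  choose t ht using hex
  refine ⟨p, t, hp, hpT, hp2, hp3, not_isSquare_three_of_frob_neg hp hp2 hp3 hAp hφ hs hneg, ?_⟩
  intro B hB
  exact dvd_mvEval_of_aeval_eq_zero hp hAp hmem ht B hB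

/-- **CERT-3, one variable**: `θ ∈ ℚ̄` fixed by `g ∈ G_ℚ` with `g √3 = −√3`; then for some prime
`l₁ ∉ T ∪ {2, 3}` with `3` a non-square mod `l₁` and some integer `t₁`: `l₁ ∣ B(t₁)` for every
`B ∈ ℤ[X]` with `B(θ) = 0`. -/
theorem exists_prime_cert (θ : Qbar) (g : GQ) (hθ : g θ = θ) (s : Qbar) (hs : s ^ 2 = 3)
    (hg : g s = -s) (T : Finset ℕ) :
    ∃ (l₁ : ℕ) (t₁ : ℤ), l₁.Prime ∧ l₁ ∉ T ∧ l₁ ≠ 2 ∧ l₁ ≠ 3 ∧ ¬ IsSquare (3 : ZMod l₁) ∧
      ∀ B : ℤ[X], aeval θ B = 0 → (l₁ : ℤ) ∣ B.eval t₁ := by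
  obtain ⟨p, A, φ, hp, hpT, hp2, hp3, hAp, hφ, hfix, hmem, hneg⟩ :=
    exists_frobenius_core (fun _ : Unit => θ) g (fun _ => hθ) s hs hg T
  obtain ⟨t, ht⟩ := exists_int_of_frob_fixed hp hAp hφ (hmem ()) (hfix ())
  refine ⟨p, t, hp, hpT, hp2, hp3, not_isSquare_three_of_frob_neg hp hp2 hp3 hAp hφ hs hneg, ?_⟩
  intro B hB
  exact dvd_eval_of_aeval_eq_zero hp hAp (hmem ()) ht B hB

end Fermat.Agent.S52.Cert3Cheb1
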