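/-
S52 (3–5 switch), brick (F) (helper6): **an integral semistable model for the members of a
one-parameter family with prescribed `c₄`, `c₆`**.

Pure arithmetic, abstract over the family.  Input: a semistable integral Weierstrass model `W`
with `Δ ≠ 0` and polynomials `C4 C6 G : ℤ[X]` with
`C4(0) = c₄(W)`, `C6(0) = c₆(W)`, `G(0) = 1`, `C4³ − C6² = 1728 Δ(W) G⁵`,
and `C4`, `G` coprime over `ℚ`.  Output: a nonzero integer `M` such that for every nonzero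
integer `t` divisible by `M` the curve
`W' = ⟨a₁, a₂, a₃, a₄ + d₄, a₆ + d₆⟩` (`d₄ = −(C4(t) − c₄)/48`,
`d₆ = (72 b₂ d₄ − (C6(t) − c₆))/864`) is an integral model with `c₄(W') = C4(t)`,
`c₆(W') = C6(t)`, `Δ(W') = Δ(W) G(t)⁵ ≠ 0`, and it is semistable.
-/
import Mathlib
import Fermat.Prelude.Def_FLTPrelim_Modularity

set_option autoImplicit false

open Polynomial WeierstrassCurve

namespace Fermat.Agent.S52.SemistableModel6

/-- the model with `a₄`, `a₆` shifted. -/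
def shift (W : WeierstrassCurve ℤ) (d4 d6 : ℤ) : WeierstrassCurve ℤ :=
  ⟨W.a₁, W.a₂, W.a₃, W.a₄ + d4, W.a₆ + d6⟩

theorem shift_c₄ (W : WeierstrassCurve ℤ) (d4 d6 : ℤ) :
    (shift W d4 d6).c₄ = W.c₄ - 48 * d4 := by
  simp only [shift, WeierstrassCurve.c₄, WeierstrassCurve.b₂, WeierstrassCurve.b₄]
  ring

theorem shift_c₆ (W : WeierstrassCurve ℤ) (d4 d6 : ℤ) :
    (shift W d4 d6).c₆ = W.c₆ + 72 * W.b₂ * d4 - 864 * d6 := by
  simp only [shift, WeierstrassCurve.c₆, WeierstrassCurve.b₂, WeierstrassCurve.b₄,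
    WeierstrassCurve.b₆]
  ring

/-- Clearing denominators in a Bézout relation over `ℚ`. -/
theorem exists_int_bezout {A B : ℤ[X]}
    (hcop : IsCoprime (A.map (Int.castRingHom ℚ)) (B.map (Int.castRingHom ℚ))) :
    ∃ (d : ℤ) (U V : ℤ[X]), d ≠ 0 ∧ U * A + V * B = C d := by
  obtain ⟨u, v, huv⟩ := hcop
  obtain ⟨b₁, hb₁M, hb₁⟩ := IsLocalization.integerNormalization_spec (nonZeroDivisors ℤ) u
  obtain ⟨b₂, hb₂M, hb₂⟩ := IsLocalization.integerNormalization_spec (nonZeroDivisors ℤ) v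
  set U₀ := IsLocalization.integerNormalization (nonZeroDivisors ℤ) u with hU₀
  set V₀ := IsLocalization.integerNormalization (nonZeroDivisors ℤ) v with hV₀
  have h1 : b₁ ≠ 0 := nonZeroDivisors.ne_zero hb₁M
  have h2 : b₂ ≠ 0 := nonZeroDivisors.ne_zero hb₂M
  refine ⟨b₁ * b₂, C b₂ * U₀, C b₁ * V₀, mul_ne_zero h1 h2, ?_⟩
  apply Polynomial.map_injective (Int.castRingHom ℚ) Int.cast_injective
  have e1 : U₀.map (Int.castRingHom ℚ) = C (b₁ : ℚ) * u := by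
    have := hb₁
    rw [algebraMap_int_eq] at this
    rw [this, zsmul_eq_mul, ← Polynomial.C_eq_intCast]
  have e2 : V₀.map (Int.castRingHom ℚ) = C (b₂ : ℚ) * v := by
    have := hb₂
    rw [algebraMap_int_eq] at this
    rw [this, zsmul_eq_mul, ← Polynomial.C_eq_intCast]
  simp only [Polynomial.map_add, Polynomial.map_mul, Polynomial.map_C, e1, e2,
    Int.coe_castRingHom, Int.cast_mul]
  calc C (b₂ : ℚ) * (C (b₁ : ℚ) * u) * A.map (Int.castRingHom ℚ)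
        + C (b₁ : ℚ) * (C (b₂ : ℚ) * v) * B.map (Int.castRingHom ℚ)
      = C (b₁ : ℚ) * C (b₂ : ℚ)
          * (u * A.map (Int.castRingHom ℚ) + v * B.map (Int.castRingHom ℚ)) := by ring
    _ = C ((b₁ : ℚ) * (b₂ : ℚ)) := by rw [huv, mul_one, C_mul]

/-- **Brick (F), explicit form**: pointwise syzygy and an integral Bézout relation; the modulus is
`M = 1728 Δ d`. -/
theorem semistable_model_of_bezout (W : WeierstrassCurve ℤ) (hΔ : W.Δ ≠ 0)
    (hss : W.IsSemistableModel) (C4 C6 G : ℤ[X])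
    (h4 : C4.eval 0 = W.c₄) (h6 : C6.eval 0 = W.c₆) (hG : G.eval 0 = 1)
    (hrel : ∀ t : ℤ, (C4.eval t) ^ 3 - (C6.eval t) ^ 2 = 1728 * W.Δ * (G.eval t) ^ 5)
    {d : ℤ} {U V : ℤ[X]} (hUV : U * C4 + V * G = C d) :
    ∀ t : ℤ, 1728 * W.Δ * d ∣ t → t ≠ 0 →
      ∃ W' : WeierstrassCurve ℤ, W'.a₁ = W.a₁ ∧ W'.a₂ = W.a₂ ∧ W'.a₃ = W.a₃ ∧
        W'.c₄ = C4.eval t ∧ W'.c₆ = C6.eval t ∧ W'.Δ = W.Δ * (G.eval t) ^ 5 ∧
        W'.Δ ≠ 0 ∧ W'.IsSemistableModel := by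
  intro t hMt ht
  -- congruences
  have ht4 : t ∣ C4.eval t - W.c₄ := by
    have := Polynomial.sub_dvd_eval_sub t 0 C4
    rwa [sub_zero, h4] at this
  have ht6 : t ∣ C6.eval t - W.c₆ := by
    have := Polynomial.sub_dvd_eval_sub t 0 C6
    rwa [sub_zero, h6] at this
  have htG : t ∣ G.eval t - 1 := by
    have := Polynomial.sub_dvd_eval_sub t 0 G
    rwa [sub_zero, hG] at this
  obtain ⟨e4, he4⟩ := hMt.trans ht4
  obtain ⟨e6, he6⟩ := hMt.trans ht6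
  obtain ⟨eG, heG⟩ := hMt.trans htG
  set d4 : ℤ := -(36 * W.Δ * d * e4) with hd4
  set d6 : ℤ := -(3 * W.b₂ * W.Δ * d * e4) - 2 * W.Δ * d * e6 with hd6
  set W' := shift W d4 d6 with hW'
  have hc4 : W'.c₄ = C4.eval t := by
    rw [hW', shift_c₄, hd4]
    linear_combination -he4
  have hc6 : W'.c₆ = C6.eval t := by
    rw [hW', shift_c₆, hd4, hd6]
    linear_combination -he6
  have hΔ' : W'.Δ = W.Δ * (G.eval t) ^ 5 := by
    have h1 := W'.c_relation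
    have h2 := hrel t
    rw [hc4, hc6, h2] at h1
    have : (1728 : ℤ) * W'.Δ = 1728 * (W.Δ * (G.eval t) ^ 5) := by
      linear_combination h1
    exact mul_left_cancel₀ (by norm_num) this
  -- `G(t) ≠ 0`
  have hGt : G.eval t ≠ 0 := by
    intro h0
    rw [h0, zero_sub] at htG
    have hunit : IsUnit t := isUnit_of_dvd_unit htG (isUnit_one.neg)
    have hM1 : IsUnit (1728 * W.Δ * d) := isUnit_of_dvd_unit hMt hunit
    have h1728 : IsUnit (1728 : ℤ) := by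
      rw [mul_assoc] at hM1
      exact isUnit_of_mul_isUnit_left hM1
    rw [Int.isUnit_iff] at h1728
    omega
  have hΔ'0 : W'.Δ ≠ 0 := by
    rw [hΔ']
    exact mul_ne_zero hΔ (pow_ne_zero _ hGt)
  refine ⟨W', rfl, rfl, rfl, hc4, hc6, hΔ', hΔ'0, ?_⟩
  -- semistability
  intro p hp hpΔ' hpc4
  have hpp : Prime (p : ℤ) := Nat.prime_iff_prime_int.mp hp
  rw [hΔ'] at hpΔ'
  rw [hc4] at hpc4
  by_cases hpM : (p : ℤ) ∣ 1728 * W.Δ * d
  · -- `p ∣ M`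
    have hpG : ¬ (p : ℤ) ∣ G.eval t := by
      intro hdvd
      have h1 : (p : ℤ) ∣ G.eval t - 1 := by
        rw [heG]; exact Dvd.dvd.mul_right hpM _
      have h2 : (p : ℤ) ∣ 1 := by
        have := dvd_sub hdvd h1
        rwa [sub_sub_cancel] at this
      exact hpp.not_dvd_one h2
    have hpΔ : (p : ℤ) ∣ W.Δ := by
      rcases hpp.dvd_or_dvd hpΔ' with h | h
      · exact h
      · exact absurd (hpp.dvd_of_dvd_pow h) hpG
    have hpc : (p : ℤ) ∣ W.c₄ := by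
      have h1 : (p : ℤ) ∣ C4.eval t - W.c₄ := by
        rw [he4]; exact Dvd.dvd.mul_right hpM _
      have := dvd_sub hpc4 h1
      rwa [sub_sub_cancel] at this
    exact hss p hp hpΔ hpc
  · -- `p ∤ M`
    have hpΔ : ¬ (p : ℤ) ∣ W.Δ := fun h =>
      hpM (Dvd.dvd.mul_right (Dvd.dvd.mul_left h _) _)
    have hpG : (p : ℤ) ∣ G.eval t := by
      rcases hpp.dvd_or_dvd hpΔ' with h | h
      · exact absurd h hpΔ
      · exact hpp.dvd_of_dvd_pow h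
    have h3 := congrArg (Polynomial.eval t) hUV
    simp only [eval_add, eval_mul, eval_C] at h3
    have hpd : (p : ℤ) ∣ d := by
      rw [← h3]
      exact dvd_add (Dvd.dvd.mul_left hpc4 _) (Dvd.dvd.mul_left hpG _)
    exact hpM (Dvd.dvd.mul_left hpd _)

/-- **Brick (F).**  Polynomial syzygy and coprimality over `ℚ`. -/
theorem exists_semistable_model (W : WeierstrassCurve ℤ) (hΔ : W.Δ ≠ 0)
    (hss : W.IsSemistableModel) (C4 C6 G : ℤ[X])
    (h4 : C4.eval 0 = W.c₄) (h6 : C6.eval 0 = W.c₆) (hG : G.eval 0 = 1)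
    (hrel : C4 ^ 3 - C6 ^ 2 = C (1728 * W.Δ) * G ^ 5)
    (hcop : IsCoprime (C4.map (Int.castRingHom ℚ)) (G.map (Int.castRingHom ℚ))) :
    ∃ M : ℤ, M ≠ 0 ∧ ∀ t : ℤ, M ∣ t → t ≠ 0 →
      ∃ W' : WeierstrassCurve ℤ, W'.a₁ = W.a₁ ∧ W'.a₂ = W.a₂ ∧ W'.a₃ = W.a₃ ∧
        W'.c₄ = C4.eval t ∧ W'.c₆ = C6.eval t ∧ W'.Δ = W.Δ * (G.eval t) ^ 5 ∧
        W'.Δ ≠ 0 ∧ W'.IsSemistableModel := by
  obtain ⟨d, U, V, hd, hUV⟩ := exists_int_bezout hcop
  refine ⟨1728 * W.Δ * d, mul_ne_zero (mul_ne_zero (by norm_num) hΔ) hd, ?_⟩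
  refine semistable_model_of_bezout W hΔ hss C4 C6 G h4 h6 hG (fun t => ?_) hUV
  have h2 := congrArg (Polynomial.eval t) hrel
  simp only [eval_sub, eval_pow, eval_mul, eval_C] at h2
  exact h2

/-- **Brick (F)**, with the syzygy written with `c₄³ − c₆²` instead of `1728 Δ`. -/
theorem exists_semistable_model' (W : WeierstrassCurve ℤ) (hΔ : W.Δ ≠ 0)
    (hss : W.IsSemistableModel) (C4 C6 G : ℤ[X])
    (h4 : C4.eval 0 = W.c₄) (h6 : C6.eval 0 = W.c₆) (hG : G.eval 0 = 1)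
    (hrel : C4 ^ 3 - C6 ^ 2 = C (W.c₄ ^ 3 - W.c₆ ^ 2) * G ^ 5)
    (hcop : IsCoprime (C4.map (Int.castRingHom ℚ)) (G.map (Int.castRingHom ℚ))) :
    ∃ M : ℤ, M ≠ 0 ∧ ∀ t : ℤ, M ∣ t → t ≠ 0 →
      ∃ W' : WeierstrassCurve ℤ, W'.a₁ = W.a₁ ∧ W'.a₂ = W.a₂ ∧ W'.a₃ = W.a₃ ∧
        W'.c₄ = C4.eval t ∧ W'.c₆ = C6.eval t ∧ W'.Δ = W.Δ * (G.eval t) ^ 5 ∧
        W'.Δ ≠ 0 ∧ W'.IsSemistableModel := by
  refine exists_semistable_model W hΔ hss C4 C6 G h4 h6 hG ?_ hcop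
  rw [hrel, W.c_relation]

end Fermat.Agent.S52.SemistableModel6
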