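/-
S52 brick G, final form (helper4): **a semistable member of the family with irreducible mod `3` representation.**

Inputs: the family data `C4 C6 G : ℤ[X]` of brick FAM (`C4(0) = c₄`, `C6(0) = c₆`, `G(0) = 1`, syzygy, coprimality
of `C4`, `G` over `ℚ`), and the output of brick CERT-4: a root `θ ∈ ℚ̄` of `C6` fixed by some `g ∈ G_ℚ` with
`g √3 = -√3`.  Output: `t ≠ 0` and an integral model `W'` with `c₄ = C4(t)`, `c₆ = C6(t)`, `Δ = Δ(W) G(t)⁵ ≠ 0`,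
semistable, and `W'.ModRepIsIrreducible 3`.

Combines `SemistableModel6` (brick F), `GAssembly4` (choice of `t`), `Cert3Cheb1` (Chebotarev certificate),
`Psi3Cert4` (the prime certificate).
-/
import Fermat.Agent.S52.GAssembly4
import Fermat.Agent.S52.Cert3Cheb1
import Fermat.Agent.S52.SemistableModel6

set_option autoImplicit false

open Polynomial

namespace Fermat.Agent.S52.GFinal4

local notation "Qb" => AlgebraicClosure ℚ
local notation "GQ" => (AlgebraicClosure ℚ ≃ₐ[ℚ] AlgebraicClosure ℚ)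

/-- brick CERT-3 in the form used by `GAssembly4`. -/
theorem chebCert : GAssembly4.ChebCert :=
  fun θ g hθ s hs hg T => Cert3Cheb1.exists_prime_cert θ g hθ s hs hg T

/-- **brick G**. -/
theorem exists_irreducible_member (W : WeierstrassCurve ℤ) (hΔ : W.Δ ≠ 0)
    (hss : W.IsSemistableModel) (C4 C6 G : ℤ[X])
    (h4 : C4.eval 0 = W.c₄) (h6 : C6.eval 0 = W.c₆) (hG : G.eval 0 = 1)
    (hrel : C4 ^ 3 - C6 ^ 2 = C (W.c₄ ^ 3 - W.c₆ ^ 2) * G ^ 5)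
    (hcop : IsCoprime (C4.map (Int.castRingHom ℚ)) (G.map (Int.castRingHom ℚ)))
    (θ : Qb) (hθ : aeval θ C6 = 0) (g : GQ) (hgθ : g θ = θ) (s : Qb) (hs : s ^ 2 = 3)
    (hgs : g s = -s) :
    ∃ (t : ℤ) (W' : WeierstrassCurve ℤ), t ≠ 0 ∧ W'.a₁ = W.a₁ ∧ W'.a₂ = W.a₂ ∧ W'.a₃ = W.a₃ ∧
      W'.c₄ = C4.eval t ∧ W'.c₆ = C6.eval t ∧ W'.Δ = W.Δ * (G.eval t) ^ 5 ∧
      W'.Δ ≠ 0 ∧ W'.IsSemistableModel ∧ W'.ModRepIsIrreducible 3 := by
  obtain ⟨M, hM, hF⟩ :=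
    SemistableModel6.exists_semistable_model' W hΔ hss C4 C6 G h4 h6 hG hrel hcop
  have hk : W.c₄ ^ 3 - W.c₆ ^ 2 ≠ 0 := by
    rw [← W.c_relation]
    exact mul_ne_zero (by norm_num) hΔ
  have hcop46 := GAssembly4.isCoprime_C4_C6 C4 C6 G _ hk hrel hcop
  obtain ⟨t, hMt, ht, hirr⟩ := GAssembly4.exists_param_irreducible_ne_zero chebCert C4 C6 hcop46
    θ hθ g hgθ s hs hgs M.natAbs (Int.natAbs_ne_zero.mpr hM)
  have hMt' : M ∣ t := Int.natAbs_dvd.mp hMt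
  obtain ⟨W', h1, h2, h3, hc4, hc6, hΔ', hΔ0, hss'⟩ := hF t hMt' ht
  exact ⟨t, W', ht, h1, h2, h3, hc4, hc6, hΔ', hΔ0, hss', hirr W' hΔ0 hc4 hc6⟩

end Fermat.Agent.S52.GFinal4
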