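/-
S52 brick CERT-4b (helper4): **the axis-infinity 5-torsion sections in the coordinates `(a, b) = (u⁵, v⁵)` and the
recovery of `(a, b)` from the point.**

Curve `E : y² = x³ + 27 kH5(a,b) x + 54 kT5(a,b)` (`Klein7` conventions), `ζ` a root of `Φ₅`.  Sections
`P₁ = (xi1, eta1)`, `P₂ = (xi2, eta2)` with

  `xi1 = -15 (a² + b²) + (18/5) s5 q`,  `xi2 = -15 (a² + b²) - (18/5) s5 q`,   `s5 = 1 + 2 (ζ² + ζ³)`, `s5² = 5`,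
  `eta1 = (l a + m b) q`,  `eta2 = (-m a + l b) q`,   `q = kq5 a b`,  `l² + m² = -11664`.

Identities (all checked by `linear_combination` against `Φ₅(ζ) = 0`): both on the curve, `2 P₁ = P₂`, `2 P₂ = -P₁`
(in cleared-denominator form).  Consequence `recover`: `(xi1, eta1, kH5)(a, b)` determines `(a, b)` when
`kq5 a b ≠ 0`; hence a ring endomorphism fixing `ζ`, `xi1`, `eta1`, `kH5` fixes `a` and `b`.
These are helper9's sections `P_(1,0)`, `P_(2,0)` (doc `s52_sections_helper9`) in closed form.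
-/
import Fermat.Agent.S52.Klein7

set_option autoImplicit false
set_option linter.unusedSimpArgs false
set_option linter.unusedSectionVars false

namespace Fermat.Agent.S52.AxisRecover4

open Fermat.Agent.S52.Klein7

variable {K : Type*} [Field K]

/-- `√5` in terms of `ζ`. -/
def s5 (ζ : K) : K := 1 + 2 * (ζ ^ 2 + ζ ^ 3)

/-- the coefficient `l`. -/
def cl (ζ : K) : K := 108 * (2 + 4 * ζ + 3 * ζ ^ 2 + ζ ^ 3) / 5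

/-- the coefficient `m`. -/
def cm (ζ : K) : K := 108 * (1 + 2 * ζ - ζ ^ 2 + 3 * ζ ^ 3) / 5

/-- `x(P₁)`. -/
def xi1 (ζ a b : K) : K := -15 * (a ^ 2 + b ^ 2) + 18 / 5 * s5 ζ * kq5 a b

/-- `x(P₂)`. -/
def xi2 (ζ a b : K) : K := -15 * (a ^ 2 + b ^ 2) - 18 / 5 * s5 ζ * kq5 a b

/-- `y(P₁)`. -/
def eta1 (ζ a b : K) : K := (cl ζ * a + cm ζ * b) * kq5 a b

/-- `y(P₂)`. -/
def eta2 (ζ a b : K) : K := (-(cm ζ) * a + cl ζ * b) * kq5 a b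

section Identities

variable [CharZero K] {ζ : K} (hζ : ζ ^ 4 + ζ ^ 3 + ζ ^ 2 + ζ + 1 = 0)

include hζ

theorem s5_sq : s5 ζ ^ 2 = 5 := by
  simp only [s5]
  linear_combination
    (4 * ζ ^ 2 + 4 * ζ - 4) * hζ

theorem cl_sq_add_cm_sq : cl ζ ^ 2 + cm ζ ^ 2 = -11664 := by
  simp only [cl, cm]
  linear_combination
    ((23328 / 5) * ζ ^ 2 - (23328 / 5) * ζ + (69984 / 5)) * hζ

theorem cl_mul_inv : cl ζ * (-3 - 6 * ζ + ζ ^ 2 - 7 * ζ ^ 3) = 108 := by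
  simp only [cl]
  linear_combination
    (-(756 / 5) * ζ ^ 2 - (1404 / 5) * ζ - (1188 / 5)) * hζ

theorem cl_sq_mul_kq5 (a b : K) :
    cl ζ ^ 2 * kq5 a b = (cl ζ * a + cm ζ * b) * (cl ζ * a + (11 * cl ζ - cm ζ) * b) := by
  simp only [cl, cm, kq5]
  linear_combination
    (-11664 * b ^ 2 * ζ ^ 2 - 34992 * b ^ 2 * ζ - 11664 * b ^ 2) * hζ

theorem on_curve1 (a b : K) :
    eta1 ζ a b ^ 2 = xi1 ζ a b ^ 3 + 27 * kH5 a b * xi1 ζ a b + 54 * kT5 a b := by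
  simp only [xi1, xi2, eta1, eta2, s5, cl, cm, kq5, kH5, kT5]
  linear_combination
    (-(46656 / 125) * a ^ 6 * ζ ^ 5 - (93312 / 125) * a ^ 6 * ζ ^ 4 + (373248 / 125) * a ^ 6 * ζ ^ 2
      + (559872 / 125) * a ^ 6 * ζ + (373248 / 125) * a ^ 6 - (1539648 / 125) * a ^ 5 * b * ζ ^ 5 - (3079296 / 125) * a ^ 5 * b * ζ ^ 4
      + (8817984 / 125) * a ^ 5 * b * ζ ^ 2 + (12643776 / 125) * a ^ 5 * b * ζ + (8817984 / 125) * a ^ 5 * b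
      - (3359232 / 25) * a ^ 4 * b ^ 2 * ζ ^ 5 - (6718464 / 25) * a ^ 4 * b ^ 2 * ζ ^ 4 + (11710656 / 25) * a ^ 4 * b ^ 2 * ζ ^ 2
      + (14649984 / 25) * a ^ 4 * b ^ 2 * ζ + (11710656 / 25) * a ^ 4 * b ^ 2 - (11803968 / 25) * a ^ 3 * b ^ 3 * ζ ^ 5
      - (23607936 / 25) * a ^ 3 * b ^ 3 * ζ ^ 4 + (16282944 / 25) * a ^ 3 * b ^ 3 * ζ ^ 2 + (2846016 / 25) * a ^ 3 * b ^ 3 * ζ
      + (16282944 / 25) * a ^ 3 * b ^ 3 + (3359232 / 25) * a ^ 2 * b ^ 4 * ζ ^ 5 + (6718464 / 25) * a ^ 2 * b ^ 4 * ζ ^ 4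
      + (16282944 / 25) * a ^ 2 * b ^ 4 * ζ ^ 2 - (14649984 / 25) * a ^ 2 * b ^ 4 * ζ + (16282944 / 25) * a ^ 2 * b ^ 4
      - (1539648 / 125) * a * b ^ 5 * ζ ^ 5 - (3079296 / 125) * a * b ^ 5 * ζ ^ 4 - (16842816 / 125) * a * b ^ 5 * ζ ^ 2
      + (12643776 / 125) * a * b ^ 5 * ζ - (16842816 / 125) * a * b ^ 5 + (46656 / 125) * b ^ 6 * ζ ^ 5
      + (93312 / 125) * b ^ 6 * ζ ^ 4 + (793152 / 125) * b ^ 6 * ζ ^ 2 - (559872 / 125) * b ^ 6 * ζ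
      + (793152 / 125) * b ^ 6) * hζ

theorem on_curve2 (a b : K) :
    eta2 ζ a b ^ 2 = xi2 ζ a b ^ 3 + 27 * kH5 a b * xi2 ζ a b + 54 * kT5 a b := by
  simp only [xi1, xi2, eta1, eta2, s5, cl, cm, kq5, kH5, kT5]
  linear_combination
    ((46656 / 125) * a ^ 6 * ζ ^ 5 + (93312 / 125) * a ^ 6 * ζ ^ 4 + (793152 / 125) * a ^ 6 * ζ ^ 2
      - (559872 / 125) * a ^ 6 * ζ + (793152 / 125) * a ^ 6 + (1539648 / 125) * a ^ 5 * b * ζ ^ 5 + (3079296 / 125) * a ^ 5 * b * ζ ^ 4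
      + (16842816 / 125) * a ^ 5 * b * ζ ^ 2 - (12643776 / 125) * a ^ 5 * b * ζ + (16842816 / 125) * a ^ 5 * b
      + (3359232 / 25) * a ^ 4 * b ^ 2 * ζ ^ 5 + (6718464 / 25) * a ^ 4 * b ^ 2 * ζ ^ 4 + (16282944 / 25) * a ^ 4 * b ^ 2 * ζ ^ 2
      - (14649984 / 25) * a ^ 4 * b ^ 2 * ζ + (16282944 / 25) * a ^ 4 * b ^ 2 + (11803968 / 25) * a ^ 3 * b ^ 3 * ζ ^ 5
      + (23607936 / 25) * a ^ 3 * b ^ 3 * ζ ^ 4 - (16282944 / 25) * a ^ 3 * b ^ 3 * ζ ^ 2 - (2846016 / 25) * a ^ 3 * b ^ 3 * ζ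
      - (16282944 / 25) * a ^ 3 * b ^ 3 - (3359232 / 25) * a ^ 2 * b ^ 4 * ζ ^ 5 - (6718464 / 25) * a ^ 2 * b ^ 4 * ζ ^ 4
      + (11710656 / 25) * a ^ 2 * b ^ 4 * ζ ^ 2 + (14649984 / 25) * a ^ 2 * b ^ 4 * ζ + (11710656 / 25) * a ^ 2 * b ^ 4
      + (1539648 / 125) * a * b ^ 5 * ζ ^ 5 + (3079296 / 125) * a * b ^ 5 * ζ ^ 4 - (8817984 / 125) * a * b ^ 5 * ζ ^ 2
      - (12643776 / 125) * a * b ^ 5 * ζ - (8817984 / 125) * a * b ^ 5 - (46656 / 125) * b ^ 6 * ζ ^ 5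
      - (93312 / 125) * b ^ 6 * ζ ^ 4 + (373248 / 125) * b ^ 6 * ζ ^ 2 + (559872 / 125) * b ^ 6 * ζ
      + (373248 / 125) * b ^ 6) * hζ

theorem dup_x (a b : K) :
    (3 * xi1 ζ a b ^ 2 + 27 * kH5 a b) ^ 2 = 4 * eta1 ζ a b ^ 2 * (xi2 ζ a b + 2 * xi1 ζ a b) := by
  simp only [xi1, xi2, eta1, eta2, s5, cl, cm, kq5, kH5, kT5]
  linear_combination
    ((15116544 / 625) * a ^ 8 * ζ ^ 8 + (45349632 / 625) * a ^ 8 * ζ ^ 7 + (30233088 / 625) * a ^ 8 * ζ ^ 6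
      - (26873856 / 125) * a ^ 8 * ζ ^ 5 - (287214336 / 625) * a ^ 8 * ζ ^ 4 - (26873856 / 125) * a ^ 8 * ζ ^ 3
      + (322486272 / 625) * a ^ 8 * ζ ^ 2 + (497166336 / 625) * a ^ 8 * ζ + (275457024 / 625) * a ^ 8
      + (665127936 / 625) * a ^ 7 * b * ζ ^ 8 + (1995383808 / 625) * a ^ 7 * b * ζ ^ 7 + (1330255872 / 625) * a ^ 7 * b * ζ ^ 6
      - (896914944 / 125) * a ^ 7 * b * ζ ^ 5 - (9446160384 / 625) * a ^ 7 * b * ζ ^ 4 - (913711104 / 125) * a ^ 7 * b * ζ ^ 3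
      + (7344960768 / 625) * a ^ 7 * b * ζ ^ 2 + (11209757184 / 625) * a ^ 7 * b * ζ + (5821549056 / 625) * a ^ 7 * b
      + (10914144768 / 625) * a ^ 6 * b ^ 2 * ζ ^ 8 + (32742434304 / 625) * a ^ 6 * b ^ 2 * ζ ^ 7 + (21828289536 / 625) * a ^ 6 * b ^ 2 * ζ ^ 6
      - (10047462912 / 125) * a ^ 6 * b ^ 2 * ζ ^ 5 - (102560712192 / 625) * a ^ 6 * b ^ 2 * ζ ^ 4
      - (10568143872 / 125) * a ^ 6 * b ^ 2 * ζ ^ 3 + (43122461184 / 625) * a ^ 6 * b ^ 2 * ζ ^ 2 + (65693140992 / 625) * a ^ 6 * b ^ 2 * ζ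
      + (27349187328 / 625) * a ^ 6 * b ^ 2 + (78485096448 / 625) * a ^ 5 * b ^ 3 * ζ ^ 8 + (235455289344 / 625) * a ^ 5 * b ^ 3 * ζ ^ 7
      + (156970192896 / 625) * a ^ 5 * b ^ 3 * ζ ^ 6 - (38953654272 / 125) * a ^ 5 * b ^ 3 * ζ ^ 5
      - (358987686912 / 625) * a ^ 5 * b ^ 3 * ζ ^ 4 - (43891725312 / 125) * a ^ 5 * b ^ 3 * ζ ^ 3
      + (4516487424 / 625) * a ^ 5 * b ^ 3 * ζ ^ 2 + (33268154112 / 625) * a ^ 5 * b ^ 3 * ζ - (37601563392 / 625) * a ^ 5 * b ^ 3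
      + (39892559616 / 125) * a ^ 4 * b ^ 4 * ζ ^ 8 + (119677678848 / 125) * a ^ 4 * b ^ 4 * ζ ^ 7
      + (79785119232 / 125) * a ^ 4 * b ^ 4 * ζ ^ 6 - (3517115904 / 25) * a ^ 4 * b ^ 4 * ζ ^ 5 + (13153072896 / 125) * a ^ 4 * b ^ 4 * ζ ^ 4
      - (5347897344 / 25) * a ^ 4 * b ^ 4 * ζ ^ 3 - (25382356992 / 125) * a ^ 4 * b ^ 4 * ζ ^ 2 + (11117378304 / 125) * a ^ 4 * b ^ 4 * ζ
      + (707118336 / 125) * a ^ 4 * b ^ 4 - (78485096448 / 625) * a ^ 3 * b ^ 5 * ζ ^ 8 - (235455289344 / 625) * a ^ 3 * b ^ 5 * ζ ^ 7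
      - (156970192896 / 625) * a ^ 3 * b ^ 5 * ζ ^ 6 - (48252008448 / 125) * a ^ 3 * b ^ 5 * ζ ^ 5
      - (295054783488 / 625) * a ^ 3 * b ^ 5 * ζ ^ 4 + (288893952 / 125) * a ^ 3 * b ^ 5 * ζ ^ 3 - (137710036224 / 625) * a ^ 3 * b ^ 5 * ζ ^ 2
      - (39398752512 / 625) * a ^ 3 * b ^ 5 * ζ + (122422171392 / 625) * a ^ 3 * b ^ 5 + (10914144768 / 625) * a ^ 2 * b ^ 6 * ζ ^ 8
      + (32742434304 / 625) * a ^ 2 * b ^ 6 * ζ ^ 7 + (21828289536 / 625) * a ^ 2 * b ^ 6 * ζ ^ 6 + (14206192128 / 125) * a ^ 2 * b ^ 6 * ζ ^ 5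
      + (79341700608 / 625) * a ^ 2 * b ^ 6 * ζ ^ 4 + (1558683648 / 125) * a ^ 2 * b ^ 6 * ζ ^ 3 + (139868342784 / 625) * a ^ 2 * b ^ 6 * ζ ^ 2
      - (52005950208 / 625) * a ^ 2 * b ^ 6 * ζ + (63460931328 / 625) * a ^ 2 * b ^ 6 - (665127936 / 625) * a * b ^ 7 * ζ ^ 8
      - (1995383808 / 625) * a * b ^ 7 * ζ ^ 7 - (1330255872 / 625) * a * b ^ 7 * ζ ^ 6 - (1320178176 / 125) * a * b ^ 7 * ζ ^ 5
      - (7182038016 / 625) * a * b ^ 7 * ζ ^ 4 - (194835456 / 125) * a * b ^ 7 * ζ ^ 3 - (21495725568 / 625) * a * b ^ 7 * ζ ^ 2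
      + (10163356416 / 625) * a * b ^ 7 * ζ - (14429581056 / 625) * a * b ^ 7 + (15116544 / 625) * b ^ 8 * ζ ^ 8
      + (45349632 / 625) * b ^ 8 * ζ ^ 7 + (30233088 / 625) * b ^ 8 * ζ ^ 6 + (40310784 / 125) * b ^ 8 * ζ ^ 5
      + (216670464 / 625) * b ^ 8 * ζ ^ 4 + (6718464 / 125) * b ^ 8 * ζ ^ 3 + (910351872 / 625) * b ^ 8 * ζ ^ 2
      - (468612864 / 625) * b ^ 8 * ζ + (695361024 / 625) * b ^ 8) * hζ

theorem dup_y (a b : K) :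
    2 * eta1 ζ a b * eta2 ζ a b = -2 * eta1 ζ a b ^ 2 -
      (3 * xi1 ζ a b ^ 2 + 27 * kH5 a b) * (xi2 ζ a b - xi1 ζ a b) := by
  simp only [xi1, xi2, eta1, eta2, s5, cl, cm, kq5, kH5, kT5]
  linear_combination
    (-(279936 / 125) * a ^ 6 * ζ ^ 5 - (559872 / 125) * a ^ 6 * ζ ^ 4 + (1073088 / 125) * a ^ 6 * ζ ^ 2
      + (1026432 / 125) * a ^ 6 * ζ - (93312 / 125) * a ^ 6 - (9237888 / 125) * a ^ 5 * b * ζ ^ 5 - (18475776 / 125) * a ^ 5 * b * ζ ^ 4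
      + (24914304 / 125) * a ^ 5 * b * ζ ^ 2 + (24541056 / 125) * a ^ 5 * b * ζ - (746496 / 125) * a ^ 5 * b
      - (20155392 / 25) * a ^ 4 * b ^ 2 * ζ ^ 5 - (40310784 / 25) * a ^ 4 * b ^ 2 * ζ ^ 4 + (31772736 / 25) * a ^ 4 * b ^ 2 * ζ ^ 2
      + (33079104 / 25) * a ^ 4 * b ^ 2 * ζ + (3779136 / 25) * a ^ 4 * b ^ 2 - (70823808 / 25) * a ^ 3 * b ^ 3 * ζ ^ 5
      - (141647616 / 25) * a ^ 3 * b ^ 3 * ζ ^ 4 + (37044864 / 25) * a ^ 3 * b ^ 3 * ζ ^ 2 + (42736896 / 25) * a ^ 3 * b ^ 3 * ζ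
      + (37044864 / 25) * a ^ 3 * b ^ 3 + (20155392 / 25) * a ^ 2 * b ^ 4 * ζ ^ 5 + (40310784 / 25) * a ^ 2 * b ^ 4 * ζ ^ 4
      + (52208064 / 25) * a ^ 2 * b ^ 4 * ζ ^ 2 - (5085504 / 25) * a ^ 2 * b ^ 4 * ζ + (24214464 / 25) * a ^ 2 * b ^ 4
      - (9237888 / 125) * a * b ^ 5 * ζ ^ 5 - (18475776 / 125) * a * b ^ 5 * ζ ^ 4 - (52068096 / 125) * a * b ^ 5 * ζ ^ 2
      - (1119744 / 125) * a * b ^ 5 * ζ - (26407296 / 125) * a * b ^ 5 + (279936 / 125) * b ^ 6 * ζ ^ 5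
      + (559872 / 125) * b ^ 6 * ζ ^ 4 + (2426112 / 125) * b ^ 6 * ζ ^ 2 + (139968 / 125) * b ^ 6 * ζ
      + (1259712 / 125) * b ^ 6) * hζ

theorem dup2_x (a b : K) :
    (3 * xi2 ζ a b ^ 2 + 27 * kH5 a b) ^ 2 = 4 * eta2 ζ a b ^ 2 * (xi1 ζ a b + 2 * xi2 ζ a b) := by
  simp only [xi1, xi2, eta1, eta2, s5, cl, cm, kq5, kH5, kT5]
  linear_combination
    ((15116544 / 625) * a ^ 8 * ζ ^ 8 + (45349632 / 625) * a ^ 8 * ζ ^ 7 + (30233088 / 625) * a ^ 8 * ζ ^ 6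
      + (40310784 / 125) * a ^ 8 * ζ ^ 5 + (216670464 / 625) * a ^ 8 * ζ ^ 4 + (6718464 / 125) * a ^ 8 * ζ ^ 3
      + (910351872 / 625) * a ^ 8 * ζ ^ 2 - (468612864 / 625) * a ^ 8 * ζ + (695361024 / 625) * a ^ 8
      + (665127936 / 625) * a ^ 7 * b * ζ ^ 8 + (1995383808 / 625) * a ^ 7 * b * ζ ^ 7 + (1330255872 / 625) * a ^ 7 * b * ζ ^ 6
      + (1320178176 / 125) * a ^ 7 * b * ζ ^ 5 + (7182038016 / 625) * a ^ 7 * b * ζ ^ 4 + (194835456 / 125) * a ^ 7 * b * ζ ^ 3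
      + (21495725568 / 625) * a ^ 7 * b * ζ ^ 2 - (10163356416 / 625) * a ^ 7 * b * ζ + (14429581056 / 625) * a ^ 7 * b
      + (10914144768 / 625) * a ^ 6 * b ^ 2 * ζ ^ 8 + (32742434304 / 625) * a ^ 6 * b ^ 2 * ζ ^ 7 + (21828289536 / 625) * a ^ 6 * b ^ 2 * ζ ^ 6
      + (14206192128 / 125) * a ^ 6 * b ^ 2 * ζ ^ 5 + (79341700608 / 625) * a ^ 6 * b ^ 2 * ζ ^ 4 + (1558683648 / 125) * a ^ 6 * b ^ 2 * ζ ^ 3
      + (139868342784 / 625) * a ^ 6 * b ^ 2 * ζ ^ 2 - (52005950208 / 625) * a ^ 6 * b ^ 2 * ζ + (63460931328 / 625) * a ^ 6 * b ^ 2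
      + (78485096448 / 625) * a ^ 5 * b ^ 3 * ζ ^ 8 + (235455289344 / 625) * a ^ 5 * b ^ 3 * ζ ^ 7
      + (156970192896 / 625) * a ^ 5 * b ^ 3 * ζ ^ 6 + (48252008448 / 125) * a ^ 5 * b ^ 3 * ζ ^ 5
      + (295054783488 / 625) * a ^ 5 * b ^ 3 * ζ ^ 4 - (288893952 / 125) * a ^ 5 * b ^ 3 * ζ ^ 3 + (137710036224 / 625) * a ^ 5 * b ^ 3 * ζ ^ 2
      + (39398752512 / 625) * a ^ 5 * b ^ 3 * ζ - (122422171392 / 625) * a ^ 5 * b ^ 3 + (39892559616 / 125) * a ^ 4 * b ^ 4 * ζ ^ 8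
      + (119677678848 / 125) * a ^ 4 * b ^ 4 * ζ ^ 7 + (79785119232 / 125) * a ^ 4 * b ^ 4 * ζ ^ 6
      - (3517115904 / 25) * a ^ 4 * b ^ 4 * ζ ^ 5 + (13153072896 / 125) * a ^ 4 * b ^ 4 * ζ ^ 4 - (5347897344 / 25) * a ^ 4 * b ^ 4 * ζ ^ 3
      - (25382356992 / 125) * a ^ 4 * b ^ 4 * ζ ^ 2 + (11117378304 / 125) * a ^ 4 * b ^ 4 * ζ + (707118336 / 125) * a ^ 4 * b ^ 4
      - (78485096448 / 625) * a ^ 3 * b ^ 5 * ζ ^ 8 - (235455289344 / 625) * a ^ 3 * b ^ 5 * ζ ^ 7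
      - (156970192896 / 625) * a ^ 3 * b ^ 5 * ζ ^ 6 + (38953654272 / 125) * a ^ 3 * b ^ 5 * ζ ^ 5
      + (358987686912 / 625) * a ^ 3 * b ^ 5 * ζ ^ 4 + (43891725312 / 125) * a ^ 3 * b ^ 5 * ζ ^ 3
      - (4516487424 / 625) * a ^ 3 * b ^ 5 * ζ ^ 2 - (33268154112 / 625) * a ^ 3 * b ^ 5 * ζ + (37601563392 / 625) * a ^ 3 * b ^ 5
      + (10914144768 / 625) * a ^ 2 * b ^ 6 * ζ ^ 8 + (32742434304 / 625) * a ^ 2 * b ^ 6 * ζ ^ 7 + (21828289536 / 625) * a ^ 2 * b ^ 6 * ζ ^ 6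
      - (10047462912 / 125) * a ^ 2 * b ^ 6 * ζ ^ 5 - (102560712192 / 625) * a ^ 2 * b ^ 6 * ζ ^ 4
      - (10568143872 / 125) * a ^ 2 * b ^ 6 * ζ ^ 3 + (43122461184 / 625) * a ^ 2 * b ^ 6 * ζ ^ 2 + (65693140992 / 625) * a ^ 2 * b ^ 6 * ζ
      + (27349187328 / 625) * a ^ 2 * b ^ 6 - (665127936 / 625) * a * b ^ 7 * ζ ^ 8 - (1995383808 / 625) * a * b ^ 7 * ζ ^ 7
      - (1330255872 / 625) * a * b ^ 7 * ζ ^ 6 + (896914944 / 125) * a * b ^ 7 * ζ ^ 5 + (9446160384 / 625) * a * b ^ 7 * ζ ^ 4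
      + (913711104 / 125) * a * b ^ 7 * ζ ^ 3 - (7344960768 / 625) * a * b ^ 7 * ζ ^ 2 - (11209757184 / 625) * a * b ^ 7 * ζ
      - (5821549056 / 625) * a * b ^ 7 + (15116544 / 625) * b ^ 8 * ζ ^ 8 + (45349632 / 625) * b ^ 8 * ζ ^ 7
      + (30233088 / 625) * b ^ 8 * ζ ^ 6 - (26873856 / 125) * b ^ 8 * ζ ^ 5 - (287214336 / 625) * b ^ 8 * ζ ^ 4
      - (26873856 / 125) * b ^ 8 * ζ ^ 3 + (322486272 / 625) * b ^ 8 * ζ ^ 2 + (497166336 / 625) * b ^ 8 * ζ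
      + (275457024 / 625) * b ^ 8) * hζ

theorem dup2_y (a b : K) :
    2 * eta2 ζ a b * (-eta1 ζ a b) = -2 * eta2 ζ a b ^ 2 -
      (3 * xi2 ζ a b ^ 2 + 27 * kH5 a b) * (xi1 ζ a b - xi2 ζ a b) := by
  simp only [xi1, xi2, eta1, eta2, s5, cl, cm, kq5, kH5, kT5]
  linear_combination
    ((279936 / 125) * a ^ 6 * ζ ^ 5 + (559872 / 125) * a ^ 6 * ζ ^ 4 + (2426112 / 125) * a ^ 6 * ζ ^ 2
      + (139968 / 125) * a ^ 6 * ζ + (1259712 / 125) * a ^ 6 + (9237888 / 125) * a ^ 5 * b * ζ ^ 5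
      + (18475776 / 125) * a ^ 5 * b * ζ ^ 4 + (52068096 / 125) * a ^ 5 * b * ζ ^ 2 + (1119744 / 125) * a ^ 5 * b * ζ
      + (26407296 / 125) * a ^ 5 * b + (20155392 / 25) * a ^ 4 * b ^ 2 * ζ ^ 5 + (40310784 / 25) * a ^ 4 * b ^ 2 * ζ ^ 4
      + (52208064 / 25) * a ^ 4 * b ^ 2 * ζ ^ 2 - (5085504 / 25) * a ^ 4 * b ^ 2 * ζ + (24214464 / 25) * a ^ 4 * b ^ 2
      + (70823808 / 25) * a ^ 3 * b ^ 3 * ζ ^ 5 + (141647616 / 25) * a ^ 3 * b ^ 3 * ζ ^ 4 - (37044864 / 25) * a ^ 3 * b ^ 3 * ζ ^ 2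
      - (42736896 / 25) * a ^ 3 * b ^ 3 * ζ - (37044864 / 25) * a ^ 3 * b ^ 3 - (20155392 / 25) * a ^ 2 * b ^ 4 * ζ ^ 5
      - (40310784 / 25) * a ^ 2 * b ^ 4 * ζ ^ 4 + (31772736 / 25) * a ^ 2 * b ^ 4 * ζ ^ 2 + (33079104 / 25) * a ^ 2 * b ^ 4 * ζ
      + (3779136 / 25) * a ^ 2 * b ^ 4 + (9237888 / 125) * a * b ^ 5 * ζ ^ 5 + (18475776 / 125) * a * b ^ 5 * ζ ^ 4
      - (24914304 / 125) * a * b ^ 5 * ζ ^ 2 - (24541056 / 125) * a * b ^ 5 * ζ + (746496 / 125) * a * b ^ 5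
      - (279936 / 125) * b ^ 6 * ζ ^ 5 - (559872 / 125) * b ^ 6 * ζ ^ 4 + (1073088 / 125) * b ^ 6 * ζ ^ 2
      + (1026432 / 125) * b ^ 6 * ζ - (93312 / 125) * b ^ 6) * hζ

theorem s5_ne_zero : s5 ζ ≠ 0 := by
  intro h
  have := s5_sq hζ
  rw [h] at this
  norm_num at this

theorem cl_ne_zero : cl ζ ≠ 0 := by
  intro h
  have := cl_mul_inv hζ
  rw [h, zero_mul] at this
  norm_num at this

/-- `eta1 ≠ 0` off the cusps. -/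
theorem eta1_ne_zero {a b : K} (hq : kq5 a b ≠ 0) : eta1 ζ a b ≠ 0 := by
  have h1 := cl_sq_mul_kq5 hζ a b
  have h2 : cl ζ ^ 2 * kq5 a b ≠ 0 := mul_ne_zero (pow_ne_zero 2 (cl_ne_zero hζ)) hq
  rw [h1] at h2
  exact mul_ne_zero (left_ne_zero_of_mul h2) hq

omit hζ in
theorem xi1_sub_xi2 (a b : K) : xi1 ζ a b - xi2 ζ a b = 36 / 5 * s5 ζ * kq5 a b := by
  simp only [xi1, xi2]
  ring

omit hζ in
theorem recover_a (a b : K) :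
    cl ζ * eta1 ζ a b - cm ζ * eta2 ζ a b = (cl ζ ^ 2 + cm ζ ^ 2) * (a * kq5 a b) := by
  simp only [eta1, eta2]
  ring

omit hζ in
theorem recover_b (a b : K) :
    cm ζ * eta1 ζ a b + cl ζ * eta2 ζ a b = (cl ζ ^ 2 + cm ζ ^ 2) * (b * kq5 a b) := by
  simp only [eta1, eta2]
  ring

/-- **recovery**: `(xi1, eta1, kH5)` determine `(a, b)` when `kq5 a b ≠ 0`. -/
theorem recover {a b a' b' : K} (hq : kq5 a b ≠ 0) (h1 : xi1 ζ a' b' = xi1 ζ a b)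
    (h2 : eta1 ζ a' b' = eta1 ζ a b) (h3 : kH5 a' b' = kH5 a b) : a' = a ∧ b' = b := by
  have hY : eta1 ζ a b ≠ 0 := eta1_ne_zero hζ hq
  have hY2 : 4 * eta1 ζ a b ^ 2 ≠ 0 := mul_ne_zero (by norm_num) (pow_ne_zero 2 hY)
  -- `xi2` agrees
  have hx2 : xi2 ζ a' b' = xi2 ζ a b := by
    have e1 := dup_x hζ a b
    have e2 := dup_x hζ a' b'
    rw [h1, h2, h3] at e2
    have : 4 * eta1 ζ a b ^ 2 * (xi2 ζ a' b' + 2 * xi1 ζ a b) =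
        4 * eta1 ζ a b ^ 2 * (xi2 ζ a b + 2 * xi1 ζ a b) := by rw [← e1, ← e2]
    have := mul_left_cancel₀ hY2 this
    linear_combination this
  -- `eta2` agrees
  have hy2 : eta2 ζ a' b' = eta2 ζ a b := by
    have e1 := dup_y hζ a b
    have e2 := dup_y hζ a' b'
    rw [h1, h2, h3, hx2] at e2
    have : 2 * eta1 ζ a b * eta2 ζ a' b' = 2 * eta1 ζ a b * eta2 ζ a b := by rw [e1, e2]
    exact mul_left_cancel₀ (mul_ne_zero (by norm_num) hY) this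
  -- `q` agrees
  have hqq : kq5 a' b' = kq5 a b := by
    have e1 := xi1_sub_xi2 (ζ := ζ) a b
    have e2 := xi1_sub_xi2 (ζ := ζ) a' b'
    rw [h1, hx2, e1] at e2
    exact (mul_left_cancel₀ (mul_ne_zero (by norm_num) (s5_ne_zero hζ)) e2).symm
  have hlm : cl ζ ^ 2 + cm ζ ^ 2 ≠ 0 := by
    rw [cl_sq_add_cm_sq hζ]
    norm_num
  constructor
  · have e1 := recover_a (ζ := ζ) a b
    have e2 := recover_a (ζ := ζ) a' b'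
    rw [h2, hy2, e1, hqq] at e2
    have := mul_left_cancel₀ hlm e2
    exact (mul_right_cancel₀ hq this).symm
  · have e1 := recover_b (ζ := ζ) a b
    have e2 := recover_b (ζ := ζ) a' b'
    rw [h2, hy2, e1, hqq] at e2
    have := mul_left_cancel₀ hlm e2
    exact (mul_right_cancel₀ hq this).symm

/-- a ring endomorphism fixing `ζ` and the values `xi1`, `eta1`, `kH5` at `(a, b)` fixes `a` and `b`. -/
theorem fixes_of_fixes_point (τ : K →+* K) (hτζ : τ ζ = ζ) {a b : K} (hq : kq5 a b ≠ 0)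
    (h1 : τ (xi1 ζ a b) = xi1 ζ a b) (h2 : τ (eta1 ζ a b) = eta1 ζ a b)
    (h3 : τ (kH5 a b) = kH5 a b) : τ a = a ∧ τ b = b := by
  apply recover hζ hq
  · rw [← h1]
    simp only [xi1, s5, kq5, map_add, map_sub, map_mul, map_pow, map_neg, map_div₀, map_ofNat,
      map_one, hτζ]
  · rw [← h2]
    simp only [eta1, cl, cm, kq5, map_add, map_sub, map_mul, map_pow, map_neg, map_div₀,
      map_ofNat, map_one, hτζ]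
  · rw [← h3]
    simp only [kH5, map_add, map_sub, map_mul, map_pow, map_neg, map_ofNat]

end Identities

end Fermat.Agent.S52.AxisRecover4
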