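/-
S52 brick CERT-4a (helper4): **a root of `C6` fixed by `τ⁵`.**

`K` algebraically closed of characteristic `0`, `τ` a ring endomorphism fixing a primitive fifth root of unity `ζ`,
an element `ι` (in the application `ι² = -1`) and the fifth-power coordinates `a = u⁵`, `b = v⁵` of a Klein point
with `a b q(a,b) ≠ 0`.  Then there is `θ` with

  `a (1 + θ A)⁵ = ι b (1 - θ B)⁵`   (`A = kA5 a b`, `B = kB5 a b`)

fixed by `τ⁵`: take `m⁵ = ι b / a` with `A + m B ≠ 0` and `θ = (m - 1) / (A + m B)`; `τ m = ω m` with `ω⁵ = 1`,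
`ω` a power of `ζ`, so `τ⁵ m = m`.  For `ι² = -1` the deformed point `(a', b') = (a (1 + θ A)⁵, b (1 - θ B)⁵)`
has `a'² + b'² = 0`, hence `kT5 a' b' = 0`.
-/
import Fermat.Agent.S52.Klein7

set_option autoImplicit false

namespace Fermat.Agent.S52.QuinticRoot4

open Fermat.Agent.S52.Klein7

variable {K : Type*} [Field K]

/-- the algebraic identity behind the choice of `θ`. -/
theorem root_identity {a b A B m ι : K} (hAB : A + m * B ≠ 0) (ha : a ≠ 0)
    (hm : m ^ 5 = ι * b / a) :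
    a * (1 + (m - 1) / (A + m * B) * A) ^ 5 = ι * (b * (1 - (m - 1) / (A + m * B) * B) ^ 5) := by
  have h1 : 1 + (m - 1) / (A + m * B) * A = m * ((A + B) / (A + m * B)) := by
    field_simp
    ring
  have h2 : 1 - (m - 1) / (A + m * B) * B = (A + B) / (A + m * B) := by
    field_simp
    ring
  rw [h1, h2, mul_pow, hm]
  field_simp

/-- `τ⁵` fixes `m` when `τ m = ω m`, `τ ω = ω`, `ω⁵ = 1`. -/
theorem iterate_five_fix (τ : K →+* K) {m ω : K} (hτm : τ m = ω * m) (hτω : τ ω = ω)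
    (hω : ω ^ 5 = 1) : τ (τ (τ (τ (τ m)))) = m := by
  simp only [hτm, map_mul, hτω]
  calc ω * (ω * (ω * (ω * (ω * m)))) = ω ^ 5 * m := by ring
    _ = m := by rw [hω, one_mul]

/-- **CERT-4a**. -/
theorem exists_fixed_root [IsAlgClosed K] [CharZero K] (τ : K →+* K) {ζ : K}
    (hζ : IsPrimitiveRoot ζ 5) (hτζ : τ ζ = ζ) {ι : K} (hι : ι ≠ 0) (hτι : τ ι = ι) {a b : K}
    (ha : a ≠ 0) (hb : b ≠ 0) (hq : kq5 a b ≠ 0) (hτa : τ a = a) (hτb : τ b = b) :
    ∃ θ : K, a * (1 + θ * kA5 a b) ^ 5 = ι * (b * (1 - θ * kB5 a b) ^ 5) ∧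
      τ (τ (τ (τ (τ θ)))) = θ := by
  set A := kA5 a b with hA
  set B := kB5 a b with hB
  have hAB : A + B ≠ 0 := by
    rw [hA, hB, kA5_add_kB5]
    exact mul_ne_zero (by norm_num) hq
  have hτA : τ A = A := by
    simp only [hA, kA5, map_add, map_sub, map_mul, map_pow, map_ofNat, hτa, hτb]
  have hτB : τ B = B := by
    simp only [hB, kB5, map_add, map_sub, map_mul, map_pow, map_ofNat, hτa, hτb]
  have hc : ι * b / a ≠ 0 := div_ne_zero (mul_ne_zero hι hb) ha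
  have hτc : τ (ι * b / a) = ι * b / a := by
    rw [map_div₀, map_mul, hτι, hτa, hτb]
  obtain ⟨m₀, hm₀⟩ := IsAlgClosed.exists_pow_nat_eq (ι * b / a) (by norm_num : 0 < 5)
  have hm₀0 : m₀ ≠ 0 := by
    rintro rfl
    rw [zero_pow (by norm_num)] at hm₀
    exact hc hm₀.symm
  have hζ5 : ζ ^ 5 = 1 := hζ.pow_eq_one
  have hζ1 : ζ ≠ 1 := hζ.ne_one (by norm_num)
  -- choice of `m`
  obtain ⟨m, hm, hmAB⟩ : ∃ m : K, m ^ 5 = ι * b / a ∧ A + m * B ≠ 0 := by
    by_cases h : A + m₀ * B = 0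
    · refine ⟨ζ * m₀, by rw [mul_pow, hζ5, one_mul, hm₀], ?_⟩
      have hB0 : B ≠ 0 := by
        rintro hB0
        rw [hB0, mul_zero, add_zero] at h
        exact hAB (by rw [h, hB0, add_zero])
      have : A + ζ * m₀ * B = (ζ - 1) * m₀ * B := by linear_combination h
      rw [this]
      exact mul_ne_zero (mul_ne_zero (sub_ne_zero.mpr hζ1) hm₀0) hB0
    · exact ⟨m₀, hm₀, h⟩
  have hm0 : m ≠ 0 := by
    rintro rfl
    rw [zero_pow (by norm_num)] at hm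
    exact hc hm.symm
  -- `τ m = ω m`
  set ω := τ m / m with hω
  have hτm : τ m = ω * m := by rw [hω, div_mul_cancel₀ _ hm0]
  have hω5 : ω ^ 5 = 1 := by
    rw [hω, div_pow, ← map_pow, hm, hτc, div_self hc]
  obtain ⟨k, -, hk⟩ := hζ.eq_pow_of_pow_eq_one hω5
  have hτω : τ ω = ω := by rw [← hk, map_pow, hτζ]
  have h5 : τ (τ (τ (τ (τ m)))) = m := iterate_five_fix τ hτm hτω hω5
  refine ⟨(m - 1) / (A + m * B), root_identity hmAB ha hm, ?_⟩
  simp only [map_div₀, map_sub, map_add, map_mul, map_one, hτA, hτB, h5]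

/-- for `ι² = -1` the deformed point lies on `kT5 = 0`. -/
theorem kT5_eq_zero_of_root {a b θ ι : K} (hι : ι ^ 2 = -1)
    (h : a * (1 + θ * kA5 a b) ^ 5 = ι * (b * (1 - θ * kB5 a b) ^ 5)) :
    kT5 (a * (1 + θ * kA5 a b) ^ 5) (b * (1 - θ * kB5 a b) ^ 5) = 0 := by
  rw [kT5_factor, h]
  have : (ι * (b * (1 - θ * kB5 a b) ^ 5)) ^ 2 + (b * (1 - θ * kB5 a b) ^ 5) ^ 2 = 0 := by
    rw [mul_pow, hι]
    ring
  rw [this, zero_mul]

/-- in the coordinates `(u, v)`: `kT` vanishes at the deformed point `z + θ • w(z)`. -/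
theorem kT_deform_eq_zero {u v θ ι : K} (hι : ι ^ 2 = -1)
    (h : u ^ 5 * (1 + θ * kA5 (u ^ 5) (v ^ 5)) ^ 5 =
      ι * (v ^ 5 * (1 - θ * kB5 (u ^ 5) (v ^ 5)) ^ 5)) :
    kT (u + θ * kw1 u v) (v + θ * kw2 u v) = 0 := by
  rw [kT_eq_kT5, deform_fst_pow, deform_snd_pow]
  exact kT5_eq_zero_of_root hι h

end Fermat.Agent.S52.QuinticRoot4
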