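/-
S52 brick CERT-4, algebraic core (helper1).

`K` algebraically closed of characteristic `0`, `τ` a ring endomorphism of `K` fixing a primitive fifth root of
unity `ζ` and a square root `ι` of `-1`.  `xi eta : K → K → K` are the coordinate functions of the universal
axis-`∞` five-torsion section in the fifth-power coordinates `(a, b) = (u⁵, v⁵)` (abstract here: only the
"linear recovery" property `hrec` (brick 4b) and the compatibility with `τ` are used).

If `τ` fixes `kH5 a b`, `xi a b` and `eta a b` (the curve and the torsion point are fixed) and the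
discriminant `kT5² + kH5³` is nonzero, then `τ` fixes `a` and `b` (4b), hence by brick 4a (`QuinticRoot4`) there is
`θ` fixed by `τ⁵` such that `kT5` vanishes at the deformed point `(a (1 + θ A)⁵, b (1 - θ B)⁵)`.
-/
import Fermat.Agent.S52.QuinticRoot4

set_option autoImplicit false

namespace Fermat.Agent.S52.Cert4Core1

open Fermat.Agent.S52.Klein7

variable {K : Type*} [Field K]

/-- nonvanishing of `a`, `b`, `kq5 a b` from the nonvanishing of the discriminant. -/
theorem ne_zero_of_disc {a b : K} (hd : kT5 a b ^ 2 + kH5 a b ^ 3 ≠ 0) :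
    a ≠ 0 ∧ b ≠ 0 ∧ kq5 a b ≠ 0 := by
  rw [syzygy5] at hd
  refine ⟨?_, ?_, ?_⟩
  · rintro rfl
    exact hd (by ring)
  · rintro rfl
    exact hd (by ring)
  · intro h
    exact hd (by rw [h]; ring)

/-- a ring endomorphism commutes with `kH5`. -/
theorem map_kH5 {S : Type*} [CommRing S] (φ : K →+* S) (a b : K) :
    φ (kH5 a b) = kH5 (φ a) (φ b) := by
  simp only [kH5, map_add, map_sub, map_mul, map_pow, map_neg, map_ofNat]

/-- **CERT-4 core**: the deformation parameter `θ` fixed by `τ⁵`. -/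
theorem exists_theta [IsAlgClosed K] [CharZero K] (τ : K →+* K) {ζ ι : K}
    (hζ : IsPrimitiveRoot ζ 5) (hτζ : τ ζ = ζ) (hι : ι ^ 2 = -1) (hτι : τ ι = ι)
    (xi eta : K → K → K)
    (hxi : ∀ a b, τ (xi a b) = xi (τ a) (τ b)) (heta : ∀ a b, τ (eta a b) = eta (τ a) (τ b))
    (hrec : ∀ a b a' b' : K, kq5 a b ≠ 0 → xi a' b' = xi a b → eta a' b' = eta a b →
      kH5 a' b' = kH5 a b → a' = a ∧ b' = b)
    {a b : K} (hd : kT5 a b ^ 2 + kH5 a b ^ 3 ≠ 0) (hH : τ (kH5 a b) = kH5 a b)
    (hx : τ (xi a b) = xi a b) (hy : τ (eta a b) = eta a b) :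
    ∃ θ : K, τ (τ (τ (τ (τ θ)))) = θ ∧
      kT5 (a * (1 + θ * kA5 a b) ^ 5) (b * (1 - θ * kB5 a b) ^ 5) = 0 := by
  obtain ⟨ha, hb, hq⟩ := ne_zero_of_disc hd
  have hH' : kH5 (τ a) (τ b) = kH5 a b := by rw [← map_kH5, hH]
  obtain ⟨hτa, hτb⟩ := hrec a b (τ a) (τ b) hq (by rw [← hxi, hx]) (by rw [← heta, hy]) hH'
  have hι0 : ι ≠ 0 := by
    rintro rfl
    norm_num at hι
  obtain ⟨θ, hθ, hfix⟩ := QuinticRoot4.exists_fixed_root τ hζ hτζ hι0 hτι ha hb hq hτa hτb
  exact ⟨θ, hfix, QuinticRoot4.kT5_eq_zero_of_root hι hθ⟩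

/-- a root of the fifth cyclotomic polynomial is a primitive fifth root of unity. -/
theorem isPrimitiveRoot_of_cyclo [CharZero K] {ζ : K} (hz : ζ ^ 4 + ζ ^ 3 + ζ ^ 2 + ζ + 1 = 0) :
    IsPrimitiveRoot ζ 5 := by
  have h5 : ζ ^ 5 = 1 := by linear_combination (ζ - 1) * hz
  have h1 : ζ ≠ 1 := by
    rintro rfl
    norm_num at hz
  haveI : Fact (Nat.Prime 5) := ⟨by norm_num⟩
  have := orderOf_eq_prime (p := 5) h5 h1
  exact this ▸ IsPrimitiveRoot.orderOf ζ

/-- an odd power of an automorphism negating `s` negates `s` (here: the fifth iterate). -/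
theorem iterate_five_neg (τ : K →+* K) {s : K} (hs : τ s = -s) : τ (τ (τ (τ (τ s)))) = -s := by
  simp only [hs, map_neg, neg_neg]

end Fermat.Agent.S52.Cert4Core1
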