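/-
S52, brick CERT-2 (helper8): **an inertia element at `3` that moves `√3`** (and fixes `i`, `ζ₅`, …).

`P` a valuation subring of `ℚ̄` over `3`, `s² = 3`.  Then some `τ ∈ I_P` has `τ s = -s`: otherwise `s` is
fixed by `I_P` and lies in `m_P`, so `s / 3 ∈ P` (`UnrFixed1.div_natCast_mem_of_fixed`), whence
`1/3 = (s/3)² ∈ P`, absurd.  Every `τ ∈ I_P` fixes the roots of unity of order prime to `3`
(`ZetaUnr26.inertia_fixes_rootOfUnity`).
-/
import Fermat.Agent.ES.P36.UnrFixed1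
import Fermat.Agent.ES.P36.ZetaUnr26

set_option autoImplicit false

namespace Fermat.Agent.S52.CertInertia8

local notation "Qb" => AlgebraicClosure ℚ

/-- a square root of an element of the maximal ideal lies in the maximal ideal. -/
theorem mem_nonunits_of_sq {L : Type*} [Field L] (A : ValuationSubring L) {s : L}
    (h : s ^ 2 ∈ A.nonunits) : s ∈ A.nonunits := by
  rw [ValuationSubring.mem_nonunits_iff] at h ⊢
  rw [map_pow] at h
  exact (pow_lt_one_iff (two_ne_zero)).mp h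

theorem mul_mem_nonunits {L : Type*} [Field L] (A : ValuationSubring L) {x y : L} (hx : x ∈ A)
    (hy : y ∈ A.nonunits) : x * y ∈ A.nonunits := by
  rw [ValuationSubring.mem_nonunits_iff_exists_mem_maximalIdeal] at hy ⊢
  obtain ⟨hyA, hym⟩ := hy
  exact ⟨A.mul_mem _ _ hx hyA, Ideal.mul_mem_left _ (⟨x, hx⟩ : A) hym⟩

/-- **(CERT-2)** an inertia element at `3` moving `√3`. -/
theorem exists_inertia_neg_sqrt3 (P : ValuationSubring Qb) (hP : P.LiesOverPrime 3)
    (s : Qb) (hs : s ^ 2 = 3) :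
    ∃ τ ∈ P.inertiaSubgroupIn ℚ, τ s = -s := by
  by_contra hcon
  push Not at hcon
  have h3 : (3 : Qb) ∈ P.nonunits := by
    have : ((3 : ℕ) : Qb) ∈ P.nonunits := hP
    simpa using this
  have hfix : ∀ τ ∈ P.inertiaSubgroupIn ℚ, τ s = s := by
    intro τ hτ
    have h1 : (τ s) ^ 2 = s ^ 2 := by
      rw [← map_pow, hs]
      exact map_ofNat τ 3
    rcases sq_eq_sq_iff_eq_or_eq_neg.mp h1 with h | h
    · exact h
    · exact absurd h (hcon τ hτ)
  have hsm : s ∈ P.nonunits := mem_nonunits_of_sq P (by rw [hs]; exact h3)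
  have hdiv : s / ((3 : ℕ) : Qb) ∈ P :=
    Fermat.Agent.ES.P36.UnrFixed1.div_natCast_mem_of_fixed P Nat.prime_three hP s hfix hsm
  have hsq : (s / ((3 : ℕ) : Qb)) ^ 2 ∈ P := pow_mem hdiv 2
  have h13 : (s / ((3 : ℕ) : Qb)) ^ 2 = (3 : Qb)⁻¹ := by
    rw [div_pow, hs]
    push_cast
    norm_num
  rw [h13] at hsq
  -- `3 ∈ m_P` and `3⁻¹ ∈ P` is absurd
  have h1 : (3 : Qb)⁻¹ * (3 : Qb) ∈ P.nonunits := mul_mem_nonunits P hsq h3
  rw [inv_mul_cancel₀ (by norm_num : (3 : Qb) ≠ 0)] at h1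
  rw [ValuationSubring.mem_nonunits_iff, map_one] at h1
  exact lt_irrefl _ h1

/-- every inertia element at `3` fixes the roots of unity of order prime to `3`. -/
theorem inertia_three_fixes_rootOfUnity (P : ValuationSubring Qb) (hP : P.LiesOverPrime 3)
    {m : ℕ} (hm : ¬ 3 ∣ m) {ζ : Qb} (hζ : ζ ^ m = 1) {τ : Qb ≃ₐ[ℚ] Qb}
    (hτ : τ ∈ P.inertiaSubgroupIn ℚ) : τ ζ = ζ :=
  Fermat.Agent.ES.P36.ZetaUnr26.inertia_fixes_rootOfUnity Nat.prime_three hP hm hζ hτ

/-- every inertia element at `3` fixes a square root of `-1`. -/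
theorem inertia_three_fixes_I (P : ValuationSubring Qb) (hP : P.LiesOverPrime 3)
    {i : Qb} (hi : i ^ 2 = -1) {τ : Qb ≃ₐ[ℚ] Qb}
    (hτ : τ ∈ P.inertiaSubgroupIn ℚ) : τ i = i := by
  refine inertia_three_fixes_rootOfUnity P hP (m := 4) (by norm_num) ?_ hτ
  have : i ^ 4 = (i ^ 2) ^ 2 := by ring
  rw [this, hi]; norm_num

/-- a power of an inertia element still fixes what the element fixes; an odd power of an element
negating `s` negates `s`. -/
theorem pow_five_neg {τ : Qb ≃ₐ[ℚ] Qb} {s : Qb} (h : τ s = -s) : (τ ^ 5) s = -s := by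
  have e2 : τ (τ s) = s := by rw [h, map_neg, h, neg_neg]
  have h2 : (τ ^ 5) s = τ (τ (τ (τ (τ s)))) := rfl
  rw [h2, e2, e2, h]

/-- **(CERT-2), packaged**: for every place over `3` there is an inertia element negating `s`
(`s² = 3`) and fixing every root of unity of order prime to `3` (in particular `i` and `ζ₅`). -/
theorem exists_inertia_package (P : ValuationSubring Qb) (hP : P.LiesOverPrime 3)
    (s : Qb) (hs : s ^ 2 = 3) :
    ∃ τ ∈ P.inertiaSubgroupIn ℚ, τ s = -s ∧ (τ ^ 5) s = -s ∧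
      (∀ (m : ℕ) (ζ : Qb), ¬ 3 ∣ m → ζ ^ m = 1 → τ ζ = ζ) ∧
      (∀ i : Qb, i ^ 2 = -1 → τ i = i) := by
  obtain ⟨τ, hτ, hτs⟩ := exists_inertia_neg_sqrt3 P hP s hs
  exact ⟨τ, hτ, hτs, pow_five_neg hτs,
    fun m ζ hm hζ => inertia_three_fixes_rootOfUnity P hP hm hζ hτ,
    fun i hi => inertia_three_fixes_I P hP hi hτ⟩

end Fermat.Agent.S52.CertInertia8
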