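/-
S52 brick CERT-4, instantiated (helper4): `Cert4Asm1.exists_cert4` with CERT-2 (`CertInertia8`) and the recovery
brick 4b (`AxisRecover4`) plugged in.  Remaining hypotheses: 4c (existence of `(a, b)` for a `5`-torsion point of the
short model, `SlopeParam7`) and FAM (`kT5` at the deformed point vanishes ⇒ `C6(θ) = 0`).
-/
import Fermat.Agent.S52.Cert4Asm1
import Fermat.Agent.S52.CertInertia8
import Fermat.Agent.S52.AxisRecover4

set_option autoImplicit false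

open WeierstrassCurve WeierstrassCurve.Affine WeierstrassCurve.Affine.Point Polynomial

namespace Fermat.Agent.S52.Cert4Inst4

open Fermat.Agent.S52.Klein7 Fermat.Agent.S52.ShortTransport2 Fermat.Agent.S52.AxisRecover4

local notation "Qb" => AlgebraicClosure ℚ
local notation "GQ" => (AlgebraicClosure ℚ ≃ₐ[ℚ] AlgebraicClosure ℚ)

/-- a primitive fifth root of unity in `ℚ̄`, as a root of `Φ₅`. -/
theorem exists_zeta : ∃ ζ : Qb, ζ ^ 4 + ζ ^ 3 + ζ ^ 2 + ζ + 1 = 0 := by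
  obtain ⟨ζ, hζ⟩ := IsAlgClosed.exists_root (X ^ 4 + X ^ 3 + X ^ 2 + X + 1 : Qb[X]) (by
    have h : (X ^ 4 + X ^ 3 + X ^ 2 + X + 1 : Qb[X]).natDegree = 4 := by compute_degree!
    intro h0
    have h1 := natDegree_eq_zero_iff_degree_le_zero.mpr h0.le
    omega)
  refine ⟨ζ, ?_⟩
  simpa using hζ

theorem map_xi1 (τ : GQ) {ζ : Qb} (hτζ : τ ζ = ζ) (a b : Qb) :
    τ (xi1 ζ a b) = xi1 ζ (τ a) (τ b) := by
  simp only [xi1, s5, kq5, map_add, map_sub, map_mul, map_pow, map_neg, map_div₀, map_ofNat,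
    map_one, hτζ]

theorem map_eta1 (τ : GQ) {ζ : Qb} (hτζ : τ ζ = ζ) (a b : Qb) :
    τ (eta1 ζ a b) = eta1 ζ (τ a) (τ b) := by
  simp only [eta1, cl, cm, kq5, map_add, map_sub, map_mul, map_pow, map_div₀, map_ofNat,
    map_one, hτζ]

/-- **CERT-4**, with only 4c and FAM left as hypotheses. -/
theorem exists_cert4 (W : WeierstrassCurve ℤ) (hΔ : W.Δ ≠ 0) (hss : W.IsSemistableModel)
    {ζ : Qb} (hz : ζ ^ 4 + ζ ^ 3 + ζ ^ 2 + ζ + 1 = 0)
    (h4c : ∀ (x y : Qb) (h : ((shortOf W)⁄Qb).Nonsingular x y),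
      5 • (Point.some x y h : ((shortOf W)⁄Qb).Point) = 0 →
      ∃ a b : Qb, kH5 a b = -(W.c₄ : Qb) ∧ kT5 a b = -(W.c₆ : Qb) ∧ x = xi1 ζ a b ∧ y = eta1 ζ a b)
    (C6 : ℤ[X])
    (hFAM : ∀ a b t : Qb, kH5 a b = -(W.c₄ : Qb) → kT5 a b = -(W.c₆ : Qb) →
      kT5 (a * (1 + t * kA5 a b) ^ 5) (b * (1 - t * kB5 a b) ^ 5) = 0 → aeval t C6 = 0) :
    ∃ (θ s : Qb) (g : GQ), s ^ 2 = 3 ∧ g s = -s ∧ g θ = θ ∧ aeval θ C6 = 0 := by
  have hζ5 : ζ ^ 5 = 1 := by linear_combination (ζ - 1) * hz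
  refine Cert4Asm1.exists_cert4 W hΔ hss
    (fun P hP s hs => CertInertia8.exists_inertia_neg_sqrt3 P hP s hs) hz
    (fun P hP τ hτ =>
      CertInertia8.inertia_three_fixes_rootOfUnity P hP (m := 5) (by norm_num) hζ5 hτ)
    (fun P hP τ hτ ι hι => CertInertia8.inertia_three_fixes_I P hP hι hτ)
    (xi1 ζ) (eta1 ζ) (fun τ hτζ a b => map_xi1 τ hτζ a b) (fun τ hτζ a b => map_eta1 τ hτζ a b)
    (fun a b a' b' hq h1 h2 h3 => recover hz hq h1 h2 h3) h4c C6 hFAM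

end Fermat.Agent.S52.Cert4Inst4
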