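/-
S52, CERT-2 in the exact shapes consumed by `Cert4Asm1.exists_cert4` (helper8).
-/
import Fermat.Agent.S52.CertInertia8

set_option autoImplicit false

namespace Fermat.Agent.S52.CertInertiaShapes8

local notation "Qb" => AlgebraicClosure ℚ

open Fermat.Agent.S52.CertInertia8

/-- shape `hcert2`. -/
theorem cert2 : ∀ P : ValuationSubring Qb, P.LiesOverPrime 3 → ∀ s : Qb, s ^ 2 = 3 →
    ∃ τ ∈ P.inertiaSubgroupIn ℚ, τ s = -s :=
  fun P hP s hs => exists_inertia_neg_sqrt3 P hP s hs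

/-- shape `hfixζ`. -/
theorem fixZeta {ζ : Qb} (hz : ζ ^ 4 + ζ ^ 3 + ζ ^ 2 + ζ + 1 = 0) :
    ∀ P : ValuationSubring Qb, P.LiesOverPrime 3 → ∀ τ ∈ P.inertiaSubgroupIn ℚ, τ ζ = ζ := by
  intro P hP τ hτ
  have h5 : ζ ^ 5 = 1 := by linear_combination (ζ - 1) * hz
  exact inertia_three_fixes_rootOfUnity P hP (m := 5) (by norm_num) h5 hτ

/-- shape `hfixι`. -/
theorem fixI : ∀ P : ValuationSubring Qb, P.LiesOverPrime 3 → ∀ τ ∈ P.inertiaSubgroupIn ℚ,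
    ∀ ι : Qb, ι ^ 2 = -1 → τ ι = ι :=
  fun P hP _ hτ _ hι => inertia_three_fixes_I P hP hι hτ

end Fermat.Agent.S52.CertInertiaShapes8
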