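/-
S52, final wiring, part 2 (helper1): **the `a_ℓ` congruence mod `5` from four families of sections.**

`W W'` integral Weierstrass curves, `Θ := thetaFun (shortOf W) (shortOf W') Xi U1 U2 H T t` with the slope-coordinate
functions `SlopeTheta2.Xi U1 U2` and rational parameters `H T t`.  Suppose given on the short forms of `W` and `W'`
points `A₁ A₂`, `B k`, `C k` (resp. primed) — in the application the sections `P_(1,0)`, `P_(2,0)`,
`P_(0,1)(u, ζᵏ v)`, `P_(0,2)(u, ζᵏ v)` at `z` resp. `z'` — which are nonzero, satisfy the relations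
`2 B k = C k`, `2 C k = -B k`, `2 A₁ = A₂`, `2 A₂ = -A₁`, `B k + A₁ = B (k+1)`, and are matched by `Θ`.
Then `5 ∣ a_ℓ(W') - a_ℓ(W)` at all common good primes `ℓ ≠ 5`.
-/
import Fermat.Agent.S52.LevelGlueB1
import Fermat.Agent.S52.LevelGlueEC1
import Fermat.Agent.S52.ThetaCong2
import Fermat.Agent.S52.SlopeTheta2

set_option autoImplicit false

open WeierstrassCurve WeierstrassCurve.Affine WeierstrassCurve.Affine.Point

namespace Fermat.Agent.S52.CongOfFam1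

open Fermat.Agent.S52.ShortTransport2 Fermat.Agent.S52.ThetaFun2 Fermat.Agent.S52.SlopeTheta2
open Fermat.Agent.S52.LevelGlueB1

local notation "Qb" => AlgebraicClosure ℚ

/-- four families of nonzero points with the relations of a `(ℤ/5)²`-level structure. -/
structure FamRel {G : Type*} [AddCommGroup G] (A₁ A₂ : G) (B C : ℕ → G) : Prop where
  r1 : ∀ k, 2 • B k = C k
  r2 : ∀ k, 2 • C k = -B k
  r3 : 2 • A₁ = A₂
  r4 : 2 • A₂ = -A₁
  r5 : ∀ k, B k + A₁ = B (k + 1)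
  hB : ∀ k, B k ≠ 0
  hC : ∀ k, C k ≠ 0
  hA1 : A₁ ≠ 0
  hA2 : A₂ ≠ 0

/-- **the congruence from the families.** -/
theorem dvd_apOfModel_sub_of_families (W W' : WeierstrassCurve ℤ) (H T t : ℚ)
    {A₁ A₂ : ((shortOf W)⁄Qb).Point} {B C : ℕ → ((shortOf W)⁄Qb).Point}
    {A₁' A₂' : ((shortOf W')⁄Qb).Point} {B' C' : ℕ → ((shortOf W')⁄Qb).Point}
    (hF : FamRel A₁ A₂ B C) (hF' : FamRel A₁' A₂' B' C')
    (hΘB : ∀ k, thetaFun (shortOf W) (shortOf W') Xi U1 U2 (H : Qb) T t (B k) = B' k)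
    (hΘC : ∀ k, thetaFun (shortOf W) (shortOf W') Xi U1 U2 (H : Qb) T t (C k) = C' k)
    (hΘA1 : thetaFun (shortOf W) (shortOf W') Xi U1 U2 (H : Qb) T t A₁ = A₁')
    (hΘA2 : thetaFun (shortOf W) (shortOf W') Xi U1 U2 (H : Qb) T t A₂ = A₂')
    {ℓ : ℕ} (hℓ : ℓ.Prime) (hgood : W.IsGoodPrimeFor ℓ) (hgood' : W'.IsGoodPrimeFor ℓ)
    (hℓ5 : ℓ ≠ 5) : (5 : ℤ) ∣ W'.apOfModel ℓ - W.apOfModel ℓ := by
  obtain ⟨φ, hφ⟩ := exists_lvl A₁ A₂ B C hF.r1 hF.r2 hF.r3 hF.r4 hF.r5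
  obtain ⟨φ', hφ'⟩ := exists_lvl A₁' A₂' B' C' hF'.r1 hF'.r2 hF'.r3 hF'.r4 hF'.r5
  have hne : ∀ v, v ≠ 0 → φ v ≠ 0 := ne_zero_of_data hφ hF.hB hF.hC hF.hA1 hF.hA2
  have hne' : ∀ v, v ≠ 0 → φ' v ≠ 0 := ne_zero_of_data hφ' hF'.hB hF'.hC hF'.hA1 hF'.hA2
  have hneg : ∀ R : ((shortOf W)⁄Qb).Point,
      thetaFun (shortOf W) (shortOf W') Xi U1 U2 (H : Qb) T t (-R) =
        -thetaFun (shortOf W) (shortOf W') Xi U1 U2 (H : Qb) T t R :=
    thetaFun_neg (shortOf W) (shortOf W') Xi U1 U2 (H : Qb) T t rfl rfl rfl rfl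
  have hΘ : ∀ v, thetaFun (shortOf W) (shortOf W') Xi U1 U2 (H : Qb) T t (φ v) = φ' v :=
    intertwines hφ hφ' _ (thetaFun_zero _ _ _ _ _ _ _ _) hneg hΘB hΘC hΘA1 hΘA2
  have h5 : (5 : Qb) ≠ 0 := by norm_num
  refine ThetaCong2.dvd_apOfModel_sub_of_thetaFun W W' (p := 5) (by norm_num) (by norm_num)
    Xi U1 U2 H T t (fun ψ a b c d e => map_Xi ψ a b c d e) (fun ψ a b c d e => map_U1 ψ a b c d e)
    (fun ψ a b c d e => map_U2 ψ a b c d e) ?_ ?_ hℓ hgood hgood' hℓ5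
  · intro Q R hQ hR
    exact LevelGlueEC1.additive h5 φ φ' hne _ hΘ Q R hQ hR
  · exact LevelGlueEC1.exists_ne_zero φ φ' hne' _ hΘ

end Fermat.Agent.S52.CongOfFam1
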