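/-
S52, final wiring, part 3 (helper1): **the congruence `a_ℓ(W') ≡ a_ℓ(W) (mod 5)` along the Klein family.**

`W` semistable with `Δ ≠ 0`, `z = (u, v) ∈ ℚ̄²` a Klein point over `(-c₄, -c₆)`, `t ∈ ℤ`, `z' = z + t w(z)`, and `W'`
an integral model with `c₄(W') = C4(t)`, `c₆(W') = C6(t)` (`Fam5Poly`), `Δ(W') ≠ 0`.  The sections
`P_(1,0)`, `P_(2,0)`, `P_(0,1)(u, ζᵏ v)`, `P_(0,2)(u, ζᵏ v)` in slope coordinates (`SlopeTheta2`, `SlopePts2`) give
the four families of `CongOfFam1` at `z` and at `z'`; the slope `Θ`-map matches them (`theta_slopePt` +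
`slS_sl01/02/10/20`).  The input still taken as a hypothesis is `SecData`: admissibility (`SlopeRel`) of the slope
pairs of the sections and the chord relation `P_(0,1)(u, ζᵏ v) + P_(1,0) = P_(0,1)(u, ζᵏ⁺¹ v)`.
-/
import Fermat.Agent.S52.CongOfFam1
import Fermat.Agent.S52.KleinOfModel1
import Fermat.Agent.S52.SlopePts2
import Fermat.Agent.S52.Fam5Poly

set_option autoImplicit false

open WeierstrassCurve WeierstrassCurve.Affine WeierstrassCurve.Affine.Point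

namespace Fermat.Agent.S52.CongFamily1

open Fermat.Agent.S52.Klein7 Fermat.Agent.S52.ShortTransport2 Fermat.Agent.S52.ThetaFun2
open Fermat.Agent.S52.SlopeTheta2 Fermat.Agent.S52.SlopePts2 Fermat.Agent.S52.CongOfFam1

local notation "Qb" => AlgebraicClosure ℚ

/-- the section data at a Klein point `z = (u, v)` on a curve `W₀` which is `y² = x³ + 27 kH(z) x + 54 kT(z)`:
admissibility of the slope pairs and the chord relation. -/
structure SecData (W₀ : WeierstrassCurve ℚ) (ζ u v : Qb) : Prop where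
  relB : ∀ k : ℕ, SlopeRel (kH u v) (kT u v) (sl01 u (ζ ^ k * v)) (sl02 u (ζ ^ k * v))
  relA : SlopeRel (kH u v) (kT u v) (sl10 ζ (u ^ 5) (v ^ 5)) (sl20 ζ (u ^ 5) (v ^ 5))
  chord : ∀ k : ℕ,
    slopePt W₀ (sl01 u (ζ ^ k * v)) (sl02 u (ζ ^ k * v)) +
        slopePt W₀ (sl10 ζ (u ^ 5) (v ^ 5)) (sl20 ζ (u ^ 5) (v ^ 5)) =
      slopePt W₀ (sl01 u (ζ ^ (k + 1) * v)) (sl02 u (ζ ^ (k + 1) * v))

section Families

variable {W₀ : WeierstrassCurve ℚ} {ζ u v : Qb}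

/-- the four families of sections at `z = (u, v)`. -/
theorem famRel_of_secData (hW : IsShort W₀ (kH u v) (kT u v)) (hS : SecData W₀ ζ u v) :
    FamRel (slopePt W₀ (sl10 ζ (u ^ 5) (v ^ 5)) (sl20 ζ (u ^ 5) (v ^ 5)))
      (slopePt W₀ (sl20 ζ (u ^ 5) (v ^ 5)) (-sl10 ζ (u ^ 5) (v ^ 5)))
      (fun k => slopePt W₀ (sl01 u (ζ ^ k * v)) (sl02 u (ζ ^ k * v)))
      (fun k => slopePt W₀ (sl02 u (ζ ^ k * v)) (-sl01 u (ζ ^ k * v))) where
  r1 k := two_nsmul_slopePt hW (hS.relB k)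
  r2 k := by
    rw [two_nsmul_slopePt hW (hS.relB k).swap, neg_slopePt hW (hS.relB k)]
  r3 := two_nsmul_slopePt hW hS.relA
  r4 := by
    rw [two_nsmul_slopePt hW hS.relA.swap, neg_slopePt hW hS.relA]
  r5 k := hS.chord k
  hB k := slopePt_ne_zero hW (hS.relB k)
  hC k := slopePt_ne_zero hW (hS.relB k).swap
  hA1 := slopePt_ne_zero hW hS.relA
  hA2 := slopePt_ne_zero hW hS.relA.swap

end Families

/-- `(ζᵏ v)⁵ = v⁵`. -/
theorem zeta_pow_mul_pow_five {ζ : Qb} (h5 : ζ ^ 5 = 1) (k : ℕ) (v : Qb) :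
    (ζ ^ k * v) ^ 5 = v ^ 5 := by
  rw [mul_pow, ← pow_mul, mul_comm k 5, pow_mul, h5, one_pow, one_mul]

/-- **the congruence from the section data at `z` and `z'`.** -/
theorem dvd_of_secData (W W' : WeierstrassCurve ℤ) {ζ u v : Qb} (h5 : ζ ^ 5 = 1)
    (hz : ζ ^ 4 + ζ ^ 3 + ζ ^ 2 + ζ + 1 = 0) (t : ℤ)
    (hH : kH u v = -(W.c₄ : Qb)) (hT : kT u v = -(W.c₆ : Qb))
    (hH' : kH (u + (t : Qb) * kw1 u v) (v + (t : Qb) * kw2 u v) = -(W'.c₄ : Qb))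
    (hT' : kT (u + (t : Qb) * kw1 u v) (v + (t : Qb) * kw2 u v) = -(W'.c₆ : Qb))
    (hS : SecData (shortOf W) ζ u v)
    (hS' : SecData (shortOf W') ζ (u + (t : Qb) * kw1 u v) (v + (t : Qb) * kw2 u v))
    {ℓ : ℕ} (hℓ : ℓ.Prime) (hgood : W.IsGoodPrimeFor ℓ) (hgood' : W'.IsGoodPrimeFor ℓ)
    (hℓ5 : ℓ ≠ 5) : (5 : ℤ) ∣ W'.apOfModel ℓ - W.apOfModel ℓ := by
  set u' : Qb := u + (t : Qb) * kw1 u v with hu'
  set v' : Qb := v + (t : Qb) * kw2 u v with hv'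
  have hu'e : u' = u * (1 + (t : Qb) * kA5 (u ^ 5) (v ^ 5)) := deform_fst u v t
  have hv'e : v' = v * (1 - (t : Qb) * kB5 (u ^ 5) (v ^ 5)) := deform_snd u v t
  have hW : IsShort (K := Qb) (shortOf W) (kH u v) (kT u v) :=
    { a1 := rfl, a2 := rfl, a3 := rfl
      a4 := by
        rw [hH]
        simp [shortOf, shortW]
      a6 := by
        rw [hT]
        simp [shortOf, shortW] }
  have hW' : IsShort (K := Qb) (shortOf W') (kH u' v') (kT u' v') :=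
    { a1 := rfl, a2 := rfl, a3 := rfl
      a4 := by
        rw [hH']
        simp [shortOf, shortW]
      a6 := by
        rw [hT']
        simp [shortOf, shortW] }
  have hF := famRel_of_secData hW hS
  have hF' := famRel_of_secData hW' hS'
  -- the parameters of the `Θ`-map
  have eH : (((-(W.c₄ : ℚ)) : ℚ) : Qb) = kH u v := by rw [hH]; exact KleinOfModel1.cast_neg_c₄ W
  have eT : (((-(W.c₆ : ℚ)) : ℚ) : Qb) = kT u v := by rw [hT]; exact KleinOfModel1.cast_neg_c₆ W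
  have et : (((t : ℚ)) : Qb) = (t : Qb) := by push_cast; rfl
  refine dvd_apOfModel_sub_of_families W W' (-(W.c₄ : ℚ)) (-(W.c₆ : ℚ)) (t : ℚ) hF hF' ?_ ?_ ?_ ?_
    hℓ hgood hgood' hℓ5
  · -- `Θ (B k) = B' k`
    intro k
    rw [eH, eT, et, theta_slopePt (t : Qb) hW (hS.relB k), slS_sl01, slS_sl02,
      zeta_pow_mul_pow_five h5, ← hu'e, mul_assoc, ← hv'e]
  · -- `Θ (C k) = C' k`
    intro k
    rw [eH, eT, et, theta_slopePt (t : Qb) hW (hS.relB k).swap, slS_sl02, slS_neg, slS_sl01,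
      zeta_pow_mul_pow_five h5, ← hu'e, mul_assoc, ← hv'e]
  · -- `Θ A₁ = A₁'`
    rw [eH, eT, et, theta_slopePt (t : Qb) hW hS.relA, slS_sl10 hz, slS_sl20 hz, hu'e, hv'e,
      mul_pow, mul_pow]
  · -- `Θ A₂ = A₂'`
    rw [eH, eT, et, theta_slopePt (t : Qb) hW hS.relA.swap, slS_sl20 hz, slS_neg, slS_sl10 hz,
      hu'e, hv'e, mul_pow, mul_pow]

/-- **`cong_family`**, modulo the section data: for every Klein point `z` over a model and every member `W'` of the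
family at an integer parameter `t`, `5 ∣ a_ℓ(W') - a_ℓ(W)`. -/
theorem cong_family_of_secData
    (hsec : ∀ (W₀ : WeierstrassCurve ℤ) (ζ u v : Qb), ζ ^ 4 + ζ ^ 3 + ζ ^ 2 + ζ + 1 = 0 →
      kH u v = -(W₀.c₄ : Qb) → kT u v = -(W₀.c₆ : Qb) → kf u v ≠ 0 → SecData (shortOf W₀) ζ u v)
    (W : WeierstrassCurve ℤ) (hΔ : W.Δ ≠ 0) (hss : W.IsSemistableModel) (t : ℤ)
    (W' : WeierstrassCurve ℤ) (hΔ' : W'.Δ ≠ 0)
    (h4 : W'.c₄ = (Fam5Poly.C4 W.c₄ W.c₆).eval t) (h6 : W'.c₆ = (Fam5Poly.C6 W.c₄ W.c₆).eval t)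
    (ℓ : ℕ) (hℓ : ℓ.Prime) (hgood : W.IsGoodPrimeFor ℓ) (hgood' : W'.IsGoodPrimeFor ℓ)
    (hℓ5 : ℓ ≠ 5) : (5 : ℤ) ∣ W'.apOfModel ℓ - W.apOfModel ℓ := by
  obtain ⟨u, v, hH, hT⟩ := KleinOfModel1.exists_klein_point_of_model W hΔ hss
  obtain ⟨ζ, hz⟩ : ∃ ζ : Qb, ζ ^ 4 + ζ ^ 3 + ζ ^ 2 + ζ + 1 = 0 := by
    obtain ⟨ζ, hζ⟩ := IsAlgClosed.exists_root (Polynomial.cyclotomic 5 Qb)
      (Polynomial.degree_cyclotomic_pos 5 Qb (by norm_num)).ne'
    refine ⟨ζ, ?_⟩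
    have : Fact (Nat.Prime 5) := ⟨by norm_num⟩
    rw [Polynomial.IsRoot.def, Polynomial.cyclotomic_prime, Polynomial.eval_finsetSum] at hζ
    simp only [Finset.sum_range_succ, Finset.sum_range_zero, Polynomial.eval_pow,
      Polynomial.eval_X] at hζ
    linear_combination hζ
  have h5 : ζ ^ 5 = 1 := by linear_combination (ζ - 1) * hz
  have hH' : kH (u + (t : Qb) * kw1 u v) (v + (t : Qb) * kw2 u v) = -(W'.c₄ : Qb) := by
    rw [Fam5Poly.kH_deform_int W.c₄ W.c₆ hH hT t, h4]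
  have hT' : kT (u + (t : Qb) * kw1 u v) (v + (t : Qb) * kw2 u v) = -(W'.c₆ : Qb) := by
    rw [Fam5Poly.kT_deform_int W.c₄ W.c₆ hH hT t, h6]
  exact dvd_of_secData W W' h5 hz t hH hT hH' hT'
    (hsec W ζ u v hz hH hT (KleinOfModel1.kf_ne_zero W hΔ hH hT))
    (hsec W' ζ _ _ hz hH' hT' (KleinOfModel1.kf_ne_zero W' hΔ' hH' hT'))
    hℓ hgood hgood' hℓ5

end Fermat.Agent.S52.CongFamily1
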