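-- S52 (helper9): staged proof of the family identity for `H` in the coordinates `U = u^5`, `V = v^5`.
import Fermat.Agent.S52.FamStage9Pow

set_option autoImplicit false

namespace Fermat.Agent.S52.FamStage9

open Fermat.Agent.S52.Family9 Fermat.Agent.S52.Klein7

noncomputable section

variable {R : Type*} [CommRing R]

/-- `t ^ 0`-coefficient of the stage-1 expansion for `H` (`p`, `q` stand for `kA5`, `kB5`). -/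
def SH0 (U V p q : R) : R :=
    -U ^ 4 + 228 * U ^ 3 * V - 494 * U ^ 2 * V ^ 2 - 228 * U * V ^ 3 - V ^ 4

/-- `t ^ 1`-coefficient of the stage-1 expansion for `H` (`p`, `q` stand for `kA5`, `kB5`). -/
def SH1 (U V p q : R) : R :=
    -20 * U ^ 4 * p + 3420 * U ^ 3 * V * p - 1140 * U ^ 3 * V * q - 4940 * U ^ 2 * V ^ 2 * p
    + 4940 * U ^ 2 * V ^ 2 * q - 1140 * U * V ^ 3 * p + 3420 * U * V ^ 3 * q + 20 * V ^ 4 * q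

/-- `t ^ 2`-coefficient of the stage-1 expansion for `H` (`p`, `q` stand for `kA5`, `kB5`). -/
def SH2 (U V p q : R) : R :=
    -190 * U ^ 4 * p ^ 2 + 23940 * U ^ 3 * V * p ^ 2 - 17100 * U ^ 3 * V * p * q
    + 2280 * U ^ 3 * V * q ^ 2 - 22230 * U ^ 2 * V ^ 2 * p ^ 2 + 49400 * U ^ 2 * V ^ 2 * p * q
    - 22230 * U ^ 2 * V ^ 2 * q ^ 2 - 2280 * U * V ^ 3 * p ^ 2 + 17100 * U * V ^ 3 * p * q
    - 23940 * U * V ^ 3 * q ^ 2 - 190 * V ^ 4 * q ^ 2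

/-- `t ^ 3`-coefficient of the stage-1 expansion for `H` (`p`, `q` stand for `kA5`, `kB5`). -/
def SH3 (U V p q : R) : R :=
    -1140 * U ^ 4 * p ^ 3 + 103740 * U ^ 3 * V * p ^ 3 - 119700 * U ^ 3 * V * p ^ 2 * q
    + 34200 * U ^ 3 * V * p * q ^ 2 - 2280 * U ^ 3 * V * q ^ 3 - 59280 * U ^ 2 * V ^ 2 * p ^ 3
    + 222300 * U ^ 2 * V ^ 2 * p ^ 2 * q - 222300 * U ^ 2 * V ^ 2 * p * q ^ 2
    + 59280 * U ^ 2 * V ^ 2 * q ^ 3 - 2280 * U * V ^ 3 * p ^ 3 + 34200 * U * V ^ 3 * p ^ 2 * q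
    - 119700 * U * V ^ 3 * p * q ^ 2 + 103740 * U * V ^ 3 * q ^ 3 + 1140 * V ^ 4 * q ^ 3

/-- `t ^ 4`-coefficient of the stage-1 expansion for `H` (`p`, `q` stand for `kA5`, `kB5`). -/
def SH4 (U V p q : R) : R :=
    -4845 * U ^ 4 * p ^ 4 + 311220 * U ^ 3 * V * p ^ 4 - 518700 * U ^ 3 * V * p ^ 3 * q
    + 239400 * U ^ 3 * V * p ^ 2 * q ^ 2 - 34200 * U ^ 3 * V * p * q ^ 3 + 1140 * U ^ 3 * V * q ^ 4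
    - 103740 * U ^ 2 * V ^ 2 * p ^ 4 + 592800 * U ^ 2 * V ^ 2 * p ^ 3 * q
    - 1000350 * U ^ 2 * V ^ 2 * p ^ 2 * q ^ 2 + 592800 * U ^ 2 * V ^ 2 * p * q ^ 3
    - 103740 * U ^ 2 * V ^ 2 * q ^ 4 - 1140 * U * V ^ 3 * p ^ 4 + 34200 * U * V ^ 3 * p ^ 3 * q
    - 239400 * U * V ^ 3 * p ^ 2 * q ^ 2 + 518700 * U * V ^ 3 * p * q ^ 3
    - 311220 * U * V ^ 3 * q ^ 4 - 4845 * V ^ 4 * q ^ 4

/-- `t ^ 5`-coefficient of the stage-1 expansion for `H` (`p`, `q` stand for `kA5`, `kB5`). -/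
def SH5 (U V p q : R) : R :=
    -15504 * U ^ 4 * p ^ 5 + 684684 * U ^ 3 * V * p ^ 5 - 1556100 * U ^ 3 * V * p ^ 4 * q
    + 1037400 * U ^ 3 * V * p ^ 3 * q ^ 2 - 239400 * U ^ 3 * V * p ^ 2 * q ^ 3
    + 17100 * U ^ 3 * V * p * q ^ 4 - 228 * U ^ 3 * V * q ^ 5 - 124488 * U ^ 2 * V ^ 2 * p ^ 5
    + 1037400 * U ^ 2 * V ^ 2 * p ^ 4 * q - 2667600 * U ^ 2 * V ^ 2 * p ^ 3 * q ^ 2
    + 2667600 * U ^ 2 * V ^ 2 * p ^ 2 * q ^ 3 - 1037400 * U ^ 2 * V ^ 2 * p * q ^ 4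
    + 124488 * U ^ 2 * V ^ 2 * q ^ 5 - 228 * U * V ^ 3 * p ^ 5 + 17100 * U * V ^ 3 * p ^ 4 * q
    - 239400 * U * V ^ 3 * p ^ 3 * q ^ 2 + 1037400 * U * V ^ 3 * p ^ 2 * q ^ 3
    - 1556100 * U * V ^ 3 * p * q ^ 4 + 684684 * U * V ^ 3 * q ^ 5 + 15504 * V ^ 4 * q ^ 5

/-- `t ^ 6`-coefficient of the stage-1 expansion for `H` (`p`, `q` stand for `kA5`, `kB5`). -/
def SH6 (U V p q : R) : R :=
    -38760 * U ^ 4 * p ^ 6 + 1141140 * U ^ 3 * V * p ^ 6 - 3423420 * U ^ 3 * V * p ^ 5 * q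
    + 3112200 * U ^ 3 * V * p ^ 4 * q ^ 2 - 1037400 * U ^ 3 * V * p ^ 3 * q ^ 3
    + 119700 * U ^ 3 * V * p ^ 2 * q ^ 4 - 3420 * U ^ 3 * V * p * q ^ 5
    - 103740 * U ^ 2 * V ^ 2 * p ^ 6 + 1244880 * U ^ 2 * V ^ 2 * p ^ 5 * q
    - 4668300 * U ^ 2 * V ^ 2 * p ^ 4 * q ^ 2 + 7113600 * U ^ 2 * V ^ 2 * p ^ 3 * q ^ 3
    - 4668300 * U ^ 2 * V ^ 2 * p ^ 2 * q ^ 4 + 1244880 * U ^ 2 * V ^ 2 * p * q ^ 5
    - 103740 * U ^ 2 * V ^ 2 * q ^ 6 + 3420 * U * V ^ 3 * p ^ 5 * q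
    - 119700 * U * V ^ 3 * p ^ 4 * q ^ 2 + 1037400 * U * V ^ 3 * p ^ 3 * q ^ 3
    - 3112200 * U * V ^ 3 * p ^ 2 * q ^ 4 + 3423420 * U * V ^ 3 * p * q ^ 5
    - 1141140 * U * V ^ 3 * q ^ 6 - 38760 * V ^ 4 * q ^ 6

/-- `t ^ 7`-coefficient of the stage-1 expansion for `H` (`p`, `q` stand for `kA5`, `kB5`). -/
def SH7 (U V p q : R) : R :=
    -77520 * U ^ 4 * p ^ 7 + 1467180 * U ^ 3 * V * p ^ 7 - 5705700 * U ^ 3 * V * p ^ 6 * q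
    + 6846840 * U ^ 3 * V * p ^ 5 * q ^ 2 - 3112200 * U ^ 3 * V * p ^ 4 * q ^ 3
    + 518700 * U ^ 3 * V * p ^ 3 * q ^ 4 - 23940 * U ^ 3 * V * p ^ 2 * q ^ 5
    - 59280 * U ^ 2 * V ^ 2 * p ^ 7 + 1037400 * U ^ 2 * V ^ 2 * p ^ 6 * q
    - 5601960 * U ^ 2 * V ^ 2 * p ^ 5 * q ^ 2 + 12448800 * U ^ 2 * V ^ 2 * p ^ 4 * q ^ 3
    - 12448800 * U ^ 2 * V ^ 2 * p ^ 3 * q ^ 4 + 5601960 * U ^ 2 * V ^ 2 * p ^ 2 * q ^ 5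
    - 1037400 * U ^ 2 * V ^ 2 * p * q ^ 6 + 59280 * U ^ 2 * V ^ 2 * q ^ 7
    - 23940 * U * V ^ 3 * p ^ 5 * q ^ 2 + 518700 * U * V ^ 3 * p ^ 4 * q ^ 3
    - 3112200 * U * V ^ 3 * p ^ 3 * q ^ 4 + 6846840 * U * V ^ 3 * p ^ 2 * q ^ 5
    - 5705700 * U * V ^ 3 * p * q ^ 6 + 1467180 * U * V ^ 3 * q ^ 7 + 77520 * V ^ 4 * q ^ 7

/-- `t ^ 8`-coefficient of the stage-1 expansion for `H` (`p`, `q` stand for `kA5`, `kB5`). -/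
def SH8 (U V p q : R) : R :=
    -125970 * U ^ 4 * p ^ 8 + 1467180 * U ^ 3 * V * p ^ 8 - 7335900 * U ^ 3 * V * p ^ 7 * q
    + 11411400 * U ^ 3 * V * p ^ 6 * q ^ 2 - 6846840 * U ^ 3 * V * p ^ 5 * q ^ 3
    + 1556100 * U ^ 3 * V * p ^ 4 * q ^ 4 - 103740 * U ^ 3 * V * p ^ 3 * q ^ 5
    - 22230 * U ^ 2 * V ^ 2 * p ^ 8 + 592800 * U ^ 2 * V ^ 2 * p ^ 7 * q
    - 4668300 * U ^ 2 * V ^ 2 * p ^ 6 * q ^ 2 + 14938560 * U ^ 2 * V ^ 2 * p ^ 5 * q ^ 3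
    - 21785400 * U ^ 2 * V ^ 2 * p ^ 4 * q ^ 4 + 14938560 * U ^ 2 * V ^ 2 * p ^ 3 * q ^ 5
    - 4668300 * U ^ 2 * V ^ 2 * p ^ 2 * q ^ 6 + 592800 * U ^ 2 * V ^ 2 * p * q ^ 7
    - 22230 * U ^ 2 * V ^ 2 * q ^ 8 + 103740 * U * V ^ 3 * p ^ 5 * q ^ 3
    - 1556100 * U * V ^ 3 * p ^ 4 * q ^ 4 + 6846840 * U * V ^ 3 * p ^ 3 * q ^ 5
    - 11411400 * U * V ^ 3 * p ^ 2 * q ^ 6 + 7335900 * U * V ^ 3 * p * q ^ 7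
    - 1467180 * U * V ^ 3 * q ^ 8 - 125970 * V ^ 4 * q ^ 8

/-- `t ^ 9`-coefficient of the stage-1 expansion for `H` (`p`, `q` stand for `kA5`, `kB5`). -/
def SH9 (U V p q : R) : R :=
    -167960 * U ^ 4 * p ^ 9 + 1141140 * U ^ 3 * V * p ^ 9 - 7335900 * U ^ 3 * V * p ^ 8 * q
    + 14671800 * U ^ 3 * V * p ^ 7 * q ^ 2 - 11411400 * U ^ 3 * V * p ^ 6 * q ^ 3
    + 3423420 * U ^ 3 * V * p ^ 5 * q ^ 4 - 311220 * U ^ 3 * V * p ^ 4 * q ^ 5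
    - 4940 * U ^ 2 * V ^ 2 * p ^ 9 + 222300 * U ^ 2 * V ^ 2 * p ^ 8 * q
    - 2667600 * U ^ 2 * V ^ 2 * p ^ 7 * q ^ 2 + 12448800 * U ^ 2 * V ^ 2 * p ^ 6 * q ^ 3
    - 26142480 * U ^ 2 * V ^ 2 * p ^ 5 * q ^ 4 + 26142480 * U ^ 2 * V ^ 2 * p ^ 4 * q ^ 5
    - 12448800 * U ^ 2 * V ^ 2 * p ^ 3 * q ^ 6 + 2667600 * U ^ 2 * V ^ 2 * p ^ 2 * q ^ 7
    - 222300 * U ^ 2 * V ^ 2 * p * q ^ 8 + 4940 * U ^ 2 * V ^ 2 * q ^ 9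
    - 311220 * U * V ^ 3 * p ^ 5 * q ^ 4 + 3423420 * U * V ^ 3 * p ^ 4 * q ^ 5
    - 11411400 * U * V ^ 3 * p ^ 3 * q ^ 6 + 14671800 * U * V ^ 3 * p ^ 2 * q ^ 7
    - 7335900 * U * V ^ 3 * p * q ^ 8 + 1141140 * U * V ^ 3 * q ^ 9 + 167960 * V ^ 4 * q ^ 9

/-- `t ^ 10`-coefficient of the stage-1 expansion for `H` (`p`, `q` stand for `kA5`, `kB5`). -/
def SH10 (U V p q : R) : R :=
    -184756 * U ^ 4 * p ^ 10 + 684684 * U ^ 3 * V * p ^ 10 - 5705700 * U ^ 3 * V * p ^ 9 * q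
    + 14671800 * U ^ 3 * V * p ^ 8 * q ^ 2 - 14671800 * U ^ 3 * V * p ^ 7 * q ^ 3
    + 5705700 * U ^ 3 * V * p ^ 6 * q ^ 4 - 684684 * U ^ 3 * V * p ^ 5 * q ^ 5
    - 494 * U ^ 2 * V ^ 2 * p ^ 10 + 49400 * U ^ 2 * V ^ 2 * p ^ 9 * q
    - 1000350 * U ^ 2 * V ^ 2 * p ^ 8 * q ^ 2 + 7113600 * U ^ 2 * V ^ 2 * p ^ 7 * q ^ 3
    - 21785400 * U ^ 2 * V ^ 2 * p ^ 6 * q ^ 4 + 31370976 * U ^ 2 * V ^ 2 * p ^ 5 * q ^ 5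
    - 21785400 * U ^ 2 * V ^ 2 * p ^ 4 * q ^ 6 + 7113600 * U ^ 2 * V ^ 2 * p ^ 3 * q ^ 7
    - 1000350 * U ^ 2 * V ^ 2 * p ^ 2 * q ^ 8 + 49400 * U ^ 2 * V ^ 2 * p * q ^ 9
    - 494 * U ^ 2 * V ^ 2 * q ^ 10 + 684684 * U * V ^ 3 * p ^ 5 * q ^ 5
    - 5705700 * U * V ^ 3 * p ^ 4 * q ^ 6 + 14671800 * U * V ^ 3 * p ^ 3 * q ^ 7
    - 14671800 * U * V ^ 3 * p ^ 2 * q ^ 8 + 5705700 * U * V ^ 3 * p * q ^ 9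
    - 684684 * U * V ^ 3 * q ^ 10 - 184756 * V ^ 4 * q ^ 10

/-- `t ^ 11`-coefficient of the stage-1 expansion for `H` (`p`, `q` stand for `kA5`, `kB5`). -/
def SH11 (U V p q : R) : R :=
    -167960 * U ^ 4 * p ^ 11 + 311220 * U ^ 3 * V * p ^ 11 - 3423420 * U ^ 3 * V * p ^ 10 * q
    + 11411400 * U ^ 3 * V * p ^ 9 * q ^ 2 - 14671800 * U ^ 3 * V * p ^ 8 * q ^ 3
    + 7335900 * U ^ 3 * V * p ^ 7 * q ^ 4 - 1141140 * U ^ 3 * V * p ^ 6 * q ^ 5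
    + 4940 * U ^ 2 * V ^ 2 * p ^ 10 * q - 222300 * U ^ 2 * V ^ 2 * p ^ 9 * q ^ 2
    + 2667600 * U ^ 2 * V ^ 2 * p ^ 8 * q ^ 3 - 12448800 * U ^ 2 * V ^ 2 * p ^ 7 * q ^ 4
    + 26142480 * U ^ 2 * V ^ 2 * p ^ 6 * q ^ 5 - 26142480 * U ^ 2 * V ^ 2 * p ^ 5 * q ^ 6
    + 12448800 * U ^ 2 * V ^ 2 * p ^ 4 * q ^ 7 - 2667600 * U ^ 2 * V ^ 2 * p ^ 3 * q ^ 8
    + 222300 * U ^ 2 * V ^ 2 * p ^ 2 * q ^ 9 - 4940 * U ^ 2 * V ^ 2 * p * q ^ 10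
    - 1141140 * U * V ^ 3 * p ^ 5 * q ^ 6 + 7335900 * U * V ^ 3 * p ^ 4 * q ^ 7
    - 14671800 * U * V ^ 3 * p ^ 3 * q ^ 8 + 11411400 * U * V ^ 3 * p ^ 2 * q ^ 9
    - 3423420 * U * V ^ 3 * p * q ^ 10 + 311220 * U * V ^ 3 * q ^ 11 + 167960 * V ^ 4 * q ^ 11

/-- `t ^ 12`-coefficient of the stage-1 expansion for `H` (`p`, `q` stand for `kA5`, `kB5`). -/
def SH12 (U V p q : R) : R :=
    -125970 * U ^ 4 * p ^ 12 + 103740 * U ^ 3 * V * p ^ 12 - 1556100 * U ^ 3 * V * p ^ 11 * q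
    + 6846840 * U ^ 3 * V * p ^ 10 * q ^ 2 - 11411400 * U ^ 3 * V * p ^ 9 * q ^ 3
    + 7335900 * U ^ 3 * V * p ^ 8 * q ^ 4 - 1467180 * U ^ 3 * V * p ^ 7 * q ^ 5
    - 22230 * U ^ 2 * V ^ 2 * p ^ 10 * q ^ 2 + 592800 * U ^ 2 * V ^ 2 * p ^ 9 * q ^ 3
    - 4668300 * U ^ 2 * V ^ 2 * p ^ 8 * q ^ 4 + 14938560 * U ^ 2 * V ^ 2 * p ^ 7 * q ^ 5
    - 21785400 * U ^ 2 * V ^ 2 * p ^ 6 * q ^ 6 + 14938560 * U ^ 2 * V ^ 2 * p ^ 5 * q ^ 7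
    - 4668300 * U ^ 2 * V ^ 2 * p ^ 4 * q ^ 8 + 592800 * U ^ 2 * V ^ 2 * p ^ 3 * q ^ 9
    - 22230 * U ^ 2 * V ^ 2 * p ^ 2 * q ^ 10 + 1467180 * U * V ^ 3 * p ^ 5 * q ^ 7
    - 7335900 * U * V ^ 3 * p ^ 4 * q ^ 8 + 11411400 * U * V ^ 3 * p ^ 3 * q ^ 9
    - 6846840 * U * V ^ 3 * p ^ 2 * q ^ 10 + 1556100 * U * V ^ 3 * p * q ^ 11
    - 103740 * U * V ^ 3 * q ^ 12 - 125970 * V ^ 4 * q ^ 12

/-- `t ^ 13`-coefficient of the stage-1 expansion for `H` (`p`, `q` stand for `kA5`, `kB5`). -/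
def SH13 (U V p q : R) : R :=
    -77520 * U ^ 4 * p ^ 13 + 23940 * U ^ 3 * V * p ^ 13 - 518700 * U ^ 3 * V * p ^ 12 * q
    + 3112200 * U ^ 3 * V * p ^ 11 * q ^ 2 - 6846840 * U ^ 3 * V * p ^ 10 * q ^ 3
    + 5705700 * U ^ 3 * V * p ^ 9 * q ^ 4 - 1467180 * U ^ 3 * V * p ^ 8 * q ^ 5
    + 59280 * U ^ 2 * V ^ 2 * p ^ 10 * q ^ 3 - 1037400 * U ^ 2 * V ^ 2 * p ^ 9 * q ^ 4
    + 5601960 * U ^ 2 * V ^ 2 * p ^ 8 * q ^ 5 - 12448800 * U ^ 2 * V ^ 2 * p ^ 7 * q ^ 6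
    + 12448800 * U ^ 2 * V ^ 2 * p ^ 6 * q ^ 7 - 5601960 * U ^ 2 * V ^ 2 * p ^ 5 * q ^ 8
    + 1037400 * U ^ 2 * V ^ 2 * p ^ 4 * q ^ 9 - 59280 * U ^ 2 * V ^ 2 * p ^ 3 * q ^ 10
    - 1467180 * U * V ^ 3 * p ^ 5 * q ^ 8 + 5705700 * U * V ^ 3 * p ^ 4 * q ^ 9
    - 6846840 * U * V ^ 3 * p ^ 3 * q ^ 10 + 3112200 * U * V ^ 3 * p ^ 2 * q ^ 11
    - 518700 * U * V ^ 3 * p * q ^ 12 + 23940 * U * V ^ 3 * q ^ 13 + 77520 * V ^ 4 * q ^ 13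

/-- `t ^ 14`-coefficient of the stage-1 expansion for `H` (`p`, `q` stand for `kA5`, `kB5`). -/
def SH14 (U V p q : R) : R :=
    -38760 * U ^ 4 * p ^ 14 + 3420 * U ^ 3 * V * p ^ 14 - 119700 * U ^ 3 * V * p ^ 13 * q
    + 1037400 * U ^ 3 * V * p ^ 12 * q ^ 2 - 3112200 * U ^ 3 * V * p ^ 11 * q ^ 3
    + 3423420 * U ^ 3 * V * p ^ 10 * q ^ 4 - 1141140 * U ^ 3 * V * p ^ 9 * q ^ 5
    - 103740 * U ^ 2 * V ^ 2 * p ^ 10 * q ^ 4 + 1244880 * U ^ 2 * V ^ 2 * p ^ 9 * q ^ 5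
    - 4668300 * U ^ 2 * V ^ 2 * p ^ 8 * q ^ 6 + 7113600 * U ^ 2 * V ^ 2 * p ^ 7 * q ^ 7
    - 4668300 * U ^ 2 * V ^ 2 * p ^ 6 * q ^ 8 + 1244880 * U ^ 2 * V ^ 2 * p ^ 5 * q ^ 9
    - 103740 * U ^ 2 * V ^ 2 * p ^ 4 * q ^ 10 + 1141140 * U * V ^ 3 * p ^ 5 * q ^ 9
    - 3423420 * U * V ^ 3 * p ^ 4 * q ^ 10 + 3112200 * U * V ^ 3 * p ^ 3 * q ^ 11
    - 1037400 * U * V ^ 3 * p ^ 2 * q ^ 12 + 119700 * U * V ^ 3 * p * q ^ 13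
    - 3420 * U * V ^ 3 * q ^ 14 - 38760 * V ^ 4 * q ^ 14

/-- `t ^ 15`-coefficient of the stage-1 expansion for `H` (`p`, `q` stand for `kA5`, `kB5`). -/
def SH15 (U V p q : R) : R :=
    -15504 * U ^ 4 * p ^ 15 + 228 * U ^ 3 * V * p ^ 15 - 17100 * U ^ 3 * V * p ^ 14 * q
    + 239400 * U ^ 3 * V * p ^ 13 * q ^ 2 - 1037400 * U ^ 3 * V * p ^ 12 * q ^ 3
    + 1556100 * U ^ 3 * V * p ^ 11 * q ^ 4 - 684684 * U ^ 3 * V * p ^ 10 * q ^ 5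
    + 124488 * U ^ 2 * V ^ 2 * p ^ 10 * q ^ 5 - 1037400 * U ^ 2 * V ^ 2 * p ^ 9 * q ^ 6
    + 2667600 * U ^ 2 * V ^ 2 * p ^ 8 * q ^ 7 - 2667600 * U ^ 2 * V ^ 2 * p ^ 7 * q ^ 8
    + 1037400 * U ^ 2 * V ^ 2 * p ^ 6 * q ^ 9 - 124488 * U ^ 2 * V ^ 2 * p ^ 5 * q ^ 10
    - 684684 * U * V ^ 3 * p ^ 5 * q ^ 10 + 1556100 * U * V ^ 3 * p ^ 4 * q ^ 11
    - 1037400 * U * V ^ 3 * p ^ 3 * q ^ 12 + 239400 * U * V ^ 3 * p ^ 2 * q ^ 13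
    - 17100 * U * V ^ 3 * p * q ^ 14 + 228 * U * V ^ 3 * q ^ 15 + 15504 * V ^ 4 * q ^ 15

/-- `t ^ 16`-coefficient of the stage-1 expansion for `H` (`p`, `q` stand for `kA5`, `kB5`). -/
def SH16 (U V p q : R) : R :=
    -4845 * U ^ 4 * p ^ 16 - 1140 * U ^ 3 * V * p ^ 15 * q + 34200 * U ^ 3 * V * p ^ 14 * q ^ 2
    - 239400 * U ^ 3 * V * p ^ 13 * q ^ 3 + 518700 * U ^ 3 * V * p ^ 12 * q ^ 4
    - 311220 * U ^ 3 * V * p ^ 11 * q ^ 5 - 103740 * U ^ 2 * V ^ 2 * p ^ 10 * q ^ 6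
    + 592800 * U ^ 2 * V ^ 2 * p ^ 9 * q ^ 7 - 1000350 * U ^ 2 * V ^ 2 * p ^ 8 * q ^ 8
    + 592800 * U ^ 2 * V ^ 2 * p ^ 7 * q ^ 9 - 103740 * U ^ 2 * V ^ 2 * p ^ 6 * q ^ 10
    + 311220 * U * V ^ 3 * p ^ 5 * q ^ 11 - 518700 * U * V ^ 3 * p ^ 4 * q ^ 12
    + 239400 * U * V ^ 3 * p ^ 3 * q ^ 13 - 34200 * U * V ^ 3 * p ^ 2 * q ^ 14
    + 1140 * U * V ^ 3 * p * q ^ 15 - 4845 * V ^ 4 * q ^ 16

/-- `t ^ 17`-coefficient of the stage-1 expansion for `H` (`p`, `q` stand for `kA5`, `kB5`). -/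
def SH17 (U V p q : R) : R :=
    -1140 * U ^ 4 * p ^ 17 + 2280 * U ^ 3 * V * p ^ 15 * q ^ 2 - 34200 * U ^ 3 * V * p ^ 14 * q ^ 3
    + 119700 * U ^ 3 * V * p ^ 13 * q ^ 4 - 103740 * U ^ 3 * V * p ^ 12 * q ^ 5
    + 59280 * U ^ 2 * V ^ 2 * p ^ 10 * q ^ 7 - 222300 * U ^ 2 * V ^ 2 * p ^ 9 * q ^ 8
    + 222300 * U ^ 2 * V ^ 2 * p ^ 8 * q ^ 9 - 59280 * U ^ 2 * V ^ 2 * p ^ 7 * q ^ 10
    - 103740 * U * V ^ 3 * p ^ 5 * q ^ 12 + 119700 * U * V ^ 3 * p ^ 4 * q ^ 13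
    - 34200 * U * V ^ 3 * p ^ 3 * q ^ 14 + 2280 * U * V ^ 3 * p ^ 2 * q ^ 15 + 1140 * V ^ 4 * q ^ 17

/-- `t ^ 18`-coefficient of the stage-1 expansion for `H` (`p`, `q` stand for `kA5`, `kB5`). -/
def SH18 (U V p q : R) : R :=
    -190 * U ^ 4 * p ^ 18 - 2280 * U ^ 3 * V * p ^ 15 * q ^ 3 + 17100 * U ^ 3 * V * p ^ 14 * q ^ 4
    - 23940 * U ^ 3 * V * p ^ 13 * q ^ 5 - 22230 * U ^ 2 * V ^ 2 * p ^ 10 * q ^ 8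
    + 49400 * U ^ 2 * V ^ 2 * p ^ 9 * q ^ 9 - 22230 * U ^ 2 * V ^ 2 * p ^ 8 * q ^ 10
    + 23940 * U * V ^ 3 * p ^ 5 * q ^ 13 - 17100 * U * V ^ 3 * p ^ 4 * q ^ 14
    + 2280 * U * V ^ 3 * p ^ 3 * q ^ 15 - 190 * V ^ 4 * q ^ 18

/-- `t ^ 19`-coefficient of the stage-1 expansion for `H` (`p`, `q` stand for `kA5`, `kB5`). -/
def SH19 (U V p q : R) : R :=
    -20 * U ^ 4 * p ^ 19 + 1140 * U ^ 3 * V * p ^ 15 * q ^ 4 - 3420 * U ^ 3 * V * p ^ 14 * q ^ 5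
    + 4940 * U ^ 2 * V ^ 2 * p ^ 10 * q ^ 9 - 4940 * U ^ 2 * V ^ 2 * p ^ 9 * q ^ 10
    - 3420 * U * V ^ 3 * p ^ 5 * q ^ 14 + 1140 * U * V ^ 3 * p ^ 4 * q ^ 15 + 20 * V ^ 4 * q ^ 19

/-- `t ^ 20`-coefficient of the stage-1 expansion for `H` (`p`, `q` stand for `kA5`, `kB5`). -/
def SH20 (U V p q : R) : R :=
    -U ^ 4 * p ^ 20 - 228 * U ^ 3 * V * p ^ 15 * q ^ 5 - 494 * U ^ 2 * V ^ 2 * p ^ 10 * q ^ 10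
    + 228 * U * V ^ 3 * p ^ 5 * q ^ 15 - V ^ 4 * q ^ 20

set_option maxHeartbeats 8000000 in
theorem stage1_H (U V p q t : R) :
    kH5 (U * (1 + t * p) ^ 5) (V * (1 - t * q) ^ 5) =
    SH0 U V p q + SH1 U V p q * t + SH2 U V p q * t ^ 2 + SH3 U V p q * t ^ 3 + SH4 U V p q * t ^ 4 +
      SH5 U V p q * t ^ 5 + SH6 U V p q * t ^ 6 + SH7 U V p q * t ^ 7 + SH8 U V p q * t ^ 8 +
      SH9 U V p q * t ^ 9 + SH10 U V p q * t ^ 10 + SH11 U V p q * t ^ 11 + SH12 U V p q * t ^ 12 +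
      SH13 U V p q * t ^ 13 + SH14 U V p q * t ^ 14 + SH15 U V p q * t ^ 15 + SH16 U V p q * t ^ 16 +
      SH17 U V p q * t ^ 17 + SH18 U V p q * t ^ 18 + SH19 U V p q * t ^ 19 + SH20 U V p q * t ^ 20 := by
  unfold SH0 SH1 SH2 SH3 SH4 SH5 SH6 SH7 SH8 SH9 SH10 SH11 SH12 SH13 SH14 SH15 SH16 SH17 SH18 SH19 SH20 kH5; ring

set_option maxHeartbeats 8000000 in
theorem stage2_H0 (U V : R) :
    SH0 U V (kA5 U V) (kB5 U V) = Hfamc0 (kH5 U V) (kT5 U V) := by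
  unfold SH0 Hfamc0
  simp only [kA5, kB5, kH5, kT5]
  ring

set_option maxHeartbeats 8000000 in
theorem stage2_H1 (U V : R) :
    SH1 U V (kA5 U V) (kB5 U V) = Hfamc1 (kH5 U V) (kT5 U V) := by
  unfold SH1 Hfamc1
  simp only [kA5, kB5, kH5, kT5]
  ring

set_option maxHeartbeats 8000000 in
theorem stage2_H2 (U V : R) :
    SH2 U V (kA5 U V) (kB5 U V) = Hfamc2 (kH5 U V) (kT5 U V) := by
  unfold SH2 Hfamc2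
  simp only [kA5_pow_2, kB5_pow_2, kH5_pow_2]
  simp only [PA2, PB2, PH2, kA5, kB5, kH5, kT5]
  ring

set_option maxHeartbeats 8000000 in
theorem stage2_H3 (U V : R) :
    SH3 U V (kA5 U V) (kB5 U V) = Hfamc3 (kH5 U V) (kT5 U V) := by
  unfold SH3 Hfamc3
  simp only [kA5_pow_2, kA5_pow_3, kB5_pow_2, kB5_pow_3]
  simp only [PA2, PA3, PB2, PB3, kA5, kB5, kH5, kT5]
  ring

set_option maxHeartbeats 8000000 in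
theorem stage2_H4 (U V : R) :
    SH4 U V (kA5 U V) (kB5 U V) = Hfamc4 (kH5 U V) (kT5 U V) := by
  unfold SH4 Hfamc4
  simp only [kA5_pow_2, kA5_pow_3, kA5_pow_4, kB5_pow_2, kB5_pow_3, kB5_pow_4, kH5_pow_3, kT5_pow_2]
  simp only [PA2, PA3, PA4, PB2, PB3, PB4, PH3, PT2, kA5, kB5, kH5, kT5]
  ring

set_option maxHeartbeats 8000000 in
theorem stage2_H5 (U V : R) :
    SH5 U V (kA5 U V) (kB5 U V) = Hfamc5 (kH5 U V) (kT5 U V) := by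
  unfold SH5 Hfamc5
  simp only [kA5_pow_2, kA5_pow_3, kA5_pow_4, kA5_pow_5, kB5_pow_2, kB5_pow_3, kB5_pow_4, kB5_pow_5, kH5_pow_2]
  simp only [PA2, PA3, PA4, PA5, PB2, PB3, PB4, PB5, PH2, kA5, kB5, kH5, kT5]
  ring

set_option maxHeartbeats 8000000 in
theorem stage2_H6 (U V : R) :
    SH6 U V (kA5 U V) (kB5 U V) = Hfamc6 (kH5 U V) (kT5 U V) := by
  unfold SH6 Hfamc6
  simp only [kA5_pow_2, kA5_pow_3, kA5_pow_4, kA5_pow_5, kA5_pow_6, kB5_pow_2, kB5_pow_3, kB5_pow_4, kB5_pow_5, kB5_pow_6, kH5_pow_4, kT5_pow_2]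
  simp only [PA2, PA3, PA4, PA5, PA6, PB2, PB3, PB4, PB5, PB6, PH4, PT2, kA5, kB5, kH5, kT5]
  ring

set_option maxHeartbeats 8000000 in
theorem stage2_H7 (U V : R) :
    SH7 U V (kA5 U V) (kB5 U V) = Hfamc7 (kH5 U V) (kT5 U V) := by
  unfold SH7 Hfamc7
  simp only [kA5_pow_2, kA5_pow_3, kA5_pow_4, kA5_pow_5, kA5_pow_6, kA5_pow_7, kB5_pow_2, kB5_pow_3, kB5_pow_4, kB5_pow_5, kB5_pow_6, kB5_pow_7, kH5_pow_3, kT5_pow_3]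
  simp only [PA2, PA3, PA4, PA5, PA6, PA7, PB2, PB3, PB4, PB5, PB6, PB7, PH3, PT3, kA5, kB5, kH5, kT5]
  ring

set_option maxHeartbeats 8000000 in
theorem stage2_H8 (U V : R) :
    SH8 U V (kA5 U V) (kB5 U V) = Hfamc8 (kH5 U V) (kT5 U V) := by
  unfold SH8 Hfamc8
  simp only [kA5_pow_2, kA5_pow_3, kA5_pow_4, kA5_pow_5, kA5_pow_6, kA5_pow_7, kA5_pow_8, kB5_pow_2, kB5_pow_3, kB5_pow_4, kB5_pow_5, kB5_pow_6, kB5_pow_7, kB5_pow_8, kH5_pow_2, kH5_pow_5, kT5_pow_2]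
  simp only [PA2, PA3, PA4, PA5, PA6, PA7, PA8, PB2, PB3, PB4, PB5, PB6, PB7, PB8, PH2, PH5, PT2, kA5, kB5, kH5, kT5]
  ring

set_option maxHeartbeats 8000000 in
theorem stage2_H9 (U V : R) :
    SH9 U V (kA5 U V) (kB5 U V) = Hfamc9 (kH5 U V) (kT5 U V) := by
  unfold SH9 Hfamc9
  simp only [kA5_pow_2, kA5_pow_3, kA5_pow_4, kA5_pow_5, kA5_pow_6, kA5_pow_7, kA5_pow_8, kA5_pow_9, kB5_pow_2, kB5_pow_3, kB5_pow_4, kB5_pow_5, kB5_pow_6, kB5_pow_7, kB5_pow_8, kB5_pow_9, kH5_pow_4, kT5_pow_3]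
  simp only [PA2, PA3, PA4, PA5, PA6, PA7, PA8, PA9, PB2, PB3, PB4, PB5, PB6, PB7, PB8, PB9, PH4, PT3, kA5, kB5, kH5, kT5]
  ring

set_option maxHeartbeats 8000000 in
theorem stage2_H10 (U V : R) :
    SH10 U V (kA5 U V) (kB5 U V) = Hfamc10 (kH5 U V) (kT5 U V) := by
  unfold SH10 Hfamc10
  simp only [kA5_pow_2, kA5_pow_3, kA5_pow_4, kA5_pow_5, kA5_pow_6, kA5_pow_7, kA5_pow_8, kA5_pow_9, kA5_pow_10, kB5_pow_2, kB5_pow_3, kB5_pow_4, kB5_pow_5, kB5_pow_6, kB5_pow_7, kB5_pow_8, kB5_pow_9, kB5_pow_10, kH5_pow_3, kH5_pow_6, kT5_pow_2, kT5_pow_4]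
  simp only [PA2, PA3, PA4, PA5, PA6, PA7, PA8, PA9, PA10, PB2, PB3, PB4, PB5, PB6, PB7, PB8, PB9, PB10, PH3, PH6, PT2, PT4, kA5, kB5, kH5, kT5]
  ring

set_option maxHeartbeats 8000000 in
theorem stage2_H11 (U V : R) :
    SH11 U V (kA5 U V) (kB5 U V) = Hfamc11 (kH5 U V) (kT5 U V) := by
  unfold SH11 Hfamc11
  simp only [kA5_pow_2, kA5_pow_3, kA5_pow_4, kA5_pow_5, kA5_pow_6, kA5_pow_7, kA5_pow_8, kA5_pow_9, kA5_pow_10, kA5_pow_11, kB5_pow_2, kB5_pow_3, kB5_pow_4, kB5_pow_5, kB5_pow_6, kB5_pow_7, kB5_pow_8, kB5_pow_9, kB5_pow_10, kB5_pow_11, kH5_pow_2, kH5_pow_5, kT5_pow_3]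
  simp only [PA2, PA3, PA4, PA5, PA6, PA7, PA8, PA9, PA10, PA11, PB2, PB3, PB4, PB5, PB6, PB7, PB8, PB9, PB10, PB11, PH2, PH5, PT3, kA5, kB5, kH5, kT5]
  ring

set_option maxHeartbeats 8000000 in
theorem stage2_H12 (U V : R) :
    SH12 U V (kA5 U V) (kB5 U V) = Hfamc12 (kH5 U V) (kT5 U V) := by
  unfold SH12 Hfamc12
  simp only [kA5_pow_2, kA5_pow_3, kA5_pow_4, kA5_pow_5, kA5_pow_6, kA5_pow_7, kA5_pow_8, kA5_pow_9, kA5_pow_10, kA5_pow_11, kA5_pow_12, kB5_pow_2, kB5_pow_3, kB5_pow_4, kB5_pow_5, kB5_pow_6, kB5_pow_7, kB5_pow_8, kB5_pow_9, kB5_pow_10, kB5_pow_11, kB5_pow_12, kH5_pow_4, kH5_pow_7, kT5_pow_2, kT5_pow_4]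
  simp only [PA2, PA3, PA4, PA5, PA6, PA7, PA8, PA9, PA10, PA11, PA12, PB2, PB3, PB4, PB5, PB6, PB7, PB8, PB9, PB10, PB11, PB12, PH4, PH7, PT2, PT4, kA5, kB5, kH5, kT5]
  ring

set_option maxHeartbeats 8000000 in
theorem stage2_H13 (U V : R) :
    SH13 U V (kA5 U V) (kB5 U V) = Hfamc13 (kH5 U V) (kT5 U V) := by
  unfold SH13 Hfamc13
  simp only [kA5_pow_2, kA5_pow_3, kA5_pow_4, kA5_pow_5, kA5_pow_6, kA5_pow_7, kA5_pow_8, kA5_pow_9, kA5_pow_10, kA5_pow_11, kA5_pow_12, kA5_pow_13, kB5_pow_2, kB5_pow_3, kB5_pow_4, kB5_pow_5, kB5_pow_6, kB5_pow_7, kB5_pow_8, kB5_pow_9, kB5_pow_10, kB5_pow_11, kB5_pow_12, kB5_pow_13, kH5_pow_3, kH5_pow_6, kT5_pow_3, kT5_pow_5]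
  simp only [PA2, PA3, PA4, PA5, PA6, PA7, PA8, PA9, PA10, PA11, PA12, PA13, PB2, PB3, PB4, PB5, PB6, PB7, PB8, PB9, PB10, PB11, PB12, PB13, PH3, PH6, PT3, PT5, kA5, kB5, kH5, kT5]
  ring

set_option maxHeartbeats 8000000 in
theorem stage2_H14 (U V : R) :
    SH14 U V (kA5 U V) (kB5 U V) = Hfamc14 (kH5 U V) (kT5 U V) := by
  unfold SH14 Hfamc14
  simp only [kA5_pow_2, kA5_pow_3, kA5_pow_4, kA5_pow_5, kA5_pow_6, kA5_pow_7, kA5_pow_8, kA5_pow_9, kA5_pow_10, kA5_pow_11, kA5_pow_12, kA5_pow_13, kA5_pow_14, kB5_pow_2, kB5_pow_3, kB5_pow_4, kB5_pow_5, kB5_pow_6, kB5_pow_7, kB5_pow_8, kB5_pow_9, kB5_pow_10, kB5_pow_11, kB5_pow_12, kB5_pow_13, kB5_pow_14, kH5_pow_2, kH5_pow_5, kH5_pow_8, kT5_pow_2, kT5_pow_4]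
  simp only [PA2, PA3, PA4, PA5, PA6, PA7, PA8, PA9, PA10, PA11, PA12, PA13, PA14, PB2, PB3, PB4, PB5, PB6, PB7, PB8, PB9, PB10, PB11, PB12, PB13, PB14, PH2, PH5, PH8, PT2, PT4, kA5, kB5, kH5, kT5]
  ring

set_option maxHeartbeats 8000000 in
theorem stage2_H15 (U V : R) :
    SH15 U V (kA5 U V) (kB5 U V) = Hfamc15 (kH5 U V) (kT5 U V) := by
  unfold SH15 Hfamc15
  simp only [kA5_pow_2, kA5_pow_3, kA5_pow_4, kA5_pow_5, kA5_pow_6, kA5_pow_7, kA5_pow_8, kA5_pow_9, kA5_pow_10, kA5_pow_11, kA5_pow_12, kA5_pow_13, kA5_pow_14, kA5_pow_15, kB5_pow_2, kB5_pow_3, kB5_pow_4, kB5_pow_5, kB5_pow_6, kB5_pow_7, kB5_pow_8, kB5_pow_9, kB5_pow_10, kB5_pow_11, kB5_pow_12, kB5_pow_13, kB5_pow_14, kB5_pow_15, kH5_pow_4, kH5_pow_7, kT5_pow_3, kT5_pow_5]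
  simp only [PA2, PA3, PA4, PA5, PA6, PA7, PA8, PA9, PA10, PA11, PA12, PA13, PA14, PA15, PB2, PB3, PB4, PB5, PB6, PB7, PB8, PB9, PB10, PB11, PB12, PB13, PB14, PB15, PH4, PH7, PT3, PT5, kA5, kB5, kH5, kT5]
  ring

set_option maxHeartbeats 8000000 in
theorem stage2_H16 (U V : R) :
    SH16 U V (kA5 U V) (kB5 U V) = Hfamc16 (kH5 U V) (kT5 U V) := by
  unfold SH16 Hfamc16
  simp only [kA5_pow_2, kA5_pow_3, kA5_pow_4, kA5_pow_5, kA5_pow_6, kA5_pow_7, kA5_pow_8, kA5_pow_9, kA5_pow_10, kA5_pow_11, kA5_pow_12, kA5_pow_13, kA5_pow_14, kA5_pow_15, kA5_pow_16, kB5_pow_2, kB5_pow_3, kB5_pow_4, kB5_pow_5, kB5_pow_6, kB5_pow_7, kB5_pow_8, kB5_pow_9, kB5_pow_10, kB5_pow_11, kB5_pow_12, kB5_pow_13, kB5_pow_14, kB5_pow_15, kB5_pow_16, kH5_pow_3, kH5_pow_6, kH5_pow_9, kT5_pow_2, kT5_pow_4, kT5_pow_6]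
  simp only [PA2, PA3, PA4, PA5, PA6, PA7, PA8, PA9, PA10, PA11, PA12, PA13, PA14, PA15, PA16, PB2, PB3, PB4, PB5, PB6, PB7, PB8, PB9, PB10, PB11, PB12, PB13, PB14, PB15, PB16, PH3, PH6, PH9, PT2, PT4, PT6, kA5, kB5, kH5, kT5]
  ring

set_option maxHeartbeats 8000000 in
theorem stage2_H17 (U V : R) :
    SH17 U V (kA5 U V) (kB5 U V) = Hfamc17 (kH5 U V) (kT5 U V) := by
  unfold SH17 Hfamc17
  simp only [kA5_pow_2, kA5_pow_3, kA5_pow_4, kA5_pow_5, kA5_pow_7, kA5_pow_8, kA5_pow_9, kA5_pow_10, kA5_pow_12, kA5_pow_13, kA5_pow_14, kA5_pow_15, kA5_pow_17, kB5_pow_2, kB5_pow_3, kB5_pow_4, kB5_pow_5, kB5_pow_7, kB5_pow_8, kB5_pow_9, kB5_pow_10, kB5_pow_12, kB5_pow_13, kB5_pow_14, kB5_pow_15, kB5_pow_17, kH5_pow_2, kH5_pow_5, kH5_pow_8, kT5_pow_3, kT5_pow_5]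
  simp only [PA2, PA3, PA4, PA5, PA7, PA8, PA9, PA10, PA12, PA13, PA14, PA15, PA17, PB2, PB3, PB4, PB5, PB7, PB8, PB9, PB10, PB12, PB13, PB14, PB15, PB17, PH2, PH5, PH8, PT3, PT5, kA5, kB5, kH5, kT5]
  ring

set_option maxHeartbeats 8000000 in
theorem stage2_H18 (U V : R) :
    SH18 U V (kA5 U V) (kB5 U V) = Hfamc18 (kH5 U V) (kT5 U V) := by
  unfold SH18 Hfamc18
  simp only [kA5_pow_3, kA5_pow_4, kA5_pow_5, kA5_pow_8, kA5_pow_9, kA5_pow_10, kA5_pow_13, kA5_pow_14, kA5_pow_15, kA5_pow_18, kB5_pow_3, kB5_pow_4, kB5_pow_5, kB5_pow_8, kB5_pow_9, kB5_pow_10, kB5_pow_13, kB5_pow_14, kB5_pow_15, kB5_pow_18, kH5_pow_4, kH5_pow_7, kH5_pow_10, kT5_pow_2, kT5_pow_4, kT5_pow_6]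
  simp only [PA3, PA4, PA5, PA8, PA9, PA10, PA13, PA14, PA15, PA18, PB3, PB4, PB5, PB8, PB9, PB10, PB13, PB14, PB15, PB18, PH4, PH7, PH10, PT2, PT4, PT6, kA5, kB5, kH5, kT5]
  ring

set_option maxHeartbeats 8000000 in
theorem stage2_H19 (U V : R) :
    SH19 U V (kA5 U V) (kB5 U V) = Hfamc19 (kH5 U V) (kT5 U V) := by
  unfold SH19 Hfamc19
  simp only [kA5_pow_4, kA5_pow_5, kA5_pow_9, kA5_pow_10, kA5_pow_14, kA5_pow_15, kA5_pow_19, kB5_pow_4, kB5_pow_5, kB5_pow_9, kB5_pow_10, kB5_pow_14, kB5_pow_15, kB5_pow_19, kH5_pow_3, kH5_pow_6, kH5_pow_9, kT5_pow_3, kT5_pow_5, kT5_pow_7]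
  simp only [PA4, PA5, PA9, PA10, PA14, PA15, PA19, PB4, PB5, PB9, PB10, PB14, PB15, PB19, PH3, PH6, PH9, PT3, PT5, PT7, kA5, kB5, kH5, kT5]
  ring

set_option maxHeartbeats 8000000 in
theorem stage2_H20 (U V : R) :
    SH20 U V (kA5 U V) (kB5 U V) = Hfamc20 (kH5 U V) (kT5 U V) := by
  unfold SH20 Hfamc20
  simp only [kA5_pow_5, kA5_pow_10, kA5_pow_15, kA5_pow_20, kB5_pow_5, kB5_pow_10, kB5_pow_15, kB5_pow_20, kH5_pow_2, kH5_pow_5, kH5_pow_8, kH5_pow_11, kT5_pow_2, kT5_pow_4, kT5_pow_6]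
  simp only [PA5, PA10, PA15, PA20, PB5, PB10, PB15, PB20, PH2, PH5, PH8, PH11, PT2, PT4, PT6, kA5, kB5, kH5, kT5]
  ring

theorem kH5_fam (U V t : R) :
    kH5 (U * (1 + t * kA5 U V) ^ 5) (V * (1 - t * kB5 U V) ^ 5) = Hfam (kH5 U V) (kT5 U V) t := by
  rw [stage1_H U V (kA5 U V) (kB5 U V) t, stage2_H0, stage2_H1, stage2_H2, stage2_H3, stage2_H4, stage2_H5, stage2_H6, stage2_H7, stage2_H8, stage2_H9, stage2_H10, stage2_H11, stage2_H12, stage2_H13, stage2_H14, stage2_H15, stage2_H16, stage2_H17, stage2_H18, stage2_H19, stage2_H20]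
  unfold Hfam
  ring

end

end Fermat.Agent.S52.FamStage9
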