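/-
S52 brick CERT-4d (helper6): **the inertia-fixed nonzero torsion point on the SHORT model.**

`W` a semistable integral Weierstrass model with `Δ ≠ 0`, `q` a prime, `lam ≠ q` an odd prime,
`P` a valuation subring of `ℚ̄` over `q`.  `InertiaFixed7.exists_inertia_fixed` gives a nonzero
`lam`-torsion point of `W(ℚ̄)` fixed by the whole inertia group of `P`; here it is transported
along helper2's equivariant isomorphism `ShortTransport2.shortEquiv` to the short form
`y² = x³ − 27 c₄ x − 54 c₆`, and its affine coordinates are shown to be fixed.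

* `shortOf_baseChange` : `(shortOf W)⁄ℚ̄` is literally `⟨0, 0, 0, 27 * (-c₄), 54 * (-c₆)⟩`;
* `coords_fixed` : a fixed affine point has fixed coordinates;
* `exists_inertia_fixed_short` : the point on the short model;
* `exists_inertia_fixed_short_coords` : the same with explicit coordinates.
-/
import Fermat.Agent.S52.InertiaFixed7
import Fermat.Agent.S52.ShortTransport2

set_option autoImplicit false

open WeierstrassCurve WeierstrassCurve.Affine WeierstrassCurve.Affine.Point

namespace Fermat.Agent.S52.FixedShort6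

open Fermat.Agent.S52.ShortTransport2

local notation "Qb" => AlgebraicClosure ℚ
local notation "GQ" => (AlgebraicClosure ℚ ≃ₐ[ℚ] AlgebraicClosure ℚ)

/-- the short form over `ℚ̄` is literally the short curve `y² = x³ + 27 (−c₄) x + 54 (−c₆)`. -/
theorem shortOf_baseChange (W : WeierstrassCurve ℤ) :
    (shortOf W).baseChange Qb =
      (⟨0, 0, 0, 27 * (-(W.c₄ : Qb)), 54 * (-(W.c₆ : Qb))⟩ : WeierstrassCurve Qb) := by
  ext <;> simp [shortOf, shortW, WeierstrassCurve.baseChange]

/-- a fixed affine point has fixed coordinates. -/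
theorem coords_fixed {E : WeierstrassCurve ℚ} (σ : GQ) {x y : Qb}
    {h : (E⁄Qb).Nonsingular x y}
    (hfix : σ • (Point.some x y h : (E⁄Qb).Point) = Point.some x y h) : σ x = x ∧ σ y = y := by
  rw [algEquiv_smul_def, Point.map_some] at hfix
  have := Point.some.inj hfix
  exact ⟨this.1, this.2⟩

/-- **An inertia-fixed nonzero `lam`-torsion point on the short model.** -/
theorem exists_inertia_fixed_short (W : WeierstrassCurve ℤ) (hΔ0 : W.Δ ≠ 0)
    (hss : W.IsSemistableModel) {q lam : ℕ} (hq : q.Prime) (hlam : lam.Prime) (hlam2 : lam ≠ 2)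
    (hne : lam ≠ q) (P : ValuationSubring Qb) (hP : P.LiesOverPrime q) :
    ∃ Q : ((shortOf W)⁄Qb).Point, Q ≠ 0 ∧ lam • Q = 0 ∧
      ∀ τ ∈ P.inertiaSubgroupIn ℚ, τ • Q = Q := by
  obtain ⟨Q, hQ0, hQ5, hfix⟩ :=
    Fermat.Agent.S52.InertiaFixed7.exists_inertia_fixed W hΔ0 hss hq hlam hlam2 hne P hP
  refine ⟨(shortEquiv W).symm Q, ?_, ?_, ?_⟩
  · intro h0
    apply hQ0
    have := congrArg (shortEquiv W) h0
    rwa [AddEquiv.apply_symm_apply, _root_.map_zero] at this
  · rw [← _root_.map_nsmul, hQ5, _root_.map_zero]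
  · intro τ hτ
    rw [← shortEquiv_symm_smul, algEquiv_smul_def, hfix τ hτ]

/-- **The same with explicit coordinates**: `x`, `y` are fixed by the whole inertia group. -/
theorem exists_inertia_fixed_short_coords (W : WeierstrassCurve ℤ) (hΔ0 : W.Δ ≠ 0)
    (hss : W.IsSemistableModel) {q lam : ℕ} (hq : q.Prime) (hlam : lam.Prime) (hlam2 : lam ≠ 2)
    (hne : lam ≠ q) (P : ValuationSubring Qb) (hP : P.LiesOverPrime q) :
    ∃ (x y : Qb) (h : ((shortOf W)⁄Qb).Nonsingular x y),
      lam • (Point.some x y h : ((shortOf W)⁄Qb).Point) = 0 ∧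
      ∀ τ ∈ P.inertiaSubgroupIn ℚ, τ x = x ∧ τ y = y := by
  obtain ⟨Q, hQ0, hQ5, hfix⟩ := exists_inertia_fixed_short W hΔ0 hss hq hlam hlam2 hne P hP
  rcases Q with _ | ⟨x, y, h⟩
  · exact absurd rfl hQ0
  · exact ⟨x, y, h, hQ5, fun τ hτ => coords_fixed τ (hfix τ hτ)⟩

end Fermat.Agent.S52.FixedShort6
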