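/-
S52 brick G, closed (helper1): **a semistable member of the family with irreducible mod-3 representation**, with all
inputs discharged (FAM = `Fam5Coprime.fam_package` + `hFAM`, CERT-4 = `Cert4Final1.exists_cert4`,
G = `GFinal4.exists_irreducible_member`).  Hypotheses: `W` semistable, `Δ ≠ 0` only.
-/
import Fermat.Agent.S52.GFinal4
import Fermat.Agent.S52.Cert4Final1
import Fermat.Agent.S52.Fam5Coprime

set_option autoImplicit false

open WeierstrassCurve Polynomial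

namespace Fermat.Agent.S52.GClosed1

open Fermat.Agent.S52.Fam5Poly

/-- **brick G, closed.** -/
theorem exists_irreducible_member (W : WeierstrassCurve ℤ) (hΔ : W.Δ ≠ 0)
    (hss : W.IsSemistableModel) :
    ∃ (t : ℤ) (W' : WeierstrassCurve ℤ), t ≠ 0 ∧ W'.a₁ = W.a₁ ∧ W'.a₂ = W.a₂ ∧ W'.a₃ = W.a₃ ∧
      W'.c₄ = (C4 W.c₄ W.c₆).eval t ∧ W'.c₆ = (C6 W.c₄ W.c₆).eval t ∧
      W'.Δ = W.Δ * ((Gp W.c₄ W.c₆).eval t) ^ 5 ∧
      W'.Δ ≠ 0 ∧ W'.IsSemistableModel ∧ W'.ModRepIsIrreducible 3 := by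
  obtain ⟨h4, h6, hG, hrel, hcop, -⟩ := Fam5Coprime.fam_package W hΔ hss
  obtain ⟨θ, s, g, hs, hgs, hgθ, hθ⟩ := Cert4Final1.exists_cert4 W hΔ hss (C6 W.c₄ W.c₆)
    (Fam5Coprime.hFAM W.c₄ W.c₆)
  exact GFinal4.exists_irreducible_member W hΔ hss _ _ _ h4 h6 hG hrel hcop θ hθ g hgθ s hs hgs

end Fermat.Agent.S52.GClosed1
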