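/-
S52 toolkit (helper4): **irreducibility of the mod `p` representation from one Frobenius element.**

`W` an integral Weierstrass curve with `Δ ≠ 0`, `p` an odd prime, `ℓ ≠ p` a prime of good reduction such that
`X² − a_ℓ(W) X + ℓ` has no root modulo `p`.  Then `W.ModRepIsIrreducible p`: a Frobenius element `σ` over `ℓ`
satisfies `σ² − a_ℓ σ + ℓ = 0` on `W[p]` (`CharRel4.relQbar`), so it has no eigenvector, so a nonzero Galois-stable
subspace contains two independent vectors `v`, `σ v`, i.e. everything (`#W[p] = p²`).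
-/
import Fermat.Agent.S52.TorsCong4
import Fermat.Agent.ES.Q58.CoordField13
import Fermat.Prelude.Def_FLTPrelim_ModularRep

set_option autoImplicit false

open WeierstrassCurve WeierstrassCurve.Affine WeierstrassCurve.Affine.Point

namespace Fermat.Agent.S52.IrredFrob4

local notation "Qb" => AlgebraicClosure ℚ
local notation "GQ" => (AlgebraicClosure ℚ ≃ₐ[ℚ] AlgebraicClosure ℚ)

/-- a vector space over `ZMod p` with `p²` elements is spanned by any two independent vectors. -/
theorem mem_of_card_sq {p : ℕ} [Fact p.Prime] {T : Type*} [AddCommGroup T] [Module (ZMod p) T]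
    (hcard : Nat.card T = p ^ 2) (N : Submodule (ZMod p) T) {v w : T} (hv : v ∈ N) (hw : w ∈ N)
    (hv0 : v ≠ 0) (hind : ∀ c : ZMod p, w ≠ c • v) : N = ⊤ := by
  have hfin : Finite T := Nat.finite_of_card_ne_zero (by
    rw [hcard]; exact pow_ne_zero _ (Fact.out : p.Prime).ne_zero)
  let g : ZMod p × ZMod p → T := fun ab => ab.1 • v + ab.2 • w
  have hinj : Function.Injective g := by
    rintro ⟨a, b⟩ ⟨a', b'⟩ h
    simp only [g] at h
    have h1 : (b - b') • w = (a' - a) • v := by
      rw [sub_smul, sub_smul]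
      rw [sub_eq_sub_iff_add_eq_add, add_comm (b • w)]
      exact h
    have hb : b = b' := by
      by_contra hbb
      have hne : b - b' ≠ 0 := sub_ne_zero.mpr hbb
      apply hind ((b - b')⁻¹ * (a' - a))
      rw [mul_smul, ← h1, smul_smul, inv_mul_cancel₀ hne, one_smul]
    subst hb
    rw [sub_self, zero_smul] at h1
    have ha : a' - a = 0 := by
      rcases smul_eq_zero.mp h1.symm with h2 | h2
      · exact h2
      · exact absurd h2 hv0
    rw [sub_eq_zero.mp ha]
  have hcard' : Nat.card (ZMod p × ZMod p) = Nat.card T := by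
    rw [Nat.card_prod, Nat.card_zmod, hcard, sq]
  have hbij : Function.Bijective g := by
    have : Fintype T := Fintype.ofFinite T
    rw [Fintype.bijective_iff_injective_and_card]
    refine ⟨hinj, ?_⟩
    rw [← Nat.card_eq_fintype_card, ← Nat.card_eq_fintype_card, hcard']
  rw [eq_top_iff]
  intro x _
  obtain ⟨⟨a, b⟩, rfl⟩ := hbij.2 x
  exact N.add_mem (N.smul_mem a hv) (N.smul_mem b hw)

/-- **irreducibility of the mod `p` representation from one Frobenius element without eigenvalue.** -/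
theorem modRepIsIrreducible_of_frob (W : WeierstrassCurve ℤ) (hΔ : W.Δ ≠ 0) {p : ℕ} (hp : p.Prime)
    (hp2 : p ≠ 2) {ℓ : ℕ} (hℓ : ℓ.Prime) (hgood : W.IsGoodPrimeFor ℓ) (hℓp : ℓ ≠ p)
    (hroot : ∀ c : ZMod p, c ^ 2 - (W.apOfModel ℓ : ZMod p) * c + (ℓ : ZMod p) ≠ 0) :
    W.ModRepIsIrreducible p := by
  have : Fact p.Prime := ⟨hp⟩
  have hodd : Odd p := hp.odd_of_ne_two hp2
  have hℓp' : ¬ ℓ ∣ p := fun h => hℓp ((Nat.prime_dvd_prime_iff_eq hℓ hp).mp h)
  have hΔQ : (W.map (Int.castRingHom ℚ)).Δ ≠ 0 := by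
    rw [WeierstrassCurve.map_Δ, eq_intCast]
    exact_mod_cast hΔ
  have hcard := Fermat.Agent.ES.Q58.CoordField13.card_torsionBy_odd hΔQ hodd
  have hfin := Fermat.Agent.ES.Q58.CoordField13.finite_torsionBy_odd
    (E := W.map (Int.castRingHom ℚ)) hodd
  refine ⟨?_, ?_⟩
  · rw [← Finite.one_lt_card_iff_nontrivial, hcard]
    exact Nat.one_lt_pow two_ne_zero hp.one_lt
  · intro N hN
    by_cases hbot : N = ⊥
    · exact Or.inl hbot
    right
    obtain ⟨v, hvN, hv0⟩ := (Submodule.ne_bot_iff N).mp hbot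
    obtain ⟨P, σ, hP, hσ⟩ := Fermat.Agent.Lib.exists_isFrobeniusAt ℓ hℓ
    refine mem_of_card_sq hcard N hvN (hN σ v hvN) hv0 ?_
    intro c hc
    have hrel := Fermat.Agent.S52.TorsCong4.rel_torsion W hℓ hgood hodd hℓp' P σ hP hσ v
    rw [hc, smul_comm σ c v, hc, ← Int.cast_smul_eq_zsmul (ZMod p), ← Nat.cast_smul_eq_nsmul (ZMod p),
      smul_smul, smul_smul, ← sub_smul, ← add_smul] at hrel
    rcases smul_eq_zero.mp hrel with h0 | h0
    · apply hroot c
      rw [← h0]
      ring
    · exact hv0 h0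

end Fermat.Agent.S52.IrredFrob4
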