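/-
S52 (helper3), LS glue, generic layer: **the group law on a short Weierstrass curve from slope data.**

`E : WeierstrassCurve F` over a field with `a₁ = a₂ = a₃ = 0` (`IsShort E`).  Chord and tangent additions are
certified by a slope `L` and polynomial identities:
* `add_of_slope`  : `x₁ ≠ x₂`, `L (x₁ − x₂) = y₁ − y₂`, `x₃ = L² − x₁ − x₂`, `y₃ = −(L (x₃ − x₁) + y₁)` ⟹
  `(x₁,y₁) + (x₂,y₂) = (x₃,y₃)`;
* `two_nsmul_of_slope` : `y₁ ≠ 0`, `L (2 y₁) = 3 x₁² + a₄`, `x₃ = L² − 2 x₁`, `y₃ = −(L (x₃ − x₁) + y₁)` ⟹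
  `2 • (x₁,y₁) = (x₃,y₃)`;
* `neg_some'` : `−(x,y) = (x,−y)`; `equation_iff`; `nonsingular_of_equation` (from `Δ ≠ 0`).
-/
import Mathlib.AlgebraicGeometry.EllipticCurve.Affine.Point

set_option autoImplicit false

open WeierstrassCurve WeierstrassCurve.Affine

namespace Fermat.Agent.S52.ShortAdd3

variable {F : Type*} [Field F]

/-- a short Weierstrass curve `y² = x³ + a₄ x + a₆`. -/
structure IsShort (E : WeierstrassCurve F) : Prop where
  a₁ : E.a₁ = 0
  a₂ : E.a₂ = 0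
  a₃ : E.a₃ = 0

theorem isShort_mk (A B : F) : IsShort (⟨0, 0, 0, A, B⟩ : WeierstrassCurve F) := ⟨rfl, rfl, rfl⟩

variable {E : WeierstrassCurve F}

theorem equation_iff (hE : IsShort E) (x y : F) :
    E.toAffine.Equation x y ↔ y ^ 2 = x ^ 3 + E.a₄ * x + E.a₆ := by
  rw [Affine.equation_iff, hE.a₁, hE.a₂, hE.a₃]
  constructor
  · intro h; linear_combination h
  · intro h; linear_combination h

theorem nonsingular_of_equation (hE : IsShort E) (hΔ : E.Δ ≠ 0) {x y : F}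
    (h : y ^ 2 = x ^ 3 + E.a₄ * x + E.a₆) : E.toAffine.Nonsingular x y :=
  (Affine.equation_iff_nonsingular_of_Δ_ne_zero (W := E) hΔ).mp ((equation_iff hE x y).mpr h)

theorem equation_of_nonsingular (hE : IsShort E) {x y : F} (h : E.toAffine.Nonsingular x y) :
    y ^ 2 = x ^ 3 + E.a₄ * x + E.a₆ :=
  (equation_iff hE x y).mp h.1

theorem negY_eq (hE : IsShort E) (x y : F) : E.toAffine.negY x y = -y := by
  rw [Affine.negY, hE.a₁, hE.a₃]; ring

theorem Δ_eq (hE : IsShort E) : E.Δ = -16 * (4 * E.a₄ ^ 3 + 27 * E.a₆ ^ 2) := by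
  rw [WeierstrassCurve.Δ, WeierstrassCurve.b₂, WeierstrassCurve.b₄, WeierstrassCurve.b₆,
    WeierstrassCurve.b₈, hE.a₁, hE.a₂, hE.a₃]
  ring

theorem some_congr {x y x' y' : F} (h : E.toAffine.Nonsingular x y)
    (h' : E.toAffine.Nonsingular x' y') (hx : x = x') (hy : y = y') :
    (Point.some x y h : E.toAffine.Point) = Point.some x' y' h' := by
  subst hx; subst hy; rfl

/-- negation on a short curve. -/
theorem neg_some' (hE : IsShort E) {x y : F} (h : E.toAffine.Nonsingular x y)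
    (h' : E.toAffine.Nonsingular x (-y)) :
    -(Point.some x y h : E.toAffine.Point) = Point.some x (-y) h' := by
  rw [Point.neg_some]
  exact some_congr _ _ rfl (negY_eq hE x y)

theorem nonsingular_neg' (hE : IsShort E) {x y : F} (h : E.toAffine.Nonsingular x y) :
    E.toAffine.Nonsingular x (-y) := by
  have := (Affine.nonsingular_neg (W' := E.toAffine) x y).mpr h
  rwa [negY_eq hE] at this

variable [DecidableEq F]

/-- **chord addition certified by a slope.** -/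
theorem add_of_slope (hE : IsShort E) {x₁ y₁ x₂ y₂ x₃ y₃ : F}
    (h₁ : E.toAffine.Nonsingular x₁ y₁) (h₂ : E.toAffine.Nonsingular x₂ y₂)
    (h₃ : E.toAffine.Nonsingular x₃ y₃) (hx : x₁ ≠ x₂) (L : F)
    (hL : L * (x₁ - x₂) = y₁ - y₂) (hx₃ : x₃ = L ^ 2 - x₁ - x₂)
    (hy₃ : y₃ = -(L * (x₃ - x₁) + y₁)) :
    (Point.some x₁ y₁ h₁ : E.toAffine.Point) + Point.some x₂ y₂ h₂ = Point.some x₃ y₃ h₃ := by
  rw [Point.add_of_X_ne hx]
  have hs : E.toAffine.slope x₁ x₂ y₁ y₂ = L := by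
    rw [Affine.slope_of_X_ne hx, div_eq_iff (sub_ne_zero.mpr hx), hL]
  have hX : E.toAffine.addX x₁ x₂ (E.toAffine.slope x₁ x₂ y₁ y₂) = x₃ := by
    rw [hs, Affine.addX, hE.a₁, hE.a₂, hx₃]; ring
  refine some_congr _ _ hX ?_
  rw [Affine.addY, negY_eq hE, Affine.negAddY, hX, hs, hy₃]

/-- **doubling certified by a slope.** -/
theorem two_nsmul_of_slope (hE : IsShort E) (h2 : (2 : F) ≠ 0) {x₁ y₁ x₃ y₃ : F}
    (h₁ : E.toAffine.Nonsingular x₁ y₁) (h₃ : E.toAffine.Nonsingular x₃ y₃) (hy : y₁ ≠ 0) (L : F)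
    (hL : L * (2 * y₁) = 3 * x₁ ^ 2 + E.a₄) (hx₃ : x₃ = L ^ 2 - 2 * x₁)
    (hy₃ : y₃ = -(L * (x₃ - x₁) + y₁)) :
    2 • (Point.some x₁ y₁ h₁ : E.toAffine.Point) = Point.some x₃ y₃ h₃ := by
  have h2y : y₁ - -y₁ ≠ 0 := by
    intro h
    have h2' : (2 : F) * y₁ = 0 := by linear_combination h
    exact hy ((mul_eq_zero.mp h2').resolve_left h2)
  have hne : y₁ ≠ E.toAffine.negY x₁ y₁ := by
    rw [negY_eq hE]
    intro h
    apply h2y
    linear_combination h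
  rw [two_nsmul, Point.add_self_of_Y_ne hne]
  have hs : E.toAffine.slope x₁ x₁ y₁ y₁ = L := by
    rw [Affine.slope_of_Y_ne rfl hne, negY_eq hE, hE.a₁, hE.a₂, div_eq_iff h2y]
    linear_combination -hL
  have hX : E.toAffine.addX x₁ x₁ (E.toAffine.slope x₁ x₁ y₁ y₁) = x₃ := by
    rw [hs, Affine.addX, hE.a₁, hE.a₂, hx₃]; ring
  refine some_congr _ _ hX ?_
  rw [Affine.addY, negY_eq hE, Affine.negAddY, hX, hs, hy₃]

end Fermat.Agent.S52.ShortAdd3
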