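/-
S52 (helper3), LS glue: **the universal curve with a point of order 5 in "Tate coordinates" `(s, β)`.**

For `s β` put `x₁ = 3(s² − 6sβ + β²)`, `y₁ = −108 β s²`, `A = −27 c₄ᵀ(s,β)`, `B = −54 c₆ᵀ(s,β)` (the short form of
Tate's normal form `y² + (s−β)xy − βs² y = x³ − βs x²`).  Then `P = (x₁, y₁)` is a point of order `5` on
`y² = x³ + A x + B`, `2P` is the same construction at `(β, −s)`, and the tangent slopes at `P`, `2P` are
`3(s − β)`, `3(s + β)`: so `(s, β)` is recovered from `P` by RATIONAL operations (`coordOf`).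

`dS dB` : the polynomial map `F̃_t : (s, β) ↦ (s', β')` (coefficients in `ℤ[t]`) which realises the deformation
`z ↦ z + t·kw(z)` of the Klein parameter on every universal 5-torsion section (identities in `KleinSec3`).
-/
import Fermat.Agent.S52.ShortAdd3

set_option autoImplicit false

open WeierstrassCurve WeierstrassCurve.Affine

namespace Fermat.Agent.S52.TateFive3

open Fermat.Agent.S52.ShortAdd3

section Ring

variable {R : Type*} [CommRing R]

/-- `x(P)`. -/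
def tx1 (s b : R) : R := 3 * (s ^ 2 - 6 * s * b + b ^ 2)
/-- `y(P)`. -/
def ty1 (s b : R) : R := -(108 * b * s ^ 2)
/-- `x(2P)`. -/
def tx2 (s b : R) : R := 3 * (s ^ 2 + 6 * s * b + b ^ 2)
/-- `y(2P)`. -/
def ty2 (s b : R) : R := 108 * b ^ 2 * s
/-- `c₄` of the Tate normal form. -/
def tc4 (s b : R) : R := s ^ 4 + 12 * s ^ 3 * b + 14 * s ^ 2 * b ^ 2 - 12 * s * b ^ 3 + b ^ 4
/-- `c₆` of the Tate normal form. -/
def tc6 (s b : R) : R :=
  -(s ^ 6 + 18 * s ^ 5 * b + 75 * s ^ 4 * b ^ 2 + 75 * s ^ 2 * b ^ 4 - 18 * s * b ^ 5 + b ^ 6)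
/-- the coefficient `a₄ = −27 c₄`. -/
def tA (s b : R) : R := -(27 * tc4 s b)
/-- the coefficient `a₆ = −54 c₆`. -/
def tB (s b : R) : R := -(54 * tc6 s b)

/-- first component of the deformation map `F̃_t`. -/
def dS (s b t : R) : R :=
  s ^ 11 * t ^ 5 + 66 * s ^ 10 * b * t ^ 5 + 1793 * s ^ 9 * b ^ 2 * t ^ 5 + 5 * s ^ 9 * t ^ 4
    + 24024 * s ^ 8 * b ^ 3 * t ^ 5 + 264 * s ^ 8 * b * t ^ 4 + 163042 * s ^ 7 * b ^ 4 * t ^ 5 + 5372 * s ^ 7 * b ^ 2 * t ^ 4
    + 10 * s ^ 7 * t ^ 3 + 475596 * s ^ 6 * b ^ 5 * t ^ 5 + 48312 * s ^ 6 * b ^ 3 * t ^ 4 + 396 * s ^ 6 * b * t ^ 3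
    + 80938 * s ^ 5 * b ^ 6 * t ^ 5 + 164046 * s ^ 5 * b ^ 4 * t ^ 4 + 5358 * s ^ 5 * b ^ 2 * t ^ 3 + 10 * s ^ 5 * t ^ 2
    + 24024 * s ^ 4 * b ^ 7 * t ^ 5 + 48312 * s ^ 4 * b ^ 5 * t ^ 4 + 24552 * s ^ 4 * b ^ 3 * t ^ 3 + 264 * s ^ 4 * b * t ^ 2
    - 2563 * s ^ 3 * b ^ 8 * t ^ 5 - 3364 * s ^ 3 * b ^ 6 * t ^ 4 + 966 * s ^ 3 * b ^ 4 * t ^ 3 + 1772 * s ^ 3 * b ^ 2 * t ^ 2
    + 5 * s ^ 3 * t + 66 * s ^ 2 * b ^ 9 * t ^ 5 + 264 * s ^ 2 * b ^ 7 * t ^ 4 + 396 * s ^ 2 * b ^ 5 * t ^ 3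
    + 264 * s ^ 2 * b ^ 3 * t ^ 2 + 66 * s ^ 2 * b * t - 11 * s * b ^ 10 * t ^ 5 - 43 * s * b ^ 8 * t ^ 4
    - 62 * s * b ^ 6 * t ^ 3 - 38 * s * b ^ 4 * t ^ 2 - 7 * s * b ^ 2 * t + s

/-- second component of the deformation map `F̃_t`. -/
def dB (s b t : R) : R := dS b (-s) t

/-! ### universal identities -/

theorem eqn1 (s b : R) : ty1 s b ^ 2 = tx1 s b ^ 3 + tA s b * tx1 s b + tB s b := by
  simp only [ty1, tx1, tA, tB, tc4, tc6]; ring

theorem slope1_mul (s b : R) : 3 * (s - b) * (2 * ty1 s b) = 3 * tx1 s b ^ 2 + tA s b := by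
  simp only [ty1, tx1, tA, tc4]; ring

theorem dbl_x (s b : R) : tx1 b (-s) = (3 * (s - b)) ^ 2 - 2 * tx1 s b := by
  simp only [tx1]; ring

theorem dbl_y (s b : R) :
    ty1 b (-s) = -(3 * (s - b) * (tx1 b (-s) - tx1 s b) + ty1 s b) := by
  simp only [ty1, tx1]; ring

theorem tA_double (s b : R) : tA b (-s) = tA s b := by
  simp only [tA, tc4]; ring

theorem tB_double (s b : R) : tB b (-s) = tB s b := by
  simp only [tB, tc6]; ring

theorem tx1_neg (s b : R) : tx1 (-s) (-b) = tx1 s b := by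
  simp only [tx1]; ring

theorem ty1_neg (s b : R) : ty1 (-s) (-b) = -ty1 s b := by
  simp only [ty1]; ring

theorem tx2_eq (s b : R) : tx2 s b = tx1 b (-s) := by
  simp only [tx1, tx2]; ring

theorem ty2_eq (s b : R) : ty2 s b = ty1 b (-s) := by
  simp only [ty1, ty2]; ring

theorem disc_eq (s b : R) :
    4 * tA s b ^ 3 + 27 * tB s b ^ 2 = 136048896 * s ^ 5 * b ^ 5 * (s ^ 2 + 11 * s * b - b ^ 2) := by
  simp only [tA, tB, tc4, tc6]; ring

theorem dS_neg (s b t : R) : dS (-s) (-b) t = -dS s b t := by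
  simp only [dS]; ring

theorem dB_neg (s b t : R) : dB (-s) (-b) t = -dB s b t := by
  simp only [dB, dS_neg]

theorem dS_double (s b t : R) : dS b (-s) t = dB s b t := rfl

theorem dB_double (s b t : R) : dB b (-s) t = -dS s b t := by
  simp only [dB, dS_neg]

theorem dS_zero (s b : R) : dS s b 0 = s := by
  simp only [dS]; ring

theorem dB_zero (s b : R) : dB s b 0 = b := by
  simp only [dB, dS]; ring

section Map

variable {S : Type*} [CommRing S] (φ : R →+* S)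

theorem map_tx1 (s b : R) : φ (tx1 s b) = tx1 (φ s) (φ b) := by
  simp only [tx1, map_mul, map_add, map_sub, map_pow, map_ofNat]

theorem map_ty1 (s b : R) : φ (ty1 s b) = ty1 (φ s) (φ b) := by
  simp only [ty1, map_mul, map_neg, map_pow, map_ofNat]

theorem map_dS (s b t : R) : φ (dS s b t) = dS (φ s) (φ b) (φ t) := by
  simp only [dS, map_mul, map_add, map_sub, map_pow, map_ofNat]

theorem map_dB (s b t : R) : φ (dB s b t) = dB (φ s) (φ b) (φ t) := by
  simp only [dB, map_dS, map_neg]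

end Map

end Ring

/-! ### points -/

section Points

variable {F : Type*} [Field F]

/-- `E` is the short curve `y² = x³ + tA s b x + tB s b`, and it is nonsingular. -/
structure IsTate (E : WeierstrassCurve F) (s b : F) : Prop where
  short : IsShort E
  a₄ : E.a₄ = tA s b
  a₆ : E.a₆ = tB s b
  Δ : E.Δ ≠ 0

namespace IsTate

variable {E : WeierstrassCurve F} {s b : F}

theorem Δ_eq (h : IsTate E s b) :
    E.Δ = -(16 * 136048896) * s ^ 5 * b ^ 5 * (s ^ 2 + 11 * s * b - b ^ 2) := by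
  rw [ShortAdd3.Δ_eq h.short, h.a₄, h.a₆]
  linear_combination (-16 : F) * disc_eq s b

theorem two_ne_zero (h : IsTate E s b) : (2 : F) ≠ 0 := by
  intro h2
  apply h.Δ
  rw [h.Δ_eq]
  have : (16 : F) = 0 := by
    have : (16 : F) = 2 * 8 := by norm_num
    rw [this, h2, zero_mul]
  rw [this]; ring

theorem three_ne_zero (h : IsTate E s b) : (3 : F) ≠ 0 := by
  intro h3
  apply h.Δ
  rw [h.Δ_eq]
  have : (136048896 : F) = 0 := by
    have : (136048896 : F) = 3 * 45349632 := by norm_num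
    rw [this, h3, zero_mul]
  rw [this]; ring

theorem s_ne_zero (h : IsTate E s b) : s ≠ 0 := by
  intro hs
  apply h.Δ
  rw [h.Δ_eq, hs]; ring

theorem b_ne_zero (h : IsTate E s b) : b ≠ 0 := by
  intro hb
  apply h.Δ
  rw [h.Δ_eq, hb]; ring

theorem six_ne_zero (h : IsTate E s b) : (6 : F) ≠ 0 := by
  have : (6 : F) = 2 * 3 := by norm_num
  rw [this]
  exact mul_ne_zero h.two_ne_zero h.three_ne_zero

theorem ty1_ne_zero (h : IsTate E s b) : ty1 s b ≠ 0 := by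
  have h108 : (108 : F) ≠ 0 := by
    have : (108 : F) = 2 ^ 2 * 3 ^ 3 := by norm_num
    rw [this]
    exact mul_ne_zero (pow_ne_zero _ h.two_ne_zero) (pow_ne_zero _ h.three_ne_zero)
  rw [ty1]
  exact neg_ne_zero.mpr (mul_ne_zero (mul_ne_zero h108 h.b_ne_zero) (pow_ne_zero _ h.s_ne_zero))

/-- doubling: `(s, β) ↦ (β, −s)`. -/
theorem double (h : IsTate E s b) : IsTate E b (-s) :=
  ⟨h.short, by rw [h.a₄, tA_double], by rw [h.a₆, tB_double], h.Δ⟩

/-- negation: `(s, β) ↦ (−s, −β)`. -/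
theorem neg (h : IsTate E s b) : IsTate E (-s) (-b) := h.double.double

theorem ns (h : IsTate E s b) : E.toAffine.Nonsingular (tx1 s b) (ty1 s b) :=
  nonsingular_of_equation h.short h.Δ (by rw [h.a₄, h.a₆]; exact eqn1 s b)

/-- **the universal point of order `5`.** -/
def pt (h : IsTate E s b) : E.toAffine.Point := Point.some _ _ h.ns

theorem pt_ne_zero (h : IsTate E s b) : h.pt ≠ 0 := Point.some_ne_zero _

/-- the tangent slope at `P` is `3 (s − β)`. -/
theorem slope_pt (h : IsTate E s b) :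
    (3 * tx1 s b ^ 2 + E.a₄) / (2 * ty1 s b) = 3 * (s - b) := by
  rw [div_eq_iff (mul_ne_zero h.two_ne_zero h.ty1_ne_zero), h.a₄]
  exact (slope1_mul s b).symm

theorem neg_pt (h : IsTate E s b) : -h.pt = h.neg.pt := by
  rw [pt, neg_some' h.short h.ns (nonsingular_neg' h.short h.ns)]
  exact some_congr _ _ (tx1_neg s b).symm (ty1_neg s b).symm

variable [DecidableEq F]

theorem two_nsmul_pt (h : IsTate E s b) : 2 • h.pt = h.double.pt :=
  two_nsmul_of_slope h.short h.two_ne_zero h.ns h.double.ns h.ty1_ne_zero (3 * (s - b))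
    (by rw [h.a₄]; exact slope1_mul s b) (dbl_x s b) (dbl_y s b)

theorem four_nsmul_pt (h : IsTate E s b) : 4 • h.pt = -h.pt := by
  have : (4 : ℕ) = 2 * 2 := rfl
  rw [this, mul_nsmul, two_nsmul_pt, two_nsmul_pt, neg_pt]

theorem five_nsmul_pt (h : IsTate E s b) : 5 • h.pt = 0 := by
  have : (5 : ℕ) = 4 + 1 := rfl
  rw [this, add_nsmul, one_nsmul, four_nsmul_pt, neg_add_cancel]

theorem addOrderOf_pt (h : IsTate E s b) : addOrderOf h.pt = 5 :=
  haveI : Fact (Nat.Prime 5) := ⟨Nat.prime_five⟩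
  addOrderOf_eq_prime h.five_nsmul_pt h.pt_ne_zero

theorem nsmul_pt_eq_zero_iff (h : IsTate E s b) (n : ℕ) : n • h.pt = 0 ↔ 5 ∣ n := by
  rw [← h.addOrderOf_pt, addOrderOf_dvd_iff_nsmul_eq_zero]

theorem three_nsmul_pt (h : IsTate E s b) : 3 • h.pt = h.double.neg.pt := by
  have h5 := h.five_nsmul_pt
  have : (5 : ℕ) = 3 + 2 := rfl
  rw [this, add_nsmul, two_nsmul_pt] at h5
  have h3 : 3 • h.pt = -(h.double.pt) := eq_neg_of_add_eq_zero_left h5
  rw [h3, neg_pt]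

end IsTate

end Points

end Fermat.Agent.S52.TateFive3
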