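/-
S52 (helper3), LS glue: **the universal 5-torsion sections of the Klein family in Tate coordinates.**

The Klein curve `E_z : y² = x³ + 27 kH(z) x + 54 kT(z)`, `z = (u, v)`, is the Tate curve `E_{s,β}` for
* `(s, β) = (s01 u v, b01 u v)` (degree-5 forms over `ℤ`: the section `P_(0,1)`), and
* `(s, β) = (s10 k₁ k₂ a b, b10 k₁ k₂ a b) = (k₁ a + k₂ b, k₂ a − k₁ b)`, `a = u⁵`, `b = v⁵` (the section `P_(1,0)`), where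
  `k₁ k₂` are constants with `k₂² + k₁² + 5 = 0`, `11 k₁ k₂ + 2 k₁² + 5 = 0`, `25 k₁³ + 123 k₁ − 11 k₂ = 0`
  (four conjugate solutions in `ℚ(ζ₅)`; `zk1 ζ`, `zk2 ζ` is one of them).
The deformation `z ↦ z' = z + t·kw(z)` acts on both by the SAME map `(dS, dB)` of `TateFive3`.
Identities involving `k₁ k₂` are `linear_combination`s of the three relations (cofactors computed by exact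
polynomial division).  GENERATED by helper3's scratch python.
-/
import Fermat.Agent.S52.Klein7
import Fermat.Agent.S52.TateFive3

set_option autoImplicit false

namespace Fermat.Agent.S52.KleinSec3

open Fermat.Agent.S52.Klein7 Fermat.Agent.S52.TateFive3

section Rational

variable {R : Type*} [CommRing R]

/-- `s` of the section `P_(0,1)`. -/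
def s01 (u v : R) : R := -u ^ 5 + 3 * u ^ 4 * v - 4 * u ^ 3 * v ^ 2 + 2 * u ^ 2 * v ^ 3 - u * v ^ 4
/-- `β` of the section `P_(0,1)`. -/
def b01 (u v : R) : R := -(u ^ 4 * v) - 2 * u ^ 3 * v ^ 2 - 4 * u ^ 2 * v ^ 3 - 3 * u * v ^ 4 - v ^ 5

theorem tc4_01 (u v : R) : tc4 (s01 u v) (b01 u v) = -kH u v := by
  simp only [tc4, s01, b01, kH]; ring

theorem tc6_01 (u v : R) : tc6 (s01 u v) (b01 u v) = -kT u v := by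
  simp only [tc6, s01, b01, kT]; ring

theorem tA_01 (u v : R) : tA (s01 u v) (b01 u v) = 27 * kH u v := by
  rw [tA, tc4_01]; ring

theorem tB_01 (u v : R) : tB (s01 u v) (b01 u v) = 54 * kT u v := by
  rw [tB, tc6_01]; ring

theorem dS_01 (u v t : R) :
    dS (s01 u v) (b01 u v) t = s01 (u + t * kw1 u v) (v + t * kw2 u v) := by
  simp only [dS, s01, b01, kw1, kw2]; ring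

theorem dB_01 (u v t : R) :
    dB (s01 u v) (b01 u v) t = b01 (u + t * kw1 u v) (v + t * kw2 u v) := by
  simp only [dB, dS, s01, b01, kw1, kw2]; ring

/-- `s` of the section `P_(1,0)` (in `a = u⁵`, `b = v⁵`). -/
def s10 (k1 k2 a b : R) : R := k1 * a + k2 * b
/-- `β` of the section `P_(1,0)`. -/
def b10 (k1 k2 a b : R) : R := k2 * a - k1 * b

end Rational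

section Axis

variable {K : Type*} [Field K] [CharZero K] {k1 k2 : K}

theorem tc4_10 (h1 : k2 ^ 2 + k1 ^ 2 + 5 = 0) (h2 : 11 * k1 * k2 + 2 * k1 ^ 2 + 5 = 0)
    (h3 : 25 * k1 ^ 3 + 123 * k1 - 11 * k2 = 0) (a b : K) :
    tc4 (s10 k1 k2 a b) (b10 k1 k2 a b) = -kH5 a b := by
  simp only [tc4, s10, b10, kH5]
  linear_combination (13 * a ^ 4 * k1 ^ 2 - 12 * a ^ 4 * k1 * k2 + a ^ 4 * k2 ^ 2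
    - 5 * a ^ 4 + 84 * a ^ 3 * b * k1 ^ 2 + 24 * a ^ 3 * b * k1 * k2
    - 12 * a ^ 3 * b * k2 ^ 2 + 60 * a ^ 3 * b - 58 * a ^ 2 * b ^ 2 * k1 ^ 2
    + 72 * a ^ 2 * b ^ 2 * k1 * k2 + 14 * a ^ 2 * b ^ 2 * k2 ^ 2 - 70 * a ^ 2 * b ^ 2
    - 84 * a * b ^ 3 * k1 ^ 2 - 24 * a * b ^ 3 * k1 * k2 + 12 * a * b ^ 3 * k2 ^ 2
    - 60 * a * b ^ 3 + 13 * b ^ 4 * k1 ^ 2 - 12 * b ^ 4 * k1 * k2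
    + b ^ 4 * k2 ^ 2 - 5 * b ^ 4) * h1
    + ((24 / 11) * a ^ 4 * k1 ^ 2 + (24 / 5) * a ^ 4 - (48 / 11) * a ^ 3 * b * k1 ^ 2
    - (72 / 5) * a ^ 3 * b - (144 / 11) * a ^ 2 * b ^ 2 * k1 ^ 2 - (144 / 5) * a ^ 2 * b ^ 2
    + (48 / 11) * a * b ^ 3 * k1 ^ 2 + (72 / 5) * a * b ^ 3 + (24 / 11) * b ^ 4 * k1 ^ 2
    + (24 / 5) * b ^ 4) * h2
    + (-(36 / 55) * a ^ 4 * k1 - (192 / 55) * a ^ 3 * b * k1 + (216 / 55) * a ^ 2 * b ^ 2 * k1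
    + (192 / 55) * a * b ^ 3 * k1 - (36 / 55) * b ^ 4 * k1) * h3

theorem tc6_10 (h1 : k2 ^ 2 + k1 ^ 2 + 5 = 0) (h2 : 11 * k1 * k2 + 2 * k1 ^ 2 + 5 = 0)
    (h3 : 25 * k1 ^ 3 + 123 * k1 - 11 * k2 = 0) (a b : K) :
    tc6 (s10 k1 k2 a b) (b10 k1 k2 a b) = -kT5 a b := by
  simp only [tc6, s10, b10, kT5]
  linear_combination (-a ^ 6 * k1 ^ 4 - 18 * a ^ 6 * k1 ^ 3 * k2 - 74 * a ^ 6 * k1 ^ 2 * k2 ^ 2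
    + 365 * a ^ 6 * k1 ^ 2 + 18 * a ^ 6 * k1 * k2 ^ 3 - 90 * a ^ 6 * k1 * k2
    - a ^ 6 * k2 ^ 4 + 5 * a ^ 6 * k2 ^ 2 - 25 * a ^ 6
    + 18 * a ^ 5 * b * k1 ^ 4 + 144 * a ^ 5 * b * k1 ^ 3 * k2 - 108 * a ^ 5 * b * k1 ^ 2 * k2 ^ 2
    + 630 * a ^ 5 * b * k1 ^ 2 - 144 * a ^ 5 * b * k1 * k2 ^ 3 + 720 * a ^ 5 * b * k1 * k2
    + 18 * a ^ 5 * b * k2 ^ 4 - 90 * a ^ 5 * b * k2 ^ 2 + 450 * a ^ 5 * b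
    - 75 * a ^ 4 * b ^ 2 * k1 ^ 4 + 90 * a ^ 4 * b ^ 2 * k1 ^ 3 * k2 + 210 * a ^ 4 * b ^ 2 * k1 ^ 2 * k2 ^ 2
    - 1425 * a ^ 4 * b ^ 2 * k1 ^ 2 - 90 * a ^ 4 * b ^ 2 * k1 * k2 ^ 3 + 450 * a ^ 4 * b ^ 2 * k1 * k2
    - 75 * a ^ 4 * b ^ 2 * k2 ^ 4 + 375 * a ^ 4 * b ^ 2 * k2 ^ 2 - 1875 * a ^ 4 * b ^ 2
    - 75 * a ^ 2 * b ^ 4 * k1 ^ 4 + 90 * a ^ 2 * b ^ 4 * k1 ^ 3 * k2 + 210 * a ^ 2 * b ^ 4 * k1 ^ 2 * k2 ^ 2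
    - 1425 * a ^ 2 * b ^ 4 * k1 ^ 2 - 90 * a ^ 2 * b ^ 4 * k1 * k2 ^ 3 + 450 * a ^ 2 * b ^ 4 * k1 * k2
    - 75 * a ^ 2 * b ^ 4 * k2 ^ 4 + 375 * a ^ 2 * b ^ 4 * k2 ^ 2 - 1875 * a ^ 2 * b ^ 4
    - 18 * a * b ^ 5 * k1 ^ 4 - 144 * a * b ^ 5 * k1 ^ 3 * k2 + 108 * a * b ^ 5 * k1 ^ 2 * k2 ^ 2
    - 630 * a * b ^ 5 * k1 ^ 2 + 144 * a * b ^ 5 * k1 * k2 ^ 3 - 720 * a * b ^ 5 * k1 * k2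
    - 18 * a * b ^ 5 * k2 ^ 4 + 90 * a * b ^ 5 * k2 ^ 2 - 450 * a * b ^ 5
    - b ^ 6 * k1 ^ 4 - 18 * b ^ 6 * k1 ^ 3 * k2 - 74 * b ^ 6 * k1 ^ 2 * k2 ^ 2
    + 365 * b ^ 6 * k1 ^ 2 + 18 * b ^ 6 * k1 * k2 ^ 3 - 90 * b ^ 6 * k1 * k2
    - b ^ 6 * k2 ^ 4 + 5 * b ^ 6 * k2 ^ 2 - 25 * b ^ 6) * h1
    + ((180 / 11) * a ^ 6 * k1 ^ 2 + (126 / 5) * a ^ 6 - (1440 / 11) * a ^ 5 * b * k1 ^ 2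
    - (1728 / 5) * a ^ 5 * b - (900 / 11) * a ^ 4 * b ^ 2 * k1 ^ 2 - 126 * a ^ 4 * b ^ 2
    - (900 / 11) * a ^ 2 * b ^ 4 * k1 ^ 2 - 126 * a ^ 2 * b ^ 4 + (1440 / 11) * a * b ^ 5 * k1 ^ 2
    + (1728 / 5) * a * b ^ 5 + (180 / 11) * b ^ 6 * k1 ^ 2 + (126 / 5) * b ^ 6) * h2
    + (-(864 / 55) * a ^ 6 * k1 - (1008 / 55) * a ^ 5 * b * k1 + (864 / 11) * a ^ 4 * b ^ 2 * k1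
    + (864 / 11) * a ^ 2 * b ^ 4 * k1 + (1008 / 55) * a * b ^ 5 * k1 - (864 / 55) * b ^ 6 * k1) * h3

theorem tA_10 (h1 : k2 ^ 2 + k1 ^ 2 + 5 = 0) (h2 : 11 * k1 * k2 + 2 * k1 ^ 2 + 5 = 0)
    (h3 : 25 * k1 ^ 3 + 123 * k1 - 11 * k2 = 0) (a b : K) :
    tA (s10 k1 k2 a b) (b10 k1 k2 a b) = 27 * kH5 a b := by
  rw [tA, tc4_10 h1 h2 h3]; ring

theorem tB_10 (h1 : k2 ^ 2 + k1 ^ 2 + 5 = 0) (h2 : 11 * k1 * k2 + 2 * k1 ^ 2 + 5 = 0)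
    (h3 : 25 * k1 ^ 3 + 123 * k1 - 11 * k2 = 0) (a b : K) :
    tB (s10 k1 k2 a b) (b10 k1 k2 a b) = 54 * kT5 a b := by
  rw [tB, tc6_10 h1 h2 h3]; ring

set_option maxHeartbeats 4000000 in
set_option maxRecDepth 100000 in
theorem dS_10 (h1 : k2 ^ 2 + k1 ^ 2 + 5 = 0) (h2 : 11 * k1 * k2 + 2 * k1 ^ 2 + 5 = 0)
    (h3 : 25 * k1 ^ 3 + 123 * k1 - 11 * k2 = 0) (a b t : K) :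
    dS (s10 k1 k2 a b) (b10 k1 k2 a b) t =
      s10 k1 k2 (a * (1 + t * kA5 a b) ^ 5) (b * (1 - t * kB5 a b) ^ 5) := by
  simp only [dS, s10, b10, kA5, kB5]
  linear_combination (-77759 * a ^ 11 * t ^ 5 * k1 ^ 9 - 427614 * a ^ 11 * t ^ 5 * k1 ^ 8 * k2 + 79552 * a ^ 11 * t ^ 5 * k1 ^ 7 * k2 ^ 2
    + 32395 * a ^ 11 * t ^ 5 * k1 ^ 7 + 451638 * a ^ 11 * t ^ 5 * k1 ^ 6 * k2 ^ 3 - 2138730 * a ^ 11 * t ^ 5 * k1 ^ 6 * k2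
    + 83490 * a ^ 11 * t ^ 5 * k1 ^ 5 * k2 ^ 4 - 430155 * a ^ 11 * t ^ 5 * k1 ^ 5 * k2 ^ 2 + 2214025 * a ^ 11 * t ^ 5 * k1 ^ 5
    + 23958 * a ^ 11 * t ^ 5 * k1 ^ 4 * k2 ^ 5 - 119460 * a ^ 11 * t ^ 5 * k1 ^ 4 * k2 ^ 3 + 595650 * a ^ 11 * t ^ 5 * k1 ^ 4 * k2
    - 2552 * a ^ 11 * t ^ 5 * k1 ^ 3 * k2 ^ 6 + 12705 * a ^ 11 * t ^ 5 * k1 ^ 3 * k2 ^ 4 - 63250 * a ^ 11 * t ^ 5 * k1 ^ 3 * k2 ^ 2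
    + 314875 * a ^ 11 * t ^ 5 * k1 ^ 3 + 66 * a ^ 11 * t ^ 5 * k1 ^ 2 * k2 ^ 7 - 330 * a ^ 11 * t ^ 5 * k1 ^ 2 * k2 ^ 5
    + 1650 * a ^ 11 * t ^ 5 * k1 ^ 2 * k2 ^ 3 - 8250 * a ^ 11 * t ^ 5 * k1 ^ 2 * k2 - 11 * a ^ 11 * t ^ 5 * k1 * k2 ^ 8
    + 55 * a ^ 11 * t ^ 5 * k1 * k2 ^ 6 - 275 * a ^ 11 * t ^ 5 * k1 * k2 ^ 4 + 1375 * a ^ 11 * t ^ 5 * k1 * k2 ^ 2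
    - 6875 * a ^ 11 * t ^ 5 * k1 + 4704414 * a ^ 10 * b * t ^ 5 * k1 ^ 9 - 858935 * a ^ 10 * b * t ^ 5 * k1 ^ 8 * k2
    - 4775826 * a ^ 10 * b * t ^ 5 * k1 ^ 7 * k2 ^ 2 + 36353130 * a ^ 10 * b * t ^ 5 * k1 ^ 7 + 222904 * a ^ 10 * b * t ^ 5 * k1 ^ 6 * k2 ^ 3
    + 1087075 * a ^ 10 * b * t ^ 5 * k1 ^ 6 * k2 + 2590038 * a ^ 10 * b * t ^ 5 * k1 ^ 5 * k2 ^ 4 - 12474000 * a ^ 10 * b * t ^ 5 * k1 ^ 5 * k2 ^ 2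
    + 59992350 * a ^ 10 * b * t ^ 5 * k1 ^ 5 + 432762 * a ^ 10 * b * t ^ 5 * k1 ^ 4 * k2 ^ 5 - 2201595 * a ^ 10 * b * t ^ 5 * k1 ^ 4 * k2 ^ 3
    + 11196625 * a ^ 10 * b * t ^ 5 * k1 ^ 4 * k2 + 95370 * a ^ 10 * b * t ^ 5 * k1 ^ 3 * k2 ^ 6 - 476190 * a ^ 10 * b * t ^ 5 * k1 ^ 3 * k2 ^ 4
    + 2377650 * a ^ 10 * b * t ^ 5 * k1 ^ 3 * k2 ^ 2 - 11871750 * a ^ 10 * b * t ^ 5 * k1 ^ 3 - 7568 * a ^ 10 * b * t ^ 5 * k1 ^ 2 * k2 ^ 7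
    + 37785 * a ^ 10 * b * t ^ 5 * k1 ^ 2 * k2 ^ 5 - 188650 * a ^ 10 * b * t ^ 5 * k1 ^ 2 * k2 ^ 3 + 941875 * a ^ 10 * b * t ^ 5 * k1 ^ 2 * k2
    + 132 * a ^ 10 * b * t ^ 5 * k1 * k2 ^ 8 - 660 * a ^ 10 * b * t ^ 5 * k1 * k2 ^ 6 + 3300 * a ^ 10 * b * t ^ 5 * k1 * k2 ^ 4
    - 16500 * a ^ 10 * b * t ^ 5 * k1 * k2 ^ 2 + 82500 * a ^ 10 * b * t ^ 5 * k1 - 11 * a ^ 10 * b * t ^ 5 * k2 ^ 9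
    + 55 * a ^ 10 * b * t ^ 5 * k2 ^ 7 - 275 * a ^ 10 * b * t ^ 5 * k2 ^ 5 + 1375 * a ^ 10 * b * t ^ 5 * k2 ^ 3
    - 6875 * a ^ 10 * b * t ^ 5 * k2 + 4278593 * a ^ 9 * b ^ 2 * t ^ 5 * k1 ^ 9 + 23593812 * a ^ 9 * b ^ 2 * t ^ 5 * k1 ^ 8 * k2
    - 3332560 * a ^ 9 * b ^ 2 * t ^ 5 * k1 ^ 7 * k2 ^ 2 + 12465035 * a ^ 9 * b ^ 2 * t ^ 5 * k1 ^ 7 - 19411458 * a ^ 9 * b ^ 2 * t ^ 5 * k1 ^ 6 * k2 ^ 3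
    + 127946940 * a ^ 9 * b ^ 2 * t ^ 5 * k1 ^ 6 * k2 + 46002 * a ^ 9 * b ^ 2 * t ^ 5 * k1 ^ 5 * k2 ^ 4 + 4197765 * a ^ 9 * b ^ 2 * t ^ 5 * k1 ^ 5 * k2 ^ 2
    - 43317175 * a ^ 9 * b ^ 2 * t ^ 5 * k1 ^ 5 + 6320754 * a ^ 9 * b ^ 2 * t ^ 5 * k1 ^ 4 * k2 ^ 5 - 30889650 * a ^ 9 * b ^ 2 * t ^ 5 * k1 ^ 4 * k2 ^ 3
    + 150879300 * a ^ 9 * b ^ 2 * t ^ 5 * k1 ^ 4 * k2 + 877976 * a ^ 9 * b ^ 2 * t ^ 5 * k1 ^ 3 * k2 ^ 6 - 4427775 * a ^ 9 * b ^ 2 * t ^ 5 * k1 ^ 3 * k2 ^ 4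
    + 22328350 * a ^ 9 * b ^ 2 * t ^ 5 * k1 ^ 3 * k2 ^ 2 - 112589125 * a ^ 9 * b ^ 2 * t ^ 5 * k1 ^ 3 + 142890 * a ^ 9 * b ^ 2 * t ^ 5 * k1 ^ 2 * k2 ^ 7
    - 714120 * a ^ 9 * b ^ 2 * t ^ 5 * k1 ^ 2 * k2 ^ 5 + 3568950 * a ^ 9 * b ^ 2 * t ^ 5 * k1 ^ 2 * k2 ^ 3 - 17836500 * a ^ 9 * b ^ 2 * t ^ 5 * k1 ^ 2 * k2
    - 7579 * a ^ 9 * b ^ 2 * t ^ 5 * k1 * k2 ^ 8 + 37895 * a ^ 9 * b ^ 2 * t ^ 5 * k1 * k2 ^ 6 - 189475 * a ^ 9 * b ^ 2 * t ^ 5 * k1 * k2 ^ 4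
    + 947375 * a ^ 9 * b ^ 2 * t ^ 5 * k1 * k2 ^ 2 - 4736875 * a ^ 9 * b ^ 2 * t ^ 5 * k1 + 66 * a ^ 9 * b ^ 2 * t ^ 5 * k2 ^ 9
    - 330 * a ^ 9 * b ^ 2 * t ^ 5 * k2 ^ 7 + 1650 * a ^ 9 * b ^ 2 * t ^ 5 * k2 ^ 5 - 8250 * a ^ 9 * b ^ 2 * t ^ 5 * k2 ^ 3
    + 41250 * a ^ 9 * b ^ 2 * t ^ 5 * k2 - 161995 * a ^ 9 * t ^ 4 * k1 ^ 7 + 264 * a ^ 9 * t ^ 4 * k1 ^ 6 * k2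
    + 167367 * a ^ 9 * t ^ 4 * k1 ^ 5 * k2 ^ 2 - 853225 * a ^ 9 * t ^ 4 * k1 ^ 5 + 48048 * a ^ 9 * t ^ 4 * k1 ^ 4 * k2 ^ 3
    - 238920 * a ^ 9 * t ^ 4 * k1 ^ 4 * k2 - 3321 * a ^ 9 * t ^ 4 * k1 ^ 3 * k2 ^ 4 + 16390 * a ^ 9 * t ^ 4 * k1 ^ 3 * k2 ^ 2
    - 80875 * a ^ 9 * t ^ 4 * k1 ^ 3 + 264 * a ^ 9 * t ^ 4 * k1 ^ 2 * k2 ^ 5 - 1320 * a ^ 9 * t ^ 4 * k1 ^ 2 * k2 ^ 3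
    + 6600 * a ^ 9 * t ^ 4 * k1 ^ 2 * k2 - 43 * a ^ 9 * t ^ 4 * k1 * k2 ^ 6 + 215 * a ^ 9 * t ^ 4 * k1 * k2 ^ 4
    - 1075 * a ^ 9 * t ^ 4 * k1 * k2 ^ 2 + 5375 * a ^ 9 * t ^ 4 * k1 - 70591224 * a ^ 8 * b ^ 3 * t ^ 5 * k1 ^ 9
    + 12194369 * a ^ 8 * b ^ 3 * t ^ 5 * k1 ^ 8 * k2 + 66408870 * a ^ 8 * b ^ 3 * t ^ 5 * k1 ^ 7 * k2 ^ 2 - 577247880 * a ^ 8 * b ^ 3 * t ^ 5 * k1 ^ 7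
    - 7094296 * a ^ 8 * b ^ 3 * t ^ 5 * k1 ^ 6 * k2 ^ 3 + 29910155 * a ^ 8 * b ^ 3 * t ^ 5 * k1 ^ 6 * k2 - 40724046 * a ^ 8 * b ^ 3 * t ^ 5 * k1 ^ 5 * k2 ^ 4
    + 245203530 * a ^ 8 * b ^ 3 * t ^ 5 * k1 ^ 5 * k2 ^ 2 - 1431546600 * a ^ 8 * b ^ 3 * t ^ 5 * k1 ^ 5 - 236742 * a ^ 8 * b ^ 3 * t ^ 5 * k1 ^ 4 * k2 ^ 5
    + 5561325 * a ^ 8 * b ^ 3 * t ^ 5 * k1 ^ 4 * k2 ^ 3 - 49758775 * a ^ 8 * b ^ 3 * t ^ 5 * k1 ^ 4 * k2 + 8412162 * a ^ 8 * b ^ 3 * t ^ 5 * k1 ^ 3 * k2 ^ 6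
    - 41583300 * a ^ 8 * b ^ 3 * t ^ 5 * k1 ^ 3 * k2 ^ 4 + 205528950 * a ^ 8 * b ^ 3 * t ^ 5 * k1 ^ 3 * k2 ^ 2 - 1015707000 * a ^ 8 * b ^ 3 * t ^ 5 * k1 ^ 3
    + 872960 * a ^ 8 * b ^ 3 * t ^ 5 * k1 ^ 2 * k2 ^ 7 - 4377615 * a ^ 8 * b ^ 3 * t ^ 5 * k1 ^ 2 * k2 ^ 5 + 21952150 * a ^ 8 * b ^ 3 * t ^ 5 * k1 ^ 2 * k2 ^ 3
    - 110081125 * a ^ 8 * b ^ 3 * t ^ 5 * k1 ^ 2 * k2 + 95502 * a ^ 8 * b ^ 3 * t ^ 5 * k1 * k2 ^ 8 - 477510 * a ^ 8 * b ^ 3 * t ^ 5 * k1 * k2 ^ 6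
    + 2387550 * a ^ 8 * b ^ 3 * t ^ 5 * k1 * k2 ^ 4 - 11937750 * a ^ 8 * b ^ 3 * t ^ 5 * k1 * k2 ^ 2 + 59688750 * a ^ 8 * b ^ 3 * t ^ 5 * k1
    - 2563 * a ^ 8 * b ^ 3 * t ^ 5 * k2 ^ 9 + 12815 * a ^ 8 * b ^ 3 * t ^ 5 * k2 ^ 7 - 64075 * a ^ 8 * b ^ 3 * t ^ 5 * k2 ^ 5
    + 320375 * a ^ 8 * b ^ 3 * t ^ 5 * k2 ^ 3 - 1601875 * a ^ 8 * b ^ 3 * t ^ 5 * k2 - 264 * a ^ 8 * b * t ^ 4 * k1 ^ 7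
    - 1468699 * a ^ 8 * b * t ^ 4 * k1 ^ 6 * k2 - 142560 * a ^ 8 * b * t ^ 4 * k1 ^ 5 * k2 ^ 2 + 1664520 * a ^ 8 * b * t ^ 4 * k1 ^ 5
    + 850119 * a ^ 8 * b * t ^ 4 * k1 ^ 4 * k2 ^ 3 - 4298905 * a ^ 8 * b * t ^ 4 * k1 ^ 4 * k2 + 190872 * a ^ 8 * b * t ^ 4 * k1 ^ 3 * k2 ^ 4
    - 951720 * a ^ 8 * b * t ^ 4 * k1 ^ 3 * k2 ^ 2 + 4745400 * a ^ 8 * b * t ^ 4 * k1 ^ 3 - 9705 * a ^ 8 * b * t ^ 4 * k1 ^ 2 * k2 ^ 5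
    + 48310 * a ^ 8 * b * t ^ 4 * k1 ^ 2 * k2 ^ 3 - 240475 * a ^ 8 * b * t ^ 4 * k1 ^ 2 * k2 + 528 * a ^ 8 * b * t ^ 4 * k1 * k2 ^ 6
    - 2640 * a ^ 8 * b * t ^ 4 * k1 * k2 ^ 4 + 13200 * a ^ 8 * b * t ^ 4 * k1 * k2 ^ 2 - 66000 * a ^ 8 * b * t ^ 4 * k1
    - 43 * a ^ 8 * b * t ^ 4 * k2 ^ 7 + 215 * a ^ 8 * b * t ^ 4 * k2 ^ 5 - 1075 * a ^ 8 * b * t ^ 4 * k2 ^ 3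
    + 5375 * a ^ 8 * b * t ^ 4 * k2 - 25497758 * a ^ 7 * b ^ 4 * t ^ 5 * k1 ^ 9 - 138948612 * a ^ 7 * b ^ 4 * t ^ 5 * k1 ^ 8 * k2
    + 22211200 * a ^ 7 * b ^ 4 * t ^ 5 * k1 ^ 7 * k2 ^ 2 - 161195210 * a ^ 7 * b ^ 4 * t ^ 5 * k1 ^ 7 + 113263788 * a ^ 7 * b ^ 4 * t ^ 5 * k1 ^ 6 * k2 ^ 3
    - 844904940 * a ^ 7 * b ^ 4 * t ^ 5 * k1 ^ 6 * k2 - 10242012 * a ^ 7 * b ^ 4 * t ^ 5 * k1 ^ 5 * k2 ^ 4 + 50139210 * a ^ 7 * b ^ 4 * t ^ 5 * k1 ^ 5 * k2 ^ 2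
    - 234711950 * a ^ 7 * b ^ 4 * t ^ 5 * k1 ^ 5 - 49301604 * a ^ 7 * b ^ 4 * t ^ 5 * k1 ^ 4 * k2 ^ 5 + 278586000 * a ^ 7 * b ^ 4 * t ^ 5 * k1 ^ 4 * k2 ^ 3
    - 1552719300 * a ^ 7 * b ^ 4 * t ^ 5 * k1 ^ 4 * k2 + 211024 * a ^ 7 * b ^ 4 * t ^ 5 * k1 ^ 3 * k2 ^ 6 + 1070850 * a ^ 7 * b ^ 4 * t ^ 5 * k1 ^ 3 * k2 ^ 4
    - 15984100 * a ^ 7 * b ^ 4 * t ^ 5 * k1 ^ 3 * k2 ^ 2 + 133069750 * a ^ 7 * b ^ 4 * t ^ 5 * k1 ^ 3 + 6439620 * a ^ 7 * b ^ 4 * t ^ 5 * k1 ^ 2 * k2 ^ 7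
    - 32077980 * a ^ 7 * b ^ 4 * t ^ 5 * k1 ^ 2 * k2 ^ 5 + 159789300 * a ^ 7 * b ^ 4 * t ^ 5 * k1 ^ 2 * k2 ^ 3 - 795943500 * a ^ 7 * b ^ 4 * t ^ 5 * k1 ^ 2 * k2
    + 425194 * a ^ 7 * b ^ 4 * t ^ 5 * k1 * k2 ^ 8 - 2125970 * a ^ 7 * b ^ 4 * t ^ 5 * k1 * k2 ^ 6 + 10629850 * a ^ 7 * b ^ 4 * t ^ 5 * k1 * k2 ^ 4
    - 53149250 * a ^ 7 * b ^ 4 * t ^ 5 * k1 * k2 ^ 2 + 265746250 * a ^ 7 * b ^ 4 * t ^ 5 * k1 + 24024 * a ^ 7 * b ^ 4 * t ^ 5 * k2 ^ 9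
    - 120120 * a ^ 7 * b ^ 4 * t ^ 5 * k2 ^ 7 + 600600 * a ^ 7 * b ^ 4 * t ^ 5 * k2 ^ 5 - 3003000 * a ^ 7 * b ^ 4 * t ^ 5 * k2 ^ 3
    + 15015000 * a ^ 7 * b ^ 4 * t ^ 5 * k2 + 5837372 * a ^ 7 * b ^ 2 * t ^ 4 * k1 ^ 7 + 142824 * a ^ 7 * b ^ 2 * t ^ 4 * k1 ^ 6 * k2
    - 4928124 * a ^ 7 * b ^ 2 * t ^ 4 * k1 ^ 5 * k2 ^ 2 + 33237140 * a ^ 7 * b ^ 2 * t ^ 4 * k1 ^ 5 - 521928 * a ^ 7 * b ^ 2 * t ^ 4 * k1 ^ 4 * k2 ^ 3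
    + 4037880 * a ^ 7 * b ^ 2 * t ^ 4 * k1 ^ 4 * k2 + 1709556 * a ^ 7 * b ^ 2 * t ^ 4 * k1 ^ 3 * k2 ^ 4 - 8596520 * a ^ 7 * b ^ 2 * t ^ 4 * k1 ^ 3 * k2 ^ 2
    + 43226300 * a ^ 7 * b ^ 2 * t ^ 4 * k1 ^ 3 + 285912 * a ^ 7 * b ^ 2 * t ^ 4 * k1 ^ 2 * k2 ^ 5 - 1428240 * a ^ 7 * b ^ 2 * t ^ 4 * k1 ^ 2 * k2 ^ 3
    + 7134600 * a ^ 7 * b ^ 2 * t ^ 4 * k1 ^ 2 * k2 - 9748 * a ^ 7 * b ^ 2 * t ^ 4 * k1 * k2 ^ 6 + 48740 * a ^ 7 * b ^ 2 * t ^ 4 * k1 * k2 ^ 4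
    - 243700 * a ^ 7 * b ^ 2 * t ^ 4 * k1 * k2 ^ 2 + 1218500 * a ^ 7 * b ^ 2 * t ^ 4 * k1 + 264 * a ^ 7 * b ^ 2 * t ^ 4 * k2 ^ 7
    - 1320 * a ^ 7 * b ^ 2 * t ^ 4 * k2 ^ 5 + 6600 * a ^ 7 * b ^ 2 * t ^ 4 * k2 ^ 3 - 33000 * a ^ 7 * b ^ 2 * t ^ 4 * k2
    + 4330 * a ^ 7 * t ^ 3 * k1 ^ 5 + 24156 * a ^ 7 * t ^ 3 * k1 ^ 4 * k2 + 1028 * a ^ 7 * t ^ 3 * k1 ^ 3 * k2 ^ 2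
    - 5450 * a ^ 7 * t ^ 3 * k1 ^ 3 + 396 * a ^ 7 * t ^ 3 * k1 ^ 2 * k2 ^ 3 - 1980 * a ^ 7 * t ^ 3 * k1 ^ 2 * k2
    - 62 * a ^ 7 * t ^ 3 * k1 * k2 ^ 4 + 310 * a ^ 7 * t ^ 3 * k1 * k2 ^ 2 - 1550 * a ^ 7 * t ^ 3 * k1
    + 197112564 * a ^ 6 * b ^ 5 * t ^ 5 * k1 ^ 9 - 35269454 * a ^ 6 * b ^ 5 * t ^ 5 * k1 ^ 8 * k2 - 184021860 * a ^ 6 * b ^ 5 * t ^ 5 * k1 ^ 7 * k2 ^ 2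
    + 1708821180 * a ^ 6 * b ^ 5 * t ^ 5 * k1 ^ 7 + 27938416 * a ^ 6 * b ^ 5 * t ^ 5 * k1 ^ 6 * k2 ^ 3 - 197872730 * a ^ 6 * b ^ 5 * t ^ 5 * k1 ^ 6 * k2
    + 120059676 * a ^ 6 * b ^ 5 * t ^ 5 * k1 ^ 5 * k2 ^ 4 - 788711880 * a ^ 6 * b ^ 5 * t ^ 5 * k1 ^ 5 * k2 ^ 2 + 4952762100 * a ^ 6 * b ^ 5 * t ^ 5 * k1 ^ 5
    - 10874028 * a ^ 6 * b ^ 5 * t ^ 5 * k1 ^ 4 * k2 ^ 5 + 58180650 * a ^ 6 * b ^ 5 * t ^ 5 * k1 ^ 4 * k2 ^ 3 - 307932350 * a ^ 6 * b ^ 5 * t ^ 5 * k1 ^ 4 * k2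
    - 34997292 * a ^ 6 * b ^ 5 * t ^ 5 * k1 ^ 3 * k2 ^ 6 + 188413500 * a ^ 6 * b ^ 5 * t ^ 5 * k1 ^ 3 * k2 ^ 4 - 1009202700 * a ^ 6 * b ^ 5 * t ^ 5 * k1 ^ 3 * k2 ^ 2
    + 5381689500 * a ^ 6 * b ^ 5 * t ^ 5 * k1 ^ 3 + 843040 * a ^ 6 * b ^ 5 * t ^ 5 * k1 ^ 2 * k2 ^ 7 - 3810510 * a ^ 6 * b ^ 5 * t ^ 5 * k1 ^ 2 * k2 ^ 5
    + 17029100 * a ^ 6 * b ^ 5 * t ^ 5 * k1 ^ 2 * k2 ^ 3 - 75028250 * a ^ 6 * b ^ 5 * t ^ 5 * k1 ^ 2 * k2 + 2685408 * a ^ 6 * b ^ 5 * t ^ 5 * k1 * k2 ^ 8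
    - 13427040 * a ^ 6 * b ^ 5 * t ^ 5 * k1 * k2 ^ 6 + 67135200 * a ^ 6 * b ^ 5 * t ^ 5 * k1 * k2 ^ 4 - 335676000 * a ^ 6 * b ^ 5 * t ^ 5 * k1 * k2 ^ 2
    + 1678380000 * a ^ 6 * b ^ 5 * t ^ 5 * k1 + 80938 * a ^ 6 * b ^ 5 * t ^ 5 * k2 ^ 9 - 404690 * a ^ 6 * b ^ 5 * t ^ 5 * k2 ^ 7
    + 2023450 * a ^ 6 * b ^ 5 * t ^ 5 * k2 ^ 5 - 10117250 * a ^ 6 * b ^ 5 * t ^ 5 * k2 ^ 3 + 50586250 * a ^ 6 * b ^ 5 * t ^ 5 * k2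
    - 48312 * a ^ 6 * b ^ 3 * t ^ 4 * k1 ^ 7 + 12989420 * a ^ 6 * b ^ 3 * t ^ 4 * k1 ^ 6 * k2 + 427416 * a ^ 6 * b ^ 3 * t ^ 4 * k1 ^ 5 * k2 ^ 2
    - 6411240 * a ^ 6 * b ^ 3 * t ^ 4 * k1 ^ 5 - 8225964 * a ^ 6 * b ^ 3 * t ^ 4 * k1 ^ 4 * k2 ^ 3 + 49662500 * a ^ 6 * b ^ 3 * t ^ 4 * k1 ^ 4 * k2
    - 663432 * a ^ 6 * b ^ 3 * t ^ 4 * k1 ^ 3 * k2 ^ 4 + 4274160 * a ^ 6 * b ^ 3 * t ^ 4 * k1 ^ 3 * k2 ^ 2 - 26155800 * a ^ 6 * b ^ 3 * t ^ 4 * k1 ^ 3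
    + 1703172 * a ^ 6 * b ^ 3 * t ^ 4 * k1 ^ 2 * k2 ^ 5 - 8532680 * a ^ 6 * b ^ 3 * t ^ 4 * k1 ^ 2 * k2 ^ 3 + 42747500 * a ^ 6 * b ^ 3 * t ^ 4 * k1 ^ 2 * k2
    + 191400 * a ^ 6 * b ^ 3 * t ^ 4 * k1 * k2 ^ 6 - 957000 * a ^ 6 * b ^ 3 * t ^ 4 * k1 * k2 ^ 4 + 4785000 * a ^ 6 * b ^ 3 * t ^ 4 * k1 * k2 ^ 2
    - 23925000 * a ^ 6 * b ^ 3 * t ^ 4 * k1 - 3364 * a ^ 6 * b ^ 3 * t ^ 4 * k2 ^ 7 + 16820 * a ^ 6 * b ^ 3 * t ^ 4 * k2 ^ 5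
    - 84100 * a ^ 6 * b ^ 3 * t ^ 4 * k2 ^ 3 + 420500 * a ^ 6 * b ^ 3 * t ^ 4 * k2 - 166716 * a ^ 6 * b * t ^ 3 * k1 ^ 5
    + 19594 * a ^ 6 * b * t ^ 3 * k1 ^ 4 * k2 + 95436 * a ^ 6 * b * t ^ 3 * k1 ^ 3 * k2 ^ 2 - 473220 * a ^ 6 * b * t ^ 3 * k1 ^ 3
    + 3332 * a ^ 6 * b * t ^ 3 * k1 ^ 2 * k2 ^ 3 - 16970 * a ^ 6 * b * t ^ 3 * k1 ^ 2 * k2 + 792 * a ^ 6 * b * t ^ 3 * k1 * k2 ^ 4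
    - 3960 * a ^ 6 * b * t ^ 3 * k1 * k2 ^ 2 + 19800 * a ^ 6 * b * t ^ 3 * k1 - 62 * a ^ 6 * b * t ^ 3 * k2 ^ 5
    + 310 * a ^ 6 * b * t ^ 3 * k2 ^ 3 - 1550 * a ^ 6 * b * t ^ 3 * k2 + 36006058 * a ^ 5 * b ^ 6 * t ^ 5 * k1 ^ 9
    + 194902752 * a ^ 5 * b ^ 6 * t ^ 5 * k1 ^ 8 * k2 - 35082080 * a ^ 5 * b ^ 6 * t ^ 5 * k1 ^ 7 * k2 ^ 2 + 343877710 * a ^ 5 * b ^ 6 * t ^ 5 * k1 ^ 7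
    - 162590868 * a ^ 5 * b ^ 6 * t ^ 5 * k1 ^ 6 * k2 ^ 3 + 1270806240 * a ^ 5 * b ^ 6 * t ^ 5 * k1 ^ 6 * k2 + 25051092 * a ^ 5 * b ^ 6 * t ^ 5 * k1 ^ 5 * k2 ^ 4
    - 168467310 * a ^ 5 * b ^ 6 * t ^ 5 * k1 ^ 5 * k2 ^ 2 + 1074787450 * a ^ 5 * b ^ 6 * t ^ 5 * k1 ^ 5 + 77528484 * a ^ 5 * b ^ 6 * t ^ 5 * k1 ^ 4 * k2 ^ 5
    - 457851900 * a ^ 5 * b ^ 6 * t ^ 5 * k1 ^ 4 * k2 ^ 3 + 2652196800 * a ^ 5 * b ^ 6 * t ^ 5 * k1 ^ 4 * k2 - 7986704 * a ^ 5 * b ^ 6 * t ^ 5 * k1 ^ 3 * k2 ^ 6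
    + 43211850 * a ^ 5 * b ^ 6 * t ^ 5 * k1 ^ 3 * k2 ^ 4 - 232450900 * a ^ 5 * b ^ 6 * t ^ 5 * k1 ^ 3 * k2 ^ 2 + 1244212750 * a ^ 5 * b ^ 6 * t ^ 5 * k1 ^ 3
    - 13566300 * a ^ 5 * b ^ 6 * t ^ 5 * k1 ^ 2 * k2 ^ 7 + 70209480 * a ^ 5 * b ^ 6 * t ^ 5 * k1 ^ 2 * k2 ^ 5 - 362937300 * a ^ 5 * b ^ 6 * t ^ 5 * k1 ^ 2 * k2 ^ 3
    + 1874136000 * a ^ 5 * b ^ 6 * t ^ 5 * k1 ^ 2 * k2 + 655666 * a ^ 5 * b ^ 6 * t ^ 5 * k1 * k2 ^ 8 - 3278330 * a ^ 5 * b ^ 6 * t ^ 5 * k1 * k2 ^ 6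
    + 16391650 * a ^ 5 * b ^ 6 * t ^ 5 * k1 * k2 ^ 4 - 81958250 * a ^ 5 * b ^ 6 * t ^ 5 * k1 * k2 ^ 2 + 409791250 * a ^ 5 * b ^ 6 * t ^ 5 * k1
    + 475596 * a ^ 5 * b ^ 6 * t ^ 5 * k2 ^ 9 - 2377980 * a ^ 5 * b ^ 6 * t ^ 5 * k2 ^ 7 + 11889900 * a ^ 5 * b ^ 6 * t ^ 5 * k2 ^ 5
    - 59449500 * a ^ 5 * b ^ 6 * t ^ 5 * k2 ^ 3 + 297247500 * a ^ 5 * b ^ 6 * t ^ 5 * k2 - 20247954 * a ^ 5 * b ^ 4 * t ^ 4 * k1 ^ 7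
    - 48312 * a ^ 5 * b ^ 4 * t ^ 4 * k1 ^ 6 * k2 + 17029386 * a ^ 5 * b ^ 4 * t ^ 4 * k1 ^ 5 * k2 ^ 2 - 126165030 * a ^ 5 * b ^ 4 * t ^ 4 * k1 ^ 5
    + 284328 * a ^ 5 * b ^ 4 * t ^ 4 * k1 ^ 4 * k2 ^ 3 - 3084840 * a ^ 5 * b ^ 4 * t ^ 4 * k1 ^ 4 * k2 - 7363206 * a ^ 5 * b ^ 4 * t ^ 4 * k1 ^ 3 * k2 ^ 4
    + 41018100 * a ^ 5 * b ^ 4 * t ^ 4 * k1 ^ 3 * k2 ^ 2 - 226100850 * a ^ 5 * b ^ 4 * t ^ 4 * k1 ^ 3 - 284328 * a ^ 5 * b ^ 4 * t ^ 4 * k1 ^ 2 * k2 ^ 5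
    + 1663200 * a ^ 5 * b ^ 4 * t ^ 4 * k1 ^ 2 * k2 ^ 3 - 9523800 * a ^ 5 * b ^ 4 * t ^ 4 * k1 ^ 2 * k2 + 840414 * a ^ 5 * b ^ 4 * t ^ 4 * k1 * k2 ^ 6
    - 4202070 * a ^ 5 * b ^ 4 * t ^ 4 * k1 * k2 ^ 4 + 21010350 * a ^ 5 * b ^ 4 * t ^ 4 * k1 * k2 ^ 2 - 105051750 * a ^ 5 * b ^ 4 * t ^ 4 * k1
    + 48312 * a ^ 5 * b ^ 4 * t ^ 4 * k2 ^ 7 - 241560 * a ^ 5 * b ^ 4 * t ^ 4 * k2 ^ 5 + 1207800 * a ^ 5 * b ^ 4 * t ^ 4 * k2 ^ 3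
    - 6039000 * a ^ 5 * b ^ 4 * t ^ 4 * k2 - 85362 * a ^ 5 * b ^ 2 * t ^ 3 * k1 ^ 5 - 427680 * a ^ 5 * b ^ 2 * t ^ 3 * k1 ^ 4 * k2
    + 37788 * a ^ 5 * b ^ 2 * t ^ 3 * k1 ^ 3 * k2 ^ 2 - 172590 * a ^ 5 * b ^ 2 * t ^ 3 * k1 ^ 3 + 142956 * a ^ 5 * b ^ 2 * t ^ 3 * k1 ^ 2 * k2 ^ 3
    - 712800 * a ^ 5 * b ^ 2 * t ^ 3 * k1 ^ 2 * k2 + 3270 * a ^ 5 * b ^ 2 * t ^ 3 * k1 * k2 ^ 4 - 16350 * a ^ 5 * b ^ 2 * t ^ 3 * k1 * k2 ^ 2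
    + 81750 * a ^ 5 * b ^ 2 * t ^ 3 * k1 + 396 * a ^ 5 * b ^ 2 * t ^ 3 * k2 ^ 5 - 1980 * a ^ 5 * b ^ 2 * t ^ 3 * k2 ^ 3
    + 9900 * a ^ 5 * b ^ 2 * t ^ 3 * k2 + 1810 * a ^ 5 * t ^ 2 * k1 ^ 3 + 264 * a ^ 5 * t ^ 2 * k1 ^ 2 * k2
    - 38 * a ^ 5 * t ^ 2 * k1 * k2 ^ 2 + 190 * a ^ 5 * t ^ 2 * k1 - 141158424 * a ^ 4 * b ^ 7 * t ^ 5 * k1 ^ 9
    + 26085994 * a ^ 4 * b ^ 7 * t ^ 5 * k1 ^ 8 * k2 + 134694780 * a ^ 4 * b ^ 7 * t ^ 5 * k1 ^ 7 * k2 ^ 2 - 1282919880 * a ^ 4 * b ^ 7 * t ^ 5 * k1 ^ 7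
    - 25449776 * a ^ 4 * b ^ 7 * t ^ 5 * k1 ^ 6 * k2 ^ 3 + 222406030 * a ^ 4 * b ^ 7 * t ^ 5 * k1 ^ 6 * k2 - 91832796 * a ^ 4 * b ^ 7 * t ^ 5 * k1 ^ 5 * k2 ^ 4
    + 609445980 * a ^ 4 * b ^ 7 * t ^ 5 * k1 ^ 5 * k2 ^ 2 - 3853284600 * a ^ 4 * b ^ 7 * t ^ 5 * k1 ^ 5 + 15418788 * a ^ 4 * b ^ 7 * t ^ 5 * k1 ^ 4 * k2 ^ 5
    - 95157150 * a ^ 4 * b ^ 7 * t ^ 5 * k1 ^ 4 * k2 ^ 3 + 570177850 * a ^ 4 * b ^ 7 * t ^ 5 * k1 ^ 4 * k2 + 27870612 * a ^ 4 * b ^ 7 * t ^ 5 * k1 ^ 3 * k2 ^ 6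
    - 150282000 * a ^ 4 * b ^ 7 * t ^ 5 * k1 ^ 3 * k2 ^ 4 + 806054700 * a ^ 4 * b ^ 7 * t ^ 5 * k1 ^ 3 * k2 ^ 2 - 4303497000 * a ^ 4 * b ^ 7 * t ^ 5 * k1 ^ 3
    - 3449600 * a ^ 4 * b ^ 7 * t ^ 5 * k1 ^ 2 * k2 ^ 7 + 18063210 * a ^ 4 * b ^ 7 * t ^ 5 * k1 ^ 2 * k2 ^ 5 - 94392100 * a ^ 4 * b ^ 7 * t ^ 5 * k1 ^ 2 * k2 ^ 3
    + 492340750 * a ^ 4 * b ^ 7 * t ^ 5 * k1 ^ 2 * k2 - 2185788 * a ^ 4 * b ^ 7 * t ^ 5 * k1 * k2 ^ 8 + 10928940 * a ^ 4 * b ^ 7 * t ^ 5 * k1 * k2 ^ 6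
    - 54644700 * a ^ 4 * b ^ 7 * t ^ 5 * k1 * k2 ^ 4 + 273223500 * a ^ 4 * b ^ 7 * t ^ 5 * k1 * k2 ^ 2 - 1366117500 * a ^ 4 * b ^ 7 * t ^ 5 * k1
    + 163042 * a ^ 4 * b ^ 7 * t ^ 5 * k2 ^ 9 - 815210 * a ^ 4 * b ^ 7 * t ^ 5 * k2 ^ 7 + 4076050 * a ^ 4 * b ^ 7 * t ^ 5 * k2 ^ 5
    - 20380250 * a ^ 4 * b ^ 7 * t ^ 5 * k2 ^ 3 + 101901250 * a ^ 4 * b ^ 7 * t ^ 5 * k2 - 48312 * a ^ 4 * b ^ 5 * t ^ 4 * k1 ^ 7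
    - 19571586 * a ^ 4 * b ^ 5 * t ^ 4 * k1 ^ 6 * k2 + 284328 * a ^ 4 * b ^ 5 * t ^ 4 * k1 ^ 5 * k2 ^ 2 - 3084840 * a ^ 4 * b ^ 5 * t ^ 4 * k1 ^ 5
    + 13048794 * a ^ 4 * b ^ 5 * t ^ 4 * k1 ^ 4 * k2 ^ 3 - 82977270 * a ^ 4 * b ^ 5 * t ^ 4 * k1 ^ 4 * k2 - 284328 * a ^ 4 * b ^ 5 * t ^ 4 * k1 ^ 3 * k2 ^ 4
    + 1663200 * a ^ 4 * b ^ 5 * t ^ 4 * k1 ^ 3 * k2 ^ 2 - 9523800 * a ^ 4 * b ^ 5 * t ^ 4 * k1 ^ 3 - 3382614 * a ^ 4 * b ^ 5 * t ^ 4 * k1 ^ 2 * k2 ^ 5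
    + 17733300 * a ^ 4 * b ^ 5 * t ^ 4 * k1 ^ 2 * k2 ^ 3 - 92767650 * a ^ 4 * b ^ 5 * t ^ 4 * k1 ^ 2 * k2 + 48312 * a ^ 4 * b ^ 5 * t ^ 4 * k1 * k2 ^ 6
    - 241560 * a ^ 4 * b ^ 5 * t ^ 4 * k1 * k2 ^ 4 + 1207800 * a ^ 4 * b ^ 5 * t ^ 4 * k1 * k2 ^ 2 - 6039000 * a ^ 4 * b ^ 5 * t ^ 4 * k1
    + 164046 * a ^ 4 * b ^ 5 * t ^ 4 * k2 ^ 7 - 820230 * a ^ 4 * b ^ 5 * t ^ 4 * k2 ^ 5 + 4101150 * a ^ 4 * b ^ 5 * t ^ 4 * k2 ^ 3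
    - 20505750 * a ^ 4 * b ^ 5 * t ^ 4 * k2 + 807048 * a ^ 4 * b ^ 3 * t ^ 3 * k1 ^ 5 - 128274 * a ^ 4 * b ^ 3 * t ^ 3 * k1 ^ 4 * k2
    - 522324 * a ^ 4 * b ^ 3 * t ^ 3 * k1 ^ 3 * k2 ^ 2 + 3092760 * a ^ 4 * b ^ 3 * t ^ 3 * k1 ^ 3 + 40092 * a ^ 4 * b ^ 3 * t ^ 3 * k1 ^ 2 * k2 ^ 3
    - 195630 * a ^ 4 * b ^ 3 * t ^ 3 * k1 ^ 2 * k2 + 96228 * a ^ 4 * b ^ 3 * t ^ 3 * k1 * k2 ^ 4 - 481140 * a ^ 4 * b ^ 3 * t ^ 3 * k1 * k2 ^ 2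
    + 2405700 * a ^ 4 * b ^ 3 * t ^ 3 * k1 + 966 * a ^ 4 * b ^ 3 * t ^ 3 * k2 ^ 5 - 4830 * a ^ 4 * b ^ 3 * t ^ 3 * k2 ^ 3
    + 24150 * a ^ 4 * b ^ 3 * t ^ 3 * k2 - 264 * a ^ 4 * b * t ^ 2 * k1 ^ 3 + 5506 * a ^ 4 * b * t ^ 2 * k1 ^ 2 * k2
    + 528 * a ^ 4 * b * t ^ 2 * k1 * k2 ^ 2 - 2640 * a ^ 4 * b * t ^ 2 * k1 - 38 * a ^ 4 * b * t ^ 2 * k2 ^ 3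
    + 190 * a ^ 4 * b * t ^ 2 * k2 - 12832963 * a ^ 3 * b ^ 8 * t ^ 5 * k1 ^ 9 - 70662702 * a ^ 3 * b ^ 8 * t ^ 5 * k1 ^ 8 * k2
    + 13703360 * a ^ 3 * b ^ 8 * t ^ 5 * k1 ^ 7 * k2 ^ 2 - 165713185 * a ^ 3 * b ^ 8 * t ^ 5 * k1 ^ 7 + 62155038 * a ^ 3 * b ^ 8 * t ^ 5 * k1 ^ 6 * k2 ^ 3
    - 480662490 * a ^ 3 * b ^ 8 * t ^ 5 * k1 ^ 6 * k2 - 13067142 * a ^ 3 * b ^ 8 * t ^ 5 * k1 ^ 5 * k2 ^ 4 + 97196385 * a ^ 3 * b ^ 8 * t ^ 5 * k1 ^ 5 * k2 ^ 2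
    - 661186075 * a ^ 3 * b ^ 8 * t ^ 5 * k1 ^ 5 - 29843154 * a ^ 3 * b ^ 8 * t ^ 5 * k1 ^ 4 * k2 ^ 5 + 169887300 * a ^ 3 * b ^ 8 * t ^ 5 * k1 ^ 4 * k2 ^ 3
    - 952193550 * a ^ 3 * b ^ 8 * t ^ 5 * k1 ^ 4 * k2 + 5736104 * a ^ 3 * b ^ 8 * t ^ 5 * k1 ^ 3 * k2 ^ 6 - 31860675 * a ^ 3 * b ^ 8 * t ^ 5 * k1 ^ 3 * k2 ^ 4
    + 175204150 * a ^ 3 * b ^ 8 * t ^ 5 * k1 ^ 3 * k2 ^ 2 - 955524625 * a ^ 3 * b ^ 8 * t ^ 5 * k1 ^ 3 + 4158330 * a ^ 3 * b ^ 8 * t ^ 5 * k1 ^ 2 * k2 ^ 7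
    - 20671530 * a ^ 3 * b ^ 8 * t ^ 5 * k1 ^ 2 * k2 ^ 5 + 102757050 * a ^ 3 * b ^ 8 * t ^ 5 * k1 ^ 2 * k2 ^ 3 - 510782250 * a ^ 3 * b ^ 8 * t ^ 5 * k1 ^ 2 * k2
    - 636031 * a ^ 3 * b ^ 8 * t ^ 5 * k1 * k2 ^ 8 + 3180155 * a ^ 3 * b ^ 8 * t ^ 5 * k1 * k2 ^ 6 - 15900775 * a ^ 3 * b ^ 8 * t ^ 5 * k1 * k2 ^ 4
    + 79503875 * a ^ 3 * b ^ 8 * t ^ 5 * k1 * k2 ^ 2 - 397519375 * a ^ 3 * b ^ 8 * t ^ 5 * k1 + 24024 * a ^ 3 * b ^ 8 * t ^ 5 * k2 ^ 9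
    - 120120 * a ^ 3 * b ^ 8 * t ^ 5 * k2 ^ 7 + 600600 * a ^ 3 * b ^ 8 * t ^ 5 * k2 ^ 5 - 3003000 * a ^ 3 * b ^ 8 * t ^ 5 * k2 ^ 3
    + 15015000 * a ^ 3 * b ^ 8 * t ^ 5 * k2 + 13604636 * a ^ 3 * b ^ 6 * t ^ 4 * k1 ^ 7 - 191400 * a ^ 3 * b ^ 6 * t ^ 4 * k1 ^ 6 * k2
    - 11904828 * a ^ 3 * b ^ 6 * t ^ 4 * k1 ^ 5 * k2 ^ 2 + 89527220 * a ^ 3 * b ^ 6 * t ^ 4 * k1 ^ 5 + 663432 * a ^ 3 * b ^ 6 * t ^ 4 * k1 ^ 4 * k2 ^ 3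
    - 5695800 * a ^ 3 * b ^ 6 * t ^ 4 * k1 ^ 4 * k2 + 5382036 * a ^ 3 * b ^ 6 * t ^ 4 * k1 ^ 3 * k2 ^ 4 - 30003080 * a ^ 3 * b ^ 6 * t ^ 4 * k1 ^ 3 * k2 ^ 2
    + 165479900 * a ^ 3 * b ^ 6 * t ^ 4 * k1 ^ 3 - 427416 * a ^ 3 * b ^ 6 * t ^ 4 * k1 ^ 2 * k2 ^ 5 + 2378640 * a ^ 3 * b ^ 6 * t ^ 4 * k1 ^ 2 * k2 ^ 3
    - 13101000 * a ^ 3 * b ^ 6 * t ^ 4 * k1 ^ 2 * k2 - 618580 * a ^ 3 * b ^ 6 * t ^ 4 * k1 * k2 ^ 6 + 3092900 * a ^ 3 * b ^ 6 * t ^ 4 * k1 * k2 ^ 4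
    - 15464500 * a ^ 3 * b ^ 6 * t ^ 4 * k1 * k2 ^ 2 + 77322500 * a ^ 3 * b ^ 6 * t ^ 4 * k1 + 48312 * a ^ 3 * b ^ 6 * t ^ 4 * k2 ^ 7
    - 241560 * a ^ 3 * b ^ 6 * t ^ 4 * k2 ^ 5 + 1207800 * a ^ 3 * b ^ 6 * t ^ 4 * k2 ^ 3 - 6039000 * a ^ 3 * b ^ 6 * t ^ 4 * k2
    + 152166 * a ^ 3 * b ^ 4 * t ^ 3 * k1 ^ 5 + 735372 * a ^ 3 * b ^ 4 * t ^ 3 * k1 ^ 4 * k2 - 111108 * a ^ 3 * b ^ 4 * t ^ 3 * k1 ^ 3 * k2 ^ 2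
    + 670170 * a ^ 3 * b ^ 4 * t ^ 3 * k1 ^ 3 - 309276 * a ^ 3 * b ^ 4 * t ^ 3 * k1 ^ 2 * k2 ^ 3 + 1669140 * a ^ 3 * b ^ 4 * t ^ 3 * k1 ^ 2 * k2
    + 22926 * a ^ 3 * b ^ 4 * t ^ 3 * k1 * k2 ^ 4 - 114630 * a ^ 3 * b ^ 4 * t ^ 3 * k1 * k2 ^ 2 + 573150 * a ^ 3 * b ^ 4 * t ^ 3 * k1
    + 24552 * a ^ 3 * b ^ 4 * t ^ 3 * k2 ^ 5 - 122760 * a ^ 3 * b ^ 4 * t ^ 3 * k2 ^ 3 + 613800 * a ^ 3 * b ^ 4 * t ^ 3 * k2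
    - 16228 * a ^ 3 * b ^ 2 * t ^ 2 * k1 ^ 3 - 264 * a ^ 3 * b ^ 2 * t ^ 2 * k1 ^ 2 * k2 + 5468 * a ^ 3 * b ^ 2 * t ^ 2 * k1 * k2 ^ 2
    - 27340 * a ^ 3 * b ^ 2 * t ^ 2 * k1 + 264 * a ^ 3 * b ^ 2 * t ^ 2 * k2 ^ 3 - 1320 * a ^ 3 * b ^ 2 * t ^ 2 * k2
    - 7 * a ^ 3 * t * k1 + 23522334 * a ^ 2 * b ^ 9 * t ^ 5 * k1 ^ 9 - 4284379 * a ^ 2 * b ^ 9 * t ^ 5 * k1 ^ 8 * k2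
    - 23665290 * a ^ 2 * b ^ 9 * t ^ 5 * k1 ^ 7 * k2 ^ 2 + 224532330 * a ^ 2 * b ^ 9 * t ^ 5 * k1 ^ 7 + 5154776 * a ^ 2 * b ^ 9 * t ^ 5 * k1 ^ 6 * k2 ^ 3
    - 51640105 * a ^ 2 * b ^ 9 * t ^ 5 * k1 ^ 6 * k2 + 17201646 * a ^ 2 * b ^ 9 * t ^ 5 * k1 ^ 5 * k2 ^ 4 - 106205880 * a ^ 2 * b ^ 9 * t ^ 5 * k1 ^ 5 * k2 ^ 2
    + 630232350 * a ^ 2 * b ^ 9 * t ^ 5 * k1 ^ 5 - 4230798 * a ^ 2 * b ^ 9 * t ^ 5 * k1 ^ 4 * k2 ^ 5 + 25866225 * a ^ 2 * b ^ 9 * t ^ 5 * k1 ^ 4 * k2 ^ 3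
    - 152847475 * a ^ 2 * b ^ 9 * t ^ 5 * k1 ^ 4 * k2 - 4110942 * a ^ 2 * b ^ 9 * t ^ 5 * k1 ^ 3 * k2 ^ 6 + 20197650 * a ^ 2 * b ^ 9 * t ^ 5 * k1 ^ 3 * k2 ^ 4
    - 99202950 * a ^ 2 * b ^ 9 * t ^ 5 * k1 ^ 3 * k2 ^ 2 + 487088250 * a ^ 2 * b ^ 9 * t ^ 5 * k1 ^ 3 + 944240 * a ^ 2 * b ^ 9 * t ^ 5 * k1 ^ 2 * k2 ^ 7
    - 4712235 * a ^ 2 * b ^ 9 * t ^ 5 * k1 ^ 2 * k2 ^ 5 + 23516350 * a ^ 2 * b ^ 9 * t ^ 5 * k1 ^ 2 * k2 ^ 3 - 117357625 * a ^ 2 * b ^ 9 * t ^ 5 * k1 ^ 2 * k2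
    - 71412 * a ^ 2 * b ^ 9 * t ^ 5 * k1 * k2 ^ 8 + 357060 * a ^ 2 * b ^ 9 * t ^ 5 * k1 * k2 ^ 6 - 1785300 * a ^ 2 * b ^ 9 * t ^ 5 * k1 * k2 ^ 4
    + 8926500 * a ^ 2 * b ^ 9 * t ^ 5 * k1 * k2 ^ 2 - 44632500 * a ^ 2 * b ^ 9 * t ^ 5 * k1 + 1793 * a ^ 2 * b ^ 9 * t ^ 5 * k2 ^ 9
    - 8965 * a ^ 2 * b ^ 9 * t ^ 5 * k2 ^ 7 + 44825 * a ^ 2 * b ^ 9 * t ^ 5 * k2 ^ 5 - 224125 * a ^ 2 * b ^ 9 * t ^ 5 * k2 ^ 3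
    + 1120625 * a ^ 2 * b ^ 9 * t ^ 5 * k2 - 264 * a ^ 2 * b ^ 7 * t ^ 4 * k1 ^ 7 + 5822252 * a ^ 2 * b ^ 7 * t ^ 4 * k1 ^ 6 * k2
    - 285912 * a ^ 2 * b ^ 7 * t ^ 4 * k1 ^ 5 * k2 ^ 2 + 4753320 * a ^ 2 * b ^ 7 * t ^ 4 * k1 ^ 5 - 4122444 * a ^ 2 * b ^ 7 * t ^ 4 * k1 ^ 4 * k2 ^ 3
    + 25104740 * a ^ 2 * b ^ 7 * t ^ 4 * k1 ^ 4 * k2 + 521928 * a ^ 2 * b ^ 7 * t ^ 4 * k1 ^ 3 * k2 ^ 4 - 3323760 * a ^ 2 * b ^ 7 * t ^ 4 * k1 ^ 3 * k2 ^ 2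
    + 20189400 * a ^ 2 * b ^ 7 * t ^ 4 * k1 ^ 3 + 903876 * a ^ 2 * b ^ 7 * t ^ 4 * k1 ^ 2 * k2 ^ 5 - 4492520 * a ^ 2 * b ^ 7 * t ^ 4 * k1 ^ 2 * k2 ^ 3
    + 22328300 * a ^ 2 * b ^ 7 * t ^ 4 * k1 ^ 2 * k2 - 142824 * a ^ 2 * b ^ 7 * t ^ 4 * k1 * k2 ^ 6 + 714120 * a ^ 2 * b ^ 7 * t ^ 4 * k1 * k2 ^ 4
    - 3570600 * a ^ 2 * b ^ 7 * t ^ 4 * k1 * k2 ^ 2 + 17853000 * a ^ 2 * b ^ 7 * t ^ 4 * k1 + 5372 * a ^ 2 * b ^ 7 * t ^ 4 * k2 ^ 7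
    - 26860 * a ^ 2 * b ^ 7 * t ^ 4 * k2 ^ 5 + 134300 * a ^ 2 * b ^ 7 * t ^ 4 * k2 ^ 3 - 671500 * a ^ 2 * b ^ 7 * t ^ 4 * k2
    - 499356 * a ^ 2 * b ^ 5 * t ^ 3 * k1 ^ 5 + 93990 * a ^ 2 * b ^ 5 * t ^ 3 * k1 ^ 4 * k2 + 356004 * a ^ 2 * b ^ 5 * t ^ 3 * k1 ^ 3 * k2 ^ 2
    - 2136420 * a ^ 2 * b ^ 5 * t ^ 3 * k1 ^ 3 - 52932 * a ^ 2 * b ^ 5 * t ^ 3 * k1 ^ 2 * k2 ^ 3 + 291450 * a ^ 2 * b ^ 5 * t ^ 3 * k1 ^ 2 * k2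
    - 71280 * a ^ 2 * b ^ 5 * t ^ 3 * k1 * k2 ^ 4 + 356400 * a ^ 2 * b ^ 5 * t ^ 3 * k1 * k2 ^ 2 - 1782000 * a ^ 2 * b ^ 5 * t ^ 3 * k1
    + 5358 * a ^ 2 * b ^ 5 * t ^ 3 * k2 ^ 5 - 26790 * a ^ 2 * b ^ 5 * t ^ 3 * k2 ^ 3 + 133950 * a ^ 2 * b ^ 5 * t ^ 3 * k2
    - 264 * a ^ 2 * b ^ 3 * t ^ 2 * k1 ^ 3 - 12532 * a ^ 2 * b ^ 3 * t ^ 2 * k1 ^ 2 * k2 + 264 * a ^ 2 * b ^ 3 * t ^ 2 * k1 * k2 ^ 2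
    - 1320 * a ^ 2 * b ^ 3 * t ^ 2 * k1 + 1772 * a ^ 2 * b ^ 3 * t ^ 2 * k2 ^ 3 - 8860 * a ^ 2 * b ^ 3 * t ^ 2 * k2
    + 132 * a ^ 2 * b * t * k1 - 7 * a ^ 2 * b * t * k2 + 855349 * a * b ^ 10 * t ^ 5 * k1 ^ 9
    + 4704348 * a * b ^ 10 * t ^ 5 * k1 ^ 8 * k2 - 862928 * a * b ^ 10 * t ^ 5 * k1 ^ 7 * k2 ^ 2 + 13899655 * a * b ^ 10 * t ^ 5 * k1 ^ 7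
    - 4799850 * a * b ^ 10 * t ^ 5 * k1 ^ 6 * k2 ^ 3 + 34215060 * a * b ^ 10 * t ^ 5 * k1 ^ 6 * k2 + 1288122 * a * b ^ 10 * t ^ 5 * k1 ^ 5 * k2 ^ 4
    - 9585015 * a * b ^ 10 * t ^ 5 * k1 ^ 5 * k2 ^ 2 + 63557725 * a * b ^ 10 * t ^ 5 * k1 ^ 5 + 2114442 * a * b ^ 10 * t ^ 5 * k1 ^ 4 * k2 ^ 5
    - 10215810 * a * b ^ 10 * t ^ 5 * k1 ^ 4 * k2 ^ 3 + 49298700 * a * b ^ 10 * t ^ 5 * k1 ^ 4 * k2 - 632456 * a * b ^ 10 * t ^ 5 * k1 ^ 3 * k2 ^ 6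
    + 3144405 * a * b ^ 10 * t ^ 5 * k1 ^ 3 * k2 ^ 4 - 15632650 * a * b ^ 10 * t ^ 5 * k1 ^ 3 * k2 ^ 2 + 77716375 * a * b ^ 10 * t ^ 5 * k1 ^ 3
    + 71346 * a * b ^ 10 * t ^ 5 * k1 ^ 2 * k2 ^ 7 - 356400 * a * b ^ 10 * t ^ 5 * k1 ^ 2 * k2 ^ 5 + 1780350 * a * b ^ 10 * t ^ 5 * k1 ^ 2 * k2 ^ 3
    - 8893500 * a * b ^ 10 * t ^ 5 * k1 ^ 2 * k2 - 3575 * a * b ^ 10 * t ^ 5 * k1 * k2 ^ 8 + 17875 * a * b ^ 10 * t ^ 5 * k1 * k2 ^ 6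
    - 89375 * a * b ^ 10 * t ^ 5 * k1 * k2 ^ 4 + 446875 * a * b ^ 10 * t ^ 5 * k1 * k2 ^ 2 - 2234375 * a * b ^ 10 * t ^ 5 * k1
    + 66 * a * b ^ 10 * t ^ 5 * k2 ^ 9 - 330 * a * b ^ 10 * t ^ 5 * k2 ^ 7 + 1650 * a * b ^ 10 * t ^ 5 * k2 ^ 5
    - 8250 * a * b ^ 10 * t ^ 5 * k2 ^ 3 + 41250 * a * b ^ 10 * t ^ 5 * k2 - 1458043 * a * b ^ 8 * t ^ 4 * k1 ^ 7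
    - 528 * a * b ^ 8 * t ^ 4 * k1 ^ 6 * k2 + 1448295 * a * b ^ 8 * t ^ 4 * k1 ^ 5 * k2 ^ 2 - 10227385 * a * b ^ 8 * t ^ 4 * k1 ^ 5
    - 190872 * a * b ^ 8 * t ^ 4 * k1 ^ 4 * k2 ^ 3 + 1665840 * a * b ^ 8 * t ^ 4 * k1 ^ 4 * k2 - 607881 * a * b ^ 8 * t ^ 4 * k1 ^ 3 * k2 ^ 4
    + 2985910 * a * b ^ 8 * t ^ 4 * k1 ^ 3 * k2 ^ 2 - 14662075 * a * b ^ 8 * t ^ 4 * k1 ^ 3 + 142560 * a * b ^ 8 * t ^ 4 * k1 ^ 2 * k2 ^ 5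
    - 711480 * a * b ^ 8 * t ^ 4 * k1 ^ 2 * k2 ^ 3 + 3550800 * a * b ^ 8 * t ^ 4 * k1 ^ 2 * k2 - 10699 * a * b ^ 8 * t ^ 4 * k1 * k2 ^ 6
    + 53495 * a * b ^ 8 * t ^ 4 * k1 * k2 ^ 4 - 267475 * a * b ^ 8 * t ^ 4 * k1 * k2 ^ 2 + 1337375 * a * b ^ 8 * t ^ 4 * k1
    + 264 * a * b ^ 8 * t ^ 4 * k2 ^ 7 - 1320 * a * b ^ 8 * t ^ 4 * k2 ^ 5 + 6600 * a * b ^ 8 * t ^ 4 * k2 ^ 3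
    - 33000 * a * b ^ 8 * t ^ 4 * k2 - 30302 * a * b ^ 6 * t ^ 3 * k1 ^ 5 - 167112 * a * b ^ 6 * t ^ 3 * k1 ^ 4 * k2
    + 33572 * a * b ^ 6 * t ^ 3 * k1 ^ 3 * k2 ^ 2 - 221090 * a * b ^ 6 * t ^ 3 * k1 ^ 3 + 70884 * a * b ^ 6 * t ^ 3 * k1 ^ 2 * k2 ^ 3
    - 352440 * a * b ^ 6 * t ^ 3 * k1 ^ 2 * k2 - 10646 * a * b ^ 6 * t ^ 3 * k1 * k2 ^ 4 + 53230 * a * b ^ 6 * t ^ 3 * k1 * k2 ^ 2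
    - 266150 * a * b ^ 6 * t ^ 3 * k1 + 396 * a * b ^ 6 * t ^ 3 * k2 ^ 5 - 1980 * a * b ^ 6 * t ^ 3 * k2 ^ 3
    + 9900 * a * b ^ 6 * t ^ 3 * k2 + 8962 * a * b ^ 4 * t ^ 2 * k1 ^ 3 - 528 * a * b ^ 4 * t ^ 2 * k1 ^ 2 * k2
    - 3494 * a * b ^ 4 * t ^ 2 * k1 * k2 ^ 2 + 17470 * a * b ^ 4 * t ^ 2 * k1 + 264 * a * b ^ 4 * t ^ 2 * k2 ^ 3
    - 1320 * a * b ^ 4 * t ^ 2 * k2 + 29 * a * b ^ 2 * t * k1 + 66 * a * b ^ 2 * t * k2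
    - 427680 * b ^ 11 * t ^ 5 * k1 ^ 9 + 77749 * b ^ 11 * t ^ 5 * k1 ^ 8 * k2 + 427614 * b ^ 11 * t ^ 5 * k1 ^ 7 * k2 ^ 2
    - 4276800 * b ^ 11 * t ^ 5 * k1 ^ 7 - 80312 * b ^ 11 * t ^ 5 * k1 ^ 6 * k2 ^ 3 + 1198855 * b ^ 11 * t ^ 5 * k1 ^ 6 * k2
    - 451638 * b ^ 11 * t ^ 5 * k1 ^ 5 * k2 ^ 4 + 2138730 * b ^ 11 * t ^ 5 * k1 ^ 5 * k2 ^ 2 - 10098000 * b ^ 11 * t ^ 5 * k1 ^ 5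
    + 161250 * b ^ 11 * t ^ 5 * k1 ^ 4 * k2 ^ 5 - 797295 * b ^ 11 * t ^ 5 * k1 ^ 4 * k2 ^ 3 + 3941725 * b ^ 11 * t ^ 5 * k1 ^ 4 * k2
    - 23958 * b ^ 11 * t ^ 5 * k1 ^ 3 * k2 ^ 6 + 119460 * b ^ 11 * t ^ 5 * k1 ^ 3 * k2 ^ 4 - 595650 * b ^ 11 * t ^ 5 * k1 ^ 3 * k2 ^ 2
    + 2970000 * b ^ 11 * t ^ 5 * k1 ^ 3 + 1792 * b ^ 11 * t ^ 5 * k1 ^ 2 * k2 ^ 7 - 8955 * b ^ 11 * t ^ 5 * k1 ^ 2 * k2 ^ 5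
    + 44750 * b ^ 11 * t ^ 5 * k1 ^ 2 * k2 ^ 3 - 223625 * b ^ 11 * t ^ 5 * k1 ^ 2 * k2 - 66 * b ^ 11 * t ^ 5 * k1 * k2 ^ 8
    + 330 * b ^ 11 * t ^ 5 * k1 * k2 ^ 6 - 1650 * b ^ 11 * t ^ 5 * k1 * k2 ^ 4 + 8250 * b ^ 11 * t ^ 5 * k1 * k2 ^ 2
    - 41250 * b ^ 11 * t ^ 5 * k1 + b ^ 11 * t ^ 5 * k2 ^ 9 - 5 * b ^ 11 * t ^ 5 * k2 ^ 7
    + 25 * b ^ 11 * t ^ 5 * k2 ^ 5 - 125 * b ^ 11 * t ^ 5 * k2 ^ 3 + 625 * b ^ 11 * t ^ 5 * k2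
    - 162043 * b ^ 9 * t ^ 4 * k1 ^ 6 * k2 - 264 * b ^ 9 * t ^ 4 * k1 ^ 5 * k2 ^ 2 - 237600 * b ^ 9 * t ^ 4 * k1 ^ 5
    + 158679 * b ^ 9 * t ^ 4 * k1 ^ 4 * k2 ^ 3 - 766585 * b ^ 9 * t ^ 4 * k1 ^ 4 * k2 - 48048 * b ^ 9 * t ^ 4 * k1 ^ 3 * k2 ^ 4
    + 238920 * b ^ 9 * t ^ 4 * k1 ^ 3 * k2 ^ 2 - 1188000 * b ^ 9 * t ^ 4 * k1 ^ 3 + 5367 * b ^ 9 * t ^ 4 * k1 ^ 2 * k2 ^ 5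
    - 26810 * b ^ 9 * t ^ 4 * k1 ^ 2 * k2 ^ 3 + 133925 * b ^ 9 * t ^ 4 * k1 ^ 2 * k2 - 264 * b ^ 9 * t ^ 4 * k1 * k2 ^ 6
    + 1320 * b ^ 9 * t ^ 4 * k1 * k2 ^ 4 - 6600 * b ^ 9 * t ^ 4 * k1 * k2 ^ 2 + 33000 * b ^ 9 * t ^ 4 * k1
    + 5 * b ^ 9 * t ^ 4 * k2 ^ 7 - 25 * b ^ 9 * t ^ 4 * k2 ^ 5 + 125 * b ^ 9 * t ^ 4 * k2 ^ 3
    - 625 * b ^ 9 * t ^ 4 * k2 + 23760 * b ^ 7 * t ^ 3 * k1 ^ 5 - 4382 * b ^ 7 * t ^ 3 * k1 ^ 4 * k2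
    - 24156 * b ^ 7 * t ^ 3 * k1 ^ 3 * k2 ^ 2 + 118800 * b ^ 7 * t ^ 3 * k1 ^ 3 + 5348 * b ^ 7 * t ^ 3 * k1 ^ 2 * k2 ^ 3
    - 26690 * b ^ 7 * t ^ 3 * k1 ^ 2 * k2 - 396 * b ^ 7 * t ^ 3 * k1 * k2 ^ 4 + 1980 * b ^ 7 * t ^ 3 * k1 * k2 ^ 2
    - 9900 * b ^ 7 * t ^ 3 * k1 + 10 * b ^ 7 * t ^ 3 * k2 ^ 5 - 50 * b ^ 7 * t ^ 3 * k2 ^ 3
    + 250 * b ^ 7 * t ^ 3 * k2 + 1762 * b ^ 5 * t ^ 2 * k1 ^ 2 * k2 - 264 * b ^ 5 * t ^ 2 * k1 * k2 ^ 2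
    + 1320 * b ^ 5 * t ^ 2 * k1 + 10 * b ^ 5 * t ^ 2 * k2 ^ 3 - 50 * b ^ 5 * t ^ 2 * k2
    - 66 * b ^ 3 * t * k1 + 5 * b ^ 3 * t * k2) * h1
    + (38880 * a ^ 11 * t ^ 5 * k1 ^ 9 + 388800 * a ^ 11 * t ^ 5 * k1 ^ 7 + 893376 * a ^ 11 * t ^ 5 * k1 ^ 5
    - 393120 * a ^ 11 * t ^ 5 * k1 ^ 3 + (34374 / 5) * a ^ 11 * t ^ 5 * k1 + 77760 * a ^ 10 * b * t ^ 5 * k1 ^ 9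
    + 97200 * a ^ 10 * b * t ^ 5 * k1 ^ 7 - 2973888 * a ^ 10 * b * t ^ 5 * k1 ^ 5 - 7434360 * a ^ 10 * b * t ^ 5 * k1 ^ 3
    + (1772388 / 5) * a ^ 10 * b * t ^ 5 * k1 - 2138400 * a ^ 9 * b ^ 2 * t ^ 5 * k1 ^ 9 - 22356000 * a ^ 9 * b ^ 2 * t ^ 5 * k1 ^ 7
    - 71012160 * a ^ 9 * b ^ 2 * t ^ 5 * k1 ^ 5 - 61808400 * a ^ 9 * b ^ 2 * t ^ 5 * k1 ^ 3 + 15071982 * a ^ 9 * b ^ 2 * t ^ 5 * k1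
    + 28080 * a ^ 9 * t ^ 4 * k1 ^ 5 + 140400 * a ^ 9 * t ^ 4 * k1 ^ 3 - 5376 * a ^ 9 * t ^ 4 * k1
    - 1166400 * a ^ 8 * b ^ 3 * t ^ 5 * k1 ^ 9 - 5346000 * a ^ 8 * b ^ 3 * t ^ 5 * k1 ^ 7 + 14450400 * a ^ 8 * b ^ 3 * t ^ 5 * k1 ^ 5
    + 89519400 * a ^ 8 * b ^ 3 * t ^ 5 * k1 ^ 3 + 87148020 * a ^ 8 * b ^ 3 * t ^ 5 * k1 + (1458000 / 11) * a ^ 8 * b * t ^ 4 * k1 ^ 7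
    + (11525760 / 11) * a ^ 8 * b * t ^ 4 * k1 ^ 5 + (20363400 / 11) * a ^ 8 * b * t ^ 4 * k1 ^ 3 - (1738872 / 11) * a ^ 8 * b * t ^ 4 * k1
    + 12830400 * a ^ 7 * b ^ 4 * t ^ 5 * k1 ^ 9 + 139968000 * a ^ 7 * b ^ 4 * t ^ 5 * k1 ^ 7 + 522987840 * a ^ 7 * b ^ 4 * t ^ 5 * k1 ^ 5
    + 760838400 * a ^ 7 * b ^ 4 * t ^ 5 * k1 ^ 3 + 321706332 * a ^ 7 * b ^ 4 * t ^ 5 * k1 - 665280 * a ^ 7 * b ^ 2 * t ^ 4 * k1 ^ 5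
    - 3780000 * a ^ 7 * b ^ 2 * t ^ 4 * k1 ^ 3 - 4804704 * a ^ 7 * b ^ 2 * t ^ 4 * k1 - 2160 * a ^ 7 * t ^ 3 * k1 ^ 5
    - 10800 * a ^ 7 * t ^ 3 * k1 ^ 3 + 1548 * a ^ 7 * t ^ 3 * k1 + 3265920 * a ^ 6 * b ^ 5 * t ^ 5 * k1 ^ 9
    + 25855200 * a ^ 6 * b ^ 5 * t ^ 5 * k1 ^ 7 + 47609856 * a ^ 6 * b ^ 5 * t ^ 5 * k1 ^ 5 - 56059920 * a ^ 6 * b ^ 5 * t ^ 5 * k1 ^ 3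
    - (916652856 / 5) * a ^ 6 * b ^ 5 * t ^ 5 * k1 - (13608000 / 11) * a ^ 6 * b ^ 3 * t ^ 4 * k1 ^ 7 - (113520960 / 11) * a ^ 6 * b ^ 3 * t ^ 4 * k1 ^ 5
    - (281685600 / 11) * a ^ 6 * b ^ 3 * t ^ 4 * k1 ^ 3 - (189427728 / 11) * a ^ 6 * b ^ 3 * t ^ 4 * k1 - (30240 / 11) * a ^ 6 * b * t ^ 3 * k1 ^ 5
    - (5400 / 11) * a ^ 6 * b * t ^ 3 * k1 ^ 3 + (295920 / 11) * a ^ 6 * b * t ^ 3 * k1 - 17962560 * a ^ 5 * b ^ 6 * t ^ 5 * k1 ^ 9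
    - 204120000 * a ^ 5 * b ^ 6 * t ^ 5 * k1 ^ 7 - 819782208 * a ^ 5 * b ^ 6 * t ^ 5 * k1 ^ 5 - 1376192160 * a ^ 5 * b ^ 6 * t ^ 5 * k1 ^ 3
    - (4341188292 / 5) * a ^ 5 * b ^ 6 * t ^ 5 * k1 + 1118880 * a ^ 5 * b ^ 4 * t ^ 4 * k1 ^ 5 + 7257600 * a ^ 5 * b ^ 4 * t ^ 4 * k1 ^ 3
    + 13801824 * a ^ 5 * b ^ 4 * t ^ 4 * k1 + 45360 * a ^ 5 * b ^ 2 * t ^ 3 * k1 ^ 5 + 259200 * a ^ 5 * b ^ 2 * t ^ 3 * k1 ^ 3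
    + 317268 * a ^ 5 * b ^ 2 * t ^ 3 * k1 - 192 * a ^ 5 * t ^ 2 * k1 - 2332800 * a ^ 4 * b ^ 7 * t ^ 5 * k1 ^ 9
    - 26244000 * a ^ 4 * b ^ 7 * t ^ 5 * k1 ^ 7 - 99506880 * a ^ 4 * b ^ 7 * t ^ 5 * k1 ^ 5 - 142837200 * a ^ 4 * b ^ 7 * t ^ 5 * k1 ^ 3
    - 51506424 * a ^ 4 * b ^ 7 * t ^ 5 * k1 + (20412000 / 11) * a ^ 4 * b ^ 5 * t ^ 4 * k1 ^ 7 + (179202240 / 11) * a ^ 4 * b ^ 5 * t ^ 4 * k1 ^ 5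
    + (498733200 / 11) * a ^ 4 * b ^ 5 * t ^ 4 * k1 ^ 3 + (463472352 / 11) * a ^ 4 * b ^ 5 * t ^ 4 * k1 + (151200 / 11) * a ^ 4 * b ^ 3 * t ^ 3 * k1 ^ 5
    + (459000 / 11) * a ^ 4 * b ^ 3 * t ^ 3 * k1 ^ 3 - (389520 / 11) * a ^ 4 * b ^ 3 * t ^ 3 * k1 - (9000 / 11) * a ^ 4 * b * t ^ 2 * k1 ^ 3
    - (27000 / 11) * a ^ 4 * b * t ^ 2 * k1 + 6415200 * a ^ 3 * b ^ 8 * t ^ 5 * k1 ^ 9 + 75816000 * a ^ 3 * b ^ 8 * t ^ 5 * k1 ^ 7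
    + 306892800 * a ^ 3 * b ^ 8 * t ^ 5 * k1 ^ 5 + 490039200 * a ^ 3 * b ^ 8 * t ^ 5 * k1 ^ 3 + 247602390 * a ^ 3 * b ^ 8 * t ^ 5 * k1
    + 60480 * a ^ 3 * b ^ 6 * t ^ 4 * k1 ^ 5 + 151200 * a ^ 3 * b ^ 6 * t ^ 4 * k1 ^ 3 - 191136 * a ^ 3 * b ^ 6 * t ^ 4 * k1
    - 75600 * a ^ 3 * b ^ 4 * t ^ 3 * k1 ^ 5 - 486000 * a ^ 3 * b ^ 4 * t ^ 3 * k1 ^ 3 - 817740 * a ^ 3 * b ^ 4 * t ^ 3 * k1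
    + 960 * a ^ 3 * b ^ 2 * t ^ 2 * k1 + 6 * a ^ 3 * t * k1 + 388800 * a ^ 2 * b ^ 9 * t ^ 5 * k1 ^ 9
    + 5670000 * a ^ 2 * b ^ 9 * t ^ 5 * k1 ^ 7 + 27933120 * a ^ 2 * b ^ 9 * t ^ 5 * k1 ^ 5 + 53080200 * a ^ 2 * b ^ 9 * t ^ 5 * k1 ^ 3
    + 31038276 * a ^ 2 * b ^ 9 * t ^ 5 * k1 - (5832000 / 11) * a ^ 2 * b ^ 7 * t ^ 4 * k1 ^ 7 - (53749440 / 11) * a ^ 2 * b ^ 7 * t ^ 4 * k1 ^ 5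
    - (146772000 / 11) * a ^ 2 * b ^ 7 * t ^ 4 * k1 ^ 3 - (113132592 / 11) * a ^ 2 * b ^ 7 * t ^ 4 * k1 - (90720 / 11) * a ^ 2 * b ^ 5 * t ^ 3 * k1 ^ 5
    - 48600 * a ^ 2 * b ^ 5 * t ^ 3 * k1 ^ 3 - (607536 / 11) * a ^ 2 * b ^ 5 * t ^ 3 * k1 + (18000 / 11) * a ^ 2 * b ^ 3 * t ^ 2 * k1 ^ 3
    + (70080 / 11) * a ^ 2 * b ^ 3 * t ^ 2 * k1 + (36 / 11) * a ^ 2 * b * t * k1 - 427680 * a * b ^ 10 * t ^ 5 * k1 ^ 9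
    - 5248800 * a * b ^ 10 * t ^ 5 * k1 ^ 7 - 20255616 * a * b ^ 10 * t ^ 5 * k1 ^ 5 - 23161680 * a * b ^ 10 * t ^ 5 * k1 ^ 3
    + (9030366 / 5) * a * b ^ 10 * t ^ 5 * k1 - 92880 * a * b ^ 8 * t ^ 4 * k1 ^ 5 - 658800 * a * b ^ 8 * t ^ 4 * k1 ^ 3
    - 980064 * a * b ^ 8 * t ^ 4 * k1 + 15120 * a * b ^ 6 * t ^ 3 * k1 ^ 5 + 108000 * a * b ^ 6 * t ^ 3 * k1 ^ 3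
    + 162540 * a * b ^ 6 * t ^ 3 * k1 - 18 * a * b ^ 2 * t * k1 - (77760 / 11) * b ^ 11 * t ^ 5 * k1 ^ 9
    - (1393200 / 11) * b ^ 11 * t ^ 5 * k1 ^ 7 - (7942752 / 11) * b ^ 11 * t ^ 5 * k1 ^ 5 - (14525640 / 11) * b ^ 11 * t ^ 5 * k1 ^ 3
    + (1884252 / 55) * b ^ 11 * t ^ 5 * k1 + (162000 / 11) * b ^ 9 * t ^ 4 * k1 ^ 7 + (1563840 / 11) * b ^ 9 * t ^ 4 * k1 ^ 5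
    + (3709800 / 11) * b ^ 9 * t ^ 4 * k1 ^ 3 - (286248 / 11) * b ^ 9 * t ^ 4 * k1 + (4320 / 11) * b ^ 7 * t ^ 3 * k1 ^ 5
    + (37800 / 11) * b ^ 7 * t ^ 3 * k1 ^ 3 + (77904 / 11) * b ^ 7 * t ^ 3 * k1 - (1800 / 11) * b ^ 5 * t ^ 2 * k1 ^ 3
    - (8616 / 11) * b ^ 5 * t ^ 2 * k1 - (12 / 11) * b ^ 3 * t * k1) * h2
    + (-24624 * a ^ 11 * t ^ 5 * k1 ^ 6 - 123120 * a ^ 11 * t ^ 5 * k1 ^ 4 + (15624 / 5) * a ^ 11 * t ^ 5 * k1 ^ 2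
    - 194400 * a ^ 10 * b * t ^ 5 * k1 ^ 8 - 1461888 * a ^ 10 * b * t ^ 5 * k1 ^ 6 - 2259360 * a ^ 10 * b * t ^ 5 * k1 ^ 4
    + (3909888 / 5) * a ^ 10 * b * t ^ 5 * k1 ^ 2 - 17766 * a ^ 10 * b * t ^ 5 + 861840 * a ^ 9 * b ^ 2 * t ^ 5 * k1 ^ 6
    + 5151600 * a ^ 9 * b ^ 2 * t ^ 5 * k1 ^ 4 + 6968232 * a ^ 9 * b ^ 2 * t ^ 5 * k1 ^ 2 - 420480 * a ^ 9 * b ^ 2 * t ^ 5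
    + 6480 * a ^ 9 * t ^ 4 * k1 ^ 6 + 32400 * a ^ 9 * t ^ 4 * k1 ^ 4 - 2376 * a ^ 9 * t ^ 4 * k1 ^ 2
    + 2916000 * a ^ 8 * b ^ 3 * t ^ 5 * k1 ^ 8 + 23522400 * a ^ 8 * b ^ 3 * t ^ 5 * k1 ^ 6 + 56894400 * a ^ 8 * b ^ 3 * t ^ 5 * k1 ^ 4
    + 36965520 * a ^ 8 * b ^ 3 * t ^ 5 * k1 ^ 2 - 5992230 * a ^ 8 * b ^ 3 * t ^ 5 - (116640 / 11) * a ^ 8 * b * t ^ 4 * k1 ^ 6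
    - (1371600 / 11) * a ^ 8 * b * t ^ 4 * k1 ^ 4 - (2935872 / 11) * a ^ 8 * b * t ^ 4 * k1 ^ 2 + (100080 / 11) * a ^ 8 * b * t ^ 4
    - 2216160 * a ^ 7 * b ^ 4 * t ^ 5 * k1 ^ 6 - 17301600 * a ^ 7 * b ^ 4 * t ^ 5 * k1 ^ 4 - 38721168 * a ^ 7 * b ^ 4 * t ^ 5 * k1 ^ 2
    - 24639840 * a ^ 7 * b ^ 4 * t ^ 5 - 233280 * a ^ 7 * b ^ 2 * t ^ 4 * k1 ^ 6 - 1296000 * a ^ 7 * b ^ 2 * t ^ 4 * k1 ^ 4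
    - 1564704 * a ^ 7 * b ^ 2 * t ^ 4 * k1 ^ 2 + 144720 * a ^ 7 * b ^ 2 * t ^ 4 + 648 * a ^ 7 * t ^ 3 * k1 ^ 2
    - 8164800 * a ^ 6 * b ^ 5 * t ^ 5 * k1 ^ 8 - 70326144 * a ^ 6 * b ^ 5 * t ^ 5 * k1 ^ 6 - 202849920 * a ^ 6 * b ^ 5 * t ^ 5 * k1 ^ 4
    - (1064177856 / 5) * a ^ 6 * b ^ 5 * t ^ 5 * k1 ^ 2 - 70443660 * a ^ 6 * b ^ 5 * t ^ 5 + (1088640 / 11) * a ^ 6 * b ^ 3 * t ^ 4 * k1 ^ 6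
    + (9374400 / 11) * a ^ 6 * b ^ 3 * t ^ 4 * k1 ^ 4 + (24730272 / 11) * a ^ 6 * b ^ 3 * t ^ 4 * k1 ^ 2 + (17888160 / 11) * a ^ 6 * b ^ 3 * t ^ 4
    + (75600 / 11) * a ^ 6 * b * t ^ 3 * k1 ^ 4 + (209520 / 11) * a ^ 6 * b * t ^ 3 * k1 ^ 2 - (21060 / 11) * a ^ 6 * b * t ^ 3
    - 1034208 * a ^ 5 * b ^ 6 * t ^ 5 * k1 ^ 6 - 272160 * a ^ 5 * b ^ 6 * t ^ 5 * k1 ^ 4 + (53324208 / 5) * a ^ 5 * b ^ 6 * t ^ 5 * k1 ^ 2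
    + 26992224 * a ^ 5 * b ^ 6 * t ^ 5 + 816480 * a ^ 5 * b ^ 4 * t ^ 4 * k1 ^ 6 + 4989600 * a ^ 5 * b ^ 4 * t ^ 4 * k1 ^ 4
    + 8923824 * a ^ 5 * b ^ 4 * t ^ 4 * k1 ^ 2 + 2961360 * a ^ 5 * b ^ 4 * t ^ 4 - 5832 * a ^ 5 * b ^ 2 * t ^ 3 * k1 ^ 2
    - 17280 * a ^ 5 * b ^ 2 * t ^ 3 - 72 * a ^ 5 * t ^ 2 * k1 ^ 2 + 5832000 * a ^ 4 * b ^ 7 * t ^ 5 * k1 ^ 8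
    + 53421120 * a ^ 4 * b ^ 7 * t ^ 5 * k1 ^ 6 + 161092800 * a ^ 4 * b ^ 7 * t ^ 5 * k1 ^ 4 + 181548576 * a ^ 4 * b ^ 7 * t ^ 5 * k1 ^ 2
    + 54813060 * a ^ 4 * b ^ 7 * t ^ 5 - (1632960 / 11) * a ^ 4 * b ^ 5 * t ^ 4 * k1 ^ 6 - (8920800 / 11) * a ^ 4 * b ^ 5 * t ^ 4 * k1 ^ 4
    - (20871648 / 11) * a ^ 4 * b ^ 5 * t ^ 4 * k1 ^ 2 - (10526400 / 11) * a ^ 4 * b ^ 5 * t ^ 4 - (378000 / 11) * a ^ 4 * b ^ 3 * t ^ 3 * k1 ^ 4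
    - (1343520 / 11) * a ^ 4 * b ^ 3 * t ^ 3 * k1 ^ 2 - (1313100 / 11) * a ^ 4 * b ^ 3 * t ^ 3 + (720 / 11) * a ^ 4 * b * t ^ 2 * k1 ^ 2
    + (2160 / 11) * a ^ 4 * b * t ^ 2 + 1846800 * a ^ 3 * b ^ 8 * t ^ 5 * k1 ^ 6 + 10789200 * a ^ 3 * b ^ 8 * t ^ 5 * k1 ^ 4
    + 16793640 * a ^ 3 * b ^ 8 * t ^ 5 * k1 ^ 2 + 6564960 * a ^ 3 * b ^ 8 * t ^ 5 - 544320 * a ^ 3 * b ^ 6 * t ^ 4 * k1 ^ 6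
    - 3628800 * a ^ 3 * b ^ 6 * t ^ 4 * k1 ^ 4 - 6695136 * a ^ 3 * b ^ 6 * t ^ 4 * k1 ^ 2 - 3263760 * a ^ 3 * b ^ 6 * t ^ 4
    - 3240 * a ^ 3 * b ^ 4 * t ^ 3 * k1 ^ 2 + 21600 * a ^ 3 * b ^ 4 * t ^ 3 + 720 * a ^ 3 * b ^ 2 * t ^ 2 * k1 ^ 2
    + 720 * a ^ 3 * b ^ 2 * t ^ 2 - 972000 * a ^ 2 * b ^ 9 * t ^ 5 * k1 ^ 8 - 9434880 * a ^ 2 * b ^ 9 * t ^ 5 * k1 ^ 6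
    - 27064800 * a ^ 2 * b ^ 9 * t ^ 5 * k1 ^ 4 - 22204224 * a ^ 2 * b ^ 9 * t ^ 5 * k1 ^ 2 + 513330 * a ^ 2 * b ^ 9 * t ^ 5
    + (466560 / 11) * a ^ 2 * b ^ 7 * t ^ 4 * k1 ^ 6 + (1080000 / 11) * a ^ 2 * b ^ 7 * t ^ 4 * k1 ^ 4 - (2162592 / 11) * a ^ 2 * b ^ 7 * t ^ 4 * k1 ^ 2
    - (3227040 / 11) * a ^ 2 * b ^ 7 * t ^ 4 + (226800 / 11) * a ^ 2 * b ^ 5 * t ^ 3 * k1 ^ 4 + 89424 * a ^ 2 * b ^ 5 * t ^ 3 * k1 ^ 2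
    + (800100 / 11) * a ^ 2 * b ^ 5 * t ^ 3 - (1440 / 11) * a ^ 2 * b ^ 3 * t ^ 2 * k1 ^ 2 - (960 / 11) * a ^ 2 * b ^ 3 * t ^ 2
    - (90 / 11) * a ^ 2 * b * t - 221616 * a * b ^ 10 * t ^ 5 * k1 ^ 6 - 1561680 * a * b ^ 10 * t ^ 5 * k1 ^ 4
    - (11163384 / 5) * a * b ^ 10 * t ^ 5 * k1 ^ 2 + 18720 * a * b ^ 10 * t ^ 5 + 58320 * a * b ^ 8 * t ^ 4 * k1 ^ 6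
    + 421200 * a * b ^ 8 * t ^ 4 * k1 ^ 4 + 630936 * a * b ^ 8 * t ^ 4 * k1 ^ 2 - 15120 * a * b ^ 8 * t ^ 4
    + 3240 * a * b ^ 6 * t ^ 3 * k1 ^ 2 + 4320 * a * b ^ 6 * t ^ 3 - 360 * a * b ^ 4 * t ^ 2 * k1 ^ 2
    - 720 * a * b ^ 4 * t ^ 2 + (194400 / 11) * b ^ 11 * t ^ 5 * k1 ^ 8 + (1993248 / 11) * b ^ 11 * t ^ 5 * k1 ^ 6
    + (4959360 / 11) * b ^ 11 * t ^ 5 * k1 ^ 4 - (3703248 / 55) * b ^ 11 * t ^ 5 * k1 ^ 2 + (3126 / 11) * b ^ 11 * t ^ 5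
    - (12960 / 11) * b ^ 9 * t ^ 4 * k1 ^ 6 + (10800 / 11) * b ^ 9 * t ^ 4 * k1 ^ 4 + (382752 / 11) * b ^ 9 * t ^ 4 * k1 ^ 2
    - (3120 / 11) * b ^ 9 * t ^ 4 - (10800 / 11) * b ^ 7 * t ^ 3 * k1 ^ 4 - (55296 / 11) * b ^ 7 * t ^ 3 * k1 ^ 2
    + (1260 / 11) * b ^ 7 * t ^ 3 + (144 / 11) * b ^ 5 * t ^ 2 * k1 ^ 2 - (240 / 11) * b ^ 5 * t ^ 2
    + (30 / 11) * b ^ 3 * t) * h3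

theorem dB_10 (h1 : k2 ^ 2 + k1 ^ 2 + 5 = 0) (h2 : 11 * k1 * k2 + 2 * k1 ^ 2 + 5 = 0)
    (h3 : 25 * k1 ^ 3 + 123 * k1 - 11 * k2 = 0) (a b t : K) :
    dB (s10 k1 k2 a b) (b10 k1 k2 a b) t =
      b10 k1 k2 (a * (1 + t * kA5 a b) ^ 5) (b * (1 - t * kB5 a b) ^ 5) := by
  have h := dS_10 h1 h2 h3 (-b) a t
  have e1 : s10 k1 k2 (-b) a = b10 k1 k2 a b := by simp only [s10, b10]; ring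
  have e2 : b10 k1 k2 (-b) a = -(s10 k1 k2 a b) := by simp only [s10, b10]; ring
  have e3 : kA5 (-b) a = -kB5 a b := by simp only [kA5, kB5]; ring
  have e4 : kB5 (-b) a = -kA5 a b := by simp only [kA5, kB5]; ring
  rw [e1, e2, e3, e4] at h
  rw [dB, h]
  simp only [s10, b10]
  ring

end Axis

end Fermat.Agent.S52.KleinSec3
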