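/-
S52 (helper3), LS glue: **the chord identity `P_(0,1)(u,v) + P_(1,0)(u,v) = P_(0,1)(u, ζ v)`** in Tate coordinates.

`ζ` a primitive 5th root of unity (`ζ⁴+ζ³+ζ²+ζ+1 = 0`), `zk1 ζ`, `zk2 ζ` the constants of the axis-∞ section
(`KleinSec3.s10`, `b10`), `chordL ζ u v` the slope (a quintic form) of the chord.  `x_sub_mul_nvC` : the two
points have different `x`-coordinates when `kf u v ≠ 0`.  All proofs are `linear_combination`s of the cyclotomic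
relation (cofactors by exact polynomial division).  GENERATED by helper3's scratch python.
-/
import Fermat.Agent.S52.KleinSec3

set_option autoImplicit false

namespace Fermat.Agent.S52.KleinChord3

open Fermat.Agent.S52.Klein7 Fermat.Agent.S52.TateFive3 Fermat.Agent.S52.KleinSec3

variable {K : Type*} [Field K] [CharZero K]

/-- the constant `k₁` of the axis-∞ section. -/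
def zk1 (ζ : K) : K := (-4 - 8 * ζ - 7 * ζ ^ 2 - ζ ^ 3) / 5
/-- the constant `k₂` of the axis-∞ section. -/
def zk2 (ζ : K) : K := (3 + 6 * ζ - ζ ^ 2 + 7 * ζ ^ 3) / 5

/-- the slope of the chord through `P_(0,1)(u,v)` and `P_(1,0)(u,v)`. -/
def chordL (ζ u v : K) : K :=
  (-9 - 18 * ζ - 12 * ζ ^ 2 - 6 * ζ ^ 3) / 5 * u ^ 5 + (6 - 6 * ζ) * u ^ 4 * v
    + (-6 + 6 * ζ ^ 2) * u ^ 3 * v ^ 2 + (6 - 6 * ζ ^ 3) * u ^ 2 * v ^ 3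
    + (3 + 6 * ζ - 6 * ζ ^ 2 + 12 * ζ ^ 3) / 5 * v ^ 5

/-- cofactor: `(x01 − x10) · nvC = kf²`. -/
def nvC (ζ u v : K) : K :=
  (1 / 36) * u ^ 12 * v ^ 2 * ζ ^ 3 + (1 / 36) * u ^ 12 * v ^ 2 * ζ ^ 2 + (1 / 12) * u ^ 12 * v ^ 2
    + (5 / 36) * u ^ 11 * v ^ 3 * ζ ^ 3 + (5 / 36) * u ^ 11 * v ^ 3 * ζ ^ 2 + (5 / 18) * u ^ 11 * v ^ 3
    + (5 / 18) * u ^ 10 * v ^ 4 * ζ ^ 3 + (5 / 18) * u ^ 10 * v ^ 4 * ζ ^ 2 + (5 / 12) * u ^ 10 * v ^ 4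
    + (5 / 18) * u ^ 9 * v ^ 5 * ζ ^ 3 + (5 / 18) * u ^ 9 * v ^ 5 * ζ ^ 2 + (5 / 12) * u ^ 9 * v ^ 5
    - (7 / 18) * u ^ 7 * v ^ 7 * ζ ^ 3 - (7 / 18) * u ^ 7 * v ^ 7 * ζ ^ 2 - (7 / 36) * u ^ 7 * v ^ 7
    - (5 / 18) * u ^ 6 * v ^ 8 * ζ ^ 3 - (5 / 18) * u ^ 6 * v ^ 8 * ζ ^ 2 + (5 / 36) * u ^ 6 * v ^ 8
    + (5 / 36) * u ^ 5 * v ^ 9 * ζ ^ 3 + (5 / 36) * u ^ 5 * v ^ 9 * ζ ^ 2 - (5 / 36) * u ^ 5 * v ^ 9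
    + (5 / 36) * u ^ 4 * v ^ 10 * ζ ^ 3 + (5 / 36) * u ^ 4 * v ^ 10 * ζ ^ 2 - (5 / 36) * u ^ 4 * v ^ 10
    - (1 / 36) * u ^ 2 * v ^ 12 * ζ ^ 3 - (1 / 36) * u ^ 2 * v ^ 12 * ζ ^ 2 + (1 / 18) * u ^ 2 * v ^ 12

variable {ζ : K}

theorem zk_rel1 (hζ : ζ ^ 4 + ζ ^ 3 + ζ ^ 2 + ζ + 1 = 0) : zk2 ζ ^ 2 + zk1 ζ ^ 2 + 5 = 0 := by
  simp only [zk1, zk2]
  linear_combination (2 * ζ ^ 2 - 2 * ζ + 6) * hζ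

theorem zk_rel2 (hζ : ζ ^ 4 + ζ ^ 3 + ζ ^ 2 + ζ + 1 = 0) :
    11 * zk1 ζ * zk2 ζ + 2 * zk1 ζ ^ 2 + 5 = 0 := by
  simp only [zk1, zk2]
  linear_combination (-3 * ζ ^ 2 - 17 * ζ + 1) * hζ

theorem zk_rel3 (hζ : ζ ^ 4 + ζ ^ 3 + ζ ^ 2 + ζ + 1 = 0) :
    25 * zk1 ζ ^ 3 + 123 * zk1 ζ - 11 * zk2 ζ = 0 := by
  simp only [zk1, zk2]
  linear_combination (-(1 / 5) * ζ ^ 5 - 4 * ζ ^ 4 - 30 * ζ ^ 3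
    - 104 * ζ ^ 2 - 169 * ζ - (589 / 5)) * hζ

theorem chord_slope (hζ : ζ ^ 4 + ζ ^ 3 + ζ ^ 2 + ζ + 1 = 0) (u v : K) :
    chordL ζ u v * (tx1 (s01 u v) (b01 u v)
        - tx1 (s10 (zk1 ζ) (zk2 ζ) (u ^ 5) (v ^ 5)) (b10 (zk1 ζ) (zk2 ζ) (u ^ 5) (v ^ 5))) =
      ty1 (s01 u v) (b01 u v)
        - ty1 (s10 (zk1 ζ) (zk2 ζ) (u ^ 5) (v ^ 5)) (b10 (zk1 ζ) (zk2 ζ) (u ^ 5) (v ^ 5)) := by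
  simp only [chordL, tx1, ty1, s01, b01, s10, b10, zk1, zk2]
  linear_combination ((36 / 5) * u ^ 15 * ζ ^ 5 - (576 / 25) * u ^ 15 * ζ ^ 4 - (4464 / 25) * u ^ 15 * ζ ^ 3
    - (4752 / 25) * u ^ 15 * ζ ^ 2 - 108 * u ^ 15 * ζ - (648 / 25) * u ^ 15
    + (1656 / 25) * u ^ 14 * v * ζ ^ 3 + (1872 / 25) * u ^ 14 * v * ζ ^ 2 - (72 / 25) * u ^ 14 * v * ζ
    - (2376 / 25) * u ^ 14 * v - (1656 / 25) * u ^ 13 * v ^ 2 * ζ ^ 4 - (3528 / 25) * u ^ 13 * v ^ 2 * ζ ^ 3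
    - 72 * u ^ 13 * v ^ 2 * ζ ^ 2 + (2448 / 25) * u ^ 13 * v ^ 2 * ζ + (3456 / 25) * u ^ 13 * v ^ 2
    + (1656 / 25) * u ^ 12 * v ^ 3 * ζ ^ 5 + (3528 / 25) * u ^ 12 * v ^ 3 * ζ ^ 4 + (3456 / 25) * u ^ 12 * v ^ 3 * ζ ^ 3
    - (576 / 25) * u ^ 12 * v ^ 3 * ζ ^ 2 - (3528 / 25) * u ^ 12 * v ^ 3 * ζ - (4536 / 25) * u ^ 12 * v ^ 3
    + (396 / 25) * u ^ 10 * v ^ 5 * ζ ^ 5 + (10152 / 25) * u ^ 10 * v ^ 5 * ζ ^ 4 - (2952 / 25) * u ^ 10 * v ^ 5 * ζ ^ 3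
    + (6084 / 25) * u ^ 10 * v ^ 5 * ζ ^ 2 - (1656 / 5) * u ^ 10 * v ^ 5 * ζ - (1836 / 5) * u ^ 10 * v ^ 5
    - (5184 / 25) * u ^ 9 * v ^ 6 * ζ ^ 3 + (13392 / 25) * u ^ 9 * v ^ 6 * ζ ^ 2 - (13392 / 25) * u ^ 9 * v ^ 6 * ζ
    + (17064 / 25) * u ^ 9 * v ^ 6 + (5184 / 25) * u ^ 8 * v ^ 7 * ζ ^ 4 - (8208 / 25) * u ^ 8 * v ^ 7 * ζ ^ 3
    - (3672 / 25) * u ^ 8 * v ^ 7 * ζ - (5184 / 25) * u ^ 8 * v ^ 7 - (5184 / 25) * u ^ 7 * v ^ 8 * ζ ^ 5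
    + (8208 / 25) * u ^ 7 * v ^ 8 * ζ ^ 4 - (5184 / 25) * u ^ 7 * v ^ 8 * ζ ^ 3 + (17064 / 25) * u ^ 7 * v ^ 8 * ζ ^ 2
    - (8208 / 25) * u ^ 7 * v ^ 8 * ζ - (6696 / 25) * u ^ 7 * v ^ 8 - (5004 / 25) * u ^ 5 * v ^ 10 * ζ ^ 5
    + (9144 / 25) * u ^ 5 * v ^ 10 * ζ ^ 4 - (4464 / 25) * u ^ 5 * v ^ 10 * ζ ^ 3 + (23868 / 25) * u ^ 5 * v ^ 10 * ζ ^ 2
    + (864 / 5) * u ^ 5 * v ^ 10 * ζ - (324 / 25) * u ^ 5 * v ^ 10 + (144 / 25) * u ^ 4 * v ^ 11 * ζ ^ 3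
    - (5472 / 25) * u ^ 4 * v ^ 11 * ζ ^ 2 + (7272 / 25) * u ^ 4 * v ^ 11 * ζ - (3024 / 25) * u ^ 4 * v ^ 11
    - (144 / 25) * u ^ 3 * v ^ 12 * ζ ^ 4 + (5328 / 25) * u ^ 3 * v ^ 12 * ζ ^ 3 - 72 * u ^ 3 * v ^ 12 * ζ ^ 2
    - (4248 / 25) * u ^ 3 * v ^ 12 * ζ + (1944 / 25) * u ^ 3 * v ^ 12 + (144 / 25) * u ^ 2 * v ^ 13 * ζ ^ 5
    - (5328 / 25) * u ^ 2 * v ^ 13 * ζ ^ 4 + (1944 / 25) * u ^ 2 * v ^ 13 * ζ ^ 3 - (1224 / 25) * u ^ 2 * v ^ 13 * ζ ^ 2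
    + (5328 / 25) * u ^ 2 * v ^ 13 * ζ - (864 / 25) * u ^ 2 * v ^ 13 - (1116 / 25) * v ^ 15 * ζ ^ 5
    - (3888 / 25) * v ^ 15 * ζ ^ 4 - (2952 / 25) * v ^ 15 * ζ ^ 3 - (5256 / 25) * v ^ 15 * ζ ^ 2
    - (684 / 5) * v ^ 15 * ζ - (648 / 25) * v ^ 15) * hζ

theorem chord_x (hζ : ζ ^ 4 + ζ ^ 3 + ζ ^ 2 + ζ + 1 = 0) (u v : K) :
    tx1 (s01 u (ζ * v)) (b01 u (ζ * v)) =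
      chordL ζ u v ^ 2 - tx1 (s01 u v) (b01 u v)
        - tx1 (s10 (zk1 ζ) (zk2 ζ) (u ^ 5) (v ^ 5)) (b10 (zk1 ζ) (zk2 ζ) (u ^ 5) (v ^ 5)) := by
  simp only [chordL, tx1, s01, b01, s10, b10, zk1, zk2]
  linear_combination ((48 / 5) * u ^ 10 * ζ ^ 2 + (96 / 5) * u ^ 10 * ζ + (72 / 5) * u ^ 10
    - (72 / 5) * u ^ 9 * v + (72 / 5) * u ^ 8 * v ^ 2 * ζ + (72 / 5) * u ^ 8 * v ^ 2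
    - (72 / 5) * u ^ 7 * v ^ 3 * ζ ^ 2 - (72 / 5) * u ^ 7 * v ^ 3 * ζ - (72 / 5) * u ^ 7 * v ^ 3
    + 72 * u ^ 6 * v ^ 4 - (144 / 5) * u ^ 5 * v ^ 5 * ζ ^ 2 + (198 / 5) * u ^ 5 * v ^ 5 * ζ
    - (54 / 5) * u ^ 5 * v ^ 5 + 36 * u ^ 4 * v ^ 6 * ζ ^ 2 - 36 * u ^ 4 * v ^ 6 * ζ
    + (144 / 5) * u ^ 4 * v ^ 6 + 36 * u ^ 3 * v ^ 7 * ζ ^ 3 - 36 * u ^ 3 * v ^ 7 * ζ ^ 2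
    - (144 / 5) * u ^ 3 * v ^ 7 * ζ + (216 / 5) * u ^ 3 * v ^ 7 + 36 * u ^ 2 * v ^ 8 * ζ ^ 4
    - 36 * u ^ 2 * v ^ 8 * ζ ^ 3 + (144 / 5) * u ^ 2 * v ^ 8 * ζ ^ 2 - (216 / 5) * u ^ 2 * v ^ 8 * ζ
    + (144 / 5) * u ^ 2 * v ^ 8 + 3 * v ^ 10 * ζ ^ 6 - 3 * v ^ 10 * ζ ^ 5
    - (24 / 5) * v ^ 10 * ζ ^ 2 - 21 * v ^ 10 * ζ - 3 * v ^ 10) * hζ

theorem chord_y (hζ : ζ ^ 4 + ζ ^ 3 + ζ ^ 2 + ζ + 1 = 0) (u v : K) :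
    ty1 (s01 u (ζ * v)) (b01 u (ζ * v)) =
      -(chordL ζ u v * (tx1 (s01 u (ζ * v)) (b01 u (ζ * v)) - tx1 (s01 u v) (b01 u v))
        + ty1 (s01 u v) (b01 u v)) := by
  simp only [chordL, tx1, ty1, s01, b01]
  linear_combination ((216 / 5) * u ^ 14 * v - (432 / 5) * u ^ 13 * v ^ 2 * ζ - (432 / 5) * u ^ 13 * v ^ 2
    + (648 / 5) * u ^ 12 * v ^ 3 * ζ ^ 2 + (648 / 5) * u ^ 12 * v ^ 3 * ζ + (648 / 5) * u ^ 12 * v ^ 3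
    - 216 * u ^ 11 * v ^ 4 * ζ ^ 3 - 216 * u ^ 11 * v ^ 4 * ζ ^ 2 - 216 * u ^ 11 * v ^ 4 * ζ
    + 108 * u ^ 10 * v ^ 5 * ζ ^ 4 + 108 * u ^ 10 * v ^ 5 * ζ ^ 3 + 108 * u ^ 10 * v ^ 5 * ζ ^ 2
    + 378 * u ^ 10 * v ^ 5 * ζ + 378 * u ^ 10 * v ^ 5 - (432 / 5) * u ^ 9 * v ^ 6 * ζ ^ 5
    - (432 / 5) * u ^ 9 * v ^ 6 * ζ ^ 4 - (432 / 5) * u ^ 9 * v ^ 6 * ζ ^ 3 - (3672 / 5) * u ^ 9 * v ^ 6 * ζ ^ 2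
    + (2268 / 5) * u ^ 9 * v ^ 6 * ζ - (3564 / 5) * u ^ 9 * v ^ 6 - (216 / 5) * u ^ 8 * v ^ 7 * ζ ^ 6
    - (216 / 5) * u ^ 8 * v ^ 7 * ζ ^ 5 - (216 / 5) * u ^ 8 * v ^ 7 * ζ ^ 4 + (1404 / 5) * u ^ 8 * v ^ 7 * ζ ^ 3
    + (1404 / 5) * u ^ 8 * v ^ 7 * ζ ^ 2 + (1188 / 5) * u ^ 8 * v ^ 7 * ζ + (1188 / 5) * u ^ 8 * v ^ 7
    - (216 / 5) * u ^ 7 * v ^ 8 * ζ ^ 7 - (216 / 5) * u ^ 7 * v ^ 8 * ζ ^ 6 - (216 / 5) * u ^ 7 * v ^ 8 * ζ ^ 5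
    + (864 / 5) * u ^ 7 * v ^ 8 * ζ ^ 4 + (864 / 5) * u ^ 7 * v ^ 8 * ζ ^ 3 - (4752 / 5) * u ^ 7 * v ^ 8 * ζ ^ 2
    + (1188 / 5) * u ^ 7 * v ^ 8 * ζ + (1188 / 5) * u ^ 7 * v ^ 8 + 108 * u ^ 6 * v ^ 9 * ζ ^ 5
    + 108 * u ^ 6 * v ^ 9 * ζ ^ 4 - (18 / 5) * u ^ 5 * v ^ 10 * ζ ^ 9 - (18 / 5) * u ^ 5 * v ^ 10 * ζ ^ 8
    - (18 / 5) * u ^ 5 * v ^ 10 * ζ ^ 7 + (27 / 5) * u ^ 5 * v ^ 10 * ζ ^ 6 + (27 / 5) * u ^ 5 * v ^ 10 * ζ ^ 5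
    - (2178 / 5) * u ^ 5 * v ^ 10 * ζ ^ 4 + (3762 / 5) * u ^ 5 * v ^ 10 * ζ ^ 3 - (2178 / 5) * u ^ 5 * v ^ 10 * ζ ^ 2
    + (297 / 5) * u ^ 5 * v ^ 10 * ζ + (297 / 5) * u ^ 5 * v ^ 10 + 198 * u ^ 4 * v ^ 11 * ζ ^ 7
    - 180 * u ^ 4 * v ^ 11 * ζ ^ 6 + (774 / 5) * u ^ 4 * v ^ 11 * ζ ^ 5 - (216 / 5) * u ^ 4 * v ^ 11 * ζ ^ 4
    - (216 / 5) * u ^ 4 * v ^ 11 * ζ ^ 3 + (774 / 5) * u ^ 4 * v ^ 11 * ζ ^ 2 - (1116 / 5) * u ^ 4 * v ^ 11 * ζ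
    + (774 / 5) * u ^ 4 * v ^ 11 - 90 * u ^ 3 * v ^ 12 * ζ ^ 8 + 90 * u ^ 3 * v ^ 12 * ζ ^ 7
    + (342 / 5) * u ^ 3 * v ^ 12 * ζ ^ 6 - (558 / 5) * u ^ 3 * v ^ 12 * ζ ^ 5 + (432 / 5) * u ^ 3 * v ^ 12 * ζ ^ 4
    - (558 / 5) * u ^ 3 * v ^ 12 * ζ ^ 3 + (342 / 5) * u ^ 3 * v ^ 12 * ζ ^ 2 + (342 / 5) * u ^ 3 * v ^ 12 * ζ
    - (558 / 5) * u ^ 3 * v ^ 12 + 90 * u ^ 2 * v ^ 13 * ζ ^ 9 - 90 * u ^ 2 * v ^ 13 * ζ ^ 8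
    + (432 / 5) * u ^ 2 * v ^ 13 * ζ ^ 7 - (558 / 5) * u ^ 2 * v ^ 13 * ζ ^ 6 + (342 / 5) * u ^ 2 * v ^ 13 * ζ ^ 5
    + (342 / 5) * u ^ 2 * v ^ 13 * ζ ^ 4 - (558 / 5) * u ^ 2 * v ^ 13 * ζ ^ 3 + (432 / 5) * u ^ 2 * v ^ 13 * ζ ^ 2
    - (558 / 5) * u ^ 2 * v ^ 13 * ζ + (342 / 5) * u ^ 2 * v ^ 13 + (36 / 5) * v ^ 15 * ζ ^ 9
    - (54 / 5) * v ^ 15 * ζ ^ 8 + (36 / 5) * v ^ 15 * ζ ^ 7 - (9 / 5) * v ^ 15 * ζ ^ 6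
    - (9 / 5) * v ^ 15 * ζ ^ 5 + (36 / 5) * v ^ 15 * ζ ^ 4 - (54 / 5) * v ^ 15 * ζ ^ 3
    + (36 / 5) * v ^ 15 * ζ ^ 2 - (9 / 5) * v ^ 15 * ζ - (9 / 5) * v ^ 15) * hζ

theorem x_sub_mul_nvC (hζ : ζ ^ 4 + ζ ^ 3 + ζ ^ 2 + ζ + 1 = 0) (u v : K) :
    (tx1 (s01 u v) (b01 u v)
        - tx1 (s10 (zk1 ζ) (zk2 ζ) (u ^ 5) (v ^ 5)) (b10 (zk1 ζ) (zk2 ζ) (u ^ 5) (v ^ 5))) * nvC ζ u v =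
      kf u v ^ 2 := by
  simp only [nvC, tx1, s01, b01, s10, b10, zk1, zk2, kf]
  linear_combination (-(23 / 75) * u ^ 22 * v ^ 2 * ζ ^ 5 - (24 / 25) * u ^ 22 * v ^ 2 * ζ ^ 4 - (97 / 75) * u ^ 22 * v ^ 2 * ζ ^ 3
    - (44 / 25) * u ^ 22 * v ^ 2 * ζ ^ 2 - (54 / 25) * u ^ 22 * v ^ 2 * ζ - (43 / 25) * u ^ 22 * v ^ 2
    - (23 / 15) * u ^ 21 * v ^ 3 * ζ ^ 5 - (24 / 5) * u ^ 21 * v ^ 3 * ζ ^ 4 - (97 / 15) * u ^ 21 * v ^ 3 * ζ ^ 3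
    - (109 / 15) * u ^ 21 * v ^ 3 * ζ ^ 2 - (113 / 15) * u ^ 21 * v ^ 3 * ζ - (27 / 5) * u ^ 21 * v ^ 3
    - (46 / 15) * u ^ 20 * v ^ 4 * ζ ^ 5 - (48 / 5) * u ^ 20 * v ^ 4 * ζ ^ 4 - (194 / 15) * u ^ 20 * v ^ 4 * ζ ^ 3
    - 13 * u ^ 20 * v ^ 4 * ζ ^ 2 - (59 / 5) * u ^ 20 * v ^ 4 * ζ - (38 / 5) * u ^ 20 * v ^ 4
    - (46 / 15) * u ^ 19 * v ^ 5 * ζ ^ 5 - (48 / 5) * u ^ 19 * v ^ 5 * ζ ^ 4 - (194 / 15) * u ^ 19 * v ^ 5 * ζ ^ 3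
    - 13 * u ^ 19 * v ^ 5 * ζ ^ 2 - (59 / 5) * u ^ 19 * v ^ 5 * ζ - (38 / 5) * u ^ 19 * v ^ 5
    + (394 / 75) * u ^ 17 * v ^ 7 * ζ ^ 5 + (322 / 25) * u ^ 17 * v ^ 7 * ζ ^ 4 + (1316 / 75) * u ^ 17 * v ^ 7 * ζ ^ 3
    + (1166 / 75) * u ^ 17 * v ^ 7 * ζ ^ 2 + (46 / 75) * u ^ 17 * v ^ 7 * ζ + (169 / 25) * u ^ 17 * v ^ 7
    + (118 / 15) * u ^ 16 * v ^ 8 * ζ ^ 5 + (34 / 5) * u ^ 16 * v ^ 8 * ζ ^ 4 + (152 / 15) * u ^ 16 * v ^ 8 * ζ ^ 3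
    + (154 / 15) * u ^ 16 * v ^ 8 * ζ ^ 2 - (412 / 15) * u ^ 16 * v ^ 8 * ζ + (77 / 5) * u ^ 16 * v ^ 8
    + (121 / 15) * u ^ 15 * v ^ 9 * ζ ^ 5 - (52 / 5) * u ^ 15 * v ^ 9 * ζ ^ 4 - (181 / 15) * u ^ 15 * v ^ 9 * ζ ^ 3
    - (2 / 3) * u ^ 15 * v ^ 9 * ζ ^ 2 - (638 / 15) * u ^ 15 * v ^ 9 * ζ + (203 / 5) * u ^ 15 * v ^ 9
    + (121 / 15) * u ^ 14 * v ^ 10 * ζ ^ 5 - (52 / 5) * u ^ 14 * v ^ 10 * ζ ^ 4 - (181 / 15) * u ^ 14 * v ^ 10 * ζ ^ 3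
    - (2 / 3) * u ^ 14 * v ^ 10 * ζ ^ 2 - (638 / 15) * u ^ 14 * v ^ 10 * ζ + (203 / 5) * u ^ 14 * v ^ 10
    - (329 / 25) * u ^ 12 * v ^ 12 * ζ ^ 5 + (244 / 25) * u ^ 12 * v ^ 12 * ζ ^ 4 + (244 / 25) * u ^ 12 * v ^ 12 * ζ ^ 3
    + (797 / 75) * u ^ 12 * v ^ 12 * ζ ^ 2 + (3262 / 75) * u ^ 12 * v ^ 12 * ζ - (1007 / 25) * u ^ 12 * v ^ 12
    - (146 / 15) * u ^ 11 * v ^ 13 * ζ ^ 5 + (52 / 5) * u ^ 11 * v ^ 13 * ζ ^ 4 + (131 / 15) * u ^ 11 * v ^ 13 * ζ ^ 3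
    + (242 / 15) * u ^ 11 * v ^ 13 * ζ ^ 2 + (379 / 15) * u ^ 11 * v ^ 13 * ζ - (109 / 5) * u ^ 11 * v ^ 13
    + (68 / 15) * u ^ 10 * v ^ 14 * ζ ^ 5 + (34 / 5) * u ^ 10 * v ^ 14 * ζ ^ 4 + (52 / 15) * u ^ 10 * v ^ 14 * ζ ^ 3
    - 13 * u ^ 10 * v ^ 14 * ζ ^ 2 + (67 / 5) * u ^ 10 * v ^ 14 * ζ - (6 / 5) * u ^ 10 * v ^ 14
    + (68 / 15) * u ^ 9 * v ^ 15 * ζ ^ 5 + (34 / 5) * u ^ 9 * v ^ 15 * ζ ^ 4 + (52 / 15) * u ^ 9 * v ^ 15 * ζ ^ 3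
    - 13 * u ^ 9 * v ^ 15 * ζ ^ 2 + (67 / 5) * u ^ 9 * v ^ 15 * ζ - (6 / 5) * u ^ 9 * v ^ 15
    - (44 / 75) * u ^ 7 * v ^ 17 * ζ ^ 5 - (322 / 25) * u ^ 7 * v ^ 17 * ζ ^ 4 - (616 / 75) * u ^ 7 * v ^ 17 * ζ ^ 3
    + (419 / 75) * u ^ 7 * v ^ 17 * ζ ^ 2 - (791 / 75) * u ^ 7 * v ^ 17 * ζ + (126 / 25) * u ^ 7 * v ^ 17
    + (4 / 15) * u ^ 6 * v ^ 18 * ζ ^ 5 - (48 / 5) * u ^ 6 * v ^ 18 * ζ ^ 4 - (94 / 15) * u ^ 6 * v ^ 18 * ζ ^ 3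
    + (22 / 15) * u ^ 6 * v ^ 18 * ζ ^ 2 + (44 / 15) * u ^ 6 * v ^ 18 * ζ + (1 / 5) * u ^ 6 * v ^ 18
    - (2 / 15) * u ^ 5 * v ^ 19 * ζ ^ 5 + (24 / 5) * u ^ 5 * v ^ 19 * ζ ^ 4 + (47 / 15) * u ^ 5 * v ^ 19 * ζ ^ 3
    - (2 / 3) * u ^ 5 * v ^ 19 * ζ ^ 2 - (59 / 15) * u ^ 5 * v ^ 19 * ζ + (4 / 5) * u ^ 5 * v ^ 19
    - (2 / 15) * u ^ 4 * v ^ 20 * ζ ^ 5 + (24 / 5) * u ^ 4 * v ^ 20 * ζ ^ 4 + (47 / 15) * u ^ 4 * v ^ 20 * ζ ^ 3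
    - (2 / 3) * u ^ 4 * v ^ 20 * ζ ^ 2 - (59 / 15) * u ^ 4 * v ^ 20 * ζ + (4 / 5) * u ^ 4 * v ^ 20
    + (2 / 75) * u ^ 2 * v ^ 22 * ζ ^ 5 - (24 / 25) * u ^ 2 * v ^ 22 * ζ ^ 4 - (47 / 75) * u ^ 2 * v ^ 22 * ζ ^ 3
    + (8 / 75) * u ^ 2 * v ^ 22 * ζ ^ 2 + (133 / 75) * u ^ 2 * v ^ 22 * ζ - (13 / 25) * u ^ 2 * v ^ 22) * hζ

end Fermat.Agent.S52.KleinChord3
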