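/-
S52 (helper3), LS glue, abstract layer: **level-5 structures in an abelian group.**

`IsLevel P Q` : `P`, `Q 0` killed by `5`, `Q (n+1) = Q n + P`, and `P`, all `Q n` nonzero.  Then
`lin P (Q 0) : (ZMod 5)² → A`, `(i, j) ↦ i • P + j • Q 0` is additive and injective; if the `5`-torsion of `A` has at
most `25` elements it is onto the `5`-torsion.  A map `Φ : A → A'` with `Φ (n • P) = n • P'`, `Φ (n • Q m) = n • Q' m`
is then additive on the `5`-torsion.
-/
import Mathlib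

set_option autoImplicit false

namespace Fermat.Agent.S52.LevelStr3

variable {A : Type*} [AddCommGroup A]

/-- `(i, j) ↦ i • P + j • Q`. -/
def lin (P Q : A) (w : ZMod 5 × ZMod 5) : A := w.1.val • P + w.2.val • Q

theorem nsmul_eq_of_natCast_eq {P : A} (h5 : 5 • P = 0) {m n : ℕ} (h : (m : ZMod 5) = n) :
    m • P = n • P := by
  have hmod : m % 5 = n % 5 := (ZMod.natCast_eq_natCast_iff' m n 5).mp h
  have key : ∀ k : ℕ, k • P = (k % 5) • P := by
    intro k
    conv_lhs => rw [← Nat.div_add_mod k 5]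
    rw [add_nsmul, mul_nsmul, h5, nsmul_zero, zero_add]
  rw [key m, key n, hmod]

theorem val_nsmul_add {P : A} (h5 : 5 • P = 0) (a b : ZMod 5) :
    (a + b).val • P = a.val • P + b.val • P := by
  rw [← add_nsmul]
  apply nsmul_eq_of_natCast_eq h5
  rw [Nat.cast_add, ZMod.natCast_zmod_val, ZMod.natCast_zmod_val, ZMod.natCast_zmod_val]

theorem lin_add {P Q : A} (hP : 5 • P = 0) (hQ : 5 • Q = 0) (w w' : ZMod 5 × ZMod 5) :
    lin P Q (w + w') = lin P Q w + lin P Q w' := by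
  simp only [lin, Prod.fst_add, Prod.snd_add, val_nsmul_add hP, val_nsmul_add hQ]
  abel

theorem lin_zero (P Q : A) : lin P Q 0 = 0 := by
  simp [lin]

/-- a level-5 structure. -/
structure IsLevel (P : A) (Q : ℕ → A) : Prop where
  five_P : 5 • P = 0
  five_Q : 5 • Q 0 = 0
  step : ∀ n, Q (n + 1) = Q n + P
  P_ne : P ≠ 0
  Q_ne : ∀ n, Q n ≠ 0

namespace IsLevel

variable {P : A} {Q : ℕ → A}

theorem Q_eq (h : IsLevel P Q) (n : ℕ) : Q n = Q 0 + n • P := by
  induction n with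
  | zero => rw [zero_nsmul, add_zero]
  | succ n ih => rw [h.step, ih, succ_nsmul, add_assoc]

theorem five_Qn (h : IsLevel P Q) (n : ℕ) : 5 • Q n = 0 := by
  rw [h.Q_eq, nsmul_add, h.five_Q, zero_add, nsmul_left_comm, h.five_P, nsmul_zero]

theorem mul_mul_inv_zmod5 (a b : ZMod 5) (hb : b ≠ 0) : b * (a * b⁻¹) = a := by
  have : Fact (Nat.Prime 5) := ⟨Nat.prime_five⟩
  have h1 : b * b⁻¹ = 1 := mul_inv_cancel₀ hb
  calc b * (a * b⁻¹) = a * (b * b⁻¹) := by ring
    _ = a := by rw [h1, mul_one]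

theorem lin_of_snd_ne (h : IsLevel P Q) (w : ZMod 5 × ZMod 5) (hw : w.2 ≠ 0) :
    lin P (Q 0) w = w.2.val • Q (w.1 * w.2⁻¹).val := by
  rw [lin, h.Q_eq (w.1 * w.2⁻¹).val, nsmul_add, ← mul_nsmul', add_comm]
  congr 1
  apply nsmul_eq_of_natCast_eq h.five_P
  rw [Nat.cast_mul, ZMod.natCast_zmod_val, ZMod.natCast_zmod_val, ZMod.natCast_zmod_val,
    mul_mul_inv_zmod5 _ _ hw]

theorem lin_of_snd_eq (P Q₀ : A) (w : ZMod 5 × ZMod 5) (hw : w.2 = 0) :
    lin P Q₀ w = w.1.val • P := by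
  rw [lin, hw, ZMod.val_zero, zero_nsmul, add_zero]

theorem val_nsmul_ne_zero {x : A} (h5 : 5 • x = 0) (hx : x ≠ 0) (a : ZMod 5) (ha : a ≠ 0) :
    a.val • x ≠ 0 := by
  have : Fact (Nat.Prime 5) := ⟨Nat.prime_five⟩
  have hord : addOrderOf x = 5 := addOrderOf_eq_prime h5 hx
  intro h0
  have hdvd : addOrderOf x ∣ a.val := addOrderOf_dvd_iff_nsmul_eq_zero.mpr h0
  rw [hord] at hdvd
  have hlt : a.val < 5 := a.val_lt
  have : a.val = 0 := Nat.eq_zero_of_dvd_of_lt hdvd hlt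
  exact ha ((ZMod.val_eq_zero a).mp this)

theorem lin_eq_zero (h : IsLevel P Q) (w : ZMod 5 × ZMod 5) (hw : lin P (Q 0) w = 0) : w = 0 := by
  by_cases h2 : w.2 = 0
  · rw [lin_of_snd_eq _ _ _ h2] at hw
    have h1 : w.1 = 0 := by
      by_contra h1
      exact val_nsmul_ne_zero h.five_P h.P_ne _ h1 hw
    exact Prod.ext h1 h2
  · rw [h.lin_of_snd_ne _ h2] at hw
    exact absurd hw (val_nsmul_ne_zero (h.five_Qn _) (h.Q_ne _) _ h2)

theorem lin_injective (h : IsLevel P Q) : Function.Injective (lin P (Q 0)) := by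
  intro w w' hww
  have : lin P (Q 0) (w - w') = 0 := by
    have h1 := lin_add h.five_P h.five_Q (w - w') w'
    rw [sub_add_cancel, hww] at h1
    exact (add_eq_right.mp h1.symm)
  have := h.lin_eq_zero _ this
  exact sub_eq_zero.mp this

theorem five_lin (h : IsLevel P Q) (w : ZMod 5 × ZMod 5) : 5 • lin P (Q 0) w = 0 := by
  rw [lin, nsmul_add, nsmul_left_comm, h.five_P, nsmul_zero, nsmul_left_comm, h.five_Q,
    nsmul_zero, add_zero]

/-- **surjectivity onto the `5`-torsion** when it has at most `25` elements. -/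
theorem exists_lin_eq (h : IsLevel P Q) (hfin : {x : A | 5 • x = 0}.Finite)
    (hcard : {x : A | 5 • x = 0}.ncard ≤ 25) (x : A) (hx : 5 • x = 0) :
    ∃ w, lin P (Q 0) w = x := by
  have hsub : Set.range (lin P (Q 0)) ⊆ {x : A | 5 • x = 0} := by
    rintro _ ⟨w, rfl⟩
    exact h.five_lin w
  have hrange : (Set.range (lin P (Q 0))).ncard = 25 := by
    rw [← Set.image_univ, Set.ncard_image_of_injective _ h.lin_injective, Set.ncard_univ]
    simp [Nat.card_eq_fintype_card]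
  have heq : Set.range (lin P (Q 0)) = {x : A | 5 • x = 0} :=
    Set.eq_of_subset_of_ncard_le hsub (by rw [hrange]; exact hcard) hfin
  have : x ∈ Set.range (lin P (Q 0)) := by rw [heq]; exact hx
  exact this

variable {A' : Type*} [AddCommGroup A'] {P' : A'} {Q' : ℕ → A'}

/-- a map compatible with the two level structures commutes with `lin`. -/
theorem map_lin (h : IsLevel P Q) (h' : IsLevel P' Q') (Φ : A → A')
    (hΦP : ∀ n : ℕ, Φ (n • P) = n • P') (hΦQ : ∀ n m : ℕ, Φ (n • Q m) = n • Q' m)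
    (w : ZMod 5 × ZMod 5) : Φ (lin P (Q 0) w) = lin P' (Q' 0) w := by
  by_cases h2 : w.2 = 0
  · rw [lin_of_snd_eq _ _ _ h2, lin_of_snd_eq _ _ _ h2, hΦP]
  · rw [h.lin_of_snd_ne _ h2, h'.lin_of_snd_ne _ h2, hΦQ]

/-- **additivity on the `5`-torsion.** -/
theorem map_add_of_level (h : IsLevel P Q) (h' : IsLevel P' Q') (Φ : A → A')
    (hΦP : ∀ n : ℕ, Φ (n • P) = n • P') (hΦQ : ∀ n m : ℕ, Φ (n • Q m) = n • Q' m)
    (hfin : {x : A | 5 • x = 0}.Finite) (hcard : {x : A | 5 • x = 0}.ncard ≤ 25)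
    (x y : A) (hx : 5 • x = 0) (hy : 5 • y = 0) : Φ (x + y) = Φ x + Φ y := by
  obtain ⟨w, rfl⟩ := h.exists_lin_eq hfin hcard x hx
  obtain ⟨w', rfl⟩ := h.exists_lin_eq hfin hcard y hy
  rw [← lin_add h.five_P h.five_Q, h.map_lin h' Φ hΦP hΦQ, h.map_lin h' Φ hΦP hΦQ,
    h.map_lin h' Φ hΦP hΦQ, lin_add h'.five_P h'.five_Q]

end IsLevel

end Fermat.Agent.S52.LevelStr3
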