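/-
S52 (lead): a semistable integral Weierstrass model with `Δ ≠ 0` has `c₄ ≠ 0` and `c₆ ≠ 0`
(i.e. `j ≠ 0, 1728`).  Pure arithmetic from `1728 Δ = c₄³ - c₆²`.
-/
import Mathlib
import Fermat.Prelude.Def_FLTPrelim_Modularity

set_option autoImplicit false

namespace Fermat.Agent.S52.NonzeroInv0

open WeierstrassCurve

/-- An integer with no prime divisor is `±1`. -/
theorem natAbs_eq_one_of_no_prime_dvd {n : ℤ} (h : ∀ p : ℕ, p.Prime → ¬ (p : ℤ) ∣ n) :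
    n.natAbs = 1 := by
  by_contra hne
  obtain ⟨p, hp, hpd⟩ := Nat.exists_prime_and_dvd hne
  exact h p hp (Int.natCast_dvd.mpr hpd)

theorem c4_ne_zero (W : WeierstrassCurve ℤ) (hW : W.IsSemistableModel) : W.c₄ ≠ 0 := by
  intro h0
  have hno : ∀ p : ℕ, p.Prime → ¬ (p : ℤ) ∣ W.Δ := fun p hp hd => hW p hp hd (by rw [h0]; exact dvd_zero _)
  have habs := natAbs_eq_one_of_no_prime_dvd hno
  have hrel := W.c_relation
  rw [h0] at hrel
  have h1 : W.Δ = 1 ∨ W.Δ = -1 := by omega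
  have hsq : 0 ≤ W.c₆ ^ 2 := sq_nonneg _
  rcases h1 with h1 | h1
  · rw [h1] at hrel; nlinarith
  · rw [h1] at hrel
    have h2 : W.c₆ ^ 2 = 1728 := by linarith
    have h3 : W.c₆.natAbs ^ 2 = 1728 := by
      have := congrArg Int.natAbs h2
      simpa [Int.natAbs_pow] using this
    have h4 : W.c₆.natAbs < 42 := by
      by_contra hge
      have : 42 ^ 2 ≤ W.c₆.natAbs ^ 2 := Nat.pow_le_pow_left (by omega) 2
      omega
    have h5 : 41 < W.c₆.natAbs := by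
      by_contra hle
      have : W.c₆.natAbs ^ 2 ≤ 41 ^ 2 := Nat.pow_le_pow_left (by omega) 2
      omega
    omega

theorem c6_ne_zero (W : WeierstrassCurve ℤ) (hW : W.IsSemistableModel) : W.c₆ ≠ 0 := by
  intro h0
  have hrel := W.c_relation
  rw [h0] at hrel
  have hno : ∀ p : ℕ, p.Prime → ¬ (p : ℤ) ∣ W.Δ := by
    intro p hp hd
    have hp' : Prime (p : ℤ) := Nat.prime_iff_prime_int.mp hp
    have h1 : (p : ℤ) ∣ W.c₄ ^ 3 := by
      have : (p : ℤ) ∣ 1728 * W.Δ := Dvd.dvd.mul_left hd _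
      rw [hrel] at this
      simpa using this
    exact hW p hp hd (hp'.dvd_of_dvd_pow h1)
  have habs := natAbs_eq_one_of_no_prime_dvd hno
  -- so `c₄ ^ 3 = ± 1728`, whence `b₂ ^ 2 ≡ 12 (mod 24)`, impossible as `b₂ ≡ a₁ ^ 2 (mod 4)`
  have h1 : W.Δ = 1 ∨ W.Δ = -1 := by omega
  have hc4 : W.c₄ = 12 ∨ W.c₄ = -12 := by
    rcases h1 with h1 | h1
    · left
      rw [h1] at hrel
      have h2 : W.c₄ ^ 3 = 12 ^ 3 := by linarith
      exact (Odd.strictMono_pow (R := ℤ) (n := 3) ⟨1, by norm_num⟩).injective h2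
    · right
      rw [h1] at hrel
      have h2 : W.c₄ ^ 3 = (-12) ^ 3 := by linarith
      exact (Odd.strictMono_pow (R := ℤ) (n := 3) ⟨1, by norm_num⟩).injective h2
  have hc4def : W.c₄ = W.b₂ ^ 2 - 24 * W.b₄ := by simp [WeierstrassCurve.c₄]
  have hb2def : W.b₂ = W.a₁ ^ 2 + 4 * W.a₂ := by simp [WeierstrassCurve.b₂]
  have hmod : W.b₂ ^ 2 % 24 = 12 := by
    rcases hc4 with h | h <;> rw [hc4def] at h <;> omega
  -- `b₂ mod 24` must be `6` or `18`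
  have hb : W.b₂ % 4 = 2 := by
    have hr : W.b₂ % 24 = 6 ∨ W.b₂ % 24 = 18 := by
      have hlt : 0 ≤ W.b₂ % 24 ∧ W.b₂ % 24 < 24 := ⟨Int.emod_nonneg _ (by norm_num), Int.emod_lt_of_pos _ (by norm_num)⟩
      have hsq : (W.b₂ % 24) ^ 2 % 24 = 12 := by
        rw [← hmod]; simp [pow_two, Int.mul_emod]
      generalize W.b₂ % 24 = r at hlt hsq
      obtain ⟨h0r, hr24⟩ := hlt
      interval_cases r <;> simp_all
    omega
  have ha : W.a₁ ^ 2 % 4 = 0 ∨ W.a₁ ^ 2 % 4 = 1 := by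
    have hlt : 0 ≤ W.a₁ % 4 ∧ W.a₁ % 4 < 4 := ⟨Int.emod_nonneg _ (by norm_num), Int.emod_lt_of_pos _ (by norm_num)⟩
    have hsq : W.a₁ ^ 2 % 4 = (W.a₁ % 4) ^ 2 % 4 := by simp [pow_two, Int.mul_emod]
    rw [hsq]
    generalize W.a₁ % 4 = r at hlt
    obtain ⟨h0r, hr4⟩ := hlt
    interval_cases r <;> simp
  rw [hb2def] at hb
  omega

end Fermat.Agent.S52.NonzeroInv0
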