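/-
S52 (3–5 switch), brick CERT-4a (helper6): **the odd-orbit trick**.

* `exists_odd_pow_fixed` : a permutation of a finite set of odd cardinality has an odd power with a
  fixed point (the `2`-part of the cyclic group it generates is a `2`-group acting on a set of odd
  cardinality).
* `exists_root_fixed_by_odd_pow` : `τ` an automorphism of a field `K`, `Q ∈ K[X]` a nonzero
  polynomial with `τ`-fixed coefficients and an odd number of distinct roots in `K`: some odd
  power of `τ` fixes a root of `Q`.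
* `pow_apply_of_neg` : if `τ s = -s` then `(τ ^ n) s = -s` for odd `n`.
-/
import Mathlib

set_option autoImplicit false

open Polynomial

namespace Fermat.Agent.S52.OddOrbit6

/-- A permutation of a finite set of odd cardinality has an odd power with a fixed point. -/
theorem exists_odd_pow_fixed {α : Type*} [Finite α] (π : Equiv.Perm α)
    (hodd : Odd (Nat.card α)) : ∃ (n : ℕ) (a : α), Odd n ∧ (π ^ n) a = a := by
  classical
  have : Fintype α := Fintype.ofFinite α
  have hNpos : 0 < orderOf π := orderOf_pos π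
  obtain ⟨k, m, hm, hN⟩ := Nat.exists_eq_two_pow_mul_odd hNpos.ne'
  set g : Equiv.Perm α := π ^ m with hg
  have hmpos : 0 < m := hm.pos
  have hordg : orderOf g = 2 ^ k := by
    rw [hg, orderOf_pow' π hmpos.ne', hN, Nat.gcd_eq_right (Dvd.intro_left _ rfl),
      Nat.mul_div_cancel _ hmpos]
  have hp : IsPGroup 2 (Subgroup.zpowers g) := by
    apply IsPGroup.of_card (n := k)
    rw [Nat.card_zpowers, hordg]
  have : Fact (Nat.Prime 2) := ⟨Nat.prime_two⟩
  have hnd : ¬ 2 ∣ Nat.card α := by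
    rw [Nat.two_dvd_ne_zero]
    exact Nat.odd_iff.mp hodd
  obtain ⟨a, ha⟩ := hp.nonempty_fixed_point_of_prime_not_dvd_card α hnd
  refine ⟨m, a, hm, ?_⟩
  have := ha ⟨g, Subgroup.mem_zpowers g⟩
  exact this

section Field

variable {F K : Type*} [Field F] [Field K] [Algebra F K]

/-- powers of an automorphism act on `s` with `τ s = -s`. -/
theorem pow_apply_of_neg (τ : K ≃ₐ[F] K) {s : K} (hs : τ s = -s) {n : ℕ} (hn : Odd n) :
    (τ ^ n) s = -s := by
  have key : ∀ j : ℕ, (τ ^ j) s = (-1) ^ j * s := by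
    intro j
    induction j with
    | zero => simp
    | succ j ih =>
      rw [pow_succ', AlgEquiv.mul_apply, ih, map_mul, map_pow, map_neg, map_one, hs]
      ring
  rw [key n, hn.neg_one_pow]
  ring

/-- `τ` maps roots of a polynomial with `τ`-fixed coefficients to roots. -/
theorem isRoot_apply (τ : K ≃ₐ[F] K) {Q : K[X]} (hQ : Q.map (τ : K →+* K) = Q) {θ : K}
    (hθ : Q.IsRoot θ) : Q.IsRoot (τ θ) := by
  have h1 : (Q.map (τ : K →+* K)).eval ((τ : K →+* K) θ) = (τ : K →+* K) (Q.eval θ) :=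
    Polynomial.eval_map_apply (τ : K →+* K) θ
  rw [hQ, hθ.eq_zero, map_zero] at h1
  exact h1

theorem map_symm_eq (τ : K ≃ₐ[F] K) {Q : K[X]} (hQ : Q.map (τ : K →+* K) = Q) :
    Q.map (τ.symm : K →+* K) = Q := by
  conv_lhs => rw [← hQ]
  rw [Polynomial.map_map]
  have : ((τ.symm : K →+* K)).comp (τ : K →+* K) = RingHom.id K := by
    ext x
    simp
  rw [this, Polynomial.map_id]

/-- **The odd-orbit trick.** -/
theorem exists_root_fixed_by_odd_pow [DecidableEq K] (τ : K ≃ₐ[F] K) {Q : K[X]} (hQ0 : Q ≠ 0)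
    (hQ : Q.map (τ : K →+* K) = Q) (hodd : Odd Q.roots.toFinset.card) :
    ∃ (θ : K) (n : ℕ), Odd n ∧ Q.IsRoot θ ∧ (τ ^ n) θ = θ := by
  set S : Finset K := Q.roots.toFinset with hS
  have hmem : ∀ a : K, a ∈ S ↔ Q.IsRoot a := fun a => by
    rw [hS, Multiset.mem_toFinset, Polynomial.mem_roots hQ0]
  have hiff : ∀ a : K, a ∈ S ↔ τ.toEquiv a ∈ S := by
    intro a
    rw [hmem, hmem]
    constructor
    · exact fun h => isRoot_apply τ hQ h
    · intro h
      have := isRoot_apply τ.symm (map_symm_eq τ hQ) h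
      simpa using this
  let π : Equiv.Perm S := τ.toEquiv.subtypeEquiv hiff
  have hπ : ∀ (j : ℕ) (a : S), (((π ^ j) a : S) : K) = (τ ^ j) (a : K) := by
    intro j
    induction j with
    | zero => intro a; simp
    | succ j ih =>
      intro a
      rw [pow_succ', Equiv.Perm.mul_apply, pow_succ', AlgEquiv.mul_apply, ← ih a]
      rfl
  have hcard : Odd (Nat.card S) := by
    rw [Nat.card_eq_fintype_card, Fintype.card_coe]
    exact hodd
  obtain ⟨n, a, hn, ha⟩ := exists_odd_pow_fixed π hcard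
  refine ⟨(a : K), n, hn, (hmem _).mp a.2, ?_⟩
  rw [← hπ n a, ha]

/-- **The odd-orbit trick, with the quadratic irrationality carried along**: if moreover
`τ s = -s`, the odd power still sends `s` to `-s`. -/
theorem exists_root_fixed_and_neg [DecidableEq K] (τ : K ≃ₐ[F] K) {Q : K[X]} (hQ0 : Q ≠ 0)
    (hQ : Q.map (τ : K →+* K) = Q) (hodd : Odd Q.roots.toFinset.card) {s : K} (hs : τ s = -s) :
    ∃ (θ : K) (n : ℕ), Odd n ∧ Q.IsRoot θ ∧ (τ ^ n) θ = θ ∧ (τ ^ n) s = -s := by
  obtain ⟨θ, n, hn, hroot, hfix⟩ := exists_root_fixed_by_odd_pow τ hQ0 hQ hodd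
  exact ⟨θ, n, hn, hroot, hfix, pow_apply_of_neg τ hs hn⟩

end Field

end Fermat.Agent.S52.OddOrbit6
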