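/-
S52 (3–5 switch), LS brick, `ShortAdd` (helper7): **chord and tangent lemmas on short Weierstrass
curves `y² = x³ + a₄ x + a₆` in cleared-denominator form.**

`E : WeierstrassCurve K` over a field with `2 ≠ 0`, `E.a₁ = E.a₂ = E.a₃ = 0`.

* slope forms: `two_nsmul_of_slope`, `add_of_slope` (a slope `ℓ` with `2 y₁ ℓ = 3 x₁² + a₄`, resp.
  `ℓ (x₁ - x₂) = y₁ - y₂`, and `x₃ = ℓ² - …`, `y₃ = -(ℓ (x₃ - x₁) + y₁)`);
* identity forms: `two_nsmul_of_identities` (from `(x₃ + 2x₁)(2y₁)² = (3x₁² + a₄)²` and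
  `(y₃ + y₁)(2y₁) = -(3x₁² + a₄)(x₃ - x₁)`), `add_of_identities` (from
  `(y₁ - y₂)² = (x₁ + x₂ + x₃)(x₁ - x₂)²` and `(y₃ + y₁)(x₁ - x₂) = -(y₁ - y₂)(x₃ - x₁)`);
* `neg_some_short`, `five_nsmul_eq_zero` (`2P = Q`, `2Q = -P ⇒ 5P = 0 = 5Q`), and nonsingularity helpers.
-/
import Mathlib

set_option autoImplicit false

open WeierstrassCurve WeierstrassCurve.Affine

namespace Fermat.Agent.S52.ShortAdd7

section Group

variable {A : Type*} [AddCommGroup A]

/-- `2P = Q`, `2Q = -P` imply `5P = 0`. -/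
theorem five_nsmul_eq_zero {P Q : A} (h : 2 • P = Q) (h' : 2 • Q = -P) : 5 • P = 0 := by
  have e : 5 • P = 2 • (2 • P) + P := by abel
  rw [e, h, h', neg_add_cancel]

/-- `2P = Q`, `2Q = -P` imply `5Q = 0`. -/
theorem five_nsmul_eq_zero' {P Q : A} (h : 2 • P = Q) (h' : 2 • Q = -P) : 5 • Q = 0 := by
  have e : 5 • Q = 2 • (5 • P) := by rw [← h]; abel
  rw [e, five_nsmul_eq_zero h h', smul_zero]

end Group

variable {K : Type*} [Field K]

section Basic

variable {E : WeierstrassCurve K}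

theorem negY_short (h1 : E.a₁ = 0) (h3 : E.a₃ = 0) (x y : K) : E.toAffine.negY x y = -y := by
  simp [Affine.negY, h1, h3]

theorem equation_iff_short (h1 : E.a₁ = 0) (h2 : E.a₂ = 0) (h3 : E.a₃ = 0) (x y : K) :
    E.toAffine.Equation x y ↔ y ^ 2 = x ^ 3 + E.a₄ * x + E.a₆ := by
  rw [Affine.equation_iff, h1, h2, h3]
  constructor <;> intro h <;> linear_combination h

theorem nonsingular_iff_short (h1 : E.a₁ = 0) (h2 : E.a₂ = 0) (h3 : E.a₃ = 0) (x y : K) :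
    E.toAffine.Nonsingular x y ↔
      y ^ 2 = x ^ 3 + E.a₄ * x + E.a₆ ∧ (3 * x ^ 2 + E.a₄ ≠ 0 ∨ 2 * y ≠ 0) := by
  rw [Affine.nonsingular_iff', equation_iff_short h1 h2 h3, h1, h2, h3]
  refine and_congr Iff.rfl (or_congr ?_ ?_)
  · rw [not_iff_not]
    constructor <;> intro h <;> linear_combination -h
  · rw [not_iff_not]
    constructor <;> intro h <;> linear_combination h

/-- On a short curve with `Δ ≠ 0` every point of the affine equation is nonsingular. -/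
theorem nonsingular_of_equation (hΔ : E.Δ ≠ 0) {x y : K} (h : E.toAffine.Equation x y) :
    E.toAffine.Nonsingular x y :=
  (E.toAffine.equation_iff_nonsingular_of_Δ_ne_zero hΔ).mp h

/-- On a short curve with `Δ ≠ 0` every solution of `y² = x³ + a₄ x + a₆` is a nonsingular point. -/
theorem nonsingular_of_eq (h1 : E.a₁ = 0) (h2 : E.a₂ = 0) (h3 : E.a₃ = 0) (hΔ : E.Δ ≠ 0) {x y : K}
    (h : y ^ 2 = x ^ 3 + E.a₄ * x + E.a₆) : E.toAffine.Nonsingular x y :=
  nonsingular_of_equation hΔ ((equation_iff_short h1 h2 h3 x y).mpr h)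

/-- Transport a point along equalities of coordinates. -/
theorem some_eq_some {x y x' y' : K} (h : E.toAffine.Nonsingular x y) (hx : x = x') (hy : y = y') :
    ∃ h' : E.toAffine.Nonsingular x' y', Point.some x y h = Point.some x' y' h' := by
  subst hx hy
  exact ⟨h, rfl⟩

/-- Negation on a short curve. -/
theorem neg_some_short (h1 : E.a₁ = 0) (h3 : E.a₃ = 0) {x y : K} (h : E.toAffine.Nonsingular x y) :
    ∃ h' : E.toAffine.Nonsingular x (-y), -Point.some x y h = Point.some x (-y) h' := by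
  rw [Point.neg_some]
  exact some_eq_some _ rfl (negY_short h1 h3 x y)

/-- Negation on a short curve, with the nonsingularity of the target given. -/
theorem neg_some_short' (h1 : E.a₁ = 0) (h3 : E.a₃ = 0) {x y : K} (h : E.toAffine.Nonsingular x y)
    (h' : E.toAffine.Nonsingular x (-y)) : -Point.some x y h = Point.some x (-y) h' := by
  obtain ⟨_, e⟩ := neg_some_short h1 h3 h
  exact e

theorem nonsingular_neg (h1 : E.a₁ = 0) (h3 : E.a₃ = 0) {x y : K} (h : E.toAffine.Nonsingular x y) :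
    E.toAffine.Nonsingular x (-y) :=
  (neg_some_short h1 h3 h).1

/-- A tangent identity forces `y ≠ 0` at a nonsingular point. -/
theorem y_ne_zero_of_identity (h1 : E.a₁ = 0) (h2 : E.a₂ = 0) (h3 : E.a₃ = 0) {x1 y1 x3 : K}
    (hns : E.toAffine.Nonsingular x1 y1)
    (hx : (x3 + 2 * x1) * (2 * y1) ^ 2 = (3 * x1 ^ 2 + E.a₄) ^ 2) : y1 ≠ 0 := by
  intro h0
  rw [h0] at hx
  have hz : 3 * x1 ^ 2 + E.a₄ = 0 := by
    have : (3 * x1 ^ 2 + E.a₄) ^ 2 = 0 := by rw [← hx]; ring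
    exact pow_eq_zero_iff (two_ne_zero) |>.mp this
  rcases ((nonsingular_iff_short h1 h2 h3 x1 y1).mp hns).2 with h | h
  · exact h hz
  · exact h (by rw [h0, mul_zero])

/-- Points with different `x`-coordinates are different. -/
theorem some_ne_some_of_X_ne {x1 y1 x2 y2 : K} (hns1 : E.toAffine.Nonsingular x1 y1)
    (hns2 : E.toAffine.Nonsingular x2 y2) (hne : x1 ≠ x2) :
    Point.some x1 y1 hns1 ≠ Point.some x2 y2 hns2 := by
  intro h
  injection h with hx _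
  exact hne hx

/-- Points with different `x`-coordinates are not opposite. -/
theorem some_ne_neg_some_of_X_ne {x1 y1 x2 y2 : K} (hns1 : E.toAffine.Nonsingular x1 y1)
    (hns2 : E.toAffine.Nonsingular x2 y2) (hne : x1 ≠ x2) :
    Point.some x1 y1 hns1 ≠ -Point.some x2 y2 hns2 := by
  rw [Point.neg_some]
  intro h
  injection h with hx _
  exact hne hx

end Basic

section Law

variable [DecidableEq K] {E : WeierstrassCurve K}

/-- **Tangent, slope form.** -/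
theorem two_nsmul_of_slope (hchar : (2 : K) ≠ 0) (h1 : E.a₁ = 0) (h2 : E.a₂ = 0) (h3 : E.a₃ = 0)
    {x1 y1 x3 y3 ℓ : K} (hns : E.toAffine.Nonsingular x1 y1) (hy1 : y1 ≠ 0)
    (hℓ : 2 * y1 * ℓ = 3 * x1 ^ 2 + E.a₄) (hx : x3 = ℓ ^ 2 - 2 * x1)
    (hy : y3 = -(ℓ * (x3 - x1) + y1)) :
    ∃ h' : E.toAffine.Nonsingular x3 y3, 2 • Point.some x1 y1 hns = Point.some x3 y3 h' := by
  have hneg : E.toAffine.negY x1 y1 = -y1 := negY_short h1 h3 x1 y1
  have hy' : y1 ≠ E.toAffine.negY x1 y1 := by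
    rw [hneg]
    intro h0
    apply hy1
    have h20 : 2 * y1 = 0 := by linear_combination h0
    exact (mul_eq_zero.mp h20).resolve_left hchar
  have h2y : 2 * y1 ≠ 0 := mul_ne_zero hchar hy1
  have hsl : E.toAffine.slope x1 x1 y1 y1 = ℓ := by
    rw [Affine.slope_of_Y_ne rfl hy', hneg, h1, h2]
    rw [div_eq_iff (by rw [sub_neg_eq_add, ← two_mul]; exact h2y)]
    linear_combination -hℓ
  rw [two_nsmul, Point.add_self_of_Y_ne hy']
  apply some_eq_some
  · rw [hsl, hx]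
    simp only [Affine.addX, h1, h2]
    ring
  · rw [hsl, hy, hx]
    simp only [Affine.addY, Affine.negAddY, Affine.negY, Affine.addX, h1, h2, h3]
    ring

/-- **Tangent, identity form** (helper3's `(D)` shape). -/
theorem two_nsmul_of_identities (hchar : (2 : K) ≠ 0) (h1 : E.a₁ = 0) (h2 : E.a₂ = 0)
    (h3 : E.a₃ = 0) {x1 y1 x3 y3 : K} (hns : E.toAffine.Nonsingular x1 y1)
    (hx : (x3 + 2 * x1) * (2 * y1) ^ 2 = (3 * x1 ^ 2 + E.a₄) ^ 2)
    (hy : (y3 + y1) * (2 * y1) = -(3 * x1 ^ 2 + E.a₄) * (x3 - x1)) :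
    ∃ h' : E.toAffine.Nonsingular x3 y3, 2 • Point.some x1 y1 hns = Point.some x3 y3 h' := by
  have hy1 : y1 ≠ 0 := y_ne_zero_of_identity h1 h2 h3 hns hx
  have h2y : 2 * y1 ≠ 0 := mul_ne_zero hchar hy1
  have hℓ : 2 * y1 * ((3 * x1 ^ 2 + E.a₄) / (2 * y1)) = 3 * x1 ^ 2 + E.a₄ := by
    field_simp
  refine two_nsmul_of_slope hchar h1 h2 h3 hns hy1 hℓ ?_ ?_
  · have : x3 + 2 * x1 = ((3 * x1 ^ 2 + E.a₄) / (2 * y1)) ^ 2 := by
      rw [div_pow, eq_div_iff (pow_ne_zero 2 h2y)]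
      exact hx
    linear_combination this
  · have : y3 + y1 = -((3 * x1 ^ 2 + E.a₄) / (2 * y1)) * (x3 - x1) := by
      rw [neg_mul, div_mul_eq_mul_div, ← neg_div, eq_div_iff h2y]
      linear_combination hy
    linear_combination this

/-- **Tangent, identity form**, with the nonsingularity of the target given. -/
theorem two_nsmul_of_identities' (hchar : (2 : K) ≠ 0) (h1 : E.a₁ = 0) (h2 : E.a₂ = 0)
    (h3 : E.a₃ = 0) {x1 y1 x3 y3 : K} (hns : E.toAffine.Nonsingular x1 y1)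
    (hns3 : E.toAffine.Nonsingular x3 y3)
    (hx : (x3 + 2 * x1) * (2 * y1) ^ 2 = (3 * x1 ^ 2 + E.a₄) ^ 2)
    (hy : (y3 + y1) * (2 * y1) = -(3 * x1 ^ 2 + E.a₄) * (x3 - x1)) :
    2 • Point.some x1 y1 hns = Point.some x3 y3 hns3 := by
  obtain ⟨_, e⟩ := two_nsmul_of_identities hchar h1 h2 h3 hns hx hy
  exact e

/-- **Chord, slope form.** -/
theorem add_of_slope (h1 : E.a₁ = 0) (h2 : E.a₂ = 0) (h3 : E.a₃ = 0)
    {x1 y1 x2 y2 x3 y3 ℓ : K} (hns1 : E.toAffine.Nonsingular x1 y1)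
    (hns2 : E.toAffine.Nonsingular x2 y2) (hne : x1 ≠ x2)
    (hℓ : ℓ * (x1 - x2) = y1 - y2) (hx : x3 = ℓ ^ 2 - x1 - x2)
    (hy : y3 = -(ℓ * (x3 - x1) + y1)) :
    ∃ h' : E.toAffine.Nonsingular x3 y3,
      Point.some x1 y1 hns1 + Point.some x2 y2 hns2 = Point.some x3 y3 h' := by
  have hsl : E.toAffine.slope x1 x2 y1 y2 = ℓ := by
    rw [Affine.slope_of_X_ne hne, div_eq_iff (sub_ne_zero.mpr hne)]
    exact hℓ.symm
  rw [Point.add_of_X_ne hne]
  apply some_eq_some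
  · rw [hsl, hx]
    simp only [Affine.addX, h1, h2]
    ring
  · rw [hsl, hy, hx]
    simp only [Affine.addY, Affine.negAddY, Affine.negY, Affine.addX, h1, h2, h3]
    ring

/-- **Chord, identity form** (helper3's `(C)` shape). -/
theorem add_of_identities (h1 : E.a₁ = 0) (h2 : E.a₂ = 0) (h3 : E.a₃ = 0)
    {x1 y1 x2 y2 x3 y3 : K} (hns1 : E.toAffine.Nonsingular x1 y1)
    (hns2 : E.toAffine.Nonsingular x2 y2) (hne : x1 ≠ x2)
    (hx : (y1 - y2) ^ 2 = (x1 + x2 + x3) * (x1 - x2) ^ 2)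
    (hy : (y3 + y1) * (x1 - x2) = -(y1 - y2) * (x3 - x1)) :
    ∃ h' : E.toAffine.Nonsingular x3 y3,
      Point.some x1 y1 hns1 + Point.some x2 y2 hns2 = Point.some x3 y3 h' := by
  have hd : x1 - x2 ≠ 0 := sub_ne_zero.mpr hne
  have hℓ : (y1 - y2) / (x1 - x2) * (x1 - x2) = y1 - y2 := div_mul_cancel₀ _ hd
  refine add_of_slope h1 h2 h3 hns1 hns2 hne hℓ ?_ ?_
  · have : x1 + x2 + x3 = ((y1 - y2) / (x1 - x2)) ^ 2 := by
      rw [div_pow, eq_div_iff (pow_ne_zero 2 hd)]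
      exact hx.symm
    linear_combination this
  · have : y3 + y1 = -((y1 - y2) / (x1 - x2)) * (x3 - x1) := by
      rw [neg_mul, div_mul_eq_mul_div, ← neg_div, eq_div_iff hd]
      linear_combination hy
    linear_combination this

/-- **Chord, identity form**, with the nonsingularity of the target given. -/
theorem add_of_identities' (h1 : E.a₁ = 0) (h2 : E.a₂ = 0) (h3 : E.a₃ = 0)
    {x1 y1 x2 y2 x3 y3 : K} (hns1 : E.toAffine.Nonsingular x1 y1)
    (hns2 : E.toAffine.Nonsingular x2 y2) (hns3 : E.toAffine.Nonsingular x3 y3) (hne : x1 ≠ x2)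
    (hx : (y1 - y2) ^ 2 = (x1 + x2 + x3) * (x1 - x2) ^ 2)
    (hy : (y3 + y1) * (x1 - x2) = -(y1 - y2) * (x3 - x1)) :
    Point.some x1 y1 hns1 + Point.some x2 y2 hns2 = Point.some x3 y3 hns3 := by
  obtain ⟨_, e⟩ := add_of_identities h1 h2 h3 hns1 hns2 hne hx hy
  exact e

/-- **`5 P = 0` from the two doubling identities** `2 P₁ = P₂`, `2 P₂ = -P₁` (helper3's `(D01)`,
`(D02)` shapes). -/
theorem five_nsmul_of_identities (hchar : (2 : K) ≠ 0) (h1 : E.a₁ = 0) (h2 : E.a₂ = 0)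
    (h3 : E.a₃ = 0) {x1 y1 x2 y2 : K} (hns1 : E.toAffine.Nonsingular x1 y1)
    (hns2 : E.toAffine.Nonsingular x2 y2)
    (hx : (x2 + 2 * x1) * (2 * y1) ^ 2 = (3 * x1 ^ 2 + E.a₄) ^ 2)
    (hy : (y2 + y1) * (2 * y1) = -(3 * x1 ^ 2 + E.a₄) * (x2 - x1))
    (hx' : (x1 + 2 * x2) * (2 * y2) ^ 2 = (3 * x2 ^ 2 + E.a₄) ^ 2)
    (hy' : (-y1 + y2) * (2 * y2) = -(3 * x2 ^ 2 + E.a₄) * (x1 - x2)) :
    2 • Point.some x1 y1 hns1 = Point.some x2 y2 hns2 ∧
      2 • Point.some x2 y2 hns2 = -Point.some x1 y1 hns1 ∧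
      5 • Point.some x1 y1 hns1 = 0 ∧ 5 • Point.some x2 y2 hns2 = 0 := by
  have e1 : 2 • Point.some x1 y1 hns1 = Point.some x2 y2 hns2 :=
    two_nsmul_of_identities' hchar h1 h2 h3 hns1 hns2 hx hy
  have e2 : 2 • Point.some x2 y2 hns2 = -Point.some x1 y1 hns1 := by
    rw [neg_some_short' h1 h3 hns1 (nonsingular_neg h1 h3 hns1)]
    exact two_nsmul_of_identities' hchar h1 h2 h3 hns2 _ hx' hy'
  exact ⟨e1, e2, five_nsmul_eq_zero e1 e2, five_nsmul_eq_zero' e1 e2⟩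

end Law

end Fermat.Agent.S52.ShortAdd7
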