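/-
S52 (3–5 switch), CERT-4 (4c), bridge (helper7): the slope parametrisation `SlopeParam7` stated
literally in the shape of the hypothesis `h4c` of `Cert4Asm1.exists_cert4`, with the closed forms
`AxisRecover4.xi1`, `AxisRecover4.eta1` on the short model `shortOf W` over `ℚ̄`.
-/
import Mathlib
import Fermat.Agent.S52.SlopeParam7
import Fermat.Agent.S52.AxisRecover4
import Fermat.Agent.S52.ShortTransport2

set_option autoImplicit false

open WeierstrassCurve WeierstrassCurve.Affine WeierstrassCurve.Affine.Point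

namespace Fermat.Agent.S52.SlopeBridge7

open Fermat.Agent.S52.Klein7 Fermat.Agent.S52.ShortTransport2

local notation "Qb" => AlgebraicClosure ℚ

section Defs

variable {K : Type*} [Field K]

theorem xi1_eq (ζ a b : K) : AxisRecover4.xi1 ζ a b = SlopeParam7.xi1 ζ a b := rfl

theorem eta1_eq (ζ a b : K) : AxisRecover4.eta1 ζ a b = SlopeParam7.eta1 ζ a b := rfl

theorem xi2_eq (ζ a b : K) : AxisRecover4.xi2 ζ a b = SlopeParam7.xi2 ζ a b := rfl

theorem eta2_eq (ζ a b : K) : AxisRecover4.eta2 ζ a b = SlopeParam7.eta2 ζ a b := rfl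

end Defs

/-- **(4c)** in the shape of `Cert4Asm1.exists_cert4`'s hypothesis `h4c`. -/
theorem h4c (W : WeierstrassCurve ℤ) {ζ : Qb} (hz : ζ ^ 4 + ζ ^ 3 + ζ ^ 2 + ζ + 1 = 0) :
    ∀ (x y : Qb) (h : ((shortOf W)⁄Qb).Nonsingular x y),
      5 • (Point.some x y h : ((shortOf W)⁄Qb).Point) = 0 →
      ∃ a b : Qb, kH5 a b = -(W.c₄ : Qb) ∧ kT5 a b = -(W.c₆ : Qb) ∧
        x = AxisRecover4.xi1 ζ a b ∧ y = AxisRecover4.eta1 ζ a b := by
  intro x y h h5
  have h1 : ((shortOf W).baseChange Qb).a₁ = 0 := by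
    simp [shortOf, shortW, WeierstrassCurve.baseChange]
  have h2 : ((shortOf W).baseChange Qb).a₂ = 0 := by
    simp [shortOf, shortW, WeierstrassCurve.baseChange]
  have h3 : ((shortOf W).baseChange Qb).a₃ = 0 := by
    simp [shortOf, shortW, WeierstrassCurve.baseChange]
  have h4 : ((shortOf W).baseChange Qb).a₄ = 27 * (-(W.c₄ : Qb)) := by
    simp [shortOf, shortW, WeierstrassCurve.baseChange]
  have h6 : ((shortOf W).baseChange Qb).a₆ = 54 * (-(W.c₆ : Qb)) := by
    simp [shortOf, shortW, WeierstrassCurve.baseChange]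
  obtain ⟨a, b, hH, hT, hns, hP⟩ := SlopeParam7.exists_klein_param hz h1 h2 h3 h4 h6
    (Point.some x y h) (Point.some_ne_zero h) h5
  injection hP with hx hy
  exact ⟨a, b, hH, hT, hx, hy⟩

end Fermat.Agent.S52.SlopeBridge7
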