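/-
S52 (helper3), LS glue: **the map `Θ_t` between the points of two short Weierstrass curves.**

`thetaFun E E' t : E(F) → E'(F)`: for a point `P` with `P ≠ 0`, `2P ≠ 0` take the tangent slopes `λ₁, λ₂` at `P`, `2P`,
the Tate coordinates `s = (λ₁+λ₂)/6`, `β = (λ₂−λ₁)/6`, deform `(s', β') = F̃_t(s, β)` and return the point
`(x₁, y₁)(s', β')` of `E'` (if it lies on `E'`, else `0`).  It is built from rational operations over the prime field, so
* `thetaFun_smul` : it commutes with every field automorphism fixing the coefficients of `E`, `E'` and `t`;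
* `thetaFun_pt` : on universal points it is `pt(s, β) ↦ pt(F̃_t(s, β))`.
-/
import Fermat.Agent.S52.TateFive3
import Fermat.Prelude.Def_FLTPrelim_GaloisRep

set_option autoImplicit false

open WeierstrassCurve WeierstrassCurve.Affine

namespace Fermat.Agent.S52.ThetaFun3

open Fermat.Agent.S52.ShortAdd3 Fermat.Agent.S52.TateFive3

variable {F : Type*} [Field F]

/-- the Tate coordinates `(s, β)` from `P = (x, y)`, `2P = (x₂, y₂)`. -/
noncomputable def coordOf (E : WeierstrassCurve F) (x y x₂ y₂ : F) : F × F :=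
  (((3 * x ^ 2 + E.a₄) / (2 * y) + (3 * x₂ ^ 2 + E.a₄) / (2 * y₂)) / 6,
   ((3 * x₂ ^ 2 + E.a₄) / (2 * y₂) - (3 * x ^ 2 + E.a₄) / (2 * y)) / 6)

open Classical in
/-- the point with Tate coordinates `c` on `E'` (or `0`). -/
noncomputable def ofCoord (E' : WeierstrassCurve F) (c : F × F) : E'.toAffine.Point :=
  if h : E'.toAffine.Nonsingular (tx1 c.1 c.2) (ty1 c.1 c.2) then Point.some _ _ h else 0

theorem ofCoord_of_nonsingular (E' : WeierstrassCurve F) (c : F × F)
    (h : E'.toAffine.Nonsingular (tx1 c.1 c.2) (ty1 c.1 c.2)) :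
    ofCoord E' c = Point.some _ _ h := by
  rw [ofCoord, dif_pos h]

theorem ofCoord_of_not_nonsingular (E' : WeierstrassCurve F) (c : F × F)
    (h : ¬ E'.toAffine.Nonsingular (tx1 c.1 c.2) (ty1 c.1 c.2)) :
    ofCoord E' c = 0 := by
  rw [ofCoord, dif_neg h]

/-- the deformation map on coordinates. -/
def deform (t : F) (c : F × F) : F × F := (dS c.1 c.2 t, dB c.1 c.2 t)

variable [DecidableEq F]

/-- **the map `Θ_t`.** -/
noncomputable def thetaFun (E E' : WeierstrassCurve F) (t : F) :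
    E.toAffine.Point → E'.toAffine.Point
  | .zero => 0
  | .some x y h =>
    match 2 • (Point.some x y h : E.toAffine.Point) with
    | .zero => 0
    | .some x₂ y₂ _ => ofCoord E' (deform t (coordOf E x y x₂ y₂))

theorem thetaFun_zero (E E' : WeierstrassCurve F) (t : F) :
    thetaFun E E' t (0 : E.toAffine.Point) = 0 := rfl

theorem thetaFun_some (E E' : WeierstrassCurve F) (t : F) {x y x₂ y₂ : F}
    (h : E.toAffine.Nonsingular x y) (h₂ : E.toAffine.Nonsingular x₂ y₂)
    (hd : 2 • (Point.some x y h : E.toAffine.Point) = Point.some x₂ y₂ h₂) :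
    thetaFun E E' t (Point.some x y h) = ofCoord E' (deform t (coordOf E x y x₂ y₂)) := by
  show (match 2 • (Point.some x y h : E.toAffine.Point) with
    | .zero => 0
    | .some x₂ y₂ _ => ofCoord E' (deform t (coordOf E x y x₂ y₂))) = _
  rw [hd]

theorem thetaFun_some_of_two_nsmul_eq_zero (E E' : WeierstrassCurve F) (t : F) {x y : F}
    (h : E.toAffine.Nonsingular x y)
    (hd : 2 • (Point.some x y h : E.toAffine.Point) = 0) :
    thetaFun E E' t (Point.some x y h) = 0 := by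
  show (match 2 • (Point.some x y h : E.toAffine.Point) with
    | .zero => 0
    | .some x₂ y₂ _ => ofCoord E' (deform t (coordOf E x y x₂ y₂))) = _
  rw [hd]

omit [DecidableEq F] in
/-- the Tate coordinates of a universal point. -/
theorem coordOf_pt {E : WeierstrassCurve F} {s b : F} (h : IsTate E s b) :
    coordOf E (tx1 s b) (ty1 s b) (tx1 b (-s)) (ty1 b (-s)) = (s, b) := by
  have h6 := h.six_ne_zero
  rw [coordOf, h.slope_pt, h.double.slope_pt]
  refine Prod.ext ?_ ?_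
  · show (3 * (s - b) + 3 * (b - -s)) / 6 = s
    rw [div_eq_iff h6]; ring
  · show (3 * (b - -s) - 3 * (s - b)) / 6 = b
    rw [div_eq_iff h6]; ring

/-- **`Θ_t` on universal points.** -/
theorem thetaFun_pt {E E' : WeierstrassCurve F} {s b t : F} (h : IsTate E s b)
    (h' : IsTate E' (dS s b t) (dB s b t)) : thetaFun E E' t h.pt = h'.pt := by
  have hd : 2 • (Point.some _ _ h.ns : E.toAffine.Point) = Point.some _ _ h.double.ns :=
    h.two_nsmul_pt
  rw [IsTate.pt, thetaFun_some E E' t h.ns h.double.ns hd, coordOf_pt h]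
  exact ofCoord_of_nonsingular E' _ h'.ns

/-! ### equivariance -/

section Equivariance

open WeierstrassCurve.Affine.Point

variable {k : Type*} [Field k] [Algebra k F]

omit [DecidableEq F] in
theorem algEquiv_tx1 (σ : F ≃ₐ[k] F) (s b : F) : σ (tx1 s b) = tx1 (σ s) (σ b) :=
  map_tx1 (σ : F →+* F) s b

omit [DecidableEq F] in
theorem algEquiv_ty1 (σ : F ≃ₐ[k] F) (s b : F) : σ (ty1 s b) = ty1 (σ s) (σ b) :=
  map_ty1 (σ : F →+* F) s b

omit [DecidableEq F] in
theorem algEquiv_dS (σ : F ≃ₐ[k] F) (s b t : F) : σ (dS s b t) = dS (σ s) (σ b) (σ t) :=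
  map_dS (σ : F →+* F) s b t

omit [DecidableEq F] in
theorem algEquiv_dB (σ : F ≃ₐ[k] F) (s b t : F) : σ (dB s b t) = dB (σ s) (σ b) (σ t) :=
  map_dB (σ : F →+* F) s b t

theorem smul_some (W₀ : Affine k) (σ : F ≃ₐ[k] F) {x y : F} (h : (W₀⁄F).Nonsingular x y) :
    σ • (Point.some x y h : (W₀⁄F).Point) = Point.some (σ x) (σ y)
      ((W₀.baseChange_nonsingular σ.toAlgHom.injective x y).mpr h) := by
  rw [algEquiv_smul_def, Point.map_some]
  rfl

theorem ofCoord_smul (W₀' : Affine k) (σ : F ≃ₐ[k] F) (c : F × F) :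
    ofCoord (W₀'⁄F) (σ c.1, σ c.2) = σ • ofCoord (W₀'⁄F) c := by
  have hiff : (W₀'⁄F).Nonsingular (tx1 (σ c.1) (σ c.2)) (ty1 (σ c.1) (σ c.2)) ↔
      (W₀'⁄F).Nonsingular (tx1 c.1 c.2) (ty1 c.1 c.2) := by
    rw [← algEquiv_tx1, ← algEquiv_ty1]
    exact W₀'.baseChange_nonsingular σ.toAlgHom.injective (tx1 c.1 c.2) (ty1 c.1 c.2)
  by_cases h : (W₀'⁄F).Nonsingular (tx1 c.1 c.2) (ty1 c.1 c.2)
  · rw [ofCoord_of_nonsingular _ _ (hiff.mpr h), ofCoord_of_nonsingular _ _ h, smul_some]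
    exact some_congr _ _ (algEquiv_tx1 σ _ _).symm (algEquiv_ty1 σ _ _).symm
  · rw [ofCoord_of_not_nonsingular _ _ (fun h' => h (hiff.mp h')), ofCoord_of_not_nonsingular _ _ h,
      smul_zero]

omit [DecidableEq F] in
theorem coordOf_smul (W₀ : Affine k) (σ : F ≃ₐ[k] F) (x y x₂ y₂ : F) :
    coordOf (W₀⁄F) (σ x) (σ y) (σ x₂) (σ y₂) =
      (σ (coordOf (W₀⁄F) x y x₂ y₂).1, σ (coordOf (W₀⁄F) x y x₂ y₂).2) := by
  have ha : σ ((W₀⁄F).a₄) = (W₀⁄F).a₄ := by
    show σ (algebraMap k F W₀.a₄) = algebraMap k F W₀.a₄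
    exact σ.commutes _
  simp only [coordOf, map_div₀, map_add, map_sub, map_mul, map_pow, map_ofNat, ha]

/-- **`Θ_t` commutes with the Galois action** (curves and parameter defined over `k`). -/
theorem thetaFun_smul (W₀ W₀' : Affine k) (t₀ : k) (σ : F ≃ₐ[k] F) (P : (W₀⁄F).Point) :
    thetaFun (W₀⁄F) (W₀'⁄F) (algebraMap k F t₀) (σ • P) =
      σ • thetaFun (W₀⁄F) (W₀'⁄F) (algebraMap k F t₀) P := by
  rcases P with _ | ⟨x, y, h⟩
  · show thetaFun (W₀⁄F) (W₀'⁄F) (algebraMap k F t₀) (σ • (0 : (W₀⁄F).Point)) = _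
    rw [smul_zero]
    show (0 : (W₀'⁄F).Point) = σ • (0 : (W₀'⁄F).Point)
    rw [smul_zero]
  · have hσ2 : 2 • (σ • (Point.some x y h : (W₀⁄F).Point)) =
        σ • (2 • (Point.some x y h : (W₀⁄F).Point)) := by
      rw [algEquiv_smul_def, algEquiv_smul_def, map_nsmul]
    rcases hd : 2 • (Point.some x y h : (W₀⁄F).Point) with _ | ⟨x₂, y₂, h₂⟩
    · have hd' : 2 • (Point.some x y h : (W₀⁄F).Point) = 0 := hd
      rw [thetaFun_some_of_two_nsmul_eq_zero _ _ _ h hd', smul_zero]
      rw [hd', smul_zero, smul_some] at hσ2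
      exact thetaFun_some_of_two_nsmul_eq_zero _ _ _ _ hσ2
    · rw [thetaFun_some _ _ _ h h₂ hd]
      rw [hd, smul_some, smul_some] at hσ2
      rw [smul_some, thetaFun_some _ _ _ _ _ hσ2, coordOf_smul, ← ofCoord_smul]
      congr 1
      simp only [deform, algEquiv_dS, algEquiv_dB, AlgEquiv.commutes]

end Equivariance

end Fermat.Agent.S52.ThetaFun3
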